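import Mathlib
import Fermat.Prelude.Def_AlgebraicCurve_DivisorClassGroup
import Fermat.Agent.S24.SumFormulaBase
import Fermat.Agent.S18.PlaceDict

/-!
# S29, package BASECHANGE (a): places under a transcendental extension of the constant field

`K₀ ⊆ K` fields, `F₀ ⊆ F` fields with `F = F₀ K`, `F₀` and `K` linearly disjoint over `K₀`
(`BcpLD`).  Every place `P₀` of `F₀ / K₀` of degree one is the trace of a unique place of
`F / K`, with the same order function on `F₀` (`bcp_exists`, `bcp_unique`); every place of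
`F / K` is either trivial on `F₀` or of this form (`bcp_trivial_or`).

Method: `S := K[ι O_{P₀}] ⊆ F`, `I :=` the `K`-span of `ι 𝔪_{P₀}`.  By linear disjointness
`1 ∉ I`, so `S / I = K`, the uniformizer `ι π` is a prime element of `S`, and the place is the
one of `pld_place_of_prime`.
-/

set_option autoImplicit false
set_option linter.unusedSectionVars false
set_option linter.style.haveILetI false

namespace Fermat.Agent.S29

open AlgebraicCurve Fermat.Agent.S24 Fermat.Agent.S18

section Abs

/-- Linear disjointness of `F₀` and `K` over `K₀` inside `F`. -/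
def BcpLD (K₀ K F₀ F : Type*) [Field K₀] [Field K] [Field F₀] [Field F]
    [Algebra K₀ F₀] [Algebra K F] [Algebra F₀ F] : Prop :=
  ∀ (n : ℕ) (x : Fin n → F₀), LinearIndependent K₀ x →
    LinearIndependent K (fun i => algebraMap F₀ F (x i))

variable {K₀ K F₀ F : Type*} [Field K₀] [Field K] [Field F₀] [Field F]
  [Algebra K₀ K] [Algebra K₀ F₀] [Algebra K₀ F] [Algebra K F] [Algebra F₀ F]
  [IsScalarTower K₀ K F] [IsScalarTower K₀ F₀ F]

/-- the value of an integral element at a place of degree one -/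
theorem bcp_exists_val (P : Place K₀ F₀) (hdeg : P.deg = 1) (y : F₀)
    (hy : y ∈ P.toValuationSubring) :
    ∃ c : K₀, y = algebraMap K₀ F₀ c ∨ 0 < P.ord (y - algebraMap K₀ F₀ c) := by
  have htop : (⊥ : Subalgebra K₀ P.ResidueField) = ⊤ :=
    Subalgebra.bot_eq_top_of_finrank_eq_one hdeg
  have hmem : IsLocalRing.residue P.toValuationSubring ⟨y, hy⟩ ∈
      (⊥ : Subalgebra K₀ P.ResidueField) := by rw [htop]; trivial
  obtain ⟨c, hc⟩ := Algebra.mem_bot.mp hmem
  refine ⟨c, ?_⟩
  have h1 : (⟨y, hy⟩ : P.toValuationSubring) - algebraMap K₀ P.toValuationSubring c ∈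
      IsLocalRing.maximalIdeal P.toValuationSubring := by
    rw [← Ideal.Quotient.eq_zero_iff_mem]
    have : IsLocalRing.residue P.toValuationSubring
        ((⟨y, hy⟩ : P.toValuationSubring) - algebraMap K₀ P.toValuationSubring c) = 0 := by
      rw [map_sub, ← hc]
      exact sub_self _
    exact this
  rcases (sf_mem_maximalIdeal_iff_ord P _).mp h1 with h | h
  · left
    have := congrArg Subtype.val h
    simpa [sub_eq_zero] using this
  · right
    simpa using h

variable (K) in
/-- `S = K[ι O_P]`, the subalgebra of `F` generated by the image of the valuation ring of `P` -/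
def bcpS (P : Place K₀ F₀) : Subalgebra K F :=
  Algebra.adjoin K (algebraMap F₀ F '' (P.toValuationSubring : Set F₀))

variable (K) in
/-- `I =` the `K`-span of the image of the maximal ideal of `P` -/
def bcpI (P : Place K₀ F₀) : Submodule K F :=
  Submodule.span K (algebraMap F₀ F '' {y : F₀ | y = 0 ∨ 0 < P.ord y})

theorem bcp_mem_S_iff (P : Place K₀ F₀) (r : F) :
    r ∈ bcpS K P ↔
      r ∈ Submodule.span K (algebraMap F₀ F '' (P.toValuationSubring : Set F₀)) := by
  have h : Subalgebra.toSubmodule (bcpS K P) =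
      Submodule.span K (algebraMap F₀ F '' (P.toValuationSubring : Set F₀)) := by
    rw [bcpS, Algebra.adjoin_eq_span]
    congr 1
    have h2 : (algebraMap F₀ F '' (P.toValuationSubring : Set F₀)) =
        ((P.toValuationSubring.toSubring.toSubmonoid.map (algebraMap F₀ F : F₀ →* F) :
          Submonoid F) : Set F) := rfl
    rw [h2, Submonoid.closure_eq]
  rw [← h]; rfl

theorem bcp_map_mem_S (P : Place K₀ F₀) {y : F₀} (hy : y ∈ P.toValuationSubring) :
    algebraMap F₀ F y ∈ bcpS K P :=
  Algebra.subset_adjoin ⟨y, hy, rfl⟩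

theorem bcp_map_mem_I (P : Place K₀ F₀) {y : F₀} (hy : y = 0 ∨ 0 < P.ord y) :
    algebraMap F₀ F y ∈ bcpI K P :=
  Submodule.subset_span ⟨y, hy, rfl⟩

theorem bcp_I_le_S (P : Place K₀ F₀) {m : F} (hm : m ∈ bcpI K P) : m ∈ bcpS K P := by
  rw [bcp_mem_S_iff]
  refine Submodule.span_mono ?_ hm
  rintro _ ⟨y, hy, rfl⟩
  refine ⟨y, ?_, rfl⟩
  rcases hy with rfl | hy
  · exact zero_mem _
  · exact (sf_ord_nonneg_iff P y).mp hy.le

/-- `I` is an ideal of `S` -/
theorem bcp_mul_mem_I (P : Place K₀ F₀) {r m : F} (hr : r ∈ bcpS K P) (hm : m ∈ bcpI K P) :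
    r * m ∈ bcpI K P := by
  have h1 : ∀ y : F₀, y ∈ P.toValuationSubring → ∀ m ∈ bcpI K P,
      algebraMap F₀ F y * m ∈ bcpI K P := by
    intro y hy m hm
    induction hm using Submodule.span_induction with
    | mem x hx =>
      obtain ⟨z, hz, rfl⟩ := hx
      rw [← map_mul]
      refine bcp_map_mem_I P ?_
      rcases hz with rfl | hz
      · left; simp
      · by_cases hy0 : y = 0
        · left; simp [hy0]
        · right
          have hz0 : z ≠ 0 := by rintro rfl; simp at hz
          rw [P.ord_mul hy0 hz0]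
          have := (sf_ord_nonneg_iff P y).mpr hy
          omega
    | zero => rw [mul_zero]; exact zero_mem _
    | add a b _ _ ha hb => rw [mul_add]; exact add_mem ha hb
    | smul c a _ ha => rw [mul_smul_comm]; exact Submodule.smul_mem _ c ha
  rw [bcp_mem_S_iff] at hr
  induction hr using Submodule.span_induction with
  | mem x hx =>
    obtain ⟨y, hy, rfl⟩ := hx
    exact h1 y hy m hm
  | zero => rw [zero_mul]; exact zero_mem _
  | add a b _ _ ha hb => rw [add_mul]; exact add_mem ha hb
  | smul c a _ ha => rw [smul_mul_assoc]; exact Submodule.smul_mem _ c ha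

theorem bcp_algebraMap_comm (c : K₀) :
    algebraMap K F (algebraMap K₀ K c) = algebraMap F₀ F (algebraMap K₀ F₀ c) := by
  rw [← IsScalarTower.algebraMap_apply K₀ K F, ← IsScalarTower.algebraMap_apply K₀ F₀ F]

/-- `S = K + I` -/
theorem bcp_decomp (P : Place K₀ F₀) (hdeg : P.deg = 1) {r : F} (hr : r ∈ bcpS K P) :
    ∃ c : K, r - algebraMap K F c ∈ bcpI K P := by
  rw [bcp_mem_S_iff] at hr
  induction hr using Submodule.span_induction with
  | mem x hx =>
    obtain ⟨y, hy, rfl⟩ := hx
    obtain ⟨c, hc⟩ := bcp_exists_val P hdeg y hy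
    refine ⟨algebraMap K₀ K c, ?_⟩
    rw [bcp_algebraMap_comm (K := K) (F₀ := F₀), ← map_sub]
    refine bcp_map_mem_I P ?_
    rcases hc with hc | hc
    · left; rw [hc, sub_self]
    · right; exact hc
  | zero => exact ⟨0, by simp⟩
  | add a b _ _ ha hb =>
    obtain ⟨c, hc⟩ := ha
    obtain ⟨d, hd⟩ := hb
    refine ⟨c + d, ?_⟩
    have : a + b - algebraMap K F (c + d) = (a - algebraMap K F c) + (b - algebraMap K F d) := by
      rw [map_add]; ring
    rw [this]
    exact add_mem hc hd
  | smul a x _ hx =>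
    obtain ⟨c, hc⟩ := hx
    refine ⟨a * c, ?_⟩
    have : a • x - algebraMap K F (a * c) = a • (x - algebraMap K F c) := by
      rw [map_mul, smul_sub, Algebra.smul_def, Algebra.smul_def]
    rw [this]
    exact Submodule.smul_mem _ a hc

/-- elements of a `K₀`-span of elements of the maximal ideal are in the maximal ideal -/
theorem bcp_span_max (P : Place K₀ F₀) (s : Set F₀) (hs : ∀ y ∈ s, y = 0 ∨ 0 < P.ord y)
    {y : F₀} (hy : y ∈ Submodule.span K₀ s) : y = 0 ∨ 0 < P.ord y := by
  induction hy using Submodule.span_induction with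
  | mem x hx => exact hs x hx
  | zero => left; rfl
  | add a b _ _ ha hb =>
    by_cases hab : a + b = 0
    · left; exact hab
    · right
      have := sf_ord_add_ge P hab 1 (ha.imp id (fun h => by omega)) (hb.imp id (fun h => by omega))
      omega
  | smul c a _ ha =>
    rcases ha with rfl | ha
    · left; simp
    · by_cases hc : c = 0
      · left; simp [hc]
      · right
        have ha0 : a ≠ 0 := by rintro rfl; simp at ha
        rw [Algebra.smul_def, P.ord_mul ((map_ne_zero _).mpr hc) ha0, sf_ord_algebraMap]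
        omega

/-- the image of a `K₀`-span lies in the `K`-span of the image -/
theorem bcp_map_span (s : Set F₀) {y : F₀} (hy : y ∈ Submodule.span K₀ s) :
    algebraMap F₀ F y ∈ Submodule.span K (algebraMap F₀ F '' s) := by
  induction hy using Submodule.span_induction with
  | mem x hx => exact Submodule.subset_span ⟨x, hx, rfl⟩
  | zero => rw [map_zero]; exact zero_mem _
  | add a b _ _ ha hb => rw [map_add]; exact add_mem ha hb
  | smul c a _ ha =>
    have : algebraMap F₀ F (c • a) = (algebraMap K₀ K c) • algebraMap F₀ F a := by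
      rw [Algebra.smul_def, map_mul, Algebra.smul_def, bcp_algebraMap_comm (K := K) (F₀ := F₀)]
    rw [this]
    exact Submodule.smul_mem _ _ ha

/-- **Linear disjointness**: `1 ∉ I`. -/
theorem bcp_one_not_mem_I (hLD : BcpLD K₀ K F₀ F) (P : Place K₀ F₀) :
    (1 : F) ∉ bcpI K P := by
  classical
  intro h
  obtain ⟨n, c, g, hsum⟩ := Submodule.mem_span_set'.mp h
  choose m hm hmg using fun i => (g i).2
  set V : Submodule K₀ F₀ := Submodule.span K₀ (Set.range m) with hV
  haveI : FiniteDimensional K₀ V := FiniteDimensional.span_of_finite K₀ (Set.finite_range m)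
  let b := Module.finBasis K₀ V
  set v : Fin (Module.finrank K₀ V) → F₀ := fun j => (b j : F₀) with hv
  have hvli : LinearIndependent K₀ v :=
    b.linearIndependent.map' V.subtype (Submodule.ker_subtype V)
  have hvspan : Submodule.span K₀ (Set.range v) = V := by
    have h1 : Set.range v = V.subtype '' Set.range b := by
      rw [← Set.range_comp]; rfl
    rw [h1, ← Submodule.map_span, b.span_eq, Submodule.map_subtype_top]
  have h1V : (1 : F₀) ∉ Submodule.span K₀ (Set.range v) := by
    rw [hvspan]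
    intro h1
    have := bcp_span_max P (Set.range m) (by rintro _ ⟨i, rfl⟩; exact hm i) h1
    rcases this with h0 | h0
    · exact one_ne_zero h0
    · simp at h0
  have hli : LinearIndependent K₀ (Fin.cons 1 v : Fin (Module.finrank K₀ V + 1) → F₀) :=
    linearIndependent_finCons.mpr ⟨hvli, h1V⟩
  have hli2 := hLD _ _ hli
  have hcons : (fun i => algebraMap F₀ F ((Fin.cons 1 v : Fin (Module.finrank K₀ V + 1) → F₀) i)) =
      (Fin.cons 1 (fun j => algebraMap F₀ F (v j)) : Fin (Module.finrank K₀ V + 1) → F) := by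
    funext i
    refine Fin.cases ?_ (fun j => ?_) i
    · simp
    · simp
  rw [hcons] at hli2
  have h2 := (linearIndependent_finCons.mp hli2).2
  apply h2
  have h3 : Set.range (fun j => algebraMap F₀ F (v j)) = algebraMap F₀ F '' Set.range v := by
    rw [← Set.range_comp]; rfl
  rw [h3, ← hsum]
  refine Submodule.sum_mem _ (fun i _ => Submodule.smul_mem _ _ ?_)
  rw [← hmg i]
  refine bcp_map_span (K₀ := K₀) (Set.range v) ?_
  rw [hvspan]
  exact Submodule.subset_span ⟨i, rfl⟩

theorem bcp_const_mem_I (hLD : BcpLD K₀ K F₀ F) (P : Place K₀ F₀) {c : K}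
    (hc : algebraMap K F c ∈ bcpI K P) : c = 0 := by
  by_contra h0
  apply bcp_one_not_mem_I hLD P
  have := Submodule.smul_mem (bcpI K P) c⁻¹ hc
  rwa [Algebra.smul_def, ← map_mul, inv_mul_cancel₀ h0, map_one] at this

/-- `I` is a prime ideal of `S` -/
theorem bcp_I_prime (hLD : BcpLD K₀ K F₀ F) (P : Place K₀ F₀) (hdeg : P.deg = 1) {r s : F}
    (hr : r ∈ bcpS K P) (hs : s ∈ bcpS K P) (hrs : r * s ∈ bcpI K P) :
    r ∈ bcpI K P ∨ s ∈ bcpI K P := by
  obtain ⟨c, hc⟩ := bcp_decomp P hdeg hr
  obtain ⟨d, hd⟩ := bcp_decomp P hdeg hs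
  have h1 : algebraMap K F (c * d) ∈ bcpI K P := by
    have e : algebraMap K F (c * d) =
        r * s - (s * (r - algebraMap K F c) + c • (s - algebraMap K F d)) := by
      rw [map_mul, Algebra.smul_def]; ring
    rw [e]
    exact sub_mem hrs (add_mem (bcp_mul_mem_I P hs hc) (Submodule.smul_mem _ c hd))
  rcases mul_eq_zero.mp (bcp_const_mem_I hLD P h1) with h | h
  · left; simpa [h] using hc
  · right; simpa [h] using hd

/-- `I = ι π · S` -/
theorem bcp_mem_I_iff (P : Place K₀ F₀) {π : P.toValuationSubring} (hπ : Irreducible π) (m : F) :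
    m ∈ bcpI K P ↔ ∃ s ∈ bcpS K P, m = algebraMap F₀ F (π : F₀) * s := by
  have hπ0 : (π : F₀) ≠ 0 := by
    simpa [ne_eq, ZeroMemClass.coe_eq_zero] using hπ.ne_zero
  constructor
  · intro hm
    induction hm using Submodule.span_induction with
    | mem x hx =>
      obtain ⟨z, hz, rfl⟩ := hx
      refine ⟨algebraMap F₀ F (z * (π : F₀)⁻¹), bcp_map_mem_S P ?_, ?_⟩
      · rcases hz with rfl | hz
        · simp [zero_mem]
        · have hz0 : z ≠ 0 := by rintro rfl; simp at hz
          rw [← sf_ord_nonneg_iff, P.ord_mul hz0 (inv_ne_zero hπ0), P.ord_inv,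
            P.ord_coe_irreducible hπ]
          omega
      · rw [← map_mul]
        congr 1
        field_simp
    | zero => exact ⟨0, zero_mem _, by simp⟩
    | add a b _ _ ha hb =>
      obtain ⟨s, hs, rfl⟩ := ha
      obtain ⟨t, ht, rfl⟩ := hb
      exact ⟨s + t, add_mem hs ht, by ring⟩
    | smul c a _ ha =>
      obtain ⟨s, hs, rfl⟩ := ha
      exact ⟨c • s, Subalgebra.smul_mem _ hs c, by rw [mul_smul_comm]⟩
  · rintro ⟨s, hs, rfl⟩
    rw [mul_comm]
    refine bcp_mul_mem_I P hs (bcp_map_mem_I P (Or.inr ?_))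
    rw [P.ord_coe_irreducible hπ]
    exact one_pos

/-- finite multiplicity of `ι π` in `S`, in terms of finite representations -/
theorem bcp_rep (hLD : BcpLD K₀ K F₀ F) (P : Place K₀ F₀) (hdeg : P.deg = 1)
    {π : P.toValuationSubring} (hπ : Irreducible π) :
    ∀ (n : ℕ) (c : Fin n → K) (x : Fin n → F₀), (∀ i, x i ∈ P.toValuationSubring) →
      ∑ i, c i • algebraMap F₀ F (x i) ≠ 0 →
      ∃ k : ℕ, ∃ r' ∈ bcpS K P, r' ∉ bcpI K P ∧
        ∑ i, c i • algebraMap F₀ F (x i) = algebraMap F₀ F (π : F₀) ^ k * r' := by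
  classical
  have hπ0 : (π : F₀) ≠ 0 := by
    simpa [ne_eq, ZeroMemClass.coe_eq_zero] using hπ.ne_zero
  intro n
  induction n with
  | zero => intro c x _ h; simp at h
  | succ n ih =>
    intro c x hx hne
    by_cases hli : LinearIndependent K₀ c
    · -- independent coefficients
      set T := Finset.univ.filter (fun i => x i ≠ 0) with hT
      have hTne : T.Nonempty := by
        by_contra hemp
        rw [Finset.not_nonempty_iff_eq_empty] at hemp
        apply hne
        refine Finset.sum_eq_zero (fun i _ => ?_)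
        have : x i = 0 := by
          by_contra h
          have h' : i ∈ T := Finset.mem_filter.mpr ⟨Finset.mem_univ _, h⟩
          rw [hemp] at h'
          simp at h'
        rw [this, map_zero, smul_zero]
      obtain ⟨i0, hi0T, hi0⟩ := Finset.exists_mem_eq_inf' hTne (fun i => P.ord (x i))
      set k := T.inf' hTne (fun i => P.ord (x i)) with hk
      have hk0 : 0 ≤ k := by
        rw [hk, Finset.le_inf'_iff]
        intro i _
        exact (sf_ord_nonneg_iff P _).mpr (hx i)
      have hkle : ∀ i, x i ≠ 0 → k ≤ P.ord (x i) := fun i hi =>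
        Finset.inf'_le (fun i => P.ord (x i))
          (show i ∈ T from Finset.mem_filter.mpr ⟨Finset.mem_univ _, hi⟩)
      have hkn : ((k.toNat : ℕ) : ℤ) = k := Int.toNat_of_nonneg hk0
      have hordpow : P.ord (((π : F₀) ^ k.toNat)⁻¹) = -k := by
        rw [P.ord_inv, ← zpow_natCast, P.ord_zpow, P.ord_coe_irreducible hπ, hkn, mul_one]
      have hpow0 : ((π : F₀) ^ k.toNat)⁻¹ ≠ 0 := inv_ne_zero (pow_ne_zero _ hπ0)
      set x' : Fin (n + 1) → F₀ := fun i => x i * ((π : F₀) ^ k.toNat)⁻¹ with hx'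
      have hx'mem : ∀ i, x' i ∈ P.toValuationSubring := by
        intro i
        by_cases hi : x i = 0
        · simp [hx', hi, zero_mem]
        · rw [← sf_ord_nonneg_iff, hx', P.ord_mul hi hpow0, hordpow]
          have := hkle i hi
          omega
      refine ⟨k.toNat, ∑ i, c i • algebraMap F₀ F (x' i), ?_, ?_, ?_⟩
      · exact Subalgebra.sum_mem _
          (fun i _ => Subalgebra.smul_mem _ (bcp_map_mem_S P (hx'mem i)) _)
      · intro hI
        choose a ha using fun i => bcp_exists_val P hdeg (x' i) (hx'mem i)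
        have h1 : ∑ i, c i • algebraMap F₀ F (x' i - algebraMap K₀ F₀ (a i)) ∈ bcpI K P :=
          Submodule.sum_mem _ (fun i _ => Submodule.smul_mem _ _
            (bcp_map_mem_I P ((ha i).imp (fun h => by rw [h, sub_self]) id)))
        have h2 : algebraMap K F (∑ i, a i • c i) ∈ bcpI K P := by
          have e : algebraMap K F (∑ i, a i • c i) = ∑ i, c i • algebraMap F₀ F (x' i) -
              ∑ i, c i • algebraMap F₀ F (x' i - algebraMap K₀ F₀ (a i)) := by
            rw [← Finset.sum_sub_distrib, map_sum]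
            refine Finset.sum_congr rfl (fun i _ => ?_)
            rw [map_sub, smul_sub, sub_sub_cancel, ← bcp_algebraMap_comm (K := K) (F₀ := F₀),
              Algebra.smul_def, Algebra.smul_def, map_mul, mul_comm]
          rw [e]
          exact sub_mem hI h1
        have h3 := bcp_const_mem_I hLD P h2
        have h4 := Fintype.linearIndependent_iff.mp hli a h3 i0
        have hi0' : x i0 ≠ 0 := (Finset.mem_filter.mp hi0T).2
        have hord : P.ord (x' i0) = 0 := by
          rw [hx', P.ord_mul hi0' hpow0, hordpow, ← hi0]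
          ring
        have hx'0 : x' i0 ≠ 0 := mul_ne_zero hi0' hpow0
        rcases ha i0 with h | h
        · rw [h4, map_zero] at h
          exact hx'0 h
        · rw [h4, map_zero, sub_zero, hord] at h
          exact lt_irrefl _ h
      · rw [Finset.mul_sum]
        refine Finset.sum_congr rfl (fun i _ => ?_)
        rw [mul_smul_comm, ← map_pow, ← map_mul]
        congr 2
        rw [hx']
        field_simp
    · -- dependent coefficients: shorten the representation
      obtain ⟨g, hg, i0, hi0⟩ := Fintype.not_linearIndependent_iff.mp hli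
      set c' : Fin n → K := fun j => c (i0.succAbove j) with hc'
      set x' : Fin n → F₀ := fun j => x (i0.succAbove j) - (g (i0.succAbove j) / g i0) • x i0
        with hx'
      have hx'mem : ∀ j, x' j ∈ P.toValuationSubring := fun j =>
        sub_mem (hx _) (by rw [Algebra.smul_def]; exact mul_mem (P.algebraMap_mem' _) (hx _))
      have hc0 : c i0 = - ∑ j, (g (i0.succAbove j) / g i0) • c (i0.succAbove j) := by
        rw [Fin.sum_univ_succAbove _ i0] at hg
        have h1 : g i0 • c i0 = - ∑ j, g (i0.succAbove j) • c (i0.succAbove j) :=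
          eq_neg_of_add_eq_zero_left hg
        have h2 : c i0 = (g i0)⁻¹ • (g i0 • c i0) := by
          rw [smul_smul, inv_mul_cancel₀ hi0, one_smul]
        rw [h2, h1, smul_neg, Finset.smul_sum]
        congr 1
        refine Finset.sum_congr rfl (fun j _ => ?_)
        rw [smul_smul, div_eq_inv_mul]
      have hsum : ∑ j, c' j • algebraMap F₀ F (x' j) = ∑ i, c i • algebraMap F₀ F (x i) := by
        rw [Fin.sum_univ_succAbove _ i0, hc0, neg_smul, Finset.sum_smul, neg_add_eq_sub,
          ← Finset.sum_sub_distrib]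
        refine Finset.sum_congr rfl (fun j _ => ?_)
        simp only [hc', hx', map_sub, smul_sub]
        congr 1
        rw [Algebra.smul_def (g (i0.succAbove j) / g i0) (x i0), map_mul,
          ← bcp_algebraMap_comm (K := K) (F₀ := F₀)]
        simp only [Algebra.smul_def, map_mul]
        ring
      obtain ⟨k, r', hr'S, hr'I, hr'⟩ := ih c' x' hx'mem (by rw [hsum]; exact hne)
      exact ⟨k, r', hr'S, hr'I, by rw [← hsum, hr']⟩

/-- finite multiplicity of `ι π` in `S` -/
theorem bcp_fin (hLD : BcpLD K₀ K F₀ F) (P : Place K₀ F₀) (hdeg : P.deg = 1)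
    {π : P.toValuationSubring} (hπ : Irreducible π) {r : F} (hr : r ∈ bcpS K P) (hr0 : r ≠ 0) :
    ∃ k : ℕ, ∃ r' ∈ bcpS K P, r' ∉ bcpI K P ∧ r = algebraMap F₀ F (π : F₀) ^ k * r' := by
  rw [bcp_mem_S_iff] at hr
  obtain ⟨n, c, g, rfl⟩ := Submodule.mem_span_set'.mp hr
  choose x hx hxg using fun i => (g i).2
  have e : ∑ i, c i • ((g i : F)) = ∑ i, c i • algebraMap F₀ F (x i) :=
    Finset.sum_congr rfl (fun i _ => by rw [hxg i])
  rw [e] at hr0 ⊢
  exact bcp_rep hLD P hdeg hπ n c x hx hr0

/-- `F` is the field of fractions of `S` -/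
theorem bcp_frac (hgen : IntermediateField.adjoin F₀ (Set.range (algebraMap K F)) = ⊤)
    (P : Place K₀ F₀) (z : F) :
    ∃ x ∈ bcpS K P, ∃ y ∈ bcpS K P, y ≠ 0 ∧ z = x / y := by
  have hz : z ∈ IntermediateField.adjoin F₀ (Set.range (algebraMap K F)) := by
    rw [hgen]; trivial
  induction hz using IntermediateField.adjoin_induction with
  | mem x hx =>
    obtain ⟨c, rfl⟩ := hx
    exact ⟨_, Subalgebra.algebraMap_mem _ c, 1, one_mem _, one_ne_zero, by simp⟩
  | algebraMap f =>
    by_cases hf : f ∈ P.toValuationSubring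
    · exact ⟨_, bcp_map_mem_S P hf, 1, one_mem _, one_ne_zero, by simp⟩
    · have hf' : f⁻¹ ∈ P.toValuationSubring :=
        (P.toValuationSubring.mem_or_inv_mem f).resolve_left hf
      have hf0 : f ≠ 0 := by rintro rfl; exact hf (zero_mem _)
      refine ⟨1, one_mem _, _, bcp_map_mem_S P hf', (map_ne_zero _).mpr (inv_ne_zero hf0), ?_⟩
      rw [map_inv₀, one_div, inv_inv]
  | add a b _ _ ha hb =>
    obtain ⟨x, hx, y, hy, hy0, rfl⟩ := ha
    obtain ⟨x', hx', y', hy', hy'0, rfl⟩ := hb
    refine ⟨x * y' + x' * y, add_mem (mul_mem hx hy') (mul_mem hx' hy), y * y',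
      mul_mem hy hy', mul_ne_zero hy0 hy'0, ?_⟩
    field_simp
  | inv a _ ha =>
    obtain ⟨x, hx, y, hy, hy0, rfl⟩ := ha
    by_cases hx0 : x = 0
    · exact ⟨0, zero_mem _, 1, one_mem _, one_ne_zero, by simp [hx0]⟩
    · exact ⟨y, hy, x, hx, hx0, by rw [inv_div]⟩
  | mul a b _ _ ha hb =>
    obtain ⟨x, hx, y, hy, hy0, rfl⟩ := ha
    obtain ⟨x', hx', y', hy', hy'0, rfl⟩ := hb
    exact ⟨x * x', mul_mem hx hx', y * y', mul_mem hy hy', mul_ne_zero hy0 hy'0,
      by rw [div_mul_div_comm]⟩

/-- `S ⊆ O_{Q'}` for a place `Q'` above `P` -/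
theorem bcp_S_le (P : Place K₀ F₀) (Q' : Place K F)
    (h : ∀ y ∈ P.toValuationSubring, algebraMap F₀ F y ∈ Q'.toValuationSubring) {r : F}
    (hr : r ∈ bcpS K P) : r ∈ Q'.toValuationSubring := by
  rw [bcp_mem_S_iff] at hr
  induction hr using Submodule.span_induction with
  | mem x hx =>
    obtain ⟨y, hy, rfl⟩ := hx
    exact h y hy
  | zero => exact zero_mem _
  | add a b _ _ ha hb => exact add_mem ha hb
  | smul c a _ ha =>
    rw [Algebra.smul_def]
    exact mul_mem (Q'.algebraMap_mem' c) ha

/-- `I ⊆ 𝔪_{Q'}` for a place `Q'` above `P` -/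
theorem bcp_I_le (P : Place K₀ F₀) (Q' : Place K F)
    (h : ∀ y : F₀, 0 < P.ord y → 0 < Q'.ord (algebraMap F₀ F y)) {m : F}
    (hm : m ∈ bcpI K P) : m = 0 ∨ 0 < Q'.ord m := by
  induction hm using Submodule.span_induction with
  | mem x hx =>
    obtain ⟨y, hy, rfl⟩ := hx
    rcases hy with rfl | hy
    · left; simp
    · right; exact h y hy
  | zero => left; rfl
  | add a b _ _ ha hb =>
    by_cases hab : a + b = 0
    · left; exact hab
    · right
      have := sf_ord_add_ge Q' hab 1 (ha.imp id (fun h => by omega)) (hb.imp id (fun h => by omega))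
      omega
  | smul c a _ ha =>
    rcases ha with rfl | ha
    · left; simp
    · by_cases hc : c = 0
      · left; simp [hc]
      · right
        have ha0 : a ≠ 0 := by rintro rfl; simp at ha
        rw [Algebra.smul_def, Q'.ord_mul ((map_ne_zero _).mpr hc) ha0, sf_ord_algebraMap]
        omega

/-- **BASECHANGE (a)**, existence and uniqueness: a place of degree one of `F₀ / K₀` is the
trace of exactly one place of `F / K`, which has degree one and the same order function. -/
theorem bcp_exists_aux (hLD : BcpLD K₀ K F₀ F)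
    (hgen : IntermediateField.adjoin F₀ (Set.range (algebraMap K F)) = ⊤)
    (P : Place K₀ F₀) (hdeg : P.deg = 1) :
    ∃ Q : Place K F, (∀ y : F₀, Q.ord (algebraMap F₀ F y) = P.ord y) ∧ Q.deg = 1 ∧
      ∀ Q' : Place K F,
        (∀ y ∈ P.toValuationSubring, algebraMap F₀ F y ∈ Q'.toValuationSubring) →
        (∀ y : F₀, 0 < P.ord y → 0 < Q'.ord (algebraMap F₀ F y)) → Q' = Q := by
  classical
  obtain ⟨π, hπ⟩ := IsDiscreteValuationRing.exists_irreducible P.toValuationSubring
  have hπ0 : (π : F₀) ≠ 0 := by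
    simpa [ne_eq, ZeroMemClass.coe_eq_zero] using hπ.ne_zero
  have hιπ0 : algebraMap F₀ F (π : F₀) ≠ 0 := (map_ne_zero _).mpr hπ0
  let p : bcpS K P := ⟨algebraMap F₀ F (π : F₀), bcp_map_mem_S P π.2⟩
  have hp0 : p ≠ 0 := fun h => hιπ0 (congrArg Subtype.val h)
  have hdvd : ∀ r : bcpS K P, p ∣ r ↔ (r : F) ∈ bcpI K P := by
    intro r
    rw [bcp_mem_I_iff P hπ]
    constructor
    · rintro ⟨s, rfl⟩
      exact ⟨s, s.2, rfl⟩
    · rintro ⟨s, hs, h⟩
      exact ⟨⟨s, hs⟩, Subtype.ext h⟩
  have hnu : ¬ p ∣ 1 := by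
    rw [hdvd]
    exact bcp_one_not_mem_I hLD P
  have hp : Prime p := by
    refine ⟨hp0, fun hu => hnu hu.dvd, fun a b hab => ?_⟩
    rw [hdvd, hdvd]
    rw [hdvd] at hab
    exact bcp_I_prime hLD P hdeg a.2 b.2 hab
  have hfin : ∀ r : bcpS K P, r ≠ 0 → ∃ (n : ℕ) (r' : bcpS K P), ¬ p ∣ r' ∧ r = p ^ n * r' := by
    intro r hr
    have hr0 : (r : F) ≠ 0 := fun h => hr (Subtype.ext h)
    obtain ⟨k, r', hr'S, hr'I, e⟩ := bcp_fin hLD P hdeg hπ r.2 hr0
    refine ⟨k, ⟨r', hr'S⟩, ?_, Subtype.ext ?_⟩
    · rw [hdvd]; exact hr'I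
    · exact e
  haveI : FaithfulSMul (bcpS K P) F :=
    (faithfulSMul_iff_algebraMap_injective (bcpS K P) F).mpr Subtype.val_injective
  haveI : IsFractionRing (bcpS K P) F := IsFractionRing.of_field (bcpS K P) F (fun z => by
    obtain ⟨x, hx, y, hy, _, e⟩ := bcp_frac hgen P z
    exact ⟨⟨x, hx⟩, ⟨y, hy⟩, e⟩)
  have hK : ∀ c : K, ∃ a b : bcpS K P, ¬ p ∣ b ∧
      algebraMap K F c * algebraMap (bcpS K P) F b = algebraMap (bcpS K P) F a :=
    fun c => ⟨⟨algebraMap K F c, Subalgebra.algebraMap_mem _ c⟩, 1, hnu, by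
      rw [map_one, mul_one]; rfl⟩
  obtain ⟨Q, hQ, hQmem, hQp, hQu⟩ := pld_place_of_prime (K := K) (F := F) p hp hfin hK
  -- a convenient form of `hQ`
  have hQ' : ∀ (x : F) (n : ℤ) (a b : F), a ∈ bcpS K P → a ∉ bcpI K P → b ∈ bcpS K P →
      b ∉ bcpI K P → x * b = algebraMap F₀ F (π : F₀) ^ n * a → Q.ord x = n := by
    intro x n a b ha haI hb hbI e
    exact hQ x n ⟨a, ha⟩ ⟨b, hb⟩ (by rw [hdvd]; exact haI) (by rw [hdvd]; exact hbI) e
  have hunitI : ∀ u : F₀, u ∈ P.toValuationSubring → u⁻¹ ∈ P.toValuationSubring → u ≠ 0 →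
      algebraMap F₀ F u ∉ bcpI K P := by
    intro u hu hu' hu0 hI
    apply bcp_one_not_mem_I hLD P
    have := bcp_mul_mem_I P (bcp_map_mem_S (K := K) P hu') hI
    rwa [← map_mul, inv_mul_cancel₀ hu0, map_one] at this
  have h1S : (1 : F) ∈ bcpS K P := one_mem _
  have h1I : (1 : F) ∉ bcpI K P := bcp_one_not_mem_I hLD P
  refine ⟨Q, ?_, ?_, ?_⟩
  · -- the order function
    intro y
    by_cases hy0 : y = 0
    · simp [hy0]
    obtain ⟨u, hu⟩ := P.exists_unit_mul_zpow hy0 hπ
    have huF : ((u : P.toValuationSubring) : F₀) ≠ 0 := by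
      simp [ne_eq, ZeroMemClass.coe_eq_zero]
    have huinv : (((u : P.toValuationSubring) : F₀))⁻¹ ∈ P.toValuationSubring :=
      (sf_ord_nonpos_iff P _).mp (by rw [P.ord_coe_unit u])
    refine hQ' _ _ (algebraMap F₀ F ((u : P.toValuationSubring) : F₀)) 1
      (bcp_map_mem_S P (u : P.toValuationSubring).2)
      (hunitI _ (u : P.toValuationSubring).2 huinv huF) h1S h1I ?_
    rw [mul_one, ← map_zpow₀, ← map_mul, mul_comm]
    exact congrArg _ hu
  · -- degree one
    have hsurj : Function.Surjective (algebraMap K Q.ResidueField) := by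
      intro zb
      obtain ⟨z, rfl⟩ := IsLocalRing.residue_surjective zb
      by_cases hz0 : (z : F) = 0
      · refine ⟨0, ?_⟩
        have : z = 0 := Subtype.ext hz0
        rw [this, map_zero, map_zero]
      obtain ⟨a, ha, b, hb, hb0, e⟩ := bcp_frac (K := K) hgen P (z : F)
      have ha0 : a ≠ 0 := by
        rintro rfl
        rw [zero_div] at e
        exact hz0 e
      obtain ⟨i, a', ha'S, ha'I, ea⟩ := bcp_fin hLD P hdeg hπ ha ha0
      obtain ⟨j, b', hb'S, hb'I, eb⟩ := bcp_fin hLD P hdeg hπ hb hb0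
      have hb'0 : b' ≠ 0 := by rintro rfl; exact hb'I (zero_mem _)
      have hordz : Q.ord (z : F) = (i : ℤ) - j := by
        refine hQ' _ _ a' b' ha'S ha'I hb'S hb'I ?_
        rw [e, ea, eb, zpow_sub₀ hιπ0, zpow_natCast, zpow_natCast]
        field_simp
      have hge : 0 ≤ Q.ord (z : F) := (sf_ord_nonneg_iff Q _).mpr z.2
      rcases lt_or_eq_of_le hge with hpos | h0
      · refine ⟨0, ?_⟩
        rw [map_zero]
        symm
        rw [IsLocalRing.residue_eq_zero_iff]
        exact (sf_mem_maximalIdeal_iff_ord Q z).mpr (Or.inr hpos)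
      · have hij : (i : ℤ) = j := by omega
        have hij' : i = j := by exact_mod_cast hij
        have ez : (z : F) = a' / b' := by
          rw [e, ea, eb, hij']
          field_simp
        obtain ⟨ca, hca⟩ := bcp_decomp P hdeg ha'S
        obtain ⟨cb, hcb⟩ := bcp_decomp P hdeg hb'S
        have hcb0 : cb ≠ 0 := by
          rintro rfl
          rw [map_zero, sub_zero] at hcb
          exact hb'I hcb
        refine ⟨ca / cb, ?_⟩
        have hmem : z - algebraMap K Q.toValuationSubring (ca / cb) ∈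
            IsLocalRing.maximalIdeal Q.toValuationSubring := by
          rw [sf_mem_maximalIdeal_iff_ord]
          by_cases hzc : (z : F) = algebraMap K F (ca / cb)
          · left
            apply Subtype.ext
            simp [hzc]
          · right
            set w := a' - algebraMap K F (ca / cb) * b' with hw
            have hwI : w ∈ bcpI K P := by
              have e1 : w = (a' - algebraMap K F ca) - (ca / cb) • (b' - algebraMap K F cb) := by
                rw [hw, Algebra.smul_def, map_div₀]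
                have : algebraMap K F cb ≠ 0 := (map_ne_zero _).mpr hcb0
                field_simp
                ring
              rw [e1]
              exact sub_mem hca (Submodule.smul_mem _ _ hcb)
            have hzw : (z : F) - algebraMap K F (ca / cb) = w / b' := by
              rw [hw, ez]
              field_simp
            have hw0 : w ≠ 0 := by
              intro h
              rw [h, zero_div, sub_eq_zero] at hzw
              exact hzc hzw
            obtain ⟨k, w', hw'S, hw'I, ew⟩ :=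
              bcp_fin hLD P hdeg hπ (bcp_I_le_S P hwI) hw0
            have hk : k ≠ 0 := by
              rintro rfl
              rw [pow_zero, one_mul] at ew
              exact hw'I (ew ▸ hwI)
            have hord : Q.ord ((z : F) - algebraMap K F (ca / cb)) = (k : ℤ) := by
              refine hQ' _ _ w' b' hw'S hw'I hb'S hb'I ?_
              rw [hzw, ew, zpow_natCast]
              field_simp
            have hcoe : ((z - algebraMap K Q.toValuationSubring (ca / cb) :
                Q.toValuationSubring) : F) = (z : F) - algebraMap K F (ca / cb) := rfl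
            rw [hcoe, hord]
            have : 0 < k := Nat.pos_of_ne_zero hk
            exact_mod_cast this
        have h2 : IsLocalRing.residue Q.toValuationSubring
            (z - algebraMap K Q.toValuationSubring (ca / cb)) = 0 :=
          (IsLocalRing.residue_eq_zero_iff _).mpr hmem
        rw [map_sub, sub_eq_zero] at h2
        rw [h2]
        rfl
    have hbij : Function.Bijective (algebraMap K Q.ResidueField) :=
      ⟨(algebraMap K Q.ResidueField).injective, hsurj⟩
    show Module.finrank K Q.ResidueField = 1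
    rw [← Module.finrank_self K]
    exact ((AlgEquiv.ofBijective (Algebra.ofId K Q.ResidueField) hbij).toLinearEquiv.finrank_eq).symm
  · -- uniqueness
    intro Q' h1 h2
    symm
    apply pld_eq_of_le
    intro z hz
    by_cases hz0 : z = 0
    · rw [hz0]; exact zero_mem _
    obtain ⟨a, ha, b, hb, hb0, e⟩ := bcp_frac (K := K) hgen P z
    have ha0 : a ≠ 0 := by
      rintro rfl
      rw [zero_div] at e
      exact hz0 e
    obtain ⟨i, a', ha'S, ha'I, ea⟩ := bcp_fin hLD P hdeg hπ ha ha0
    obtain ⟨j, b', hb'S, hb'I, eb⟩ := bcp_fin hLD P hdeg hπ hb hb0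
    have hb'0 : b' ≠ 0 := by rintro rfl; exact hb'I (zero_mem _)
    have hordz : Q.ord z = (i : ℤ) - j := by
      refine hQ' _ _ a' b' ha'S ha'I hb'S hb'I ?_
      rw [e, ea, eb, zpow_sub₀ hιπ0, zpow_natCast, zpow_natCast]
      field_simp
    have hge : 0 ≤ Q.ord z := (sf_ord_nonneg_iff Q _).mpr hz
    have hji : j ≤ i := by
      have : (j : ℤ) ≤ i := by omega
      exact_mod_cast this
    -- `b'` is a unit at `Q'`
    have hb'inv : b'⁻¹ ∈ Q'.toValuationSubring := by
      rw [← sf_ord_nonpos_iff]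
      by_contra hpos
      rw [not_le] at hpos
      obtain ⟨cb, hcb⟩ := bcp_decomp P hdeg hb'S
      have hcb0 : cb ≠ 0 := by
        rintro rfl
        rw [map_zero, sub_zero] at hcb
        exact hb'I hcb
      have hcbF : algebraMap K F cb ≠ 0 := (map_ne_zero _).mpr hcb0
      have h3 := bcp_I_le P Q' h2 hcb
      have h4 : algebraMap K F cb = b' + -(b' - algebraMap K F cb) := by ring
      have h5 : (1 : ℤ) ≤ Q'.ord (algebraMap K F cb) := by
        have hne : b' + -(b' - algebraMap K F cb) ≠ 0 := by rw [← h4]; exact hcbF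
        rw [h4]
        refine sf_ord_add_ge Q' hne 1 (Or.inr (by omega)) ?_
        rcases h3 with h3 | h3
        · left; rw [h3, neg_zero]
        · right
          rw [show -(b' - algebraMap K F cb) = (-1 : F) * (b' - algebraMap K F cb) by ring]
          have hne1 : (-1 : F) ≠ 0 := by simp
          have hne2 : b' - algebraMap K F cb ≠ 0 := by
            intro h
            rw [h] at h3
            simp at h3
          rw [Q'.ord_mul hne1 hne2]
          have : Q'.ord (-1 : F) = 0 := by
            have := sf_ord_algebraMap Q' (-1 : K)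
            rwa [map_neg, map_one] at this
          omega
      rw [sf_ord_algebraMap] at h5
      omega
    have hz' : z = algebraMap F₀ F (π : F₀) ^ (i - j) * a' * b'⁻¹ := by
      rw [e, ea, eb]
      have : i = (i - j) + j := by omega
      conv_lhs => rw [this, pow_add]
      field_simp
    rw [hz']
    exact mul_mem (mul_mem (pow_mem (h1 _ π.2) _) (bcp_S_le P Q' h1 ha'S)) hb'inv

/-- **BASECHANGE (a)**: every place of `F / K` is trivial on `F₀`, or lies over a place of
`F₀ / K₀` with the same order function. -/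
theorem bcp_trivial_or (hLD : BcpLD K₀ K F₀ F)
    (hgen : IntermediateField.adjoin F₀ (Set.range (algebraMap K F)) = ⊤)
    (hdeg₀ : ∀ P : Place K₀ F₀, P.deg = 1) (Q : Place K F) :
    (∀ y : F₀, y ≠ 0 → Q.ord (algebraMap F₀ F y) = 0) ∨
      ∃ P : Place K₀ F₀, ∀ y : F₀, Q.ord (algebraMap F₀ F y) = P.ord y := by
  by_cases htriv : ∀ y : F₀, y ≠ 0 → Q.ord (algebraMap F₀ F y) = 0
  · exact Or.inl htriv
  right
  push Not at htriv
  obtain ⟨y₀, hy₀, hy₀'⟩ := htriv
  have hne : ∀ y : F₀, y ≠ 0 → algebraMap F₀ F y ≠ 0 := fun y hy => (map_ne_zero _).mpr hy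
  obtain ⟨P, e, he, hmem, hw⟩ := pld_exists_place_of_ord (K := K₀) (F := F₀)
    (fun y => Q.ord (algebraMap F₀ F y))
    (fun x y hx hy => by
      show Q.ord (algebraMap F₀ F (x * y)) = _
      rw [map_mul, Q.ord_mul (hne x hx) (hne y hy)])
    (fun x y hx hy hxy h1 h2 => by
      show 0 ≤ Q.ord (algebraMap F₀ F (x + y))
      rw [map_add]
      exact sf_ord_add_ge Q (by rw [← map_add]; exact hne _ hxy) 0 (Or.inr h1) (Or.inr h2))
    (fun c hc => by
      show 0 ≤ Q.ord (algebraMap F₀ F (algebraMap K₀ F₀ c))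
      rw [← bcp_algebraMap_comm (K := K) (F₀ := F₀), sf_ord_algebraMap])
    ⟨y₀, hy₀, hy₀'⟩
  obtain ⟨Q₀, hQ₀, -, huniq⟩ := bcp_exists_aux hLD hgen P (hdeg₀ P)
  have hQ : Q = Q₀ := by
    apply huniq
    · intro y hy
      rcases (hmem y).mp hy with rfl | h
      · rw [map_zero]; exact zero_mem _
      · exact (sf_ord_nonneg_iff Q _).mp h
    · intro y hy
      have hy0 : y ≠ 0 := by rintro rfl; simp at hy
      have h := hw y hy0
      show 0 < Q.ord (algebraMap F₀ F y)
      have h' : Q.ord (algebraMap F₀ F y) = e * P.ord y := h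
      rw [h']
      exact mul_pos he hy
  exact ⟨P, fun y => by rw [hQ]; exact hQ₀ y⟩

/-- the place of `F / K` above a place of `F₀ / K₀` -/
noncomputable def bcpMap (hLD : BcpLD K₀ K F₀ F)
    (hgen : IntermediateField.adjoin F₀ (Set.range (algebraMap K F)) = ⊤)
    (hdeg₀ : ∀ P : Place K₀ F₀, P.deg = 1) (P : Place K₀ F₀) : Place K F :=
  (bcp_exists_aux hLD hgen P (hdeg₀ P)).choose

section Map

variable (hLD : BcpLD K₀ K F₀ F)
  (hgen : IntermediateField.adjoin F₀ (Set.range (algebraMap K F)) = ⊤)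
  (hdeg₀ : ∀ P : Place K₀ F₀, P.deg = 1)

theorem bcpMap_ord (P : Place K₀ F₀) (y : F₀) :
    (bcpMap hLD hgen hdeg₀ P).ord (algebraMap F₀ F y) = P.ord y :=
  (bcp_exists_aux hLD hgen P (hdeg₀ P)).choose_spec.1 y

theorem bcpMap_deg (P : Place K₀ F₀) : (bcpMap hLD hgen hdeg₀ P).deg = 1 :=
  (bcp_exists_aux hLD hgen P (hdeg₀ P)).choose_spec.2.1

theorem bcpMap_eq_of_ord (P : Place K₀ F₀) (Q : Place K F)
    (h : ∀ y : F₀, Q.ord (algebraMap F₀ F y) = P.ord y) : Q = bcpMap hLD hgen hdeg₀ P := by
  apply (bcp_exists_aux hLD hgen P (hdeg₀ P)).choose_spec.2.2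
  · intro y hy
    rw [← sf_ord_nonneg_iff, h]
    exact (sf_ord_nonneg_iff P y).mpr hy
  · intro y hy
    rw [h]
    exact hy

theorem bcpMap_injective : Function.Injective (bcpMap hLD hgen hdeg₀) := by
  intro P P' h
  apply Place.ext
  ext y
  rw [← sf_ord_nonneg_iff, ← sf_ord_nonneg_iff, ← bcpMap_ord hLD hgen hdeg₀ P,
    ← bcpMap_ord hLD hgen hdeg₀ P', h]

theorem bcp_range (Q : Place K F) :
    (∀ y : F₀, y ≠ 0 → Q.ord (algebraMap F₀ F y) = 0) ∨
      Q ∈ Set.range (bcpMap hLD hgen hdeg₀) := by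
  rcases bcp_trivial_or hLD hgen hdeg₀ Q with h | ⟨P, hP⟩
  · exact Or.inl h
  · exact Or.inr ⟨P, (bcpMap_eq_of_ord hLD hgen hdeg₀ P Q hP).symm⟩

/-- base change of divisors -/
noncomputable def bcpDiv : Divisor K₀ F₀ →+ Divisor K F :=
  Finsupp.mapDomain.addMonoidHom (bcpMap hLD hgen hdeg₀)

theorem bcpDiv_apply_map (D : Divisor K₀ F₀) (P : Place K₀ F₀) :
    bcpDiv hLD hgen hdeg₀ D (bcpMap hLD hgen hdeg₀ P) = D P :=
  Finsupp.mapDomain_apply (bcpMap_injective hLD hgen hdeg₀) D P

theorem bcpDiv_apply_of_notMem (D : Divisor K₀ F₀) (Q : Place K F)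
    (hQ : Q ∉ Set.range (bcpMap hLD hgen hdeg₀)) : bcpDiv hLD hgen hdeg₀ D Q = 0 :=
  Finsupp.mapDomain_of_notMem_range _ _ hQ

theorem bcpDiv_single (P : Place K₀ F₀) (n : ℤ) :
    bcpDiv hLD hgen hdeg₀ (Finsupp.single P n) =
      Finsupp.single (bcpMap hLD hgen hdeg₀ P) n :=
  Finsupp.mapDomain_single

/-- the divisor of `ι y` is the base change of the divisor of `y` -/
theorem bcpDiv_ord (y : F₀) (hy : y ≠ 0) (D : Divisor K₀ F₀) (hD : ∀ v, D v = v.ord y)
    (Q : Place K F) : bcpDiv hLD hgen hdeg₀ D Q = Q.ord (algebraMap F₀ F y) := by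
  by_cases hQ : Q ∈ Set.range (bcpMap hLD hgen hdeg₀)
  · obtain ⟨P, rfl⟩ := hQ
    rw [bcpDiv_apply_map, hD, bcpMap_ord]
  · rw [bcpDiv_apply_of_notMem hLD hgen hdeg₀ D Q hQ]
    rcases bcp_range hLD hgen hdeg₀ Q with h | h
    · exact (h y hy).symm
    · exact absurd h hQ

theorem bcpDiv_degree (D : Divisor K₀ F₀) :
    Divisor.degree (bcpDiv hLD hgen hdeg₀ D) = Divisor.degree D := by
  induction D using Finsupp.induction_linear with
  | zero => simp
  | add f g hf hg => rw [map_add, map_add, hf, hg, map_add]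
  | single P n =>
    rw [bcpDiv_single, Divisor.degree_single, Divisor.degree_single, bcpMap_deg, hdeg₀ P]

theorem bcpDiv_principal (D : Divisor K₀ F₀) (hD : D ∈ Divisor.principal (K := K₀) (F := F₀)) :
    bcpDiv hLD hgen hdeg₀ D ∈ Divisor.principal (K := K) (F := F) := by
  obtain ⟨f, hf, hDf⟩ := hD
  exact ⟨algebraMap F₀ F f, (map_ne_zero _).mpr hf,
    fun Q => bcpDiv_ord hLD hgen hdeg₀ f hf D hDf Q⟩

/-- base change of divisors of degree zero -/
noncomputable def bcpDiv0 :
    Divisor.degZero (K := K₀) (F := F₀) →+ Divisor.degZero (K := K) (F := F) :=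
  ((bcpDiv hLD hgen hdeg₀).comp (Divisor.degZero (K := K₀) (F := F₀)).subtype).codRestrict
    (Divisor.degZero (K := K) (F := F))
    (fun D => by
      rw [Divisor.mem_degZero]
      show Divisor.degree (bcpDiv hLD hgen hdeg₀ (D : Divisor K₀ F₀)) = 0
      rw [bcpDiv_degree]
      exact D.2)

theorem bcpDiv0_coe (D : Divisor.degZero (K := K₀) (F := F₀)) :
    ((bcpDiv0 hLD hgen hdeg₀ D : Divisor.degZero (K := K) (F := F)) : Divisor K F) =
      bcpDiv hLD hgen hdeg₀ (D : Divisor K₀ F₀) := rfl

/-- **BASECHANGE (a)**: base change of divisor classes of degree zero -/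
noncomputable def bcpPic : Pic0 K₀ F₀ →+ Pic0 K F :=
  QuotientAddGroup.map _ _ (bcpDiv0 hLD hgen hdeg₀) (by
    intro D hD
    rw [AddSubgroup.mem_comap, AddSubgroup.mem_addSubgroupOf]
    exact bcpDiv_principal hLD hgen hdeg₀ _ (AddSubgroup.mem_addSubgroupOf.mp hD))

theorem bcpPic_mk (D : Divisor.degZero (K := K₀) (F := F₀)) :
    bcpPic hLD hgen hdeg₀ (Pic0.mk D) = Pic0.mk (bcpDiv0 hLD hgen hdeg₀ D) := rfl

end Map

end Abs

end Fermat.Agent.S29
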