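import Mathlib
import Fermat.Agent.S29.BaseChangePlace
import Fermat.Agent.S18.BaseChangeField

/-!
# S29, package BASECHANGE (a), concrete form

`K₀ → L` any extension of fields of characteristic zero, `F₀ ⊆ ℚ((q))`, `F_{K₀} := F₀ K₀ ⊆ K₀((q))`,
`F_L := F₀ L ⊆ L((q))` (`ModularCurve.laurentBaseChange`), `bcfHom : F_{K₀} → F_L` the coefficient
embedding.  If all places of `F_{K₀} / K₀` have degree one (e.g. `K₀` algebraically closed and
`F_{K₀}` a curve):

* `bcpPlace`: the unique place of `F_L / L` above a place of `F_{K₀} / K₀`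
  (`bcpPlace_ord`, `bcpPlace_deg`, `bcpPlace_injective`, `bcpPlace_eq_of_ord`, `bcpPlace_range`);
* `bcpDivL`, `bcpPicL`: base change of divisors and of divisor classes of degree zero
  (`bcpDivL_ord`: the divisor of `bcfHom y` is the base change of the divisor of `y`);
* `bcp_mem_of_coeff`: an element of `F_L` all of whose `q`-coefficients lie in `K₀` comes from
  `F_{K₀}`.
-/

set_option autoImplicit false
set_option linter.unusedSectionVars false
set_option linter.style.haveILetI false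

noncomputable section

namespace Fermat.Agent.S29

open AlgebraicCurve ModularCurve Fermat.Agent.S24 Fermat.Agent.S18

section Frac

variable {K F₀ F : Type*} [Field K] [Field F₀] [Field F] [Algebra K F] [Algebra F₀ F]

/-- every element of `F = F₀ K` is a quotient of two `K`-linear combinations of elements of
`F₀` -/
theorem bcp_frac_span (hgen : IntermediateField.adjoin F₀ (Set.range (algebraMap K F)) = ⊤)
    (z : F) :
    ∃ x ∈ Submodule.span K (Set.range (algebraMap F₀ F)),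
      ∃ y ∈ Submodule.span K (Set.range (algebraMap F₀ F)), y ≠ 0 ∧ z = x / y := by
  set M := Submodule.span K (Set.range (algebraMap F₀ F)) with hM
  have h1 : (1 : F) ∈ M := Submodule.subset_span ⟨1, map_one _⟩
  have hmul : ∀ a ∈ M, ∀ b ∈ M, a * b ∈ M := by
    intro a ha b hb
    have h := Submodule.mul_mem_mul ha hb
    rw [hM, Submodule.span_mul_span] at h
    refine Submodule.span_mono ?_ h
    rintro _ ⟨_, ⟨x, rfl⟩, _, ⟨y, rfl⟩, rfl⟩
    exact ⟨x * y, map_mul _ _ _⟩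
  have hz : z ∈ IntermediateField.adjoin F₀ (Set.range (algebraMap K F)) := by
    rw [hgen]; trivial
  induction hz using IntermediateField.adjoin_induction with
  | mem x hx =>
    obtain ⟨c, rfl⟩ := hx
    refine ⟨algebraMap K F c, ?_, 1, h1, one_ne_zero, by simp⟩
    have : algebraMap K F c = c • (1 : F) := by rw [Algebra.smul_def, mul_one]
    rw [this]
    exact Submodule.smul_mem _ c h1
  | algebraMap f =>
    exact ⟨algebraMap F₀ F f, Submodule.subset_span ⟨f, rfl⟩, 1, h1, one_ne_zero, by simp⟩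
  | add a b _ _ ha hb =>
    obtain ⟨x, hx, y, hy, hy0, rfl⟩ := ha
    obtain ⟨x', hx', y', hy', hy'0, rfl⟩ := hb
    refine ⟨x * y' + x' * y, add_mem (hmul _ hx _ hy') (hmul _ hx' _ hy), y * y',
      hmul _ hy _ hy', mul_ne_zero hy0 hy'0, ?_⟩
    field_simp
  | inv a _ ha =>
    obtain ⟨x, hx, y, hy, hy0, rfl⟩ := ha
    by_cases hx0 : x = 0
    · exact ⟨0, zero_mem _, 1, h1, one_ne_zero, by simp [hx0]⟩
    · exact ⟨y, hy, x, hx, hx0, by rw [inv_div]⟩
  | mul a b _ _ ha hb =>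
    obtain ⟨x, hx, y, hy, hy0, rfl⟩ := ha
    obtain ⟨x', hx', y', hy', hy'0, rfl⟩ := hb
    exact ⟨x * x', hmul _ hx _ hx', y * y', hmul _ hy _ hy', mul_ne_zero hy0 hy'0,
      by rw [div_mul_div_comm]⟩

end Frac

section Inst

variable (K₀ L : Type*) [Field K₀] [Field L] [Algebra ℚ K₀] [Algebra ℚ L] [Algebra K₀ L]
variable (F₀ : IntermediateField ℚ (LaurentSeries ℚ))

/-- the two scalar multiplications on Laurent series agree -/
theorem bcp_smul_def {R : Type*} [Field R] (c : R) (s : LaurentSeries R) :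
    c • s = algebraMap R (LaurentSeries R) c * s := by
  rw [algebraMap_laurentSeries_eq_single, HahnSeries.single_zero_mul_eq_smul]

/-- linear disjointness of `F₀ K₀` and `L` over `K₀` inside `F₀ L` -/
theorem bcp_ld :
    letI := bcfAlgebra K₀ L F₀
    BcpLD K₀ L ↥(laurentBaseChange K₀ F₀) ↥(laurentBaseChange L F₀) := by
  letI := bcfAlgebra K₀ L F₀
  intro n x hx
  rw [Fintype.linearIndependent_iff] at hx ⊢
  have h1 : LinearIndependent K₀
      (fun i => ((x i : ↥(laurentBaseChange K₀ F₀)) : LaurentSeries K₀)) := by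
    rw [Fintype.linearIndependent_iff]
    intro g hg
    apply hx g
    apply Subtype.ext
    rw [ZeroMemClass.coe_zero, ← hg, AddSubmonoidClass.coe_finsetSum]
    refine Finset.sum_congr rfl (fun i _ => ?_)
    rw [bcp_smul_def, Algebra.smul_def]
    rfl
  have h2 := bcf_linearIndependent K₀ L _ h1
  rw [Fintype.linearIndependent_iff] at h2
  intro g hg
  apply h2 g
  have h3 := congrArg (fun z : ↥(laurentBaseChange L F₀) => (z : LaurentSeries L)) hg
  simp only [AddSubmonoidClass.coe_finsetSum, ZeroMemClass.coe_zero] at h3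
  rw [← h3]
  refine Finset.sum_congr rfl (fun i _ => ?_)
  rw [bcp_smul_def, Algebra.smul_def]
  rfl

/-- **BASECHANGE**: an element of `F₀ L` all of whose coefficients lie in `K₀` lies in
`F₀ K₀`. -/
theorem bcp_mem_of_coeff (u : ↥(laurentBaseChange L F₀)) (u₀ : LaurentSeries K₀)
    (hu : (u : LaurentSeries L) = coeffMap (algebraMap K₀ L) u₀) :
    u₀ ∈ laurentBaseChange K₀ F₀ := by
  classical
  letI := bcfAlgebra K₀ L F₀
  obtain ⟨x, hx, y, hy, hy0, e⟩ := bcp_frac_span (K := L) (bcf_adjoin_eq_top K₀ L F₀) u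
  obtain ⟨n, c, gx, rfl⟩ := Submodule.mem_span_set'.mp hx
  obtain ⟨m, d, gy, rfl⟩ := Submodule.mem_span_set'.mp hy
  choose xs hxs using fun i => (gx i).2
  choose ys hys using fun j => (gy j).2
  have hgy : ∀ j, ((gy j : ↥(laurentBaseChange L F₀)) : LaurentSeries L) =
      coeffMap (algebraMap K₀ L) ((ys j : ↥(laurentBaseChange K₀ F₀)) : LaurentSeries K₀) :=
    fun j => by rw [← hys j]; rfl
  have hgx : ∀ i, ((gx i : ↥(laurentBaseChange L F₀)) : LaurentSeries L) =
      coeffMap (algebraMap K₀ L) ((xs i : ↥(laurentBaseChange K₀ F₀)) : LaurentSeries K₀) :=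
    fun i => by rw [← hxs i]; rfl
  have hcoeY : ((∑ j, d j • (gy j : ↥(laurentBaseChange L F₀)) : ↥(laurentBaseChange L F₀)) :
      LaurentSeries L) = ∑ j, d j • coeffMap (algebraMap K₀ L)
        ((ys j : ↥(laurentBaseChange K₀ F₀)) : LaurentSeries K₀) := by
    rw [AddSubmonoidClass.coe_finsetSum]
    refine Finset.sum_congr rfl (fun j _ => ?_)
    rw [bcp_smul_def, Algebra.smul_def, ← hgy j]
    rfl
  have hcoeX : ((∑ i, c i • (gx i : ↥(laurentBaseChange L F₀)) : ↥(laurentBaseChange L F₀)) :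
      LaurentSeries L) = ∑ i, c i • coeffMap (algebraMap K₀ L)
        ((xs i : ↥(laurentBaseChange K₀ F₀)) : LaurentSeries K₀) := by
    rw [AddSubmonoidClass.coe_finsetSum]
    refine Finset.sum_congr rfl (fun i _ => ?_)
    rw [bcp_smul_def, Algebra.smul_def, ← hgx i]
    rfl
  -- the relation in `L((q))`
  have hrel : coeffMap (algebraMap K₀ L) u₀ *
      ∑ j, d j • coeffMap (algebraMap K₀ L) ((ys j : ↥(laurentBaseChange K₀ F₀)) : LaurentSeries K₀)
      = ∑ i, c i • coeffMap (algebraMap K₀ L)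
          ((xs i : ↥(laurentBaseChange K₀ F₀)) : LaurentSeries K₀) := by
    have e' : u * ∑ j, d j • (gy j : ↥(laurentBaseChange L F₀)) =
        ∑ i, c i • (gx i : ↥(laurentBaseChange L F₀)) := by
      rw [e, div_mul_cancel₀ _ hy0]
    have e'' := congrArg (fun z : ↥(laurentBaseChange L F₀) => (z : LaurentSeries L)) e'
    simp only [MulMemClass.coe_mul] at e''
    rw [hcoeY, hcoeX, hu] at e''
    exact e''
  set yL : LaurentSeries L :=
    ∑ j, d j • coeffMap (algebraMap K₀ L)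
      ((ys j : ↥(laurentBaseChange K₀ F₀)) : LaurentSeries K₀) with hyL
  have hyL0 : yL ≠ 0 := by
    intro h
    apply hy0
    apply Subtype.ext
    rw [hcoeY]
    exact h
  obtain ⟨k, hk⟩ : ∃ k, yL.coeff k ≠ 0 := by
    by_contra h
    push Not at h
    exact hyL0 (HahnSeries.ext (funext h))
  obtain ⟨lam, hlam⟩ : ∃ lam : Module.Dual K₀ L, lam (yL.coeff k) ≠ 0 := by
    by_contra h
    push Not at h
    exact hk ((Module.forall_dual_apply_eq_zero_iff K₀ _).mp h)
  have hlin : ∀ (l : L) (t : K₀), lam (l * algebraMap K₀ L t) = lam l * t := by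
    intro l t
    rw [mul_comm l, ← Algebra.smul_def, map_smul, smul_eq_mul, mul_comm]
  set X : LaurentSeries K₀ :=
    ∑ i, lam (c i) • ((xs i : ↥(laurentBaseChange K₀ F₀)) : LaurentSeries K₀) with hX
  set Y : LaurentSeries K₀ :=
    ∑ j, lam (d j) • ((ys j : ↥(laurentBaseChange K₀ F₀)) : LaurentSeries K₀) with hY
  have hXmem : X ∈ laurentBaseChange K₀ F₀ :=
    sum_mem (fun i _ => by
      rw [bcp_smul_def]
      exact mul_mem ((laurentBaseChange K₀ F₀).algebraMap_mem _) (xs i).2)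
  have hYmem : Y ∈ laurentBaseChange K₀ F₀ :=
    sum_mem (fun j _ => by
      rw [bcp_smul_def]
      exact mul_mem ((laurentBaseChange K₀ F₀).algebraMap_mem _) (ys j).2)
  have hYk : Y.coeff k = lam (yL.coeff k) := by
    rw [hY, hyL, HahnSeries.coeff_sum, HahnSeries.coeff_sum, map_sum]
    refine Finset.sum_congr rfl (fun j _ => ?_)
    rw [HahnSeries.coeff_smul, HahnSeries.coeff_smul, coeffMap_coeff, smul_eq_mul, smul_eq_mul,
      hlin]
  have hY0 : Y ≠ 0 := by
    intro h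
    apply hlam
    rw [← hYk, h, HahnSeries.coeff_zero]
  have key : u₀ * Y = X := by
    have hrel' : ∑ j, d j • coeffMap (algebraMap K₀ L)
        (u₀ * ((ys j : ↥(laurentBaseChange K₀ F₀)) : LaurentSeries K₀)) =
        ∑ i, c i • coeffMap (algebraMap K₀ L)
          ((xs i : ↥(laurentBaseChange K₀ F₀)) : LaurentSeries K₀) := by
      rw [← hrel, Finset.mul_sum]
      refine Finset.sum_congr rfl (fun j _ => ?_)
      rw [map_mul, bcp_smul_def, bcp_smul_def]
      ring
    rw [hY, Finset.mul_sum]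
    ext a
    have h := congrArg (fun z : LaurentSeries L => lam (z.coeff a)) hrel'
    simp only [HahnSeries.coeff_sum, HahnSeries.coeff_smul, coeffMap_coeff, smul_eq_mul,
      map_sum, hlin] at h
    rw [hX, HahnSeries.coeff_sum, HahnSeries.coeff_sum]
    have h4 : ∀ j, (u₀ * lam (d j) • ((ys j : ↥(laurentBaseChange K₀ F₀)) : LaurentSeries K₀)).coeff a
        = lam (d j) * (u₀ * ((ys j : ↥(laurentBaseChange K₀ F₀)) : LaurentSeries K₀)).coeff a := by
      intro j
      rw [bcp_smul_def, ← mul_assoc, mul_comm u₀, mul_assoc, ← bcp_smul_def,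
        HahnSeries.coeff_smul, smul_eq_mul]
    simp only [h4, HahnSeries.coeff_smul, smul_eq_mul]
    exact h
  have hfin : u₀ = X / Y := by
    rw [← key, mul_div_cancel_right₀ _ hY0]
  rw [hfin]
  exact div_mem hXmem hYmem

variable (hdeg₀ : ∀ P : Place K₀ ↥(laurentBaseChange K₀ F₀), P.deg = 1)

/-- the place of `F₀ L` above a place of `F₀ K₀` -/
def bcpPlace : Place K₀ ↥(laurentBaseChange K₀ F₀) → Place L ↥(laurentBaseChange L F₀) :=
  letI := bcfAlgebra K₀ L F₀
  letI := bcfAlgebraConst K₀ L F₀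
  haveI := bcf_isScalarTower_const K₀ L F₀
  haveI := bcf_isScalarTower K₀ L F₀
  bcpMap (bcp_ld K₀ L F₀) (bcf_adjoin_eq_top K₀ L F₀) hdeg₀

theorem bcpPlace_ord (P : Place K₀ ↥(laurentBaseChange K₀ F₀)) (y : ↥(laurentBaseChange K₀ F₀)) :
    (bcpPlace K₀ L F₀ hdeg₀ P).ord (bcfHom K₀ L F₀ y) = P.ord y := by
  letI := bcfAlgebra K₀ L F₀
  letI := bcfAlgebraConst K₀ L F₀
  haveI := bcf_isScalarTower_const K₀ L F₀
  haveI := bcf_isScalarTower K₀ L F₀
  exact bcpMap_ord (bcp_ld K₀ L F₀) (bcf_adjoin_eq_top K₀ L F₀) hdeg₀ P y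

theorem bcpPlace_deg (P : Place K₀ ↥(laurentBaseChange K₀ F₀)) :
    (bcpPlace K₀ L F₀ hdeg₀ P).deg = 1 := by
  letI := bcfAlgebra K₀ L F₀
  letI := bcfAlgebraConst K₀ L F₀
  haveI := bcf_isScalarTower_const K₀ L F₀
  haveI := bcf_isScalarTower K₀ L F₀
  exact bcpMap_deg (bcp_ld K₀ L F₀) (bcf_adjoin_eq_top K₀ L F₀) hdeg₀ P

/-- uniqueness of the place above `P` -/
theorem bcpPlace_eq_of_ord (P : Place K₀ ↥(laurentBaseChange K₀ F₀))
    (Q : Place L ↥(laurentBaseChange L F₀))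
    (h : ∀ y : ↥(laurentBaseChange K₀ F₀), Q.ord (bcfHom K₀ L F₀ y) = P.ord y) :
    Q = bcpPlace K₀ L F₀ hdeg₀ P := by
  letI := bcfAlgebra K₀ L F₀
  letI := bcfAlgebraConst K₀ L F₀
  haveI := bcf_isScalarTower_const K₀ L F₀
  haveI := bcf_isScalarTower K₀ L F₀
  exact bcpMap_eq_of_ord (bcp_ld K₀ L F₀) (bcf_adjoin_eq_top K₀ L F₀) hdeg₀ P Q h

theorem bcpPlace_injective : Function.Injective (bcpPlace K₀ L F₀ hdeg₀) := by
  letI := bcfAlgebra K₀ L F₀
  letI := bcfAlgebraConst K₀ L F₀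
  haveI := bcf_isScalarTower_const K₀ L F₀
  haveI := bcf_isScalarTower K₀ L F₀
  exact bcpMap_injective (bcp_ld K₀ L F₀) (bcf_adjoin_eq_top K₀ L F₀) hdeg₀

/-- every place of `F₀ L` is trivial on `F₀ K₀` or is the place above a place of `F₀ K₀` -/
theorem bcpPlace_range (Q : Place L ↥(laurentBaseChange L F₀)) :
    (∀ y : ↥(laurentBaseChange K₀ F₀), y ≠ 0 → Q.ord (bcfHom K₀ L F₀ y) = 0) ∨
      Q ∈ Set.range (bcpPlace K₀ L F₀ hdeg₀) := by
  letI := bcfAlgebra K₀ L F₀
  letI := bcfAlgebraConst K₀ L F₀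
  haveI := bcf_isScalarTower_const K₀ L F₀
  haveI := bcf_isScalarTower K₀ L F₀
  exact bcp_range (bcp_ld K₀ L F₀) (bcf_adjoin_eq_top K₀ L F₀) hdeg₀ Q

/-- base change of divisors -/
def bcpDivL : Divisor K₀ ↥(laurentBaseChange K₀ F₀) →+ Divisor L ↥(laurentBaseChange L F₀) :=
  Finsupp.mapDomain.addMonoidHom (bcpPlace K₀ L F₀ hdeg₀)

theorem bcpDivL_apply_place (D : Divisor K₀ ↥(laurentBaseChange K₀ F₀))
    (P : Place K₀ ↥(laurentBaseChange K₀ F₀)) :
    bcpDivL K₀ L F₀ hdeg₀ D (bcpPlace K₀ L F₀ hdeg₀ P) = D P :=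
  Finsupp.mapDomain_apply (bcpPlace_injective K₀ L F₀ hdeg₀) D P

theorem bcpDivL_apply_of_notMem (D : Divisor K₀ ↥(laurentBaseChange K₀ F₀))
    (Q : Place L ↥(laurentBaseChange L F₀)) (hQ : Q ∉ Set.range (bcpPlace K₀ L F₀ hdeg₀)) :
    bcpDivL K₀ L F₀ hdeg₀ D Q = 0 :=
  Finsupp.mapDomain_of_notMem_range _ _ hQ

theorem bcpDivL_single (P : Place K₀ ↥(laurentBaseChange K₀ F₀)) (n : ℤ) :
    bcpDivL K₀ L F₀ hdeg₀ (Finsupp.single P n) =
      Finsupp.single (bcpPlace K₀ L F₀ hdeg₀ P) n :=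
  Finsupp.mapDomain_single

/-- the divisor of `bcfHom y` is the base change of the divisor of `y` -/
theorem bcpDivL_ord (y : ↥(laurentBaseChange K₀ F₀)) (hy : y ≠ 0)
    (D : Divisor K₀ ↥(laurentBaseChange K₀ F₀)) (hD : ∀ v, D v = v.ord y)
    (Q : Place L ↥(laurentBaseChange L F₀)) :
    bcpDivL K₀ L F₀ hdeg₀ D Q = Q.ord (bcfHom K₀ L F₀ y) := by
  by_cases hQ : Q ∈ Set.range (bcpPlace K₀ L F₀ hdeg₀)
  · obtain ⟨P, rfl⟩ := hQ
    rw [bcpDivL_apply_place, hD, bcpPlace_ord]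
  · rw [bcpDivL_apply_of_notMem K₀ L F₀ hdeg₀ D Q hQ]
    rcases bcpPlace_range K₀ L F₀ hdeg₀ Q with h | h
    · exact (h y hy).symm
    · exact absurd h hQ

theorem bcpDivL_degree (D : Divisor K₀ ↥(laurentBaseChange K₀ F₀)) :
    Divisor.degree (bcpDivL K₀ L F₀ hdeg₀ D) = Divisor.degree D := by
  induction D using Finsupp.induction_linear with
  | zero => simp
  | add f g hf hg => rw [map_add, map_add, hf, hg, map_add]
  | single P n =>
    rw [bcpDivL_single, Divisor.degree_single, Divisor.degree_single, bcpPlace_deg, hdeg₀ P]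

theorem bcpDivL_principal (D : Divisor K₀ ↥(laurentBaseChange K₀ F₀))
    (hD : D ∈ Divisor.principal (K := K₀) (F := ↥(laurentBaseChange K₀ F₀))) :
    bcpDivL K₀ L F₀ hdeg₀ D ∈
      Divisor.principal (K := L) (F := ↥(laurentBaseChange L F₀)) := by
  obtain ⟨f, hf, hDf⟩ := hD
  exact ⟨bcfHom K₀ L F₀ f, (map_ne_zero _).mpr hf,
    fun Q => bcpDivL_ord K₀ L F₀ hdeg₀ f hf D hDf Q⟩

/-- base change of divisors of degree zero -/
def bcpDivL0 : Divisor.degZero (K := K₀) (F := ↥(laurentBaseChange K₀ F₀)) →+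
    Divisor.degZero (K := L) (F := ↥(laurentBaseChange L F₀)) :=
  ((bcpDivL K₀ L F₀ hdeg₀).comp
    (Divisor.degZero (K := K₀) (F := ↥(laurentBaseChange K₀ F₀))).subtype).codRestrict
    (Divisor.degZero (K := L) (F := ↥(laurentBaseChange L F₀)))
    (fun D => by
      rw [Divisor.mem_degZero]
      show Divisor.degree (bcpDivL K₀ L F₀ hdeg₀ (D : Divisor K₀ _)) = 0
      rw [bcpDivL_degree]
      exact D.2)

theorem bcpDivL0_coe (D : Divisor.degZero (K := K₀) (F := ↥(laurentBaseChange K₀ F₀))) :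
    ((bcpDivL0 K₀ L F₀ hdeg₀ D : Divisor.degZero (K := L) (F := ↥(laurentBaseChange L F₀))) :
      Divisor L ↥(laurentBaseChange L F₀)) = bcpDivL K₀ L F₀ hdeg₀ (D : Divisor K₀ _) := rfl

/-- **BASECHANGE (a)**: base change of divisor classes of degree zero -/
def bcpPicL : Pic0 K₀ ↥(laurentBaseChange K₀ F₀) →+ Pic0 L ↥(laurentBaseChange L F₀) :=
  QuotientAddGroup.map _ _ (bcpDivL0 K₀ L F₀ hdeg₀) (by
    intro D hD
    rw [AddSubgroup.mem_comap, AddSubgroup.mem_addSubgroupOf]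
    exact bcpDivL_principal K₀ L F₀ hdeg₀ _ (AddSubgroup.mem_addSubgroupOf.mp hD))

theorem bcpPicL_mk (D : Divisor.degZero (K := K₀) (F := ↥(laurentBaseChange K₀ F₀))) :
    bcpPicL K₀ L F₀ hdeg₀ (Pic0.mk D) = Pic0.mk (bcpDivL0 K₀ L F₀ hdeg₀ D) := rfl

end Inst

end Fermat.Agent.S29
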