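import Fermat.Agent.S29.HeckeAnaPhi
import Fermat.Agent.S29.BaseChangeInst

/-!
# S29, package HECKE-ANA, part 3: Hecke equivariance of the comparison map

`Φ = phiHom ∘ (base change ℚ̄ → ℂ)` intertwines the Hecke operator `T_ℓ` on `J₀(N)[p]` with the
transfer operator `heckeTr N ℓ` on `Hom(Γ₀(N), ℤ/p)`, for every analytic model `M` of the function
field of `X₀(N)` over `ℂ` whose ring consists of weakly holomorphic functions and whose embedding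
is the `q`-expansion.
-/

set_option autoImplicit false

open AlgebraicCurve UpperHalfPlane ModularForm CongruenceSubgroup ModularCurve
open scoped MatrixGroups Manifold

namespace Fermat.Agent.S29

open Fermat.Agent.S24 Fermat.Agent.S18 Fermat.Agent.S37

theorem hkac_mk_eq_zero_iff {K F : Type*} [Field K] [Field F] [Algebra K F]
    (D : Divisor.degZero (K := K) (F := F)) :
    Pic0.mk D = 0 ↔ ∃ f : F, f ≠ 0 ∧ ∀ v : Place K F, (D : Divisor K F) v = v.ord f := by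
  unfold Pic0.mk
  rw [QuotientAddGroup.eq_zero_iff, AddSubgroup.mem_addSubgroupOf, Divisor.mem_principal]
  rfl

/-- **HECKE-ANA.**  Hecke equivariance of `phiHom ∘ bcpPicL` on `p`-torsion classes. -/
theorem hkac_main [Algebra (AlgebraicClosure ℚ) ℂ] (N : ℕ) [NeZero N] (p : ℕ) [NeZero p]
    (M : PhiModel ↥(laurentBaseChange ℂ (modularFunctionFieldFull N)) (Gamma0 N))
    (hR : M.R ≤ whSubring)
    (hι : ∀ a : M.R, ((M.ι a : ↥(laurentBaseChange ℂ (modularFunctionFieldFull N))) :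
      LaurentSeries ℂ) = qLaurent ⟨(a : ℍ → ℂ), hR a.2⟩)
    (hdeg₀ : ∀ P : Place (AlgebraicClosure ℚ) ↥(modularFunctionFieldBar N), P.deg = 1)
    {ℓ : ℕ} (hℓ : ℓ.Prime) (hℓN : ¬ ℓ ∣ N)
    (c0 : JZero N) (hc0 : (p : ℤ) • c0 = 0)
    (c c' : ↥(Pic0.torsion ℂ ↥(laurentBaseChange ℂ (modularFunctionFieldFull N)) p))
    (hc : c.1 = bcpPicL (AlgebraicClosure ℚ) ℂ (modularFunctionFieldFull N) hdeg₀ c0)
    (hc' : c'.1 = bcpPicL (AlgebraicClosure ℚ) ℂ (modularFunctionFieldFull N) hdeg₀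
      (heckeOperatorBar N ⟨ℓ, hℓ⟩ c0)) :
    phiHom M p c' = heckeTr N ℓ (ZMod p) (phiHom M p c) := by
  have : NeZero ℓ := ⟨hℓ.ne_zero⟩
  obtain ⟨D0, rfl⟩ := Pic0.mk_surjective c0
  -- the function `f0` with `div f0 = p D0`
  have h1 : Pic0.mk ((p : ℤ) • D0) = 0 := hc0
  obtain ⟨f0, hf0, hdiv0⟩ := (hkac_mk_eq_zero_iff _).mp h1
  have hdiv0' : ∀ v : Place (AlgebraicClosure ℚ) ↥(modularFunctionFieldBar N),
      ((p : ℤ) • (D0 : Divisor (AlgebraicClosure ℚ) ↥(modularFunctionFieldBar N))) v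
        = v.ord f0 := by
    intro v
    rw [← hdiv0 v, AddSubgroup.coe_zsmul]
  -- the Hecke side over `ℚ̄`
  set x0 := hkdNorm N ℓ (heckeBetaBar (AlgebraicClosure ℚ) N ℓ f0) with hx0
  have hx00 : x0 ≠ 0 :=
    hkdNorm_ne_zero N ℓ (by rw [Ne, map_eq_zero]; exact hf0)
  have hT : ∀ v : Place (AlgebraicClosure ℚ) ↥(modularFunctionFieldBar N),
      ((p : ℤ) • hkdT N ℓ (D0 : Divisor (AlgebraicClosure ℚ) ↥(modularFunctionFieldBar N))) v
        = v.ord x0 := by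
    intro v
    rw [← map_zsmul]
    exact hkdT_principal N ℓ f0 hf0 _ hdiv0' v
  have hTc : heckeOperatorBar N ⟨ℓ, hℓ⟩ (Pic0.mk D0)
      = Pic0.mk ⟨hkdT N ℓ (D0 : Divisor _ _), hkdT_mem_degZero N ℓ D0.2⟩ :=
    hkd_heckeOperatorBar_mk N ⟨ℓ, hℓ⟩ D0
  have hD : Pic0.mk (bcpDivL0 (AlgebraicClosure ℚ) ℂ (modularFunctionFieldFull N) hdeg₀ D0) = c.1 := hc.symm
  have hD' : Pic0.mk (bcpDivL0 (AlgebraicClosure ℚ) ℂ (modularFunctionFieldFull N) hdeg₀ ⟨hkdT N ℓ (D0 : Divisor _ _), hkdT_mem_degZero N ℓ D0.2⟩) = c'.1 := by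
    rw [hc', hTc]
    rfl
  have hdiv : ∀ Q : Place ℂ ↥(laurentBaseChange ℂ (modularFunctionFieldFull N)), (p : ℤ) * ((bcpDivL0 (AlgebraicClosure ℚ) ℂ (modularFunctionFieldFull N) hdeg₀ D0 : Divisor.degZero (K := ℂ) (F := ↥(laurentBaseChange ℂ (modularFunctionFieldFull N)))) : Divisor ℂ ↥(laurentBaseChange ℂ (modularFunctionFieldFull N))) Q = Q.ord (bcfHom (AlgebraicClosure ℚ) ℂ (modularFunctionFieldFull N) f0) := by
    intro Q
    rw [bcpDivL0_coe, ← bcpDivL_ord (AlgebraicClosure ℚ) ℂ (modularFunctionFieldFull N) hdeg₀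
      f0 hf0 _ hdiv0' Q, map_zsmul, Finsupp.smul_apply, smul_eq_mul]
  have hdiv' : ∀ Q : Place ℂ ↥(laurentBaseChange ℂ (modularFunctionFieldFull N)), (p : ℤ) * ((bcpDivL0 (AlgebraicClosure ℚ) ℂ (modularFunctionFieldFull N) hdeg₀ ⟨hkdT N ℓ (D0 : Divisor _ _), hkdT_mem_degZero N ℓ D0.2⟩ : Divisor.degZero (K := ℂ) (F := ↥(laurentBaseChange ℂ (modularFunctionFieldFull N)))) : Divisor ℂ ↥(laurentBaseChange ℂ (modularFunctionFieldFull N))) Q = Q.ord (bcfHom (AlgebraicClosure ℚ) ℂ (modularFunctionFieldFull N) x0) := by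
    intro Q
    rw [bcpDivL0_coe, ← bcpDivL_ord (AlgebraicClosure ℚ) ℂ (modularFunctionFieldFull N) hdeg₀
      x0 hx00 _ hT Q, map_zsmul, Finsupp.smul_apply, smul_eq_mul]
  have hh : bcfHom (AlgebraicClosure ℚ) ℂ (modularFunctionFieldFull N) f0 ≠ 0 := fun h =>
    hf0 (bcfHom_injective (AlgebraicClosure ℚ) ℂ (modularFunctionFieldFull N)
      (h.trans (map_zero _).symm))
  have hh' : bcfHom (AlgebraicClosure ℚ) ℂ (modularFunctionFieldFull N) x0 ≠ 0 := fun h =>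
    hx00 (bcfHom_injective (AlgebraicClosure ℚ) ℂ (modularFunctionFieldFull N)
      (h.trans (map_zero _).symm))
  have hrel : ∀ a b a₁ b₁ : M.R, b ≠ 0 → b₁ ≠ 0 →
      bcfHom (AlgebraicClosure ℚ) ℂ (modularFunctionFieldFull N) f0 * M.ι b = M.ι a →
      bcfHom (AlgebraicClosure ℚ) ℂ (modularFunctionFieldFull N) x0 * M.ι b₁ = M.ι a₁ →
      ∀ τ, (a₁ : ℍ → ℂ) τ * hkaProd ℓ (b : ℍ → ℂ) τ
        = (b₁ : ℍ → ℂ) τ * hkaProd ℓ (a : ℍ → ℂ) τ := by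
    intro a b a₁ b₁ _ _ hab hab₁ τ
    have e1 := congrArg (Subtype.val) hab
    have e2 := congrArg (Subtype.val) hab₁
    have e1' : hkaK (algebraMap (AlgebraicClosure ℚ) ℂ) N f0 * qLaurent ⟨(b : ℍ → ℂ), hR b.2⟩
        = qLaurent ⟨(a : ℍ → ℂ), hR a.2⟩ := by
      rw [← hι a, ← hι b]
      exact e1
    have e2' : hkaK (algebraMap (AlgebraicClosure ℚ) ℂ) N
          (hkdNorm N ℓ (heckeBetaBar (AlgebraicClosure ℚ) N ℓ f0))
          * qLaurent ⟨(b₁ : ℍ → ℂ), hR b₁.2⟩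
        = qLaurent ⟨(a₁ : ℍ → ℂ), hR a₁.2⟩ := by
      rw [← hι a₁, ← hι b₁]
      exact e2
    exact hka_main (algebraMap (AlgebraicClosure ℚ) ℂ) N ℓ hℓ hℓN f0 (hR a.2) (hR b.2)
      (hR a₁.2) (hR b₁.2) e1' e2' τ
  exact hkap_main M p hℓ hℓN c c' _ hD _ hh hdiv _ hD' _ hh' hdiv' hrel

end Fermat.Agent.S29
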