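import Mathlib

/-!
# S29, package EIS (part 1): weighted Eisenstein sums

For a bounded weight `w : (Fin 2 → ℤ) → ℂ` and `k ≥ 3` the series
`eisxW k w z = ∑' v, w v * (v 0 * z + v 1) ^ (-k)` is holomorphic on the upper half plane,
its slash by `A ∈ SL(2, ℤ)` is the weighted sum for the re-indexed weight `v ↦ w (v ᵥ* A⁻¹)`,
it is bounded at `i∞`, and it tends at `i∞` to the sum of the terms with `v 0 = 0`.

Names are prefixed `eisx`.
-/

set_option autoImplicit false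

noncomputable section

open Complex UpperHalfPlane Set Filter Topology ModularForm EisensteinSeries
  CongruenceSubgroup

open scoped UpperHalfPlane MatrixGroups Manifold Matrix

namespace Fermat.Agent.S29

/-- The weighted Eisenstein sum `∑' v, w v * (v 0 * z + v 1) ^ (-k)`. -/
def eisxW (k : ℤ) (w : (Fin 2 → ℤ) → ℂ) (z : ℍ) : ℂ :=
  ∑' v : Fin 2 → ℤ, w v * eisSummand k v z

/-- The sum of the norms of all the summands. -/
def eisxG (k : ℤ) (z : ℍ) : ℝ := ∑' v : Fin 2 → ℤ, ‖eisSummand k v z‖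

theorem eisx_norm_le {k : ℤ} {w : (Fin 2 → ℤ) → ℂ} (hw : ∀ v, ‖w v‖ ≤ 1) (v : Fin 2 → ℤ)
    (z : ℍ) : ‖w v * eisSummand k v z‖ ≤ ‖eisSummand k v z‖ := by
  rw [norm_mul]
  exact mul_le_of_le_one_left (norm_nonneg _) (hw v)

theorem eisxW_summable_norm {k : ℤ} (hk : 3 ≤ k) {w : (Fin 2 → ℤ) → ℂ} (hw : ∀ v, ‖w v‖ ≤ 1)
    (z : ℍ) : Summable fun v : Fin 2 → ℤ => ‖w v * eisSummand k v z‖ :=
  (summable_norm_eisSummand hk z).of_nonneg_of_le (fun _ => norm_nonneg _)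
    (fun v => eisx_norm_le hw v z)

theorem eisxW_summable {k : ℤ} (hk : 3 ≤ k) {w : (Fin 2 → ℤ) → ℂ} (hw : ∀ v, ‖w v‖ ≤ 1)
    (z : ℍ) : Summable fun v : Fin 2 → ℤ => w v * eisSummand k v z :=
  (eisxW_summable_norm hk hw z).of_norm

theorem eisxW_norm_le {k : ℤ} (hk : 3 ≤ k) {w : (Fin 2 → ℤ) → ℂ} (hw : ∀ v, ‖w v‖ ≤ 1)
    (z : ℍ) : ‖eisxW k w z‖ ≤ eisxG k z := by
  refine (norm_tsum_le_tsum_norm (eisxW_summable_norm hk hw z)).trans ?_
  exact (eisxW_summable_norm hk hw z).tsum_le_tsum (fun v => eisx_norm_le hw v z)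
    (summable_norm_eisSummand hk z)

/-- Local uniform convergence of the weighted sum. -/
theorem eisxW_tendstoLocallyUniformly {k : ℤ} (hk : 3 ≤ k) {w : (Fin 2 → ℤ) → ℂ}
    (hw : ∀ v, ‖w v‖ ≤ 1) :
    TendstoLocallyUniformly (fun (s : Finset (Fin 2 → ℤ)) ↦ (∑ x ∈ s, w x * eisSummand k x ·))
      (eisxW k w ·) Filter.atTop := by
  have hk' : (2 : ℝ) < k := by norm_cast
  have p_sum : Summable fun x : Fin 2 → ℤ ↦ ‖x‖ ^ (-k) :=
    mod_cast (summable_one_div_norm_rpow hk')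
  simp only [tendstoLocallyUniformly_iff_forall_isCompact, eisxW]
  intro K hK
  obtain ⟨A, B, hB, HABK⟩ := subset_verticalStrip_of_isCompact hK
  refine (tendstoUniformlyOn_tsum (hu := p_sum.mul_left <| r ⟨⟨A, B⟩, hB⟩ ^ (-k : ℝ))
    (fun p z hz ↦ ?_)).mono HABK
  refine (eisx_norm_le hw p z).trans ?_
  simpa only [eisSummand, one_div, ← zpow_neg, norm_zpow, ← Real.rpow_intCast,
    Int.cast_neg] using summand_bound_of_mem_verticalStrip (by positivity) p hB hz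

theorem eisxW_tendstoLocallyUniformlyOn {k : ℤ} (hk : 3 ≤ k) {w : (Fin 2 → ℤ) → ℂ}
    (hw : ∀ v, ‖w v‖ ≤ 1) :
    TendstoLocallyUniformlyOn (fun (s : Finset (Fin 2 → ℤ)) ↦
      ↑ₕ(fun (z : ℍ) ↦ ∑ x ∈ s, w x * eisSummand k x z)) (↑ₕ(eisxW k w))
          Filter.atTop {z : ℂ | 0 < z.im} := by
  rw [← upperHalfPlaneSet, ← range_coe, ← image_univ]
  apply TendstoLocallyUniformlyOn.comp (s := ⊤) _ _ _ (OpenPartialHomeomorph.continuousOn_symm _)
  · simp only [Set.top_eq_univ, tendstoLocallyUniformlyOn_univ]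
    apply eisxW_tendstoLocallyUniformly hk hw
  · simp only [IsOpenEmbedding.toOpenPartialHomeomorph_target, Set.top_eq_univ, mapsTo_range_iff,
    Set.mem_univ, forall_const]

/-- The weighted Eisenstein sum is holomorphic. -/
theorem eisxW_mdiff {k : ℤ} (hk : 3 ≤ k) {w : (Fin 2 → ℤ) → ℂ} (hw : ∀ v, ‖w v‖ ≤ 1) :
    MDiff (eisxW k w) := by
  intro τ
  suffices DifferentiableAt ℂ (↑ₕ(eisxW k w)) τ.1 by
    convert!
      MDifferentiableAt.comp τ (DifferentiableAt.mdifferentiableAt this) τ.mdifferentiable_coe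
    exact funext fun z ↦ (comp_ofComplex (eisxW k w) z).symm
  refine DifferentiableOn.differentiableAt ?_ (isOpen_upperHalfPlaneSet.mem_nhds τ.2)
  refine (eisxW_tendstoLocallyUniformlyOn hk hw).differentiableOn
    (Eventually.of_forall fun s ↦ ?_) isOpen_upperHalfPlaneSet
  have h : (↑ₕ(fun (z : ℍ) ↦ ∑ x ∈ s, w x * eisSummand k x z)) =
      fun z : ℂ => ∑ x ∈ s, w x * (↑ₕ(eisSummand k x)) z := by
    funext z
    simp [Function.comp]
  rw [h]
  exact DifferentiableOn.fun_sum fun x _ ↦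
    (eisSummand_extension_differentiableOn k x).const_mul (w x)

/-- Right multiplication by `A ∈ SL(2, ℤ)` as a permutation of `ℤ²`. -/
def eisxEquiv (A : SL(2, ℤ)) : (Fin 2 → ℤ) ≃ (Fin 2 → ℤ) where
  toFun v := v ᵥ* A.1
  invFun v := v ᵥ* (A⁻¹ : SL(2, ℤ)).1
  left_inv v := by
    simp_rw [Matrix.vecMul_vecMul, ← Matrix.SpecialLinearGroup.coe_mul, mul_inv_cancel,
      Matrix.SpecialLinearGroup.coe_one, Matrix.vecMul_one]
  right_inv v := by
    simp_rw [Matrix.vecMul_vecMul, ← Matrix.SpecialLinearGroup.coe_mul, inv_mul_cancel,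
      Matrix.SpecialLinearGroup.coe_one, Matrix.vecMul_one]

theorem eisxEquiv_apply (A : SL(2, ℤ)) (v : Fin 2 → ℤ) : eisxEquiv A v = v ᵥ* A.1 := rfl

theorem eisx_vecMul_inv (A : SL(2, ℤ)) (v : Fin 2 → ℤ) :
    (v ᵥ* A.1) ᵥ* (A⁻¹ : SL(2, ℤ)).1 = v :=
  (eisxEquiv A).left_inv v

/-- **Slash action on weighted Eisenstein sums**: re-indexing of the weight. -/
theorem eisxW_slash (k : ℤ) (w : (Fin 2 → ℤ) → ℂ) (A : SL(2, ℤ)) :
    eisxW k w ∣[k] A = eisxW k (fun v => w (v ᵥ* (A⁻¹ : SL(2, ℤ)).1)) := by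
  ext1 z
  rw [SL_slash_apply, _root_.zpow_neg,
    mul_inv_eq_iff_eq_mul₀ (zpow_ne_zero _ <| denom_ne_zero _ z)]
  simp only [eisxW]
  rw [← tsum_mul_right,
    ← (eisxEquiv A).tsum_eq (fun v => w (v ᵥ* (A⁻¹ : SL(2, ℤ)).1) * eisSummand k v z * denom A z ^ k)]
  refine tsum_congr fun v => ?_
  rw [eisxEquiv_apply, eisx_vecMul_inv, eisSummand_SL2_apply]
  ring

/-- The shear `(c, d) ↦ (c, c n + d)` of `ℤ²`. -/
def eisxShear (n : ℤ) : (Fin 2 → ℤ) ≃ (Fin 2 → ℤ) where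
  toFun v := ![v 0, v 0 * n + v 1]
  invFun v := ![v 0, v 1 - v 0 * n]
  left_inv v := by
    ext i
    fin_cases i <;> simp
  right_inv v := by
    ext i
    fin_cases i <;> simp

theorem eisxShear_zero (n : ℤ) (v : Fin 2 → ℤ) : eisxShear n v 0 = v 0 := rfl

theorem eisSummand_T_zpow (k : ℤ) (n : ℤ) (z : ℍ) (v : Fin 2 → ℤ) :
    eisSummand k v (ModularGroup.T ^ n • z) = eisSummand k (eisxShear n v) z := by
  simp only [eisSummand, ModularGroup.coe_T_zpow_smul_eq, eisxShear, Equiv.coe_fn_mk,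
    Matrix.cons_val_zero, Matrix.cons_val_one]
  congr 1
  push_cast
  ring

/-- Invariance of the sums of norms under translations. -/
theorem eisx_T_tsum (k : ℤ) (n : ℤ) (z : ℍ) (φ : ℤ → ℝ) :
    ∑' v : Fin 2 → ℤ, φ (v 0) * ‖eisSummand k v (ModularGroup.T ^ n • z)‖ =
      ∑' v : Fin 2 → ℤ, φ (v 0) * ‖eisSummand k v z‖ := by
  rw [← (eisxShear n).tsum_eq (fun v => φ (v 0) * ‖eisSummand k v z‖)]
  refine tsum_congr fun v => ?_
  rw [eisSummand_T_zpow, eisxShear_zero]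

theorem eisxG_T (k : ℤ) (n : ℤ) (z : ℍ) : eisxG k (ModularGroup.T ^ n • z) = eisxG k z := by
  have h := eisx_T_tsum k n z (fun _ => 1)
  simp only [one_mul] at h
  exact h

/-- Uniform bound for the sum of the norms on `2 ≤ im z`. -/
theorem eisxG_le {k : ℤ} (hk : 3 ≤ k) (z : ℍ) (hz : 2 ≤ z.im) :
    eisxG k z ≤ ∑' x : Fin 2 → ℤ, r ⟨⟨1, 2⟩, Nat.ofNat_pos⟩ ^ (-k) * ‖x‖ ^ (-k) := by
  obtain ⟨n, hn⟩ := ModularGroup_T_zpow_mem_verticalStrip z (N := 1) Nat.one_pos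
  rw [← eisxG_T k ((1 : ℕ) * n) z]
  have hk' : (2 : ℝ) < k := by norm_cast
  refine (summable_norm_eisSummand hk _).tsum_le_tsum (fun x => ?_) ?_
  · simp_rw [eisSummand, norm_zpow]
    exact_mod_cast
      summand_bound_of_mem_verticalStrip (lt_trans two_pos hk').le x two_pos
      (verticalStrip_anti_right ((1 : ℕ) : ℝ) hz hn)
  · exact_mod_cast (summable_one_div_norm_rpow hk').mul_left <| r ⟨⟨1, 2⟩, Nat.ofNat_pos⟩ ^ (-k)

/-- Weighted Eisenstein sums are bounded at `i∞`. -/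
theorem eisxW_bdd {k : ℤ} (hk : 3 ≤ k) {w : (Fin 2 → ℤ) → ℂ} (hw : ∀ v, ‖w v‖ ≤ 1) :
    IsBoundedAtImInfty (eisxW k w) := by
  rw [UpperHalfPlane.isBoundedAtImInfty_iff]
  exact ⟨∑' x : Fin 2 → ℤ, r ⟨⟨1, 2⟩, Nat.ofNat_pos⟩ ^ (-k) * ‖x‖ ^ (-k), 2, fun z hz =>
    (eisxW_norm_le hk hw z).trans (eisxG_le hk z hz)⟩

/-- Every slash of a weighted Eisenstein sum by an element of `SL(2, ℤ)` is bounded at `i∞`. -/
theorem eisxW_slash_bdd {k : ℤ} (hk : 3 ≤ k) {w : (Fin 2 → ℤ) → ℂ} (hw : ∀ v, ‖w v‖ ≤ 1)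
    (A : SL(2, ℤ)) : IsBoundedAtImInfty (eisxW k w ∣[k] A) := by
  rw [eisxW_slash]
  exact eisxW_bdd hk fun v => hw _

/-- The sum of the norms of the summands with `v 0 ≠ 0`. -/
def eisxH (k : ℤ) (z : ℍ) : ℝ :=
  ∑' v : Fin 2 → ℤ, (if v 0 = 0 then (0 : ℝ) else 1) * ‖eisSummand k v z‖

theorem eisxH_T (k : ℤ) (n : ℤ) (z : ℍ) : eisxH k (ModularGroup.T ^ n • z) = eisxH k z :=
  eisx_T_tsum k n z (fun c => if c = 0 then (0 : ℝ) else 1)

theorem eisxH_summand_le (k : ℤ) (v : Fin 2 → ℤ) (z : ℍ) :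
    (if v 0 = 0 then (0 : ℝ) else 1) * ‖eisSummand k v z‖ ≤ ‖eisSummand k v z‖ := by
  split_ifs
  · rw [zero_mul]
    exact norm_nonneg _
  · rw [one_mul]

theorem eisxH_summand_nonneg (k : ℤ) (v : Fin 2 → ℤ) (z : ℍ) :
    0 ≤ (if v 0 = 0 then (0 : ℝ) else 1) * ‖eisSummand k v z‖ := by
  split_ifs
  · rw [zero_mul]
  · rw [one_mul]
    exact norm_nonneg _

theorem eisxH_summable {k : ℤ} (hk : 3 ≤ k) (z : ℍ) :
    Summable fun v : Fin 2 → ℤ => (if v 0 = 0 then (0 : ℝ) else 1) * ‖eisSummand k v z‖ :=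
  (summable_norm_eisSummand hk z).of_nonneg_of_le (fun v => eisxH_summand_nonneg k v z)
    (fun v => eisxH_summand_le k v z)

/-- A summand with `v 0 ≠ 0` tends to `0` at `i∞`. -/
theorem eisSummand_tendsto_zero {k : ℤ} (hk : 0 < k) (v : Fin 2 → ℤ) (hv : v 0 ≠ 0) :
    Tendsto (fun z : ℍ => ‖eisSummand k v z‖) atImInfty (𝓝 0) := by
  have h1 : Tendsto (fun z : ℍ => ‖(v 0 : ℂ) * (z : ℂ) + v 1‖) atImInfty atTop := by
    refine tendsto_atTop_mono (fun z => ?_) (tendsto_comap (f := UpperHalfPlane.im) (x := atTop))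
    have h2 : ((v 0 : ℂ) * (z : ℂ) + v 1).im = (v 0 : ℝ) * z.im := by
      simp
    have h3 : |((v 0 : ℂ) * (z : ℂ) + v 1).im| ≤ ‖(v 0 : ℂ) * (z : ℂ) + v 1‖ :=
      Complex.abs_im_le_norm _
    rw [h2, abs_mul, abs_of_pos z.im_pos] at h3
    have h4 : (1 : ℝ) ≤ |(v 0 : ℝ)| := by
      exact_mod_cast Int.one_le_abs hv
    calc z.im = 1 * z.im := (one_mul _).symm
      _ ≤ |(v 0 : ℝ)| * z.im := mul_le_mul_of_nonneg_right h4 z.im_pos.le
      _ ≤ _ := h3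
  have h5 : Tendsto (fun x : ℝ => x ^ (-k)) atTop (𝓝 0) :=
    tendsto_zpow_atTop_zero (neg_neg_of_pos hk)
  have h6 := h5.comp h1
  refine h6.congr fun z => ?_
  simp only [Function.comp, eisSummand, norm_zpow]

theorem eisxH_tendsto_strip {k : ℤ} (hk : 3 ≤ k) :
    Tendsto (eisxH k) (atImInfty ⊓ 𝓟 {z : ℍ | |z.re| ≤ 1}) (𝓝 0) := by
  have hk' : (2 : ℝ) < k := by norm_cast
  have h0 : (∑' _ : Fin 2 → ℤ, (0 : ℝ)) = 0 := tsum_zero
  rw [← h0]
  refine tendsto_tsum_of_dominated_convergence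
    (bound := fun x : Fin 2 → ℤ => r ⟨⟨1, 1⟩, one_pos⟩ ^ (-k) * ‖x‖ ^ (-k)) ?_ ?_ ?_
  · exact_mod_cast (summable_one_div_norm_rpow hk').mul_left <| r ⟨⟨1, 1⟩, one_pos⟩ ^ (-k)
  · intro v
    by_cases hv : v 0 = 0
    · simp only [hv, if_true, zero_mul]
      exact tendsto_const_nhds
    · simp only [hv, if_false, one_mul]
      exact (eisSummand_tendsto_zero (by omega) v hv).mono_left inf_le_left
  · have h1 : {z : ℍ | 1 ≤ z.im} ∈ atImInfty := (atImInfty_mem _).2 ⟨1, fun z hz => hz⟩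
    filter_upwards [inter_mem_inf h1 (mem_principal_self _)] with z hz v
    have hz' : z ∈ verticalStrip 1 1 := ⟨hz.2, hz.1⟩
    rw [Real.norm_eq_abs, abs_of_nonneg (eisxH_summand_nonneg k v z)]
    refine (eisxH_summand_le k v z).trans ?_
    simp_rw [eisSummand, norm_zpow]
    exact_mod_cast
      summand_bound_of_mem_verticalStrip (lt_trans two_pos hk').le v one_pos hz'

/-- The sum of the norms of the summands with `v 0 ≠ 0` is uniformly small near `i∞`. -/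
theorem eisxH_small {k : ℤ} (hk : 3 ≤ k) {ε : ℝ} (hε : 0 < ε) :
    ∃ B : ℝ, ∀ z : ℍ, B ≤ z.im → eisxH k z < ε := by
  have h1 := (tendsto_order.1 (eisxH_tendsto_strip hk)).2 ε hε
  rw [Filter.Eventually, mem_inf_principal, atImInfty_mem] at h1
  obtain ⟨B, hB⟩ := h1
  refine ⟨B, fun z hz => ?_⟩
  obtain ⟨n, hn⟩ := ModularGroup_T_zpow_mem_verticalStrip z (N := 1) Nat.one_pos
  rw [← eisxH_T k ((1 : ℕ) * n) z]
  have h2 : (ModularGroup.T ^ (((1 : ℕ) : ℤ) * n) • z).im = z.im := ModularGroup.im_T_zpow_smul _ _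
  have h3 : |(ModularGroup.T ^ (((1 : ℕ) : ℤ) * n) • z).re| ≤ 1 := by
    have := hn.1
    simpa using this
  exact hB _ (by rw [h2]; exact hz) h3

/-- The limit at `i∞` of a weighted Eisenstein sum: the sum of the terms with `v 0 = 0`. -/
def eisxL (k : ℤ) (w : (Fin 2 → ℤ) → ℂ) : ℂ :=
  ∑' v : Fin 2 → ℤ, if v 0 = 0 then w v * (v 1 : ℂ) ^ (-k) else 0

theorem eisxW_sub_le {k : ℤ} (hk : 3 ≤ k) {w : (Fin 2 → ℤ) → ℂ} (hw : ∀ v, ‖w v‖ ≤ 1)
    (z : ℍ) : ‖eisxW k w z - eisxL k w‖ ≤ eisxH k z := by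
  have hs := eisxW_summable_norm hk hw z
  have hf0 : ∀ v : Fin 2 → ℤ, (if v 0 = 0 then w v * (v 1 : ℂ) ^ (-k) else 0) =
      if v 0 = 0 then w v * eisSummand k v z else 0 := by
    intro v
    split_ifs with hv
    · simp [eisSummand, hv]
    · rfl
  have hs0 : Summable fun v : Fin 2 → ℤ => if v 0 = 0 then w v * eisSummand k v z else 0 := by
    refine Summable.of_norm_bounded hs fun v => ?_
    split_ifs
    · exact le_rfl
    · rw [norm_zero]
      exact norm_nonneg _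
  have hs1n : Summable fun v : Fin 2 → ℤ =>
      ‖if v 0 = 0 then (0 : ℂ) else w v * eisSummand k v z‖ := by
    refine Summable.of_nonneg_of_le (fun _ => norm_nonneg _) (fun v => ?_) hs
    split_ifs
    · rw [norm_zero]
      exact norm_nonneg _
    · exact le_rfl
  have hsplit : eisxW k w z = eisxL k w +
      ∑' v : Fin 2 → ℤ, if v 0 = 0 then (0 : ℂ) else w v * eisSummand k v z := by
    rw [eisxL, tsum_congr hf0, ← hs0.tsum_add hs1n.of_norm, eisxW]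
    refine tsum_congr fun v => ?_
    split_ifs <;> simp
  rw [hsplit, add_sub_cancel_left]
  refine (norm_tsum_le_tsum_norm hs1n).trans ?_
  refine hs1n.tsum_le_tsum (fun v => ?_) (eisxH_summable hk z)
  split_ifs
  · rw [norm_zero, zero_mul]
  · rw [one_mul]
    exact eisx_norm_le hw v z

/-- **Limit at `i∞`** of a weighted Eisenstein sum. -/
theorem eisxW_tendsto {k : ℤ} (hk : 3 ≤ k) {w : (Fin 2 → ℤ) → ℂ} (hw : ∀ v, ‖w v‖ ≤ 1) :
    Tendsto (eisxW k w) atImInfty (𝓝 (eisxL k w)) := by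
  rw [Metric.tendsto_nhds]
  intro ε hε
  obtain ⟨B, hB⟩ := eisxH_small hk hε
  rw [Filter.Eventually, atImInfty_mem]
  refine ⟨B, fun z hz => ?_⟩
  show dist (eisxW k w z) (eisxL k w) < ε
  rw [dist_eq_norm]
  exact (eisxW_sub_le hk hw z).trans_lt (hB z hz)

end Fermat.Agent.S29
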