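import Mathlib
import Fermat.Agent.S29.EisW

/-!
# S29, package EIS (part 2): Eisenstein series with a character of `Γ₀(N)`

`χ : ↥(Gamma0 N) →* ℂˣ` is a character with values of absolute value one (`h1`) which is trivial
on the elements with lower left entry `0` (`hT`: the elements `± T ^ b`).  Then `χ γ` depends only
on the bottom row of `γ`, and

`eisxChi N k χ z = ∑ χ(γ_v)⁻¹ (v 0 * z + v 1) ^ (-k)`  (sum over the bottom rows `v` of `Γ₀(N)`)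

is holomorphic (`eisxChi_mdiff`), satisfies `E ∣[k] γ = χ γ • E` (`eisxChi_slash`), all its
slashes by `SL(2, ℤ)` are bounded at `i∞` (`eisxChi_slash_bdd`), and for even `k` it tends to `2`
at `i∞` (`eisxChi_tendsto`), so it is not zero (`eisxChi_ne_zero`).  If `χ ^ p = 1` then the
`p`-th power is a modular form of weight `k * p` on `Γ₀(N)` (`eisxPow`).
-/

set_option autoImplicit false

noncomputable section

open Complex UpperHalfPlane Set Filter Topology ModularForm EisensteinSeries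
  CongruenceSubgroup

open scoped UpperHalfPlane MatrixGroups Manifold Matrix

namespace Fermat.Agent.S29

variable {N : ℕ}

/-- The weight attached to a character: `χ(γ)⁻¹` on the bottom row of `γ ∈ Γ₀(N)`, `0` on the
vectors which are not bottom rows of elements of `Γ₀(N)`. -/
def eisxWt (N : ℕ) (χ : ↥(Gamma0 N) →* ℂˣ) (v : Fin 2 → ℤ) : ℂ :=
  open Classical in
  if h : ∃ γ : ↥(Gamma0 N), (γ : SL(2, ℤ)).1 1 = v then ((χ (Classical.choose h))⁻¹ : ℂˣ) else 0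

/-- Two elements of `Γ₀(N)` with the same bottom row have the same character value. -/
theorem eisx_chi_eq_of_row {χ : ↥(Gamma0 N) →* ℂˣ}
    (hT : ∀ γ : ↥(Gamma0 N), (γ : SL(2, ℤ)) 1 0 = 0 → χ γ = 1)
    (γ δ : ↥(Gamma0 N)) (h : (γ : SL(2, ℤ)).1 1 = (δ : SL(2, ℤ)).1 1) : χ γ = χ δ := by
  have h0 : ((γ * δ⁻¹ : ↥(Gamma0 N)) : SL(2, ℤ)) 1 0 = 0 := by
    have h10 : (γ : SL(2, ℤ)).1 1 0 = (δ : SL(2, ℤ)).1 1 0 := congrFun h 0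
    have h11 : (γ : SL(2, ℤ)).1 1 1 = (δ : SL(2, ℤ)).1 1 1 := congrFun h 1
    simp only [Subgroup.coe_mul, Subgroup.coe_inv, Matrix.SpecialLinearGroup.coe_mul,
      Matrix.SpecialLinearGroup.coe_inv, Matrix.adjugate_fin_two, Matrix.mul_apply,
      Fin.sum_univ_two, Matrix.of_apply, Matrix.cons_val_zero, Matrix.cons_val_one]
    rw [h10, h11]
    ring
  have h1 := hT _ h0
  rw [map_mul, map_inv, mul_inv_eq_one] at h1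
  exact h1

theorem eisxWt_row {χ : ↥(Gamma0 N) →* ℂˣ}
    (hT : ∀ γ : ↥(Gamma0 N), (γ : SL(2, ℤ)) 1 0 = 0 → χ γ = 1) (γ : ↥(Gamma0 N)) :
    eisxWt N χ ((γ : SL(2, ℤ)).1 1) = ((χ γ)⁻¹ : ℂˣ) := by
  have h : ∃ δ : ↥(Gamma0 N), (δ : SL(2, ℤ)).1 1 = (γ : SL(2, ℤ)).1 1 := ⟨γ, rfl⟩
  rw [eisxWt, dif_pos h, eisx_chi_eq_of_row hT _ γ (Classical.choose_spec h)]

theorem eisxWt_of_not {χ : ↥(Gamma0 N) →* ℂˣ} {v : Fin 2 → ℤ}
    (h : ¬ ∃ γ : ↥(Gamma0 N), (γ : SL(2, ℤ)).1 1 = v) : eisxWt N χ v = 0 := by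
  rw [eisxWt, dif_neg h]

theorem eisx_row_mul (γ δ : SL(2, ℤ)) : (γ * δ).1 1 = γ.1 1 ᵥ* δ.1 := by
  rw [Matrix.SpecialLinearGroup.coe_mul]
  exact Matrix.mul_apply_eq_vecMul _ _ _

/-- The weight is `χ`-equivariant for the right action of `Γ₀(N)`. -/
theorem eisxWt_vecMul {χ : ↥(Gamma0 N) →* ℂˣ}
    (hT : ∀ γ : ↥(Gamma0 N), (γ : SL(2, ℤ)) 1 0 = 0 → χ γ = 1) (γ : ↥(Gamma0 N))
    (v : Fin 2 → ℤ) :
    eisxWt N χ (v ᵥ* ((γ : SL(2, ℤ))⁻¹ : SL(2, ℤ)).1) = ((χ γ : ℂˣ) : ℂ) * eisxWt N χ v := by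
  by_cases h : ∃ δ : ↥(Gamma0 N), (δ : SL(2, ℤ)).1 1 = v
  · obtain ⟨δ, rfl⟩ := h
    have h1 : (δ : SL(2, ℤ)).1 1 ᵥ* ((γ : SL(2, ℤ))⁻¹ : SL(2, ℤ)).1 =
        ((δ * γ⁻¹ : ↥(Gamma0 N)) : SL(2, ℤ)).1 1 := by
      rw [Subgroup.coe_mul, Subgroup.coe_inv, eisx_row_mul]
    rw [h1, eisxWt_row hT, eisxWt_row hT, map_mul, map_inv, mul_inv_rev, inv_inv,
      Units.val_mul]
  · have h' : ¬ ∃ δ : ↥(Gamma0 N),
        (δ : SL(2, ℤ)).1 1 = v ᵥ* ((γ : SL(2, ℤ))⁻¹ : SL(2, ℤ)).1 := by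
      rintro ⟨δ, hδ⟩
      apply h
      refine ⟨δ * γ, ?_⟩
      rw [Subgroup.coe_mul, eisx_row_mul, hδ]
      exact (eisxEquiv (γ : SL(2, ℤ))).right_inv v
    rw [eisxWt_of_not h, eisxWt_of_not h', mul_zero]

theorem eisxWt_norm_le {χ : ↥(Gamma0 N) →* ℂˣ} (h1 : ∀ γ, ‖((χ γ : ℂˣ) : ℂ)‖ = 1)
    (v : Fin 2 → ℤ) : ‖eisxWt N χ v‖ ≤ 1 := by
  rw [eisxWt]
  split_ifs with h
  · rw [Units.val_inv_eq_inv_val, norm_inv, h1, inv_one]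
  · rw [norm_zero]
    exact zero_le_one

/-- **The Eisenstein series with character `χ`** (weight `k`). -/
def eisxChi (N : ℕ) (k : ℤ) (χ : ↥(Gamma0 N) →* ℂˣ) : ℍ → ℂ :=
  eisxW k (eisxWt N χ)

theorem eisxChi_mdiff {k : ℤ} (hk : 3 ≤ k) {χ : ↥(Gamma0 N) →* ℂˣ}
    (h1 : ∀ γ, ‖((χ γ : ℂˣ) : ℂ)‖ = 1) : MDiff (eisxChi N k χ) :=
  eisxW_mdiff hk (eisxWt_norm_le h1)

/-- **Transformation law**: `E ∣[k] γ = χ γ • E` for `γ ∈ Γ₀(N)`. -/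
theorem eisxChi_slash (k : ℤ) {χ : ↥(Gamma0 N) →* ℂˣ}
    (hT : ∀ γ : ↥(Gamma0 N), (γ : SL(2, ℤ)) 1 0 = 0 → χ γ = 1) (γ : ↥(Gamma0 N)) :
    eisxChi N k χ ∣[k] (γ : SL(2, ℤ)) = ((χ γ : ℂˣ) : ℂ) • eisxChi N k χ := by
  rw [eisxChi, eisxW_slash]
  ext z
  simp only [eisxW, Pi.smul_apply, smul_eq_mul, eisxWt_vecMul hT, mul_assoc, tsum_mul_left]

/-- All the slashes of `E` by elements of `SL(2, ℤ)` are bounded at `i∞`. -/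
theorem eisxChi_slash_bdd {k : ℤ} (hk : 3 ≤ k) {χ : ↥(Gamma0 N) →* ℂˣ}
    (h1 : ∀ γ, ‖((χ γ : ℂˣ) : ℂ)‖ = 1) (A : SL(2, ℤ)) :
    IsBoundedAtImInfty (eisxChi N k χ ∣[k] A) :=
  eisxW_slash_bdd hk (eisxWt_norm_le h1) A

/-- The element `-1` of `Γ₀(N)`. -/
def eisxNegOne (N : ℕ) : ↥(Gamma0 N) := ⟨-1, by simp [Gamma0_mem]⟩

theorem eisxWt_zero_one {χ : ↥(Gamma0 N) →* ℂˣ}
    (hT : ∀ γ : ↥(Gamma0 N), (γ : SL(2, ℤ)) 1 0 = 0 → χ γ = 1) :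
    eisxWt N χ ![0, 1] = 1 := by
  have h : ((1 : ↥(Gamma0 N)) : SL(2, ℤ)).1 1 = ![0, 1] := by
    ext i
    fin_cases i <;> simp
  rw [← h, eisxWt_row hT, map_one, inv_one, Units.val_one]

theorem eisxWt_zero_neg_one {χ : ↥(Gamma0 N) →* ℂˣ}
    (hT : ∀ γ : ↥(Gamma0 N), (γ : SL(2, ℤ)) 1 0 = 0 → χ γ = 1) :
    eisxWt N χ ![0, -1] = 1 := by
  have h : ((eisxNegOne N : ↥(Gamma0 N)) : SL(2, ℤ)).1 1 = ![0, -1] := by
    ext i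
    fin_cases i <;> simp [eisxNegOne]
  have h2 : χ (eisxNegOne N) = 1 := hT _ (by simp [eisxNegOne])
  rw [← h, eisxWt_row hT, h2, inv_one, Units.val_one]

/-- A vector with `v 0 = 0` of nonzero weight is `(0, 1)` or `(0, -1)`. -/
theorem eisxWt_eq_zero_of {χ : ↥(Gamma0 N) →* ℂˣ} (v : Fin 2 → ℤ) (h0 : v 0 = 0)
    (h1 : v ≠ ![0, 1]) (h2 : v ≠ ![0, -1]) : eisxWt N χ v = 0 := by
  refine eisxWt_of_not ?_
  rintro ⟨γ, rfl⟩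
  have hdet := (γ : SL(2, ℤ)).det_coe
  rw [Matrix.det_fin_two] at hdet
  have h0' : (γ : SL(2, ℤ)).1 1 0 = 0 := h0
  rw [h0', mul_zero, sub_zero] at hdet
  rcases Int.eq_one_or_neg_one_of_mul_eq_one' hdet with ⟨-, h⟩ | ⟨-, h⟩
  · apply h1
    ext i
    fin_cases i
    · exact h0'
    · exact h
  · apply h2
    ext i
    fin_cases i
    · exact h0'
    · exact h

/-- The limit value of `E` at `i∞` is `2` for even weight. -/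
theorem eisxL_chi {k : ℤ} (hk : Even k) {χ : ↥(Gamma0 N) →* ℂˣ}
    (hT : ∀ γ : ↥(Gamma0 N), (γ : SL(2, ℤ)) 1 0 = 0 → χ γ = 1) :
    eisxL k (eisxWt N χ) = 2 := by
  have hne : (![0, 1] : Fin 2 → ℤ) ≠ ![0, -1] := by
    intro h
    have := congrFun h 1
    simp at this
  rw [eisxL, tsum_eq_sum (s := {![0, 1], ![0, -1]})]
  · rw [Finset.sum_pair hne]
    simp only [Matrix.cons_val_zero, if_true, Matrix.cons_val_one, eisxWt_zero_one hT,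
      eisxWt_zero_neg_one hT, one_mul, Int.cast_one, Int.cast_neg, one_zpow]
    rw [(Even.neg hk).neg_one_zpow]
    norm_num
  · intro v hv
    rw [Finset.mem_insert, Finset.mem_singleton, not_or] at hv
    split_ifs with h0
    · rw [eisxWt_eq_zero_of v h0 hv.1 hv.2, zero_mul]
    · rfl

/-- **Value at `i∞`**: for even `k ≥ 3` the series `E` tends to `2` at `i∞`. -/
theorem eisxChi_tendsto {k : ℤ} (hk : 3 ≤ k) (hk2 : Even k) {χ : ↥(Gamma0 N) →* ℂˣ}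
    (h1 : ∀ γ, ‖((χ γ : ℂˣ) : ℂ)‖ = 1)
    (hT : ∀ γ : ↥(Gamma0 N), (γ : SL(2, ℤ)) 1 0 = 0 → χ γ = 1) :
    Tendsto (eisxChi N k χ) atImInfty (𝓝 2) := by
  have h := eisxW_tendsto hk (eisxWt_norm_le h1)
  rwa [eisxL_chi hk2 hT] at h

theorem eisxChi_ne_zero {k : ℤ} (hk : 3 ≤ k) (hk2 : Even k) {χ : ↥(Gamma0 N) →* ℂˣ}
    (h1 : ∀ γ, ‖((χ γ : ℂˣ) : ℂ)‖ = 1)
    (hT : ∀ γ : ↥(Gamma0 N), (γ : SL(2, ℤ)) 1 0 = 0 → χ γ = 1) :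
    eisxChi N k χ ≠ 0 := by
  intro h0
  have h := eisxChi_tendsto hk hk2 h1 hT
  rw [h0] at h
  have h2 : Tendsto (0 : ℍ → ℂ) atImInfty (𝓝 0) := tendsto_const_nhds
  have h3 := tendsto_nhds_unique h h2
  norm_num at h3

/-- The slash of a power by an element of `SL(2, ℤ)`. -/
theorem eisx_pow_slash (k : ℤ) (f : ℍ → ℂ) (A : SL(2, ℤ)) (p : ℕ) :
    (f ^ p) ∣[k * (p : ℤ)] A = (f ∣[k] A) ^ p := by
  induction p with
  | zero =>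
    simp only [pow_zero, Nat.cast_zero, mul_zero]
    exact is_invariant_one A
  | succ n ih =>
    rw [pow_succ, pow_succ, ← ih, ← mul_slash_SL2]
    congr 1
    push_cast
    ring

theorem eisx_bdd_pow {g : ℍ → ℂ} (hg : IsBoundedAtImInfty g) (p : ℕ) :
    IsBoundedAtImInfty (g ^ p) := by
  induction p with
  | zero =>
    rw [pow_zero]
    exact Filter.const_boundedAtFilter _ (1 : ℂ)
  | succ n ih =>
    rw [pow_succ]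
    exact ih.mul hg

/-- **The `p`-th power of `E` as a modular form** of weight `k * p` on `Γ₀(N)`, when
`χ ^ p = 1`. -/
def eisxPow (N : ℕ) [NeZero N] {k : ℤ} (hk : 3 ≤ k) (χ : ↥(Gamma0 N) →* ℂˣ)
    (h1 : ∀ γ, ‖((χ γ : ℂˣ) : ℂ)‖ = 1)
    (hT : ∀ γ : ↥(Gamma0 N), (γ : SL(2, ℤ)) 1 0 = 0 → χ γ = 1)
    (p : ℕ) (hp : ∀ γ, χ γ ^ p = 1) : ModularForm (Gamma0 N) (k * (p : ℤ)) where
  toFun := eisxChi N k χ ^ p
  slash_action_eq' A hA := by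
    obtain ⟨A, hA, rfl⟩ := hA
    have h := eisx_pow_slash k (eisxChi N k χ) A p
    rw [eisxChi_slash k hT ⟨A, hA⟩] at h
    show (eisxChi N k χ ^ p) ∣[k * (p : ℤ)] A = eisxChi N k χ ^ p
    rw [h, smul_pow, ← Units.val_pow_eq_pow_val, hp, Units.val_one, one_smul]
  holo' := (eisxChi_mdiff hk h1).pow p
  bdd_at_cusps' {c} hc := by
    rw [Subgroup.IsArithmetic.isCusp_iff_isCusp_SL2Z] at hc
    rw [OnePoint.isBoundedAt_iff_forall_SL2Z hc]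
    intro γ _
    rw [eisx_pow_slash]
    exact eisx_bdd_pow (eisxChi_slash_bdd hk h1 γ) p

theorem eisxPow_apply (N : ℕ) [NeZero N] {k : ℤ} (hk : 3 ≤ k) (χ : ↥(Gamma0 N) →* ℂˣ)
    (h1 : ∀ γ, ‖((χ γ : ℂˣ) : ℂ)‖ = 1)
    (hT : ∀ γ : ↥(Gamma0 N), (γ : SL(2, ℤ)) 1 0 = 0 → χ γ = 1)
    (p : ℕ) (hp : ∀ γ, χ γ ^ p = 1) (z : ℍ) :
    eisxPow N hk χ h1 hT p hp z = eisxChi N k χ z ^ p :=
  rfl

theorem eisxPow_coe (N : ℕ) [NeZero N] {k : ℤ} (hk : 3 ≤ k) (χ : ↥(Gamma0 N) →* ℂˣ)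
    (h1 : ∀ γ, ‖((χ γ : ℂˣ) : ℂ)‖ = 1)
    (hT : ∀ γ : ↥(Gamma0 N), (γ : SL(2, ℤ)) 1 0 = 0 → χ γ = 1)
    (p : ℕ) (hp : ∀ γ, χ γ ^ p = 1) :
    (eisxPow N hk χ h1 hT p hp : ℍ → ℂ) = eisxChi N k χ ^ p :=
  rfl

end Fermat.Agent.S29
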