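import Mathlib
import Fermat.Agent.S24.QLaurent
import Fermat.Agent.S29.EisChi

/-!
# S29, package EIS (part 3): the Eisenstein series with character at the cusps

For `γ : SL(2, ℤ)` (a coset representative) the function

`eiscW N k χ γ τ = (E_χ ∣[k] γ⁻¹) (N τ)`

is weakly holomorphic in the sense of S24 (`eisc_isWH`), bounded at `i∞`, not zero, and
`eiscW χ γ τ = E_χ (γ⁻¹ • (N τ)) * denom ^ (-k)` (`eisc_apply`), so that the quotient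
`eiscW χ γ / eiscW 1 γ` is the function `(E_χ / E_1) (γ⁻¹ • (N τ))`.

If `γ⁻¹ T ^ w γ ∈ Γ₀(N)` is killed by `χ`, then `E_χ ∣[k] γ⁻¹` is `w`-periodic, hence the order
of the Laurent `q`-expansion of `eiscW` is a multiple of `N / w` (`eisc_order_dvd`).

`eisc_main`: the order at the cusp `γ` of any quotient `g / h` of weakly holomorphic functions
representing `((E_χ / E_1) (γ⁻¹ • (N τ))) ^ p` is `N / w` times a multiple of `p`.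
-/

set_option autoImplicit false

noncomputable section

open Complex UpperHalfPlane Set Filter Topology ModularForm EisensteinSeries
  CongruenceSubgroup

open scoped UpperHalfPlane MatrixGroups Manifold Matrix

namespace Fermat.Agent.S29

open Fermat.Agent.S24

variable {N : ℕ}

/-- Slashing by `T ^ w` is the translation by `w`. -/
theorem eisc_slash_T (k : ℤ) (F : ℍ → ℂ) (w : ℤ) (τ : ℍ) :
    (F ∣[k] (ModularGroup.T ^ w)) τ = F ((w : ℝ) +ᵥ τ) := by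
  rw [ModularForm.SL_slash_apply, UpperHalfPlane.modular_T_zpow_smul]
  have hd : denom (ModularGroup.T ^ w : SL(2, ℤ)) τ = 1 := by
    rw [ModularGroup.denom_apply, ModularGroup.coe_T_zpow]
    simp
  rw [hd, one_zpow, mul_one]

/-- All the slashes of `E` by elements of `SL(2, ℤ)` are holomorphic. -/
theorem eisc_slash_mdiff {k : ℤ} (hk : 3 ≤ k) {χ : ↥(Gamma0 N) →* ℂˣ}
    (h1 : ∀ γ, ‖((χ γ : ℂˣ) : ℂ)‖ = 1) (A : SL(2, ℤ)) :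
    MDiff (eisxChi N k χ ∣[k] A) := by
  rw [eisxChi, eisxW_slash]
  exact eisxW_mdiff hk (fun v => eisxWt_norm_le h1 _)

/-- If `χ` kills `γ⁻¹ T ^ w γ ∈ Γ₀(N)` then `E ∣[k] γ⁻¹` is `w`-periodic. -/
theorem eisc_periodic (k : ℤ) {χ : ↥(Gamma0 N) →* ℂˣ}
    (hT : ∀ γ : ↥(Gamma0 N), (γ : SL(2, ℤ)) 1 0 = 0 → χ γ = 1) (γ : SL(2, ℤ)) (w : ℤ)
    (hw : γ⁻¹ * ModularGroup.T ^ w * γ ∈ Gamma0 N)
    (hχ : χ ⟨γ⁻¹ * ModularGroup.T ^ w * γ, hw⟩ = 1) (τ : ℍ) :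
    (eisxChi N k χ ∣[k] γ⁻¹) ((w : ℝ) +ᵥ τ) = (eisxChi N k χ ∣[k] γ⁻¹) τ := by
  rw [← eisc_slash_T k (eisxChi N k χ ∣[k] γ⁻¹) w τ, ← SlashAction.slash_mul]
  have e : γ⁻¹ * ModularGroup.T ^ w = (γ⁻¹ * ModularGroup.T ^ w * γ) * γ⁻¹ := by group
  rw [e, SlashAction.slash_mul]
  have h := eisxChi_slash k hT ⟨γ⁻¹ * ModularGroup.T ^ w * γ, hw⟩
  rw [hχ, Units.val_one, one_smul] at h
  rw [h]

/-- The Eisenstein series with character at the cusp `γ`, in the variable `τ / N`. -/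
def eiscW (N : ℕ) (k : ℤ) (χ : ↥(Gamma0 N) →* ℂˣ) (γ : SL(2, ℤ)) : ℍ → ℂ :=
  fun τ => (eisxChi N k χ ∣[k] γ⁻¹) (ofComplex ((N : ℂ) * τ))

theorem eisc_apply (N : ℕ) (k : ℤ) (χ : ↥(Gamma0 N) →* ℂˣ) (γ : SL(2, ℤ)) (τ : ℍ) :
    eiscW N k χ γ τ = eisxChi N k χ (γ⁻¹ • ofComplex ((N : ℂ) * τ))
      * denom (γ⁻¹ : SL(2, ℤ)) (ofComplex ((N : ℂ) * τ)) ^ (-k) := by
  rw [eiscW, ModularForm.SL_slash_apply]

/-- `γ⁻¹ T ^ N γ` lies in `Γ(N) ≤ Γ₀(N)`. -/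
theorem eisc_conj_mem (N : ℕ) (γ : SL(2, ℤ)) :
    γ⁻¹ * ModularGroup.T ^ ((N : ℕ) : ℤ) * γ ∈ Gamma0 N := by
  have h1 : ModularGroup.T ^ ((N : ℕ) : ℤ) ∈ CongruenceSubgroup.Gamma N := by
    rw [Gamma_mem, ModularGroup.coe_T_zpow]
    simp
  have h2 : γ⁻¹ * ModularGroup.T ^ ((N : ℕ) : ℤ) * γ ∈ CongruenceSubgroup.Gamma N := by
    have h := (Gamma_normal N).conj_mem _ h1 γ⁻¹
    rwa [inv_inv] at h
  rw [Gamma_mem] at h2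
  rw [Gamma0_mem]
  exact h2.2.2.1

/-- The trace of `γ⁻¹ T ^ w γ` is `2`. -/
theorem eisc_conj_trace (γ : SL(2, ℤ)) (w : ℤ) :
    Matrix.trace ((γ⁻¹ * ModularGroup.T ^ w * γ : SL(2, ℤ)) : Matrix (Fin 2) (Fin 2) ℤ) = 2 := by
  rw [Matrix.SpecialLinearGroup.coe_mul, Matrix.SpecialLinearGroup.coe_mul, Matrix.trace_mul_comm,
    ← Matrix.mul_assoc, ← Matrix.SpecialLinearGroup.coe_mul, mul_inv_cancel,
    Matrix.SpecialLinearGroup.coe_one, Matrix.one_mul, ModularGroup.coe_T_zpow]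
  simp [Matrix.trace_fin_two]

theorem eisc_scale_vadd (hN : 0 < N) (r : ℝ) (τ : ℍ) :
    ofComplex ((N : ℂ) * ((r +ᵥ τ : ℍ) : ℂ)) = ((N : ℝ) * r) +ᵥ ofComplex ((N : ℂ) * τ) := by
  apply UpperHalfPlane.ext
  rw [ql_coe_scale hN, coe_vadd, coe_vadd, ql_coe_scale hN]
  push_cast
  ring

theorem eisc_mdiff [NeZero N] {k : ℤ} (hk : 3 ≤ k) {χ : ↥(Gamma0 N) →* ℂˣ}
    (h1 : ∀ γ, ‖((χ γ : ℂˣ) : ℂ)‖ = 1) (γ : SL(2, ℤ)) : MDiff (eiscW N k χ γ) :=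
  ql_mdiff_scale (eisc_slash_mdiff hk h1 γ⁻¹) (NeZero.pos N)

theorem eisc_bdd [NeZero N] {k : ℤ} (hk : 3 ≤ k) {χ : ↥(Gamma0 N) →* ℂˣ}
    (h1 : ∀ γ, ‖((χ γ : ℂˣ) : ℂ)‖ = 1) (γ : SL(2, ℤ)) :
    IsBoundedAtImInfty (eiscW N k χ γ) :=
  Asymptotics.IsBigO.comp_tendsto (eisxChi_slash_bdd hk h1 γ⁻¹) (ql_tendsto_scale (NeZero.pos N))

/-- Translation of `eiscW` by `w / N`. -/
theorem eisc_vadd [NeZero N] (k : ℤ) {χ : ↥(Gamma0 N) →* ℂˣ}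
    (hT : ∀ γ : ↥(Gamma0 N), (γ : SL(2, ℤ)) 1 0 = 0 → χ γ = 1) (γ : SL(2, ℤ)) (w : ℤ)
    (hw : γ⁻¹ * ModularGroup.T ^ w * γ ∈ Gamma0 N)
    (hχ : χ ⟨γ⁻¹ * ModularGroup.T ^ w * γ, hw⟩ = 1) (τ : ℍ) :
    eiscW N k χ γ (((w : ℝ) / (N : ℝ)) +ᵥ τ) = eiscW N k χ γ τ := by
  have hN : (N : ℝ) ≠ 0 := by exact_mod_cast NeZero.ne N
  rw [eiscW, eiscW, eisc_scale_vadd (NeZero.pos N), mul_div_cancel₀ _ hN]
  exact eisc_periodic k hT γ w hw hχ _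

theorem eisc_isWH [NeZero N] {k : ℤ} (hk : 3 ≤ k) {χ : ↥(Gamma0 N) →* ℂˣ}
    (h1 : ∀ γ, ‖((χ γ : ℂˣ) : ℂ)‖ = 1)
    (hT : ∀ γ : ↥(Gamma0 N), (γ : SL(2, ℤ)) 1 0 = 0 → χ γ = 1) (γ : SL(2, ℤ))
    (hχ : χ ⟨γ⁻¹ * ModularGroup.T ^ ((N : ℕ) : ℤ) * γ, eisc_conj_mem N γ⟩ = 1) :
    IsWH (eiscW N k χ γ) := by
  refine ⟨eisc_mdiff hk h1 γ, fun τ => ?_, 0, ?_⟩
  · have h := eisc_vadd k hT γ (N : ℤ) (eisc_conj_mem N γ) hχ τ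
    have hN : (N : ℝ) ≠ 0 := by exact_mod_cast NeZero.ne N
    have e : (((N : ℤ) : ℝ) / (N : ℝ)) = 1 := by
      rw [Int.cast_natCast, div_self hN]
    rwa [e] at h
  · simpa using eisc_bdd hk h1 γ

theorem eisc_scale_surjective (N : ℕ) [NeZero N] (z : ℍ) :
    ∃ τ : ℍ, ofComplex ((N : ℂ) * τ) = z := by
  have hN : (0 : ℝ) < N := by exact_mod_cast NeZero.pos N
  have hNC : (N : ℂ) ≠ 0 := by exact_mod_cast NeZero.ne N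
  have him : 0 < ((z : ℂ) / (N : ℂ)).im := by
    rw [Complex.div_natCast_im]
    exact div_pos z.im_pos hN
  refine ⟨⟨_, him⟩, ?_⟩
  apply UpperHalfPlane.ext
  rw [ql_coe_scale (NeZero.pos N)]
  show (N : ℂ) * ((z : ℂ) / (N : ℂ)) = z
  field_simp

theorem eisc_ne_zero [NeZero N] {k : ℤ} (hk : 3 ≤ k) (hk2 : Even k) {χ : ↥(Gamma0 N) →* ℂˣ}
    (h1 : ∀ γ, ‖((χ γ : ℂˣ) : ℂ)‖ = 1)
    (hT : ∀ γ : ↥(Gamma0 N), (γ : SL(2, ℤ)) 1 0 = 0 → χ γ = 1) (γ : SL(2, ℤ)) :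
    eiscW N k χ γ ≠ 0 := by
  intro h0
  apply eisxChi_ne_zero hk hk2 h1 hT
  funext z
  obtain ⟨τ, hτ⟩ := eisc_scale_surjective N (γ • z)
  have h := congrFun h0 τ
  rw [eisc_apply, hτ, inv_smul_smul] at h
  rcases mul_eq_zero.mp h with h | h
  · exact h
  · exact absurd h (zpow_ne_zero _ (denom_ne_zero _ _))

theorem eisc_exp_eq_one (N : ℕ) [NeZero N] (w n : ℤ)
    (h : Complex.exp (2 * Real.pi * Complex.I * (((w : ℝ) / (N : ℝ) : ℝ) : ℂ)) ^ n = 1) :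
    (N : ℤ) ∣ w * n := by
  have hNC : (N : ℂ) ≠ 0 := by exact_mod_cast NeZero.ne N
  rw [← Complex.exp_int_mul, Complex.exp_eq_one_iff] at h
  obtain ⟨m, hm⟩ := h
  have hpi : (2 * (Real.pi : ℂ) * Complex.I) ≠ 0 := Complex.two_pi_I_ne_zero
  have h1 : ((w : ℂ) * (n : ℂ)) = (m : ℂ) * (N : ℂ) := by
    have h2 : (n : ℂ) * (2 * (Real.pi : ℂ) * Complex.I * (((w : ℝ) / (N : ℝ) : ℝ) : ℂ))
        = (2 * (Real.pi : ℂ) * Complex.I) * (((w : ℂ) * (n : ℂ)) / (N : ℂ)) := by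
      push_cast
      ring
    rw [h2, mul_comm (m : ℂ)] at hm
    have h3 := mul_left_cancel₀ hpi hm
    field_simp at h3
    linear_combination h3
  have h4 : (w * n : ℤ) = m * (N : ℤ) := by
    exact_mod_cast h1
  exact ⟨m, by rw [h4]; ring⟩

/-- **Width**: if `χ` kills `γ⁻¹ T ^ w γ ∈ Γ₀(N)`, the order of the `q`-expansion of
`(E ∣[k] γ⁻¹) (N τ)` is a multiple of `N / w`. -/
theorem eisc_order_dvd [NeZero N] {k : ℤ} (hk : 3 ≤ k) (hk2 : Even k) {χ : ↥(Gamma0 N) →* ℂˣ}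
    (h1 : ∀ γ, ‖((χ γ : ℂˣ) : ℂ)‖ = 1)
    (hT : ∀ γ : ↥(Gamma0 N), (γ : SL(2, ℤ)) 1 0 = 0 → χ γ = 1) (γ : SL(2, ℤ))
    (hχN : χ ⟨γ⁻¹ * ModularGroup.T ^ ((N : ℕ) : ℤ) * γ, eisc_conj_mem N γ⟩ = 1)
    (w : ℤ) (hw : γ⁻¹ * ModularGroup.T ^ w * γ ∈ Gamma0 N)
    (hχ : χ ⟨γ⁻¹ * ModularGroup.T ^ w * γ, hw⟩ = 1) :
    (N : ℤ) ∣ w * (qLaurent ⟨eiscW N k χ γ, eisc_isWH hk h1 hT γ hχN⟩).order := by
  set g := eiscW N k χ γ with hgdef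
  have hg : IsWH g := eisc_isWH hk h1 hT γ hχN
  set Y := qLaurent ⟨g, hg⟩ with hYdef
  have h := qLaurent_vadd ((w : ℝ) / (N : ℝ)) g hg
  have e : (⟨fun τ => g (((w : ℝ) / (N : ℝ)) +ᵥ τ), isWH_vadd ((w : ℝ) / (N : ℝ)) hg⟩ :
      whSubring) = ⟨g, hg⟩ :=
    Subtype.ext (funext (eisc_vadd k hT γ w hw hχ))
  rw [e] at h
  have hY : Y ≠ 0 := by
    intro h0
    have h2 : (⟨g, hg⟩ : whSubring) = 0 := qLaurent_injective (by rw [← hYdef, h0, map_zero])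
    exact eisc_ne_zero hk hk2 h1 hT γ (congrArg Subtype.val h2)
  have hne : Y.coeff Y.order ≠ 0 := mt HahnSeries.coeff_order_eq_zero.mp hY
  have hc := congrArg (fun y : LaurentSeries ℂ => y.coeff Y.order) h
  simp only [twist_coeff] at hc
  apply eisc_exp_eq_one N w Y.order
  have h4 : (Complex.exp (2 * Real.pi * Complex.I * (((w : ℝ) / (N : ℝ) : ℝ) : ℂ)) ^ Y.order - 1)
      * Y.coeff Y.order = 0 := by
    rw [sub_mul, one_mul, ← hc, sub_self]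
  rcases mul_eq_zero.mp h4 with h5 | h5
  · exact sub_eq_zero.mp h5
  · exact absurd h5 hne

/-- The hypotheses of the main theorem hold for the trivial character. -/
theorem eisc_one_norm (N : ℕ) (γ : ↥(Gamma0 N)) :
    ‖((((1 : ↥(Gamma0 N) →* ℂˣ) γ : ℂˣ)) : ℂ)‖ = 1 := by
  simp

/-- **Cusps**: let `χ` be a character of `Γ₀(N)` killing the elements of trace `2` (and `hT`), and
`γ⁻¹ T ^ w γ ∈ Γ₀(N)`.  Then there is an integer `n` such that every quotient `g / h` of weakly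
holomorphic functions with `g / h = ((E_χ / E_1) (γ⁻¹ • (N τ))) ^ p` has a Laurent `q`-expansion of
order `(N / w) * p * n`. -/
theorem eisc_main (N : ℕ) [NeZero N] {k : ℤ} (hk : 3 ≤ k) (hk2 : Even k)
    (χ : ↥(Gamma0 N) →* ℂˣ) (h1 : ∀ γ, ‖((χ γ : ℂˣ) : ℂ)‖ = 1)
    (hT : ∀ γ : ↥(Gamma0 N), (γ : SL(2, ℤ)) 1 0 = 0 → χ γ = 1)
    (hpar : ∀ δ : ↥(Gamma0 N),
      Matrix.trace ((δ : SL(2, ℤ)) : Matrix (Fin 2) (Fin 2) ℤ) = 2 → χ δ = 1)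
    (γ : SL(2, ℤ)) (w : ℕ) (hw : γ⁻¹ * ModularGroup.T ^ w * γ ∈ Gamma0 N) (p : ℕ) :
    ∃ n : ℤ, ∀ (g h : ℍ → ℂ) (hg : IsWH g) (hh : IsWH h), h ≠ 0 →
      (∀ τ : ℍ, g τ * eisxChi N k (1 : ↥(Gamma0 N) →* ℂˣ) (γ⁻¹ • ofComplex ((N : ℂ) * τ)) ^ p
          = h τ * eisxChi N k χ (γ⁻¹ • ofComplex ((N : ℂ) * τ)) ^ p) →
      (w : ℤ) * (qLaurent ⟨g, hg⟩ / qLaurent ⟨h, hh⟩).order = (N : ℤ) * ((p : ℤ) * n) := by
  have hw' : γ⁻¹ * ModularGroup.T ^ ((w : ℕ) : ℤ) * γ ∈ Gamma0 N := by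
    rwa [zpow_natCast]
  have hT1 : ∀ γ : ↥(Gamma0 N), (γ : SL(2, ℤ)) 1 0 = 0 → (1 : ↥(Gamma0 N) →* ℂˣ) γ = 1 :=
    fun _ _ => rfl
  have hχN : χ ⟨γ⁻¹ * ModularGroup.T ^ ((N : ℕ) : ℤ) * γ, eisc_conj_mem N γ⟩ = 1 :=
    hpar _ (eisc_conj_trace γ _)
  have hχw : χ ⟨γ⁻¹ * ModularGroup.T ^ ((w : ℕ) : ℤ) * γ, hw'⟩ = 1 :=
    hpar _ (eisc_conj_trace γ _)
  have hWχ : IsWH (eiscW N k χ γ) := eisc_isWH hk h1 hT γ hχN
  have hW1 : IsWH (eiscW N k (1 : ↥(Gamma0 N) →* ℂˣ) γ) :=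
    eisc_isWH hk (eisc_one_norm N) hT1 γ rfl
  obtain ⟨aχ, haχ⟩ := eisc_order_dvd hk hk2 h1 hT γ hχN (w : ℤ) hw' hχw
  obtain ⟨a1, ha1⟩ := eisc_order_dvd hk hk2 (eisc_one_norm N) hT1 γ rfl (w : ℤ) hw' rfl
  have hYχ : qLaurent ⟨eiscW N k χ γ, hWχ⟩ ≠ 0 := by
    intro h0
    have h2 : (⟨eiscW N k χ γ, hWχ⟩ : whSubring) = 0 :=
      qLaurent_injective (by rw [h0, map_zero])
    exact eisc_ne_zero hk hk2 h1 hT γ (congrArg Subtype.val h2)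
  have hY1 : qLaurent ⟨eiscW N k (1 : ↥(Gamma0 N) →* ℂˣ) γ, hW1⟩ ≠ 0 := by
    intro h0
    have h2 : (⟨eiscW N k (1 : ↥(Gamma0 N) →* ℂˣ) γ, hW1⟩ : whSubring) = 0 :=
      qLaurent_injective (by rw [h0, map_zero])
    exact eisc_ne_zero hk hk2 (eisc_one_norm N) hT1 γ (congrArg Subtype.val h2)
  refine ⟨aχ - a1, fun g h hg hh hh0 hgh => ?_⟩
  have hYh : qLaurent ⟨h, hh⟩ ≠ 0 := by
    intro h0
    have h2 : (⟨h, hh⟩ : whSubring) = 0 := qLaurent_injective (by rw [h0, map_zero])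
    exact hh0 (congrArg Subtype.val h2)
  have hring : (⟨g, hg⟩ : whSubring) * ⟨eiscW N k (1 : ↥(Gamma0 N) →* ℂˣ) γ, hW1⟩ ^ p
      = ⟨h, hh⟩ * ⟨eiscW N k χ γ, hWχ⟩ ^ p := by
    apply Subtype.ext
    funext τ
    show g τ * eiscW N k (1 : ↥(Gamma0 N) →* ℂˣ) γ τ ^ p = h τ * eiscW N k χ γ τ ^ p
    rw [eisc_apply, eisc_apply, mul_pow, mul_pow, ← mul_assoc, ← mul_assoc, hgh τ]
  have hL := congrArg qLaurent hring
  rw [map_mul, map_mul, map_pow, map_pow] at hL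
  have hYg : qLaurent ⟨g, hg⟩ ≠ 0 := by
    intro h0
    rw [h0, zero_mul] at hL
    exact mul_ne_zero hYh (pow_ne_zero p hYχ) hL.symm
  have hord := congrArg HahnSeries.order hL
  rw [HahnSeries.order_mul hYg (pow_ne_zero p hY1), HahnSeries.order_mul hYh (pow_ne_zero p hYχ),
    HahnSeries.order_pow, HahnSeries.order_pow] at hord
  have hdiv : (qLaurent ⟨g, hg⟩ / qLaurent ⟨h, hh⟩).order
      = (qLaurent ⟨g, hg⟩).order - (qLaurent ⟨h, hh⟩).order := by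
    have h3 := HahnSeries.order_mul (div_ne_zero hYg hYh) hYh
    rw [div_mul_cancel₀ _ hYh] at h3
    omega
  rw [hdiv]
  simp only [nsmul_eq_mul] at hord
  have e1 : (w : ℤ) * ((qLaurent ⟨g, hg⟩).order - (qLaurent ⟨h, hh⟩).order)
      = (p : ℤ) * ((w : ℤ) * (qLaurent ⟨eiscW N k χ γ, hWχ⟩).order)
        - (p : ℤ) * ((w : ℤ) * (qLaurent ⟨eiscW N k (1 : ↥(Gamma0 N) →* ℂˣ) γ, hW1⟩).order) := by
    linear_combination (w : ℤ) * hord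
  rw [e1, haχ, ha1]
  ring

end Fermat.Agent.S29
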