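import Fermat.Agent.S29.PlCApi
import Fermat.Agent.S24.CosetsCusps

/-!
# Stage 3 (S29), package PLACES-C, part 7: the stabiliser-exact classification

`plc_classify_ell`: every place of `F_ℂ` is
* an unramified point place (`ord (plcPhi N τ₀ q f) = ord_P f`), or
* the place of `i` at a coset fixed by `S` (multiplicity `2`), or
* the place of `ρ` at a coset fixed by `S * T` (multiplicity `3`), or
* a cusp place at a coset `q` of `T`-period `w ∣ N`, with `w * ord (plcCusp N q f) = N * ord_P f`.
-/

set_option autoImplicit false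
set_option linter.style.haveILetI false

open AlgebraicCurve IntermediateField UpperHalfPlane ModularForm EisensteinSeries
open scoped MatrixGroups Manifold
open Fermat.Agent.S24

namespace Fermat.Agent.S29

section PlcEll

variable (N : ℕ) [NeZero N]

set_option quotPrecheck false in
local notation "FC" => ↥(ModularCurve.laurentBaseChange ℂ (ModularCurve.modularFunctionFieldFull N))
local notation "Xc" => SL(2, ℤ) ⧸ CongruenceSubgroup.Gamma0 N

omit [NeZero N] in
/-- `T ^ N` acts trivially on the cosets of `Γ₀(N)`. -/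
theorem plc_T_pow_N_smul (q : Xc) : (ModularGroup.T ^ N) • q = q := by
  induction q using QuotientGroup.induction_on with
  | H g =>
    have h := (T_zpow_smul_mk_eq_iff N (N : ℤ) g g).mpr ⟨g 1 0 * g 1 0, by ring⟩
    rw [zpow_natCast] at h
    exact h

omit [NeZero N] in
/-- the `T`-period of a coset divides `N`. -/
theorem plc_minimalPeriod_T_dvd (q : Xc) :
    Function.minimalPeriod (MulAction.toPerm ModularGroup.T : Equiv.Perm Xc) q ∣ N := by
  apply Function.IsPeriodicPt.minimalPeriod_dvd
  show (fun x : Xc => ModularGroup.T • x)^[N] q = q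
  rw [smul_iterate]
  exact plc_T_pow_N_smul N q

omit [NeZero N] in
theorem plc_T_pow_minimalPeriod_smul (q : Xc) :
    (ModularGroup.T ^ Function.minimalPeriod (MulAction.toPerm ModularGroup.T : Equiv.Perm Xc) q)
      • q = q := by
  have h1 : (fun x : Xc => ModularGroup.T • x)^[Function.minimalPeriod
      (MulAction.toPerm ModularGroup.T : Equiv.Perm Xc) q] q = q :=
    Function.isPeriodicPt_minimalPeriod (MulAction.toPerm ModularGroup.T : Equiv.Perm Xc) q
  rwa [smul_iterate] at h1

/-- The stabiliser-exact classification of the places of `F_ℂ`. -/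
theorem plc_classify_ell (P : Place ℂ FC) :
    (∃ (τ₀ : ℍ) (q : Xc), IsPlaceOf P (plcPhi N τ₀ q) ∧
        ∀ f : FC, f ≠ 0 → (plcPhi N τ₀ q f).order = P.ord f) ∨
    (∃ q : Xc, ModularGroup.S • q = q ∧ IsPlaceOf P (plcPhi N UpperHalfPlane.I q) ∧
        ∀ f : FC, f ≠ 0 → (plcPhi N UpperHalfPlane.I q f).order = 2 * P.ord f) ∨
    (∃ q : Xc, (ModularGroup.S * ModularGroup.T) • q = q ∧ IsPlaceOf P (plcPhi N rho q) ∧
        ∀ f : FC, f ≠ 0 → (plcPhi N rho q f).order = 3 * P.ord f) ∨
    (∃ (q : Xc) (w : ℕ), 0 < w ∧ w ∣ N ∧ (ModularGroup.T ^ w) • q = q ∧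
        IsPlaceOf P (plcCusp N q) ∧
        ∀ f : FC, f ≠ 0 → (w : ℤ) * (plcCusp N q f).order = (N : ℤ) * P.ord f) := by
  haveI := plc_finiteDimensional_J N
  have hJt := plc_transcendental_J N
  by_cases hneg : P.ord (plcJ N) < 0
  · -- a cusp
    right; right; right
    obtain ⟨S, hS, hπ, hφ⟩ := plc_laurentSystem_infty N
    have hx : Transcendental ℂ (plcJ N)⁻¹ := by
      intro h
      exact hJt (by simpa using h.inv)
    haveI : FiniteDimensional ℂ⟮(plcJ N)⁻¹⟯ FC := by
      rw [sysfin_adjoin_inv]; infer_instance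
    have hP : P ∈ zeroPlaces ℂ (plcJ N)⁻¹ := by
      show 0 < P.ord (plcJ N)⁻¹
      rw [Place.ord_inv]
      omega
    obtain ⟨q, rfl⟩ := S.exists_place_eq hx P hP
    have hdvd := plc_minimalPeriod_T_dvd N q
    refine ⟨q, _, Nat.pos_of_dvd_of_pos hdvd (NeZero.pos N), hdvd,
      plc_T_pow_minimalPeriod_smul N q, ?_, fun f hf => ?_⟩
    · have := S.isPlaceOf_place q
      rwa [hφ] at this
    · have h := plc_mult_eq hx S q f hf
      rw [hS, hπ, hφ] at h
      exact h
  · -- an interior point
    push Not at hneg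
    have hmem : plcJ N ∈ P.toValuationSubring := place_mem_of_ord_nonneg P hneg
    obtain ⟨a, ha⟩ := (plc_residue N P).2 (IsLocalRing.residue P.toValuationSubring ⟨plcJ N, hmem⟩)
    have h1 : IsLocalRing.residue P.toValuationSubring
        (⟨plcJ N, hmem⟩ - algebraMap ℂ P.toValuationSubring a) = 0 := by
      rw [map_sub, ← ha]
      exact sub_eq_zero.mpr rfl
    rw [IsLocalRing.residue_eq_zero_iff, sf_mem_maximalIdeal_iff_ord] at h1
    have hne : plcJ N - algebraMap ℂ FC a ≠ 0 := by
      intro h0
      apply hJt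
      rw [sub_eq_zero] at h0
      rw [h0]
      exact isAlgebraic_algebraMap a
    have hpos : 0 < P.ord (plcJ N - algebraMap ℂ FC a) := by
      rcases h1 with h1 | h1
      · exfalso
        apply hne
        have := congrArg (fun y : P.toValuationSubring => (y : FC)) h1
        simpa using this
      · exact h1
    have hxa : Transcendental ℂ (plcJ N - algebraMap ℂ FC a) := by
      intro h
      apply hJt
      have h2 := h.add (isAlgebraic_algebraMap (R := ℂ) (A := FC) a)
      simpa using h2
    haveI : FiniteDimensional ℂ⟮plcJ N - algebraMap ℂ FC a⟯ FC := by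
      rw [sysfin_adjoin_sub]; infer_instance
    -- common part: a prime `e₀`, the period `r ∈ {1, e₀}`
    have key : ∀ (τ₀ : ℍ) (e : ℕ)
        (S : LaurentSystem ℂ (plcJ N - algebraMap ℂ FC a) ℂ Xc),
        (e = 1 ∨ e.Prime) → S.e₀ = e → S.φ = plcPhi N τ₀ →
        ∃ q : Xc, IsPlaceOf P (plcPhi N τ₀ q) ∧
          ((∀ f : FC, f ≠ 0 → (plcPhi N τ₀ q f).order = P.ord f) ∨
            (S.π q = q ∧ ∀ f : FC, f ≠ 0 → (plcPhi N τ₀ q f).order = (e : ℤ) * P.ord f)) := by
      intro τ₀ e S he hS hφ
      obtain ⟨q, rfl⟩ := S.exists_place_eq hxa P hpos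
      have hpl : IsPlaceOf (S.place q) (plcPhi N τ₀ q) := by
        have := S.isPlaceOf_place q
        rwa [hφ] at this
      refine ⟨q, hpl, ?_⟩
      have hr0 : 0 < Function.minimalPeriod S.π q := by
        refine Function.IsPeriodicPt.minimalPeriod_pos (orderOf_pos S.π) ?_
        show (S.π)^[orderOf S.π] q = q
        rw [Equiv.Perm.iterate_eq_pow, pow_orderOf_eq_one]
        rfl
      have hmul : ∀ f : FC, f ≠ 0 →
          (Function.minimalPeriod S.π q : ℤ) * (plcPhi N τ₀ q f).order
            = (e : ℤ) * (S.place q).ord f := by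
        intro f hf
        have h := plc_mult_eq hxa S q f hf
        rw [hS, hφ] at h
        exact h
      -- the period divides `e`
      obtain ⟨m, hm0, hm⟩ := hpl.exists_order_eq
      obtain ⟨π₀, hπ₀⟩ := IsDiscreteValuationRing.exists_irreducible (S.place q).toValuationSubring
      have ht : (S.place q).ord (π₀ : FC) = 1 := (S.place q).ord_coe_irreducible hπ₀
      have ht0 : (π₀ : FC) ≠ 0 := by
        intro h0
        rw [h0, Place.ord_zero] at ht
        exact zero_ne_one ht
      have h2 := hmul _ ht0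
      rw [hm _ ht0, ht, mul_one, mul_one] at h2
      have hrdvd : Function.minimalPeriod S.π q ∣ e := by
        have : (Function.minimalPeriod S.π q : ℤ) ∣ (e : ℤ) := ⟨m, h2.symm⟩
        exact_mod_cast this
      have hcases : Function.minimalPeriod S.π q = e ∨ Function.minimalPeriod S.π q = 1 := by
        rcases he with rfl | he
        · left; exact Nat.dvd_one.mp hrdvd
        · rcases (Nat.dvd_prime he).mp hrdvd with h | h
          · right; exact h
          · left; exact h
      rcases hcases with hr | hr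
      · left
        intro f hf
        have h := hmul f hf
        rw [hr] at h
        have he0 : (e : ℤ) ≠ 0 := by
          rw [← hr]; exact_mod_cast hr0.ne'
        exact mul_left_cancel₀ he0 h
      · right
        refine ⟨?_, fun f hf => ?_⟩
        · exact Function.minimalPeriod_eq_one_iff_isFixedPt.mp hr
        · have h := hmul f hf
          rw [hr] at h
          simpa using h
    by_cases h0 : a = 0
    · subst h0
      obtain ⟨S, hS, hπ, hφ⟩ := plc_laurentSystem_zero N
      have hx0 : plcJ N - algebraMap ℂ FC 0 = plcJ N := by simp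
      have hS' : ∃ S' : LaurentSystem ℂ (plcJ N - algebraMap ℂ FC 0) ℂ Xc,
          S'.e₀ = 3 ∧ S'.π = MulAction.toPerm (ModularGroup.S * ModularGroup.T) ∧
            S'.φ = plcPhi N rho := by
        rw [hx0]
        exact ⟨S, hS, hπ, hφ⟩
      obtain ⟨S', hS', hπ', hφ'⟩ := hS'
      obtain ⟨q, hpl, hq | ⟨hfix, hq⟩⟩ := key rho 3 S' (Or.inr Nat.prime_three) hS' hφ'
      · left; exact ⟨rho, q, hpl, hq⟩
      · right; right; left
        rw [hπ'] at hfix
        exact ⟨q, hfix, hpl, hq⟩
    by_cases h1728 : a = 1728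
    · subst h1728
      obtain ⟨S, hS, hπ, hφ⟩ := plc_laurentSystem_1728 N
      obtain ⟨q, hpl, hq | ⟨hfix, hq⟩⟩ := key UpperHalfPlane.I 2 S (Or.inr Nat.prime_two) hS hφ
      · left; exact ⟨UpperHalfPlane.I, q, hpl, hq⟩
      · right; left
        rw [hπ] at hfix
        exact ⟨q, hfix, hpl, hq⟩
    · obtain ⟨τ₀, rfl⟩ := jFun_surjective a
      obtain ⟨S, hS, hφ⟩ := plc_laurentSystem_generic N τ₀ h0 h1728
      obtain ⟨q, hpl, hq | ⟨-, hq⟩⟩ := key τ₀ 1 S (Or.inl rfl) hS hφ
      · left; exact ⟨τ₀, q, hpl, hq⟩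
      · left
        exact ⟨τ₀, q, hpl, fun f hf => by simpa using hq f hf⟩

end PlcEll

end Fermat.Agent.S29
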