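import Fermat.Agent.S29.PsiLocal
import Fermat.Agent.S29.PlCEll
import Fermat.Agent.S29.EisCusp

/-!
# S29, package [PSI-C], local part: `p ∣ ord_P ((E_χ / E_1) ^ p)` at every place

`psl_main`: let `χ` be a character of `Γ₀(N)` with values of absolute value `1`, trivial on the
elements of trace of absolute value `≤ 2`, and let `f ∈ F_ℂ` have `q`-expansion
`(E_χ / E_1) ^ p` (weight `4` Eisenstein series `eisxChi N 4 χ`).  Then `p ∣ ord_P f` at every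
place `P` of `F_ℂ`.  No hypothesis on the natural number `p`.
-/

set_option autoImplicit false

noncomputable section

open UpperHalfPlane Filter Topology CongruenceSubgroup AlgebraicCurve
open scoped ModularForm Manifold MatrixGroups

namespace Fermat.Agent.S29

open Fermat.Agent.S24

section PslMain

variable (N : ℕ) [NeZero N]

set_option quotPrecheck false in
local notation "FC" => ↥(ModularCurve.laurentBaseChange ℂ (ModularCurve.modularFunctionFieldFull N))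
local notation "Xc" => SL(2, ℤ) ⧸ CongruenceSubgroup.Gamma0 N

omit [NeZero N] in
/-- A character killing the elements of trace `≤ 2` in absolute value kills the elements `±T^b`. -/
theorem psl_hT {χ : ↥(Gamma0 N) →* ℂˣ}
    (hχ : ∀ γ : ↥(Gamma0 N),
      |((γ : SL(2, ℤ)) : Matrix (Fin 2) (Fin 2) ℤ).trace| ≤ 2 → χ γ = 1) :
    ∀ γ : ↥(Gamma0 N), (γ : SL(2, ℤ)) 1 0 = 0 → χ γ = 1 := by
  intro γ h0
  apply hχ
  have hdet := (γ : SL(2, ℤ)).det_coe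
  rw [Matrix.det_fin_two] at hdet
  have h0' : ((γ : SL(2, ℤ)) : Matrix (Fin 2) (Fin 2) ℤ) 1 0 = 0 := h0
  rw [h0', mul_zero, sub_zero] at hdet
  rw [Matrix.trace_fin_two]
  rcases Int.eq_one_or_neg_one_of_mul_eq_one' hdet with ⟨h1, h2⟩ | ⟨h1, h2⟩
  · rw [h1, h2]; norm_num
  · rw [h1, h2]; norm_num

omit [NeZero N] in
/-- the trace of a conjugate -/
theorem psl_trace_conj (σ δ : SL(2, ℤ)) :
    ((σ⁻¹ * (δ * σ) : SL(2, ℤ)) : Matrix (Fin 2) (Fin 2) ℤ).trace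
      = (δ : Matrix (Fin 2) (Fin 2) ℤ).trace := by
  rw [Matrix.SpecialLinearGroup.coe_mul, Matrix.trace_mul_comm,
    ← Matrix.SpecialLinearGroup.coe_mul, mul_assoc, mul_inv_cancel, mul_one]

omit [NeZero N] in
/-- `E_χ` is invariant of weight `4` under the conjugates in `Γ₀(N)` of elements of small
trace. -/
theorem psl_eis_slash {χ : ↥(Gamma0 N) →* ℂˣ}
    (hχ : ∀ γ : ↥(Gamma0 N),
      |((γ : SL(2, ℤ)) : Matrix (Fin 2) (Fin 2) ℤ).trace| ≤ 2 → χ γ = 1)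
    (σ δ : SL(2, ℤ)) (hδ : |(δ : Matrix (Fin 2) (Fin 2) ℤ).trace| ≤ 2)
    (hmem : σ⁻¹ * (δ * σ) ∈ Gamma0 N) :
    eisxChi N 4 χ ∣[(4 : ℤ)] (σ⁻¹ * δ * σ⁻¹⁻¹) = eisxChi N 4 χ := by
  have h1 := eisxChi_slash (N := N) 4 (psl_hT N hχ) ⟨σ⁻¹ * (δ * σ), hmem⟩
  have h2 : χ ⟨σ⁻¹ * (δ * σ), hmem⟩ = 1 := by
    apply hχ
    show |((σ⁻¹ * (δ * σ) : SL(2, ℤ)) : Matrix (Fin 2) (Fin 2) ℤ).trace| ≤ 2
    rw [psl_trace_conj]
    exact hδ
  rw [h2, Units.val_one, one_smul] at h1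
  rw [inv_inv, mul_assoc]
  exact h1

omit [NeZero N] in
/-- `E_χ ^ p` is weakly holomorphic and bounded at `i∞`. -/
theorem psl_eis_isWH {χ : ↥(Gamma0 N) →* ℂˣ} (h1 : ∀ γ, ‖((χ γ : ℂˣ) : ℂ)‖ = 1)
    (hT : ∀ γ : ↥(Gamma0 N), (γ : SL(2, ℤ)) 1 0 = 0 → χ γ = 1) (p : ℕ) :
    IsWH (eisxChi N 4 χ ^ p) ∧ IsBoundedAtImInfty (eisxChi N 4 χ ^ p) := by
  have hmd : MDiff (eisxChi N 4 χ) := eisxChi_mdiff (by norm_num) h1
  have hbd : IsBoundedAtImInfty (eisxChi N 4 χ) := by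
    have h := eisxChi_slash_bdd (N := N) (k := 4) (by norm_num) h1 1
    rwa [SlashAction.slash_one] at h
  have hbp : IsBoundedAtImInfty (eisxChi N 4 χ ^ p) := eisx_bdd_pow hbd p
  have hTmem : ModularGroup.T ∈ Gamma0 N := by
    rw [Gamma0_mem]
    simp [ModularGroup.T]
  have hper : ∀ τ : ℍ, eisxChi N 4 χ ((1 : ℝ) +ᵥ τ) = eisxChi N 4 χ τ := by
    intro τ
    have h2 := eisxChi_slash (N := N) 4 hT ⟨ModularGroup.T, hTmem⟩
    have h3 : χ ⟨ModularGroup.T, hTmem⟩ = 1 := hT _ (by simp [ModularGroup.T])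
    rw [h3, Units.val_one, one_smul] at h2
    have h4 := eisc_slash_T 4 (eisxChi N 4 χ) 1 τ
    rw [zpow_one] at h4
    have h5 : (eisxChi N 4 χ ∣[(4 : ℤ)] ModularGroup.T) τ = eisxChi N 4 χ τ := congrFun h2 τ
    rw [h5] at h4
    rw [h4]
    norm_num
  refine ⟨⟨?_, ?_, 0, ?_⟩, hbp⟩
  · exact hmd.pow p
  · intro τ
    show eisxChi N 4 χ ((1 : ℝ) +ᵥ τ) ^ p = eisxChi N 4 χ τ ^ p
    rw [hper]
  · have e : (fun τ : ℍ => ModularForm.discriminant τ ^ 0 * (eisxChi N 4 χ ^ p) τ)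
        = eisxChi N 4 χ ^ p := by
      funext τ
      simp
    rw [e]
    exact hbp

/-- The relation on the upper half plane between a fraction of elements of the analytic ring
representing `f` and the Eisenstein series. -/
theorem psl_rel {χ : ↥(Gamma0 N) →* ℂˣ} (h1 : ∀ γ, ‖((χ γ : ℂˣ) : ℂ)‖ = 1)
    (hT : ∀ γ : ↥(Gamma0 N), (γ : SL(2, ℤ)) 1 0 = 0 → χ γ = 1) (p : ℕ)
    (f : FC) (g h : anaRingC N) (hh : h ≠ 0)
    (hfgh : (f : LaurentSeries ℂ) = plcκA N g / plcκA N h)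
    (hf : (f : LaurentSeries ℂ) * HahnSeries.ofPowerSeries ℤ ℂ
        (qExpansion 1 (eisxChi N 4 (1 : ↥(Gamma0 N) →* ℂˣ) ^ p))
      = HahnSeries.ofPowerSeries ℤ ℂ (qExpansion 1 (eisxChi N 4 χ ^ p))) :
    ∀ τ : ℍ, (g : ℍ → ℂ) τ * eisxChi N 4 (1 : ↥(Gamma0 N) →* ℂˣ) τ ^ p
      = eisxChi N 4 χ τ ^ p * (h : ℍ → ℂ) τ := by
  have hT1 : ∀ γ : ↥(Gamma0 N), (γ : SL(2, ℤ)) 1 0 = 0 → (1 : ↥(Gamma0 N) →* ℂˣ) γ = 1 :=
    fun _ _ => rfl
  obtain ⟨hWχ, hbχ⟩ := psl_eis_isWH N h1 hT p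
  obtain ⟨hW1, hb1⟩ := psl_eis_isWH N (eisc_one_norm N) hT1 p
  have hg : IsWH (g : ℍ → ℂ) := plc_anaRingC_le N g.2
  have hhW : IsWH (h : ℍ → ℂ) := plc_anaRingC_le N h.2
  have eg : plcκA N g = qLaurent ⟨(g : ℍ → ℂ), hg⟩ := rfl
  have eh : plcκA N h = qLaurent ⟨(h : ℍ → ℂ), hhW⟩ := rfl
  have hκh : plcκA N h ≠ 0 := by
    have := (plcκA_injective N).ne hh
    rwa [map_zero] at this
  rw [← qLaurent_of_bounded _ hWχ hbχ, ← qLaurent_of_bounded _ hW1 hb1, hfgh,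
    div_mul_eq_mul_div, div_eq_iff hκh, eg, eh, ← map_mul, ← map_mul] at hf
  have h2 := qLaurent_injective hf
  intro τ
  exact congrFun (congrArg Subtype.val h2) τ

/-- **PSI-C, local divisibility.** If `f ∈ F_ℂ` has the `q`-expansion of `(E_χ / E_1) ^ p`, where
`χ` is a unitary character of `Γ₀(N)` trivial on the elements of trace `≤ 2` in absolute value,
then `p` divides the order of `f` at every place of `F_ℂ`. -/
theorem psl_main (p : ℕ) (χ : ↥(Gamma0 N) →* ℂˣ) (h1 : ∀ γ, ‖((χ γ : ℂˣ) : ℂ)‖ = 1)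
    (hχ : ∀ γ : ↥(Gamma0 N),
      |((γ : SL(2, ℤ)) : Matrix (Fin 2) (Fin 2) ℤ).trace| ≤ 2 → χ γ = 1)
    (f : FC)
    (hf : (f : LaurentSeries ℂ) * HahnSeries.ofPowerSeries ℤ ℂ
        (qExpansion 1 (eisxChi N 4 (1 : ↥(Gamma0 N) →* ℂˣ) ^ p))
      = HahnSeries.ofPowerSeries ℤ ℂ (qExpansion 1 (eisxChi N 4 χ ^ p)))
    (P : Place ℂ FC) : (p : ℤ) ∣ P.ord f := by
  rcases eq_or_ne f 0 with rfl | hf0
  · rw [Place.ord_zero]
    exact dvd_zero _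
  have hT := psl_hT N hχ
  have hχ1 : ∀ γ : ↥(Gamma0 N),
      |((γ : SL(2, ℤ)) : Matrix (Fin 2) (Fin 2) ℤ).trace| ≤ 2 →
        (1 : ↥(Gamma0 N) →* ℂˣ) γ = 1 := fun _ _ => rfl
  have hT1 : ∀ γ : ↥(Gamma0 N), (γ : SL(2, ℤ)) 1 0 = 0 → (1 : ↥(Gamma0 N) →* ℂˣ) γ = 1 :=
    fun _ _ => rfl
  have hk : (3 : ℤ) ≤ 4 := by norm_num
  have hk2 : Even (4 : ℤ) := ⟨2, by norm_num⟩
  obtain ⟨g, h, hh, hfgh, -⟩ := plc_exists_fraction_q N f
  have hrel := psl_rel N h1 hT p f g h hh hfgh hf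
  have hgm : MDiff (g : ℍ → ℂ) := plc_mdiff_of_mem N g.2
  have hhm : MDiff (h : ℍ → ℂ) := plc_mdiff_of_mem N h.2
  have hh0 : (h : ℍ → ℂ) ≠ 0 := fun h0 => hh (Subtype.ext h0)
  have hE : MDiff (eisxChi N 4 χ) := eisxChi_mdiff hk h1
  have hE1 : MDiff (eisxChi N 4 (1 : ↥(Gamma0 N) →* ℂˣ)) := eisxChi_mdiff hk (eisc_one_norm N)
  have hE0 : eisxChi N 4 χ ≠ 0 := eisxChi_ne_zero hk hk2 h1 hT
  have hE10 : eisxChi N 4 (1 : ↥(Gamma0 N) →* ℂˣ) ≠ 0 :=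
    eisxChi_ne_zero hk hk2 (eisc_one_norm N) hT1
  have hPhi : ∀ (τ₀ : ℍ) (q : Xc), plcPhi N τ₀ q f
      = HahnSeries.ofPowerSeries ℤ ℂ (taylorAt τ₀ (fun τ => (g : ℍ → ℂ) (q.out⁻¹ • τ))) /
        HahnSeries.ofPowerSeries ℤ ℂ (taylorAt τ₀ (fun τ => (h : ℍ → ℂ) (q.out⁻¹ • τ))) := by
    intro τ₀ q
    rw [plcPhi_def, plcLift_eq_of_q N _ _ f g h hh hfgh]
    rfl
  rcases plc_classify_ell N P with ⟨τ₀, q, -, hord⟩ | ⟨q, hfix, -, hord⟩ | ⟨q, hfix, -, hord⟩ |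
    ⟨q, w, hw0, hwN, hfix, -, hord⟩
  · -- an unramified point
    obtain ⟨k, hk'⟩ := psl_interior hgm hhm hE hE1 hh0 hE10 hrel q.out⁻¹ τ₀
    refine ⟨k, ?_⟩
    rw [← hord f hf0, hPhi, hk']
  · -- the point `i`, coset fixed by `S`
    have hmem := sysfin_mem_of_smul_eq N ModularGroup.S q hfix
    have htr : |(ModularGroup.S : Matrix (Fin 2) (Fin 2) ℤ).trace| ≤ 2 := by
      rw [Matrix.trace_fin_two]
      simp [ModularGroup.S]
    obtain ⟨k, hk'⟩ := psl_interior_ell (e := 2) hgm hhm hE hE1 hh0 hE0 hE10 hrel q.out⁻¹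
      ModularGroup.S UpperHalfPlane.I
      (fun G hG hne hinv => two_dvd_order_taylorAt_I hG hne hinv)
      (psl_eis_slash N hχ q.out ModularGroup.S htr hmem)
      (psl_eis_slash N hχ1 q.out ModularGroup.S htr hmem)
    refine ⟨k, ?_⟩
    have h2 := hord f hf0
    rw [hPhi, hk'] at h2
    push_cast at h2
    linarith
  · -- the point `ρ`, coset fixed by `S * T`
    have hmem := sysfin_mem_of_smul_eq N (ModularGroup.S * ModularGroup.T) q hfix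
    have htr : |((ModularGroup.S * ModularGroup.T : SL(2, ℤ)) :
        Matrix (Fin 2) (Fin 2) ℤ).trace| ≤ 2 := by
      rw [Matrix.trace_fin_two]
      have h00 : ((ModularGroup.S * ModularGroup.T : SL(2, ℤ)) : Matrix (Fin 2) (Fin 2) ℤ) 0 0 = 0 :=
        ty_ST_entries.1
      have h11 : ((ModularGroup.S * ModularGroup.T : SL(2, ℤ)) : Matrix (Fin 2) (Fin 2) ℤ) 1 1 = 1 :=
        ty_ST_entries.2.2.2
      rw [h00, h11]
      norm_num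
    obtain ⟨k, hk'⟩ := psl_interior_ell (e := 3) hgm hhm hE hE1 hh0 hE0 hE10 hrel q.out⁻¹
      (ModularGroup.S * ModularGroup.T) rho
      (fun G hG hne hinv => three_dvd_order_taylorAt_rho hG hne hinv)
      (psl_eis_slash N hχ q.out (ModularGroup.S * ModularGroup.T) htr hmem)
      (psl_eis_slash N hχ1 q.out (ModularGroup.S * ModularGroup.T) htr hmem)
    refine ⟨k, ?_⟩
    have h2 := hord f hf0
    rw [hPhi, hk'] at h2
    push_cast at h2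
    linarith
  · -- a cusp
    have hmem := sysfin_mem_of_smul_eq N (ModularGroup.T ^ w) q hfix
    rw [← mul_assoc] at hmem
    have hpar : ∀ δ : ↥(Gamma0 N),
        Matrix.trace ((δ : SL(2, ℤ)) : Matrix (Fin 2) (Fin 2) ℤ) = 2 → χ δ = 1 := by
      intro δ hδ
      apply hχ
      rw [hδ]
      norm_num
    obtain ⟨n, hn⟩ := eisc_main N hk hk2 χ h1 hT hpar q.out w hmem p
    have hgW := plc_cusp_isWH N q.out g.2
    have hhW := plc_cusp_isWH N q.out h.2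
    have hh0' : scComp N q.out (h : ℍ → ℂ) ≠ 0 := by
      intro h0
      apply hh
      have h3 : plcCuspTheta N q.out h = plcCuspTheta N q.out 0 := by
        rw [plcCuspTheta_apply, map_zero]
        have : (⟨scComp N q.out (h : ℍ → ℂ), hhW⟩ : whSubring) = 0 := Subtype.ext h0
        rw [this, map_zero]
      exact plcCuspTheta_injective N q.out h3
    have h2 := hn (scComp N q.out (g : ℍ → ℂ)) (scComp N q.out (h : ℍ → ℂ)) hgW hhW hh0'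
      (fun τ => by
        rw [sc_comp_apply, sc_comp_apply, mul_comm ((h : ℍ → ℂ) _)]
        exact hrel _)
    have h3 := hord f hf0
    have hC : plcCusp N q f = qLaurent ⟨scComp N q.out (g : ℍ → ℂ), hgW⟩ /
        qLaurent ⟨scComp N q.out (h : ℍ → ℂ), hhW⟩ := by
      rw [plcCusp, plcLift_eq_of_q N _ _ f g h hh hfgh]
      rfl
    rw [hC, h2] at h3
    have hN0 : (N : ℤ) ≠ 0 := by exact_mod_cast NeZero.ne N
    exact ⟨n, (mul_left_cancel₀ hN0 h3).symm⟩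

/-- `psl_main` with the `q`-expansions of the modular forms `eisxPow`. -/
theorem psl_main_pow (p : ℕ) (χ : ↥(Gamma0 N) →* ℂˣ) (h1 : ∀ γ, ‖((χ γ : ℂˣ) : ℂ)‖ = 1)
    (hχ : ∀ γ : ↥(Gamma0 N),
      |((γ : SL(2, ℤ)) : Matrix (Fin 2) (Fin 2) ℤ).trace| ≤ 2 → χ γ = 1)
    (hk : (3 : ℤ) ≤ 4)
    (hT : ∀ γ : ↥(Gamma0 N), (γ : SL(2, ℤ)) 1 0 = 0 → χ γ = 1) (hp : ∀ γ, χ γ ^ p = 1)
    (h11 : ∀ γ, ‖(((1 : ↥(Gamma0 N) →* ℂˣ) γ : ℂˣ) : ℂ)‖ = 1)
    (hT1 : ∀ γ : ↥(Gamma0 N), (γ : SL(2, ℤ)) 1 0 = 0 → (1 : ↥(Gamma0 N) →* ℂˣ) γ = 1)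
    (hp1 : ∀ γ, (1 : ↥(Gamma0 N) →* ℂˣ) γ ^ p = 1)
    (f : FC)
    (hf : (f : LaurentSeries ℂ) * HahnSeries.ofPowerSeries ℤ ℂ
        (qExpansion 1 (eisxPow N hk (1 : ↥(Gamma0 N) →* ℂˣ) h11 hT1 p hp1))
      = HahnSeries.ofPowerSeries ℤ ℂ (qExpansion 1 (eisxPow N hk χ h1 hT p hp)))
    (P : Place ℂ FC) : (p : ℤ) ∣ P.ord f :=
  psl_main N p χ h1 hχ f hf P

end PslMain

end Fermat.Agent.S29
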