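import Fermat.Agent.S29.EigRed

/-!
# S29, package E2 [REDUCTION], functional form (ruling R4 of the stage-3 coordinator)

For `ω : X → ℂ` nonzero with finitely generated `ℤ`-span of values and `φ : ℤ̄ →+* k` with
maximal kernel (`egr_ker_isMaximal` when `k` has characteristic `p`):

* `egr_isIntegral_fun`: a multiplier preserving the `ℤ`-span of the values is integral;
* `egr_theta_semilinear`: a `φ`-semilinear map on `span_ℤ̄ (range ω)` not vanishing on some `ω x`;
* `egr_theta`: the same as an unbundled `θ : ℂ → k`.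
-/

set_option autoImplicit false

namespace Fermat.Agent.S29

/-- Integrality of eigenvalues, functional form: `ω : X → ℂ` nonzero whose values span a
finitely generated `ℤ`-module stable under multiplication by `a`; then `a` is an algebraic
integer. -/
theorem egr_isIntegral_fun {X : Type*} (ω : X → ℂ)
    (hfg : (Submodule.span ℤ (Set.range ω)).FG) (hω : ω ≠ 0) (a : ℂ)
    (ha : ∀ x, a * ω x ∈ Submodule.span ℤ (Set.range ω)) : IsIntegral ℤ a := by
  refine isIntegral_of_smul_mem_submodule (R := ℤ) (A := ℂ) (M := ℂ)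
    (Submodule.span ℤ (Set.range ω)) ?_ hfg a ?_
  · intro hbot
    apply hω
    funext x
    have : ω x ∈ Submodule.span ℤ (Set.range ω) := Submodule.subset_span ⟨x, rfl⟩
    rw [hbot, Submodule.mem_bot] at this
    simpa using this
  · intro n hn
    induction hn using Submodule.span_induction with
    | mem y hy =>
      obtain ⟨x, rfl⟩ := hy
      exact ha x
    | zero => rw [smul_zero]; exact Submodule.zero_mem _
    | add y z _ _ hy hz => rw [smul_add]; exact Submodule.add_mem _ hy hz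
    | smul c y _ hy => rw [smul_comm]; exact Submodule.smul_mem _ c hy

/-- If the `ℤ`-span of a set of complex numbers is finitely generated, so is its `ℤ̄`-span. -/
theorem egr_span_fg_of_int {s : Set ℂ} (hfg : (Submodule.span ℤ s).FG) :
    (Submodule.span (integralClosure ℤ ℂ) s).FG := by
  obtain ⟨t, ht⟩ := hfg
  refine ⟨t, ?_⟩
  apply le_antisymm
  · rw [Submodule.span_le]
    intro x hx
    have h1 : x ∈ Submodule.span ℤ s := by rw [← ht]; exact Submodule.subset_span hx
    exact Submodule.span_subset_span ℤ (integralClosure ℤ ℂ) s h1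
  · rw [Submodule.span_le]
    intro x hx
    have h1 : x ∈ Submodule.span ℤ (t : Set ℂ) := by rw [ht]; exact Submodule.subset_span hx
    exact Submodule.span_subset_span ℤ (integralClosure ℤ ℂ) (t : Set ℂ) h1

/-- **E2 [REDUCTION], functional form (ruling R4).**  `ω : X → ℂ` nonzero with finitely
generated `ℤ`-span of values, `φ : ℤ̄ →+* k` with maximal kernel.  Then there is a
`φ`-semilinear map `Θ` on `M' := span_ℤ̄ (range ω)` which does not vanish on some `ω x`. -/
theorem egr_theta_semilinear {X : Type*} (ω : X → ℂ)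
    (hfg : (Submodule.span ℤ (Set.range ω)).FG) (hω : ω ≠ 0)
    {k : Type*} [Field k] (φ : integralClosure ℤ ℂ →+* k) (hφ : (RingHom.ker φ).IsMaximal) :
    ∃ Θ : Submodule.span (integralClosure ℤ ℂ) (Set.range ω) →ₛₗ[φ] k,
      ∃ x, Θ ⟨ω x, Submodule.subset_span ⟨x, rfl⟩⟩ ≠ 0 := by
  classical
  set S : Submodule (integralClosure ℤ ℂ) ℂ :=
    Submodule.span (integralClosure ℤ ℂ) (Set.range ω) with hS
  have hin : ∀ x, ω x ∈ S := fun x => Submodule.subset_span ⟨x, rfl⟩
  have : Module.Finite (integralClosure ℤ ℂ) S := Module.Finite.iff_fg.mpr (egr_span_fg_of_int hfg)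
  have : Nontrivial S := by
    obtain ⟨x, hx⟩ : ∃ x, ω x ≠ 0 := by
      by_contra hcon
      apply hω
      funext x
      by_contra hx
      exact hcon ⟨x, hx⟩
    exact ⟨⟨⟨ω x, hin x⟩, 0, fun h => hx (congrArg Subtype.val h)⟩⟩
  obtain ⟨Φ, hΦ⟩ := egr_core (S := S) φ hφ
  refine ⟨Φ, ?_⟩
  by_contra hcon
  apply hΦ
  ext ⟨y, hy⟩
  induction hy using Submodule.span_induction with
  | mem y hy =>
    obtain ⟨x, rfl⟩ := hy
    by_contra hne
    exact hcon ⟨x, hne⟩
  | zero =>
    have : (⟨0, S.zero_mem⟩ : S) = 0 := rfl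
    rw [this, map_zero, map_zero]
  | add y z hy hz ihy ihz =>
    have : (⟨y + z, S.add_mem hy hz⟩ : S) = ⟨y, hy⟩ + ⟨z, hz⟩ := rfl
    rw [this, map_add, ihy, ihz]; simp
  | smul c y hy ihy =>
    have : (⟨c • y, S.smul_mem c hy⟩ : S) = c • ⟨y, hy⟩ := rfl
    rw [this, map_smulₛₗ, ihy]; simp

/-- **E2 [REDUCTION], functional form with an unbundled `θ : ℂ → k`** (extended by zero outside
`M' := span_ℤ̄ (range ω)`): additive on `M'`, `θ (a * m) = φ a * θ m` for `a ∈ ℤ̄`, `m ∈ M'`,
compatible with finite sums in `M'`, and `θ (ω x) ≠ 0` for some `x`. -/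
theorem egr_theta.{u, v, w} {X : Type u} (ω : X → ℂ)
    (hfg : (Submodule.span ℤ (Set.range ω)).FG) (hω : ω ≠ 0)
    {k : Type v} [Field k] (φ : integralClosure ℤ ℂ →+* k) (hφ : (RingHom.ker φ).IsMaximal) :
    ∃ θ : ℂ → k, θ 0 = 0 ∧
      (∀ m ∈ Submodule.span (integralClosure ℤ ℂ) (Set.range ω),
        ∀ m' ∈ Submodule.span (integralClosure ℤ ℂ) (Set.range ω), θ (m + m') = θ m + θ m') ∧
      (∀ (a : integralClosure ℤ ℂ), ∀ m ∈ Submodule.span (integralClosure ℤ ℂ) (Set.range ω),
        θ ((a : ℂ) * m) = φ a * θ m) ∧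
      (∀ (I : Type w) (s : Finset I) (f : I → ℂ),
        (∀ i ∈ s, f i ∈ Submodule.span (integralClosure ℤ ℂ) (Set.range ω)) →
          θ (∑ i ∈ s, f i) = ∑ i ∈ s, θ (f i)) ∧
      ∃ x, θ (ω x) ≠ 0 := by
  classical
  set S : Submodule (integralClosure ℤ ℂ) ℂ :=
    Submodule.span (integralClosure ℤ ℂ) (Set.range ω) with hS
  obtain ⟨Θ, x, hx⟩ := egr_theta_semilinear ω hfg hω φ hφ
  let θ : ℂ → k := fun z => if h : z ∈ S then Θ ⟨z, h⟩ else 0
  have hθ : ∀ z (h : z ∈ S), θ z = Θ ⟨z, h⟩ := fun z h => dif_pos h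
  have hadd : ∀ m ∈ S, ∀ m' ∈ S, θ (m + m') = θ m + θ m' := by
    intro m hm m' hm'
    rw [hθ _ (S.add_mem hm hm'), hθ _ hm, hθ _ hm', ← map_add]
    rfl
  have h0 : θ 0 = 0 := by
    rw [hθ _ S.zero_mem]
    exact map_zero Θ
  refine ⟨θ, h0, hadd, ?_, ?_, x, ?_⟩
  · intro a m hm
    have hmem : (a : ℂ) * m ∈ S := by
      have := S.smul_mem a hm
      rwa [Algebra.smul_def] at this
    rw [hθ _ hmem, hθ _ hm, ← smul_eq_mul (φ a), ← map_smulₛₗ]
    congr 1
  · intro I s f hf
    induction s using Finset.induction_on with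
    | empty => simpa using h0
    | insert i s hi ih =>
      rw [Finset.sum_insert hi, Finset.sum_insert hi,
        hadd _ (hf i (Finset.mem_insert_self i s)) _
          (S.sum_mem fun j hj => hf j (Finset.mem_insert_of_mem hj)),
        ih fun j hj => hf j (Finset.mem_insert_of_mem hj)]
  · rw [hθ _ (Submodule.subset_span ⟨x, rfl⟩)]
    exact hx

end Fermat.Agent.S29
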