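import Mathlib
import Fermat.Prelude.Sol.S_ModularForm_heckeT_slash_eq_self_of_mem_Gamma0

/-!
# S29, package [PERIOD], part 1: the transfer (cohomological) Hecke operator

For a prime `ℓ ∤ N` the `ℓ + 1` matrices `heckeRep ℓ x` (`x ∈ ℙ¹(𝔽_ℓ) = OnePoint (ZMod ℓ)`),
i.e. `[[1, j], [0, ℓ]]` (`j < ℓ`) and `[[ℓ, 0], [0, 1]]`, satisfy

  `heckeRep ℓ x * γ = per_gam γ x * heckeRep ℓ (redMatrix ℓ γ • x)`     (`γ ∈ Γ₀(N)`)

with `per_gam γ x ∈ Γ₀(N)`.  `per_gam` is a cocycle, and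

  `(per_Tcoh ψ) γ = ∑ x, ψ (per_gam γ x)`

is the Hecke operator `T_ℓ` on `Hom(Γ₀(N), A)` (transfer formula).
-/

set_option autoImplicit false

open CongruenceSubgroup Matrix.SpecialLinearGroup
open P2MW.S_ModularForm_heckeT_slash_eq_self_of_mem_Gamma0.ModularForm.HeckeSlashInvariance
open scoped MatrixGroups

namespace Fermat.Agent.S29

variable {N ℓ : ℕ} [Fact ℓ.Prime]

theorem per_dvd_of_mem (γ : Gamma0 N) : (N : ℤ) ∣ (γ : SL(2, ℤ)) 1 0 :=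
  (ZMod.intCast_zmod_eq_zero_iff_dvd _ _).mp (Gamma0_mem.mp γ.2)

theorem per_mem_of_dvd {g : SL(2, ℤ)} (h : (N : ℤ) ∣ g 1 0) : g ∈ Gamma0 N :=
  Gamma0_mem.mpr ((ZMod.intCast_zmod_eq_zero_iff_dvd _ _).mpr h)

/-- The cocycle of the coset representatives: `heckeRep x * γ = per_gam γ x * heckeRep (γ • x)`. -/
noncomputable def per_gam (hℓN : ¬ ℓ ∣ N) (γ : Gamma0 N) (x : OnePoint (ZMod ℓ)) : Gamma0 N :=
  ⟨Classical.choose (heckeRep_mul hℓN (γ : SL(2, ℤ)) (per_dvd_of_mem γ) x),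
    per_mem_of_dvd (Classical.choose_spec (heckeRep_mul hℓN (γ : SL(2, ℤ)) (per_dvd_of_mem γ) x)).1⟩

theorem per_gam_spec (hℓN : ¬ ℓ ∣ N) (γ : Gamma0 N) (x : OnePoint (ZMod ℓ)) :
    heckeRep ℓ x * mapGL ℝ (γ : SL(2, ℤ))
      = mapGL ℝ ((per_gam hℓN γ x : Gamma0 N) : SL(2, ℤ))
        * heckeRep ℓ (redMatrix ℓ (γ : SL(2, ℤ)) • x) :=
  (Classical.choose_spec (heckeRep_mul hℓN (γ : SL(2, ℤ)) (per_dvd_of_mem γ) x)).2

/-- `redMatrix` is anti-multiplicative. -/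
theorem per_redMatrix_mul (g₁ g₂ : SL(2, ℤ)) :
    redMatrix ℓ (g₁ * g₂) = redMatrix ℓ g₂ * redMatrix ℓ g₁ := by
  apply Matrix.GeneralLinearGroup.ext
  intro i j
  fin_cases i <;> fin_cases j <;>
    simp [Matrix.mul_apply, Fin.sum_univ_two] <;> ring

theorem per_redMatrix_one : redMatrix ℓ (1 : SL(2, ℤ)) = 1 := by
  apply Matrix.GeneralLinearGroup.ext
  intro i j
  fin_cases i <;> fin_cases j <;> simp

/-- Uniqueness: the element of `SL(2, ℤ)` in front of a coset representative is determined. -/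
theorem per_mapGL_cancel {g₁ g₂ : SL(2, ℤ)} {M : GL (Fin 2) ℝ}
    (h : mapGL ℝ g₁ * M = mapGL ℝ g₂ * M) : g₁ = g₂ :=
  mapGL_injective (mul_right_cancel h)

theorem per_gam_mul (hℓN : ¬ ℓ ∣ N) (γ₁ γ₂ : Gamma0 N) (x : OnePoint (ZMod ℓ)) :
    per_gam hℓN (γ₁ * γ₂) x
      = per_gam hℓN γ₁ x * per_gam hℓN γ₂ (redMatrix ℓ (γ₁ : SL(2, ℤ)) • x) := by
  apply Subtype.ext
  apply per_mapGL_cancel (M := heckeRep ℓ (redMatrix ℓ ((γ₁ * γ₂ : Gamma0 N) : SL(2, ℤ)) • x))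
  rw [← per_gam_spec hℓN (γ₁ * γ₂) x]
  have e1 : ((γ₁ * γ₂ : Gamma0 N) : SL(2, ℤ)) = (γ₁ : SL(2, ℤ)) * (γ₂ : SL(2, ℤ)) := rfl
  have e2 : (((per_gam hℓN γ₁ x * per_gam hℓN γ₂ (redMatrix ℓ (γ₁ : SL(2, ℤ)) • x) : Gamma0 N))
      : SL(2, ℤ)) = ((per_gam hℓN γ₁ x : Gamma0 N) : SL(2, ℤ))
        * ((per_gam hℓN γ₂ (redMatrix ℓ (γ₁ : SL(2, ℤ)) • x) : Gamma0 N) : SL(2, ℤ)) := rfl
  rw [e1, e2, map_mul, map_mul, ← mul_assoc, per_gam_spec hℓN γ₁ x, mul_assoc,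
    per_gam_spec hℓN γ₂ (redMatrix ℓ (γ₁ : SL(2, ℤ)) • x), ← mul_assoc, per_redMatrix_mul,
    mul_smul]

theorem per_gam_one (hℓN : ¬ ℓ ∣ N) (x : OnePoint (ZMod ℓ)) :
    per_gam hℓN (1 : Gamma0 N) x = 1 := by
  have h := per_gam_mul hℓN (1 : Gamma0 N) 1 x
  have e : redMatrix ℓ ((1 : Gamma0 N) : SL(2, ℤ)) • x = x := by
    rw [OneMemClass.coe_one, per_redMatrix_one, one_smul]
  rw [e, mul_one] at h
  exact (mul_eq_left.mp h.symm)

/-- The permutation of `ℙ¹(𝔽_ℓ)` attached to `γ`. -/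
noncomputable def per_perm (ℓ : ℕ) [Fact ℓ.Prime] (γ : Gamma0 N) : Equiv.Perm (OnePoint (ZMod ℓ)) :=
  MulAction.toPerm (redMatrix ℓ (γ : SL(2, ℤ)))

theorem per_perm_apply (γ : Gamma0 N) (x : OnePoint (ZMod ℓ)) :
    per_perm ℓ γ x = redMatrix ℓ (γ : SL(2, ℤ)) • x := rfl

/-- **The transfer Hecke operator `T_ℓ` on `Hom(Γ₀(N), A)`**, `ℓ ∤ N` prime. -/
noncomputable def per_Tcoh (hℓN : ¬ ℓ ∣ N) (A : Type*) [AddCommGroup A] :
    (Additive (Gamma0 N) →+ A) →+ (Additive (Gamma0 N) →+ A) where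
  toFun ψ :=
    { toFun := fun γ => ∑ x : OnePoint (ZMod ℓ), ψ (Additive.ofMul (per_gam hℓN (Additive.toMul γ) x))
      map_zero' := by
        have : ∀ x : OnePoint (ZMod ℓ),
            ψ (Additive.ofMul (per_gam hℓN (Additive.toMul (0 : Additive (Gamma0 N))) x)) = 0 := by
          intro x
          rw [toMul_zero, per_gam_one, ofMul_one, map_zero]
        simp only [this, Finset.sum_const_zero]
      map_add' := fun γ₁ γ₂ => by
        have h : ∀ x : OnePoint (ZMod ℓ),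
            ψ (Additive.ofMul (per_gam hℓN (Additive.toMul (γ₁ + γ₂)) x))
              = ψ (Additive.ofMul (per_gam hℓN (Additive.toMul γ₁) x))
                + ψ (Additive.ofMul (per_gam hℓN (Additive.toMul γ₂)
                    (per_perm ℓ (Additive.toMul γ₁) x))) := by
          intro x
          rw [toMul_add, per_gam_mul, ofMul_mul, map_add]
          rfl
        simp only [h, Finset.sum_add_distrib]
        congr 1
        exact Equiv.sum_comp (per_perm ℓ (Additive.toMul γ₁))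
          (fun x => ψ (Additive.ofMul (per_gam hℓN (Additive.toMul γ₂) x))) }
  map_zero' := by
    ext γ
    simp
  map_add' ψ₁ ψ₂ := by
    ext γ
    simp [Finset.sum_add_distrib]

theorem per_Tcoh_apply (hℓN : ¬ ℓ ∣ N) {A : Type*} [AddCommGroup A]
    (ψ : Additive (Gamma0 N) →+ A) (γ : Gamma0 N) :
    per_Tcoh hℓN A ψ (Additive.ofMul γ)
      = ∑ x : OnePoint (ZMod ℓ), ψ (Additive.ofMul (per_gam hℓN γ x)) := rfl

/-- Functoriality in the coefficients. -/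
theorem per_Tcoh_comp (hℓN : ¬ ℓ ∣ N) {A B : Type*} [AddCommGroup A] [AddCommGroup B]
    (φ : A →+ B) (ψ : Additive (Gamma0 N) →+ A) :
    per_Tcoh hℓN B (φ.comp ψ) = φ.comp (per_Tcoh hℓN A ψ) := by
  ext γ
  show ∑ x : OnePoint (ZMod ℓ), φ (ψ _) = φ (∑ x : OnePoint (ZMod ℓ), ψ _)
  rw [map_sum]

theorem per_Tcoh_zsmul (hℓN : ¬ ℓ ∣ N) {A : Type*} [AddCommGroup A] (n : ℤ)
    (ψ : Additive (Gamma0 N) →+ A) : per_Tcoh hℓN A (n • ψ) = n • per_Tcoh hℓN A ψ :=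
  map_zsmul _ _ _

theorem per_Tcoh_sum (hℓN : ¬ ℓ ∣ N) {A : Type*} [AddCommGroup A] {ι : Type*} (s : Finset ι)
    (ψ : ι → Additive (Gamma0 N) →+ A) :
    per_Tcoh hℓN A (∑ i ∈ s, ψ i) = ∑ i ∈ s, per_Tcoh hℓN A (ψ i) :=
  map_sum _ _ _

/-- Linearity over a coefficient ring. -/
theorem per_Tcoh_smul (hℓN : ¬ ℓ ∣ N) {R A : Type*} [Ring R] [AddCommGroup A] [Module R A] (c : R)
    (ψ : Additive (Gamma0 N) →+ A) : per_Tcoh hℓN A (c • ψ) = c • per_Tcoh hℓN A ψ := by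
  ext γ
  show ∑ x : OnePoint (ZMod ℓ), c • ψ _ = c • ∑ x : OnePoint (ZMod ℓ), ψ _
  rw [Finset.smul_sum]

/-- The multiplicative form of the transfer operator (characters with values in a commutative
group, e.g. `μ_p` or `ℂˣ`). -/
noncomputable def per_TcohMul (hℓN : ¬ ℓ ∣ N) (M : Type*) [CommGroup M] (χ : Gamma0 N →* M) :
    Gamma0 N →* M where
  toFun γ := ∏ x : OnePoint (ZMod ℓ), χ (per_gam hℓN γ x)
  map_one' := by
    simp [per_gam_one]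
  map_mul' γ₁ γ₂ := by
    have h : ∀ x : OnePoint (ZMod ℓ), χ (per_gam hℓN (γ₁ * γ₂) x)
        = χ (per_gam hℓN γ₁ x) * χ (per_gam hℓN γ₂ (per_perm ℓ γ₁ x)) := by
      intro x
      rw [per_gam_mul, map_mul]
      rfl
    simp only [h, Finset.prod_mul_distrib]
    congr 1
    exact Equiv.prod_comp (per_perm ℓ γ₁) (fun x => χ (per_gam hℓN γ₂ x))

theorem per_TcohMul_apply (hℓN : ¬ ℓ ∣ N) {M : Type*} [CommGroup M] (χ : Gamma0 N →* M)
    (γ : Gamma0 N) :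
    per_TcohMul hℓN M χ γ = ∏ x : OnePoint (ZMod ℓ), χ (per_gam hℓN γ x) := rfl

theorem per_TcohMul_mul (hℓN : ¬ ℓ ∣ N) {M : Type*} [CommGroup M] (χ₁ χ₂ : Gamma0 N →* M) :
    per_TcohMul hℓN M (χ₁ * χ₂) = per_TcohMul hℓN M χ₁ * per_TcohMul hℓN M χ₂ := by
  ext γ
  simp [per_TcohMul_apply, Finset.prod_mul_distrib]

theorem per_TcohMul_one (hℓN : ¬ ℓ ∣ N) {M : Type*} [CommGroup M] :
    per_TcohMul hℓN M (1 : Gamma0 N →* M) = 1 := by
  ext γ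
  simp [per_TcohMul_apply]

theorem per_TcohMul_comp (hℓN : ¬ ℓ ∣ N) {M M' : Type*} [CommGroup M] [CommGroup M']
    (φ : M →* M') (χ : Gamma0 N →* M) :
    per_TcohMul hℓN M' (φ.comp χ) = φ.comp (per_TcohMul hℓN M χ) := by
  ext γ
  simp [per_TcohMul_apply, map_prod]

/-- The character `γ ↦ ζ ^ ψ γ` attached to an integral homomorphism `ψ` and `ζ` in a
commutative group. -/
noncomputable def per_zpowChar {M : Type*} [CommGroup M] (ζ : M)
    (ψ : Additive (Gamma0 N) →+ ℤ) : Gamma0 N →* M where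
  toFun γ := ζ ^ ψ (Additive.ofMul γ)
  map_one' := by simp
  map_mul' γ₁ γ₂ := by
    rw [ofMul_mul, map_add, zpow_add]

theorem per_zpowChar_apply {M : Type*} [CommGroup M] (ζ : M) (ψ : Additive (Gamma0 N) →+ ℤ)
    (γ : Gamma0 N) : per_zpowChar ζ ψ γ = ζ ^ ψ (Additive.ofMul γ) := rfl

/-- Compatibility of the two forms of the transfer operator. -/
theorem per_TcohMul_zpowChar (hℓN : ¬ ℓ ∣ N) {M : Type*} [CommGroup M] (ζ : M)
    (ψ : Additive (Gamma0 N) →+ ℤ) :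
    per_TcohMul hℓN M (per_zpowChar ζ ψ) = per_zpowChar ζ (per_Tcoh hℓN ℤ ψ) := by
  ext γ
  rw [per_TcohMul_apply, per_zpowChar_apply, per_Tcoh_apply]
  have key : ∀ (s : Finset (OnePoint (ZMod ℓ))) (f : OnePoint (ZMod ℓ) → ℤ),
      ∏ x ∈ s, ζ ^ f x = ζ ^ ∑ x ∈ s, f x := by
    intro s f
    classical
    induction s using Finset.induction_on with
    | empty => simp
    | insert a s ha ih => rw [Finset.prod_insert ha, Finset.sum_insert ha, zpow_add, ih]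
  exact key Finset.univ (fun x => ψ (Additive.ofMul (per_gam hℓN γ x)))

end Fermat.Agent.S29
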