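import Mathlib
import Fermat.Agent.S29.PeriodCoh

/-!
# S29, package [HECKE-TR]: the shared transfer Hecke operator on `Hom(Γ₀(N), A)`

Index type `Option (Fin l)`; representatives the Prelude matrices
`ModularForm.heckeMatrix l j` (`j < l`, i.e. `[[1, j], [0, l]]`) and
`ModularForm.heckeDiagMatrix l` (`[[l, 0], [0, 1]]`, index `none`).

* `heckeTrRep l i : GL (Fin 2) ℝ`, `heckeTrCoc hl hlN γ i : Γ₀(N)`, `heckeTrPerm hl γ`;
* `heckeTr_spec : rep i * γ = coc γ i * rep (perm γ i)` in `GL (Fin 2) ℝ`;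
* `heckeTr N l A : (Additive Γ₀(N) →+ A) →+ (Additive Γ₀(N) →+ A)` (zero unless `l` is a prime
  not dividing `N`), `heckeTr_apply : heckeTr N l A ψ γ = ∑ i, ψ (coc γ i)`, naturality in `A`.
-/

set_option autoImplicit false

open CongruenceSubgroup Matrix.SpecialLinearGroup ModularForm
open P2MW.S_ModularForm_heckeT_slash_eq_self_of_mem_Gamma0.ModularForm.HeckeSlashInvariance
open scoped MatrixGroups

namespace Fermat.Agent.S29

/-- The `l + 1` coset representatives: `none ↦ [[l, 0], [0, 1]]`, `some j ↦ [[1, j], [0, l]]`. -/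
noncomputable def heckeTrRep (l : ℕ) (i : Option (Fin l)) : GL (Fin 2) ℝ :=
  i.elim (heckeDiagMatrix l) (fun j => heckeMatrix l j.val)

@[simp] theorem heckeTrRep_none (l : ℕ) : heckeTrRep l none = heckeDiagMatrix l := rfl

@[simp] theorem heckeTrRep_some (l : ℕ) (j : Fin l) :
    heckeTrRep l (some j) = heckeMatrix l j.val := rfl

/-- The identification of the index set with `ℙ¹(𝔽_l)`. -/
noncomputable def heckeTrIdx (l : ℕ) [NeZero l] : Option (Fin l) ≃ OnePoint (ZMod l) :=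
  Equiv.optionCongr (ZMod.finEquiv l).toEquiv

theorem heckeTr_val_finEquiv (l : ℕ) [NeZero l] (j : Fin l) : (ZMod.finEquiv l j).val = j.val := by
  cases l with
  | zero => exact absurd rfl (NeZero.ne 0)
  | succ n => rfl

theorem heckeTrRep_eq (l : ℕ) [NeZero l] (i : Option (Fin l)) :
    heckeTrRep l i = heckeRep l (heckeTrIdx l i) := by
  cases i with
  | none => rfl
  | some j =>
    show heckeMatrix l j.val = heckeMatrix l (ZMod.finEquiv l j).val
    rw [heckeTr_val_finEquiv]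

variable {N l : ℕ}

/-- The cocycle: `rep i * γ = coc γ i * rep (perm γ i)`. -/
noncomputable def heckeTrCoc (hl : l.Prime) (hlN : ¬ l ∣ N) (γ : Gamma0 N) (i : Option (Fin l)) :
    Gamma0 N :=
  haveI : Fact l.Prime := ⟨hl⟩
  per_gam hlN γ (heckeTrIdx l i)

/-- The permutation of the index set attached to `γ`. -/
noncomputable def heckeTrPerm (hl : l.Prime) (γ : Gamma0 N) : Equiv.Perm (Option (Fin l)) :=
  haveI : Fact l.Prime := ⟨hl⟩
  ((heckeTrIdx l).trans (per_perm l γ)).trans (heckeTrIdx l).symm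

theorem heckeTr_spec (hl : l.Prime) (hlN : ¬ l ∣ N) (γ : Gamma0 N) (i : Option (Fin l)) :
    heckeTrRep l i * mapGL ℝ (γ : SL(2, ℤ))
      = mapGL ℝ ((heckeTrCoc hl hlN γ i : Gamma0 N) : SL(2, ℤ))
        * heckeTrRep l (heckeTrPerm hl γ i) := by
  have : Fact l.Prime := ⟨hl⟩
  rw [heckeTrRep_eq, heckeTrRep_eq]
  have h := per_gam_spec hlN γ (heckeTrIdx l i)
  have e : heckeTrIdx l (heckeTrPerm hl γ i) = redMatrix l (γ : SL(2, ℤ)) • heckeTrIdx l i := by
    simp [heckeTrPerm, per_perm_apply]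
  rw [e]
  exact h

theorem heckeTrCoc_mem (hl : l.Prime) (hlN : ¬ l ∣ N) (γ : Gamma0 N) (i : Option (Fin l)) :
    ((heckeTrCoc hl hlN γ i : Gamma0 N) : SL(2, ℤ)) ∈ Gamma0 N :=
  (heckeTrCoc hl hlN γ i).2

theorem heckeTrCoc_one (hl : l.Prime) (hlN : ¬ l ∣ N) (i : Option (Fin l)) :
    heckeTrCoc hl hlN (1 : Gamma0 N) i = 1 := by
  have : Fact l.Prime := ⟨hl⟩
  exact per_gam_one hlN _

theorem heckeTrCoc_mul (hl : l.Prime) (hlN : ¬ l ∣ N) (γ₁ γ₂ : Gamma0 N) (i : Option (Fin l)) :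
    heckeTrCoc hl hlN (γ₁ * γ₂) i
      = heckeTrCoc hl hlN γ₁ i * heckeTrCoc hl hlN γ₂ (heckeTrPerm hl γ₁ i) := by
  have : Fact l.Prime := ⟨hl⟩
  have h := per_gam_mul hlN γ₁ γ₂ (heckeTrIdx l i)
  have e : heckeTrIdx l (heckeTrPerm hl γ₁ i) = redMatrix l (γ₁ : SL(2, ℤ)) • heckeTrIdx l i := by
    simp [heckeTrPerm, per_perm_apply]
  show per_gam hlN (γ₁ * γ₂) (heckeTrIdx l i)
    = per_gam hlN γ₁ (heckeTrIdx l i) * per_gam hlN γ₂ (heckeTrIdx l (heckeTrPerm hl γ₁ i))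
  rw [e]
  exact h

theorem heckeTrPerm_one (hl : l.Prime) : heckeTrPerm hl (1 : Gamma0 N) = 1 := by
  have : Fact l.Prime := ⟨hl⟩
  ext1 i
  apply (heckeTrIdx l).injective
  simp [heckeTrPerm, per_perm_apply, per_redMatrix_one]

theorem heckeTrPerm_mul (hl : l.Prime) (γ₁ γ₂ : Gamma0 N) (i : Option (Fin l)) :
    heckeTrPerm hl (γ₁ * γ₂) i = heckeTrPerm hl γ₂ (heckeTrPerm hl γ₁ i) := by
  have : Fact l.Prime := ⟨hl⟩
  apply (heckeTrIdx l).injective
  have e : ((γ₁ * γ₂ : Gamma0 N) : SL(2, ℤ)) = (γ₁ : SL(2, ℤ)) * (γ₂ : SL(2, ℤ)) := rfl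
  simp [heckeTrPerm, per_perm_apply, e, per_redMatrix_mul, mul_smul]

/-- The action form of `heckeTr_spec` on the upper half plane. -/
theorem heckeTr_smul (hl : l.Prime) (hlN : ¬ l ∣ N) (γ : Gamma0 N) (i : Option (Fin l))
    (τ : UpperHalfPlane) :
    heckeTrRep l i • ((γ : SL(2, ℤ)) • τ)
      = ((heckeTrCoc hl hlN γ i : Gamma0 N) : SL(2, ℤ)) • (heckeTrRep l (heckeTrPerm hl γ i) • τ) := by
  rw [ModularGroup.sl_moeb, ModularGroup.sl_moeb, ← mul_smul, ← mul_smul]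
  exact congrArg (· • τ) (heckeTr_spec hl hlN γ i)

open Classical in
/-- **The transfer Hecke operator `T_l` on `Hom(Γ₀(N), A)`** (zero unless `l` is a prime not
dividing `N`). -/
noncomputable def heckeTr (N l : ℕ) (A : Type*) [AddCommGroup A] :
    (Additive (Gamma0 N) →+ A) →+ (Additive (Gamma0 N) →+ A) :=
  if h : l.Prime ∧ ¬ l ∣ N then
    haveI : Fact l.Prime := ⟨h.1⟩
    per_Tcoh h.2 A
  else 0

theorem heckeTr_eq_per_Tcoh [Fact l.Prime] (hlN : ¬ l ∣ N) (A : Type*) [AddCommGroup A] :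
    heckeTr N l A = per_Tcoh hlN A := by
  have h : l.Prime ∧ ¬ l ∣ N := ⟨Fact.out, hlN⟩
  rw [heckeTr, dif_pos h]

theorem heckeTr_apply (hl : l.Prime) (hlN : ¬ l ∣ N) {A : Type*} [AddCommGroup A]
    (ψ : Additive (Gamma0 N) →+ A) (γ : Gamma0 N) :
    heckeTr N l A ψ (Additive.ofMul γ)
      = ∑ i : Option (Fin l), ψ (Additive.ofMul (heckeTrCoc hl hlN γ i)) := by
  have : Fact l.Prime := ⟨hl⟩
  rw [heckeTr_eq_per_Tcoh hlN, per_Tcoh_apply]
  exact (Equiv.sum_comp (heckeTrIdx l)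
    (fun x => ψ (Additive.ofMul (per_gam hlN γ x)))).symm

/-- Naturality in the coefficient group. -/
theorem heckeTr_comp (N l : ℕ) {A B : Type*} [AddCommGroup A] [AddCommGroup B] (φ : A →+ B)
    (ψ : Additive (Gamma0 N) →+ A) :
    heckeTr N l B (φ.comp ψ) = φ.comp (heckeTr N l A ψ) := by
  by_cases h : l.Prime ∧ ¬ l ∣ N
  · have : Fact l.Prime := ⟨h.1⟩
    rw [heckeTr_eq_per_Tcoh h.2, heckeTr_eq_per_Tcoh h.2, per_Tcoh_comp]
  · rw [heckeTr, heckeTr, dif_neg h, dif_neg h]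
    ext γ
    simp

/-- Linearity over a coefficient ring. -/
theorem heckeTr_smul_hom (N l : ℕ) {R A : Type*} [Ring R] [AddCommGroup A] [Module R A] (c : R)
    (ψ : Additive (Gamma0 N) →+ A) : heckeTr N l A (c • ψ) = c • heckeTr N l A ψ := by
  by_cases h : l.Prime ∧ ¬ l ∣ N
  · have : Fact l.Prime := ⟨h.1⟩
    rw [heckeTr_eq_per_Tcoh h.2, per_Tcoh_smul]
  · rw [heckeTr, dif_neg h]
    simp

end Fermat.Agent.S29
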