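import Fermat.Agent.S29.ReduceAbs
import Fermat.Agent.S29.HeckeTr
import Fermat.Agent.S29.EigRedFun

/-!
# S29, package REDUCE

`red_eig`: from the comparison map `Φ : J[p] → Hom(Γ₀(N), ZMod p)` (injective, range containing
every homomorphism killing the elements of trace of absolute value at most `2`, intertwining the
Hecke operators with the transfer operators `heckeTr`) and a nonzero complex-valued homomorphism
`ω` on `Γ₀(N)` (the period homomorphism of an eigenform) killing those elements, with finitely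
generated `ℤ`-span of values and `heckeTr N l ℂ ω = α l • ω`, we get:
the `α l` are algebraic integers, and `k0 ⊗[ZMod p] J[p]` contains a nonzero vector on which
`T l` acts as `φ (α l)`, for every ring homomorphism `φ : ℤ̄ → k0` with maximal kernel.
-/

set_option autoImplicit false

open TensorProduct CongruenceSubgroup
open scoped MatrixGroups

namespace Fermat.Agent.S29

/-- the elements of `Γ₀(N)` (written additively) whose trace has absolute value at most `2` -/
def redS (N : ℕ) : Set (Additive (Gamma0 N)) :=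
  {x | |(((Additive.toMul x : Gamma0 N) : SL(2, ℤ)) : Matrix (Fin 2) (Fin 2) ℤ).trace| ≤ 2}

theorem red_mem_S {N : ℕ} (γ : Gamma0 N) :
    Additive.ofMul γ ∈ redS N ↔ |((γ : SL(2, ℤ)) : Matrix (Fin 2) (Fin 2) ℤ).trace| ≤ 2 :=
  Iff.rfl

/-- finitely many elements already span the values of an additive map with finitely generated
`ℤ`-span of values -/
theorem red_exists_finset {X : Type*} [AddGroup X] (ω : X →+ ℂ)
    (hfg : (Submodule.span ℤ (Set.range ω)).FG) :
    ∃ t : Finset X, ∀ x : X, ∃ y ∈ AddSubgroup.closure (t : Set X), ω y = ω x := by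
  classical
  obtain ⟨s', hs', hspan⟩ := (Submodule.fg_span_iff_fg_span_finset_subset _).mp hfg
  have hs'' : (s' : Set ℂ) ⊆ ω '' Set.univ := by rwa [Set.image_univ]
  obtain ⟨t, -, ht⟩ := Finset.subset_set_image_iff.mp hs''
  refine ⟨t, fun x => ?_⟩
  have h1 : ω x ∈ Submodule.span ℤ (Set.range ω) := Submodule.subset_span ⟨x, rfl⟩
  rw [hspan, ← ht, Finset.coe_image] at h1
  have h2 : ω x ∈ (Submodule.span ℤ (ω '' (t : Set X))).toAddSubgroup := h1
  rw [Submodule.span_int_eq_addSubgroupClosure] at h2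
  have h3 : AddSubgroup.closure (ω '' (t : Set X)) = (AddSubgroup.closure (t : Set X)).map ω :=
    (AddMonoidHom.map_closure ω (t : Set X)).symm
  rw [h3] at h2
  obtain ⟨y, hy, hyx⟩ := h2
  exact ⟨y, hy, hyx⟩

/-- **REDUCE.** -/
theorem red_eig (N p : ℕ) [Fact p.Prime] {k0 : Type*} [Field k0] [Algebra (ZMod p) k0]
    {Jp : Type*} [AddCommGroup Jp] [Module (ZMod p) Jp]
    (T : ℕ → Module.End (ZMod p) Jp)
    (Φ : Jp →+ (Additive (Gamma0 N) →+ ZMod p)) (hΦ : Function.Injective Φ)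
    (hΦS : ∀ ψ : Additive (Gamma0 N) →+ ZMod p, (∀ s ∈ redS N, ψ s = 0) → ψ ∈ Set.range Φ)
    (hΦT : ∀ l : ℕ, l.Prime → ¬ l ∣ N * p → ∀ c : Jp,
      Φ (T l c) = heckeTr N l (ZMod p) (Φ c))
    (ω : Additive (Gamma0 N) →+ ℂ) (hω : ω ≠ 0)
    (hωfg : (Submodule.span ℤ (Set.range ω)).FG)
    (hωS : ∀ s ∈ redS N, ω s = 0)
    (α : ℕ → ℂ) (hα : ∀ l : ℕ, l.Prime → ¬ l ∣ N * p → heckeTr N l ℂ ω = α l • ω)
    (φ : integralClosure ℤ ℂ →+* k0) (hφ : (RingHom.ker φ).IsMaximal) :
    ∃ a : ℕ → integralClosure ℤ ℂ,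
      (∀ l : ℕ, l.Prime → ¬ l ∣ N * p → (a l : ℂ) = α l) ∧
      ∃ v : k0 ⊗[ZMod p] Jp, v ≠ 0 ∧
        ∀ l : ℕ, l.Prime → ¬ l ∣ N * p → (T l).baseChange k0 v = φ (a l) • v := by
  classical
  have hω' : (fun x => ω x) ≠ 0 := fun h => hω (DFunLike.ext _ _ fun x => congrFun h x)
  -- integrality of the eigenvalues
  have hint : ∀ l : ℕ, l.Prime → ¬ l ∣ N * p → IsIntegral ℤ (α l) := by
    intro l hl hlN
    refine egr_isIntegral_fun (fun x => ω x) hωfg hω' (α l) fun x => ?_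
    set Sℤ : Submodule ℤ ℂ := Submodule.span ℤ (Set.range ω) with hSℤ
    let ωℤ : Additive (Gamma0 N) →+ Sℤ :=
      ω.codRestrict Sℤ fun x => Submodule.subset_span ⟨x, rfl⟩
    have h1 : ω = (Sℤ.subtype.toAddMonoidHom).comp ωℤ := by
      ext x
      rfl
    have h2 : heckeTr N l ℂ ω = (Sℤ.subtype.toAddMonoidHom).comp (heckeTr N l Sℤ ωℤ) := by
      conv_lhs => rw [h1]
      exact heckeTr_comp N l _ _
    have h3 : α l * ω x = (heckeTr N l ℂ ω) x := by
      rw [hα l hl hlN, AddMonoidHom.smul_apply, smul_eq_mul]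
    show α l * ω x ∈ Sℤ
    rw [h3, h2]
    exact (heckeTr N l Sℤ ωℤ x).2
  let a : ℕ → integralClosure ℤ ℂ := fun l =>
    if h : IsIntegral ℤ (α l) then ⟨α l, h⟩ else 0
  have ha : ∀ l : ℕ, l.Prime → ¬ l ∣ N * p → (a l : ℂ) = α l := by
    intro l hl hlN
    show ((if h : IsIntegral ℤ (α l) then (⟨α l, h⟩ : integralClosure ℤ ℂ) else 0 :
      integralClosure ℤ ℂ) : ℂ) = α l
    rw [dif_pos (hint l hl hlN)]
  refine ⟨a, ha, ?_⟩
  -- the reduction of the period homomorphism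
  let M' : Submodule (integralClosure ℤ ℂ) ℂ :=
    Submodule.span (integralClosure ℤ ℂ) (Set.range fun x => ω x)
  obtain ⟨Θ, x₀, hx₀⟩ : ∃ Θ : M' →ₛₗ[φ] k0,
      ∃ x, Θ ⟨ω x, Submodule.subset_span ⟨x, rfl⟩⟩ ≠ 0 :=
    egr_theta_semilinear (fun x => ω x) hωfg hω' φ hφ
  let ωM : Additive (Gamma0 N) →+ M' :=
    ω.codRestrict M' fun x => Submodule.subset_span ⟨x, rfl⟩
  have hωM : ∀ x, ((ωM x : M') : ℂ) = ω x := fun x => rfl
  let vbar : Additive (Gamma0 N) →+ k0 := (Θ : M' →+ k0).comp ωM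
  have hvbar : ∀ x, vbar x = Θ (ωM x) := fun x => rfl
  have hv0 : vbar ≠ 0 := by
    intro h
    apply hx₀
    have := DFunLike.congr_fun h x₀
    rw [hvbar] at this
    exact this
  have hvS : ∀ s ∈ redS N, vbar s = 0 := by
    intro s hs
    have h0 : ωM s = 0 := by
      apply Subtype.ext
      exact hωS s hs
    rw [hvbar, h0, map_zero]
  have hfin : ∃ t : Finset (Additive (Gamma0 N)), ∀ x,
      vbar x ∈ Submodule.span (ZMod p) (vbar '' (t : Set (Additive (Gamma0 N)))) := by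
    obtain ⟨t, ht⟩ := red_exists_finset ω hωfg
    refine ⟨t, fun x => ?_⟩
    obtain ⟨y, hy, hyx⟩ := ht x
    have h1 : vbar x = vbar y := by
      have : ωM x = ωM y := Subtype.ext (by rw [hωM, hωM, hyx])
      rw [hvbar, hvbar, this]
    rw [h1]
    have h2 : vbar y ∈ (AddSubgroup.closure (t : Set (Additive (Gamma0 N)))).map vbar :=
      ⟨y, hy, rfl⟩
    rw [AddMonoidHom.map_closure] at h2
    have h3 : AddSubgroup.closure (vbar '' (t : Set (Additive (Gamma0 N)))) ≤
        (Submodule.span (ZMod p) (vbar '' (t : Set (Additive (Gamma0 N))))).toAddSubgroup :=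
      (AddSubgroup.closure_le _).mpr Submodule.subset_span
    exact h3 h2
  -- the eigen-equation
  have heig : ∀ l : ℕ, l.Prime → ¬ l ∣ N * p →
      heckeTr N l k0 vbar = φ (a l) • vbar := by
    intro l hl hlN
    have h1 : ω = (M'.subtype.toAddMonoidHom).comp ωM := by
      ext x
      rfl
    have h2 : (M'.subtype.toAddMonoidHom).comp (heckeTr N l M' ωM) =
        (M'.subtype.toAddMonoidHom).comp (a l • ωM) := by
      rw [← heckeTr_comp, ← h1, hα l hl hlN]
      refine AddMonoidHom.ext fun x => ?_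
      show α l • ω x = ((a l • ωM x : M') : ℂ)
      rw [Submodule.coe_smul, hωM, ← ha l hl hlN]
      rfl
    have h3 : heckeTr N l M' ωM = a l • ωM := by
      refine AddMonoidHom.ext fun x => Subtype.ext ?_
      have := DFunLike.congr_fun h2 x
      exact this
    show heckeTr N l k0 ((Θ : M' →+ k0).comp ωM) = φ (a l) • vbar
    rw [heckeTr_comp, h3]
    refine AddMonoidHom.ext fun x => ?_
    show Θ (a l • ωM x) = φ (a l) • Θ (ωM x)
    rw [map_smulₛₗ]
  obtain ⟨v, hv, hvT⟩ := red_abs (I := {l : ℕ // l.Prime ∧ ¬ l ∣ N * p}) Φ hΦ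
    (fun i => T i.1) (fun i => heckeTr N i.1 (ZMod p)) (fun i => heckeTr N i.1 k0)
    (fun i ψ => heckeTr_comp N i.1 _ ψ) (fun i c ψ => heckeTr_smul_hom N i.1 c ψ)
    (fun i c => hΦT i.1 i.2.1 i.2.2 c) (redS N) hΦS vbar hv0 hvS hfin
    (fun i => φ (a i.1)) (fun i => heig i.1 i.2.1 i.2.2)
  exact ⟨v, hv, fun l hl hlN => hvT ⟨l, hl, hlN⟩⟩

end Fermat.Agent.S29
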