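import Fermat.Agent.S29.PsiEis
import Fermat.Agent.S29.PsiLocalMain
import Fermat.Agent.S29.Reduce

/-!
# Stage 3 (S29), package PSI-C: the range of the comparison homomorphism over `ℂ`

`psg_main`: every homomorphism `ψ : Γ₀(N) → ℤ/p` which vanishes on the elements of trace of
absolute value `≤ 2` is `phiHom (phiModelC N) p c` for a `p`-torsion class `c` of `Pic⁰(F_ℂ)`
(any modulus `p ≠ 0`).  `psg_main_redS` is the same statement with the set `redS N`.
-/

set_option autoImplicit false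

open AlgebraicCurve UpperHalfPlane ModularForm CongruenceSubgroup
open scoped MatrixGroups Manifold

namespace Fermat.Agent.S29

section PsgMain

variable (N : ℕ) [NeZero N]

set_option quotPrecheck false in
local notation "FC" => ↥(ModularCurve.laurentBaseChange ℂ (ModularCurve.modularFunctionFieldFull N))

/-- **[PSI-C]** Every `ψ : Γ₀(N) → ℤ/p` killing the elements with `|trace| ≤ 2` lies in the range
of the comparison homomorphism `phiHom (phiModelC N) p : Pic⁰(F_ℂ)[p] → Hom(Γ₀(N), ℤ/p)`. -/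
theorem psg_main (p : ℕ) [NeZero p] (ψ : Additive ↥(Gamma0 N) →+ ZMod p)
    (hψ : ∀ γ : ↥(Gamma0 N),
      |((γ : SL(2, ℤ)) : Matrix (Fin 2) (Fin 2) ℤ).trace| ≤ 2 → ψ (Additive.ofMul γ) = 0) :
    ∃ c : ↥(Pic0.torsion ℂ FC p), phiHom (phiModelC N) p c = ψ := by
  refine psg_main_of_loc N p ψ hψ fun hT f hf P => ?_
  exact psl_main_pow N p (psgChi N p ψ) (psgChi_norm N p ψ)
    (fun γ hγ => psgChi_eq_one N p ψ γ (hψ γ hγ)) psg_three_le_four hT (psgChi_pow N p ψ)
    (fun _ => by simp) (fun _ _ => rfl) (fun _ => one_pow p) f hf P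

/-- **[PSI-C]**, with the set `redS N` of the elements with `|trace| ≤ 2`. -/
theorem psg_main_redS (p : ℕ) [NeZero p] (ψ : Additive ↥(Gamma0 N) →+ ZMod p)
    (hψ : ∀ s ∈ redS N, ψ s = 0) :
    ψ ∈ Set.range (phiHom (phiModelC N) p) := by
  obtain ⟨c, hc⟩ := psg_main N p ψ fun γ hγ => hψ _ ((red_mem_S γ).mpr hγ)
  exact ⟨c, hc⟩

end PsgMain

end Fermat.Agent.S29
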