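import Fermat.Agent.S29.FinLevel
import Fermat.Agent.S37.ESTors2

/-!
# S29, package GALSIDE (torsion representation)

From a nonzero simultaneous eigenvector `v` of the Hecke operators in `k₀ ⊗ J₀(N)[p]`, the
`k₀`-span `W` of the Galois orbit of `v` is a finite-dimensional Galois representation, of finite
level, unramified at the primes `ℓ ∤ N p`, on which the Frobenius elements at `ℓ` satisfy
`σ² - a_ℓ σ + ℓ = 0`.

* `trs_abs`: the abstract construction (span of the orbit of a vector in a base change);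
* `trsHecke`: the Hecke operators on the `p`-torsion of `J₀(N)`;
* `trs_main`: the representation `W`.
-/

set_option autoImplicit false

open ModularCurve AlgebraicCurve TensorProduct

namespace Fermat.Agent.S29

local notation "Qb" => AlgebraicClosure ℚ

section Abs

variable {K : Type*} [Field K] [Algebra ℚ K]

section Span

variable {k : Type*} [Field k] {M : Type*} [AddCommGroup M] [Module k M]

/-- **The span of the Galois orbit of a vector** in a representation all of whose vectors have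
open stabilisers: a finite-dimensional stable subspace of finite level, on which every operator
commuting with the Galois action and having the vector as an eigenvector is a scalar. -/
theorem trs_span (R : (K ≃ₐ[ℚ] K) →* Module.End k M)
    (hopen : ∀ w : M, FlOpen {σ : K ≃ₐ[ℚ] K | R σ w = w}) (v : M) :
    ∃ W : Submodule k M, v ∈ W ∧ FiniteDimensional k W ∧
      (∀ g : K ≃ₐ[ℚ] K, ∀ w ∈ W, R g w ∈ W) ∧
      FlOpen {σ : K ≃ₐ[ℚ] K | ∀ w ∈ W, R σ w = w} ∧
      (∀ (S : Module.End k M) (a : k),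
        (∀ (g : K ≃ₐ[ℚ] K) (w : M), S (R g w) = R g (S w)) →
        S v = a • v → ∀ w ∈ W, S w = a • w) := by
  classical
  have hmul : ∀ (g h : K ≃ₐ[ℚ] K) (w : M), R (g * h) w = R g (R h w) := by
    intro g h w
    rw [map_mul]
    rfl
  have hone : ∀ w : M, R 1 w = w := by
    intro w
    rw [map_one]
    rfl
  -- the orbit is finite
  have hfin : (Set.range fun g : K ≃ₐ[ℚ] K => R g v).Finite := by
    refine (hopen v).finite_range _ ?_
    intro g σ hσ
    have hσ' : R σ v = v := hσ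
    show R (g * σ) v = R g v
    rw [hmul, hσ']
  refine ⟨Submodule.span k (Set.range fun g : K ≃ₐ[ℚ] K => R g v),
    Submodule.subset_span ⟨1, hone v⟩, FiniteDimensional.span_of_finite k hfin, ?_, ?_, ?_⟩
  · intro g w hw
    induction hw using Submodule.span_induction with
    | mem w hw =>
      obtain ⟨h, rfl⟩ := hw
      exact Submodule.subset_span ⟨g * h, hmul g h v⟩
    | zero => rw [map_zero]; exact zero_mem _
    | add w₁ w₂ _ _ h₁ h₂ => rw [map_add]; exact add_mem h₁ h₂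
    | smul c w _ h => rw [map_smul]; exact Submodule.smul_mem _ c h
  · have h1 : FlOpen {σ : K ≃ₐ[ℚ] K | ∀ w ∈ hfin.toFinset, R σ w = w} :=
      flOpen_forall_mem hfin.toFinset (fun w σ => R σ w = w) (fun w _ => hopen w)
    refine h1.mono ?_
    intro σ hσ w hw
    induction hw using Submodule.span_induction with
    | mem w hw => exact hσ w (hfin.mem_toFinset.mpr hw)
    | zero => exact map_zero _
    | add w₁ w₂ _ _ h₁ h₂ => rw [map_add, h₁, h₂]
    | smul c w _ h => rw [map_smul, h]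
  · intro S a hS hv w hw
    induction hw using Submodule.span_induction with
    | mem w hw =>
      obtain ⟨h, rfl⟩ := hw
      show S (R h v) = a • R h v
      rw [hS, hv, map_smul]
    | zero => rw [map_zero, smul_zero]
    | add w₁ w₂ _ _ h₁ h₂ => rw [map_add, h₁, h₂, smul_add]
    | smul c w _ h => rw [map_smul, h, smul_comm]

/-- **The representation on the span of the Galois orbit of a vector.** -/
theorem trs_span_rep (R : (K ≃ₐ[ℚ] K) →* Module.End k M)
    (hopen : ∀ w : M, FlOpen {σ : K ≃ₐ[ℚ] K | R σ w = w}) (v : M) (hv : v ≠ 0) :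
    ∃ (W : Submodule k M) (_ : FiniteDimensional k W) (_ : Nontrivial W)
      (r : (K ≃ₐ[ℚ] K) →* Module.End k W),
      FlOpen {σ : K ≃ₐ[ℚ] K | r σ = 1} ∧
      (∀ σ : K ≃ₐ[ℚ] K, R σ = 1 → r σ = 1) ∧
      (∀ (S : Module.End k M) (a c : k) (σ : K ≃ₐ[ℚ] K),
        (∀ g : K ≃ₐ[ℚ] K, S * R g = R g * S) → S v = a • v →
        R σ * R σ - S * R σ + c • (1 : Module.End k M) = 0 →
        r σ * r σ - a • r σ + c • (1 : Module.End k W) = 0) := by
  classical
  obtain ⟨W, hvW, hWfin, hWstab, hWopen, hWeig⟩ := trs_span R hopen v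
  let r : (K ≃ₐ[ℚ] K) →* Module.End k W :=
    { toFun := fun g => (R g).restrict (hWstab g)
      map_one' := LinearMap.ext fun w => Subtype.ext (by
        show R 1 (w : M) = w
        rw [map_one]
        rfl)
      map_mul' := fun g h => LinearMap.ext fun w => Subtype.ext (by
        show R (g * h) (w : M) = R g (R h w)
        rw [map_mul]
        rfl) }
  have hr : ∀ (g : K ≃ₐ[ℚ] K) (w : W), ((r g w : W) : M) = R g w := fun g w => rfl
  have hnt : Nontrivial W := ⟨⟨⟨v, hvW⟩, 0, fun h => hv (congrArg Subtype.val h)⟩⟩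
  refine ⟨W, hWfin, hnt, r, ?_, ?_, ?_⟩
  · refine hWopen.mono ?_
    intro σ hσ
    exact LinearMap.ext fun w => Subtype.ext (hσ w w.2)
  · intro σ hσ
    refine LinearMap.ext fun w => Subtype.ext ?_
    rw [hr, hσ]
    rfl
  · intro S a c σ hS hSv hrel
    have hc : ∀ (g : K ≃ₐ[ℚ] K) (w : M), S (R g w) = R g (S w) :=
      fun g w => LinearMap.congr_fun (hS g) w
    have hSW := hWeig S a hc hSv
    refine LinearMap.ext fun w => Subtype.ext ?_
    have h8 := LinearMap.congr_fun hrel (w : M)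
    simp only [LinearMap.add_apply, LinearMap.sub_apply, Module.End.mul_apply,
      LinearMap.smul_apply, Module.End.one_apply, LinearMap.zero_apply] at h8
    rw [hSW _ (hWstab σ w w.2)] at h8
    exact h8

end Span

section Tensor

universe uF uX uk

variable {F : Type uF} [CommRing F] {X : Type uX} [AddCommGroup X] [Module F X]
variable {k : Type uk} [Field k] [Algebra F k]

/-- Base-changed vectors have open stabilisers if the vectors do. -/
theorem trs_open_tensor (act : (K ≃ₐ[ℚ] K) →* Module.End F X)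
    (hopen : ∀ x : X, FlOpen {σ : K ≃ₐ[ℚ] K | act σ x = x}) (w : k ⊗[F] X) :
    FlOpen {σ : K ≃ₐ[ℚ] K | (act σ).baseChange k w = w} := by
  induction w using TensorProduct.induction_on with
  | zero => exact flOpen_univ.mono (fun σ _ => map_zero _)
  | tmul c x =>
    refine (hopen x).mono ?_
    intro σ hσ
    have hσ' : act σ x = x := hσ
    show (act σ).baseChange k (c ⊗ₜ[F] x) = c ⊗ₜ[F] x
    rw [LinearMap.baseChange_tmul, hσ']
  | add w₁ w₂ h₁ h₂ =>
    refine (h₁.inter h₂).mono ?_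
    rintro σ ⟨h1, h2⟩
    have h1' : (act σ).baseChange k w₁ = w₁ := h1
    have h2' : (act σ).baseChange k w₂ = w₂ := h2
    show (act σ).baseChange k (w₁ + w₂) = w₁ + w₂
    rw [map_add, h1', h2']

/-- **The representation on the span of the Galois orbit of a vector of a base change.** -/
theorem trs_abs_rep (act : (K ≃ₐ[ℚ] K) →* Module.End F X)
    (hopen : ∀ x : X, FlOpen {σ : K ≃ₐ[ℚ] K | act σ x = x}) (v : k ⊗[F] X) (hv : v ≠ 0) :
    ∃ (W : Type (max uk uX)) (_ : AddCommGroup W) (_ : Module k W) (_ : FiniteDimensional k W)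
      (_ : Nontrivial W) (r : (K ≃ₐ[ℚ] K) →* Module.End k W),
      FlOpen {σ : K ≃ₐ[ℚ] K | r σ = 1} ∧
      (∀ σ : K ≃ₐ[ℚ] K, act σ = 1 → r σ = 1) ∧
      (∀ (T : Module.End F X) (a : k) (c : F) (σ : K ≃ₐ[ℚ] K),
        (∀ g : K ≃ₐ[ℚ] K, T * act g = act g * T) → T.baseChange k v = a • v →
        act σ * act σ - T * act σ + c • (1 : Module.End F X) = 0 →
        r σ * r σ - a • r σ + algebraMap F k c • (1 : Module.End k W) = 0) := by
  let B : Module.End F X →ₐ[F] Module.End k (k ⊗[F] X) := Module.End.baseChangeHom F k X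
  have hB : ∀ f : Module.End F X, B f = f.baseChange k := fun f => rfl
  obtain ⟨W, hWfin, hnt, r, h1, h2, h3⟩ :=
    trs_span_rep ((B : Module.End F X →* Module.End k (k ⊗[F] X)).comp act)
      (fun w => trs_open_tensor act hopen w) v hv
  refine ⟨W, inferInstance, inferInstance, hWfin, hnt, r, h1, ?_, ?_⟩
  · intro σ hσ
    refine h2 σ ?_
    show B (act σ) = 1
    rw [hσ, map_one]
  · intro T a c σ hT hTv hrel
    refine h3 (B T) a (algebraMap F k c) σ ?_ hTv ?_
    · intro g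
      show B T * B (act g) = B (act g) * B T
      rw [← map_mul, ← map_mul, hT g]
    · show B (act σ) * B (act σ) - B T * B (act σ)
        + algebraMap F k c • (1 : Module.End k (k ⊗[F] X)) = 0
      have h5 := congrArg B hrel
      rw [map_add, map_sub, map_mul, map_mul, map_smul, map_one, map_zero] at h5
      rw [algebraMap_smul]
      exact h5

end Tensor

end Abs

/-- The Hecke operator `T_ℓ` on the `p`-torsion of `J₀(N)`. -/
noncomputable def trsHecke (N p : ℕ) [NeZero N] (ℓ : Nat.Primes) :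
    Module.End (ZMod p) ↥(Pic0.torsion Qb (modularFunctionFieldBar N) p) :=
  AddMonoidHom.toZModLinearMap p
    ((((heckeOperatorBar N ℓ).toAddMonoidHom).comp
        (Pic0.torsion Qb (modularFunctionFieldBar N) p).subtype).codRestrict
      (Pic0.torsion Qb (modularFunctionFieldBar N) p) (fun x => by
        rw [Pic0.mem_torsion]
        show (p : ℤ) • heckeOperatorBar N ℓ (x : JZero N) = 0
        rw [← map_zsmul, Pic0.mem_torsion.mp x.2, map_zero]))

theorem trsHecke_coe (N p : ℕ) [NeZero N] (ℓ : Nat.Primes)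
    (x : ↥(Pic0.torsion Qb (modularFunctionFieldBar N) p)) :
    ((trsHecke N p ℓ x : ↥(Pic0.torsion Qb (modularFunctionFieldBar N) p)) : JZero N)
      = heckeOperatorBar N ℓ (x : JZero N) :=
  rfl

/-- Elements of the `p`-torsion are killed by `p`. -/
theorem trs_nsmul (N p : ℕ) (x : ↥(Pic0.torsion Qb (modularFunctionFieldBar N) p)) :
    p • (x : JZero N) = 0 := by
  have h := Pic0.mem_torsion.mp x.2
  rwa [natCast_zsmul] at h

/-- The Hecke operators commute with the Galois action on the `p`-torsion. -/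
theorem trs_hecke_galois (N p : ℕ) [NeZero N] (ℓ : ℕ) (hℓ : ℓ.Prime) (hℓm : ¬ ℓ ∣ N * p)
    (σ : Qb ≃ₐ[ℚ] Qb) :
    trsHecke N p ⟨ℓ, hℓ⟩ * JZero.torsionGaloisRep N p σ
      = JZero.torsionGaloisRep N p σ * trsHecke N p ⟨ℓ, hℓ⟩ :=
  LinearMap.ext fun x => Subtype.ext
    (Fermat.Agent.S37.est_hecke_galois N p ℓ hℓ hℓm σ (x : JZero N) (trs_nsmul N p x))

/-- Inertia at `ℓ ∤ N p` acts trivially on the `p`-torsion. -/
theorem trs_inertia (N p : ℕ) [NeZero N] (ℓ : ℕ) (hℓ : ℓ.Prime) (hℓm : ¬ ℓ ∣ N * p)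
    (A : ValuationSubring Qb) (hA : A.LiesOverPrime ℓ) (σ : Qb ≃ₐ[ℚ] Qb)
    (hσ : σ ∈ A.inertiaSubgroupIn ℚ) : JZero.torsionGaloisRep N p σ = 1 :=
  LinearMap.ext fun x => Subtype.ext
    (Fermat.Agent.S37.est_inertia N p ℓ hℓ hℓm A hA σ hσ (x : JZero N) (trs_nsmul N p x))

/-- The Eichler–Shimura relation on the `p`-torsion. -/
theorem trs_frobenius (N p : ℕ) [NeZero N] (ℓ : ℕ) (hℓ : ℓ.Prime) (hℓm : ¬ ℓ ∣ N * p)
    (A : ValuationSubring Qb) (hA : A.LiesOverPrime ℓ) (σ : Qb ≃ₐ[ℚ] Qb)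
    (hσ : A.IsFrobeniusAt σ ℓ) :
    JZero.torsionGaloisRep N p σ * JZero.torsionGaloisRep N p σ
      - trsHecke N p ⟨ℓ, hℓ⟩ * JZero.torsionGaloisRep N p σ
      + (ℓ : ZMod p) • (1 : Module.End (ZMod p) ↥(Pic0.torsion Qb (modularFunctionFieldBar N) p))
      = 0 := by
  refine LinearMap.ext fun x => Subtype.ext ?_
  have h := Fermat.Agent.S37.est_frobenius N p ℓ hℓ hℓm A hA σ hσ (x : JZero N) (trs_nsmul N p x)
  simp only [LinearMap.add_apply, LinearMap.sub_apply, Module.End.mul_apply,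
    LinearMap.smul_apply, Module.End.one_apply, LinearMap.zero_apply]
  rw [Nat.cast_smul_eq_nsmul]
  exact h

/-- Points of the `p`-torsion have open stabilisers. -/
theorem trs_open (N p : ℕ) [NeZero N] (x : ↥(Pic0.torsion Qb (modularFunctionFieldBar N) p)) :
    FlOpen {σ : Qb ≃ₐ[ℚ] Qb | JZero.torsionGaloisRep N p σ x = x} :=
  (fl_point_open N (x : JZero N)).mono fun _ hσ => Subtype.ext hσ

/-- **The Galois representation on the span of the orbit of an eigenvector.**  From a nonzero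
vector `v` of `k₀ ⊗ J₀(N)[p]` with `T_ℓ v = a_ℓ v` for all primes `ℓ ∤ N p`: a nonzero
finite-dimensional representation `r` of the absolute Galois group, of finite level, trivial on
inertia at `ℓ ∤ N p`, with `r σ ^ 2 - a_ℓ r σ + ℓ = 0` for every Frobenius element `σ` at
`ℓ ∤ N p`. -/
theorem trs_main (N p : ℕ) [NeZero N] {k0 : Type} [Field k0] [Algebra (ZMod p) k0]
    (a : ℕ → k0) (v : k0 ⊗[ZMod p] ↥(Pic0.torsion Qb (modularFunctionFieldBar N) p))
    (hv : v ≠ 0)
    (hTv : ∀ (ℓ : ℕ) (hℓ : ℓ.Prime), ¬ ℓ ∣ N * p →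
      (trsHecke N p ⟨ℓ, hℓ⟩).baseChange k0 v = a ℓ • v) :
    ∃ (W : Type) (_ : AddCommGroup W) (_ : Module k0 W) (_ : FiniteDimensional k0 W)
      (_ : Nontrivial W) (r : (Qb ≃ₐ[ℚ] Qb) →* Module.End k0 W)
      (L : IntermediateField ℚ Qb), FiniteDimensional ℚ L ∧
      (∀ σ : Qb ≃ₐ[ℚ] Qb, (∀ x ∈ L, σ x = x) → r σ = 1) ∧
      (∀ ℓ : ℕ, ℓ.Prime → ¬ ℓ ∣ N * p → ∀ A : ValuationSubring Qb, A.LiesOverPrime ℓ →
        ∀ σ ∈ A.inertiaSubgroupIn ℚ, r σ = 1) ∧
      (∀ ℓ : ℕ, ℓ.Prime → ¬ ℓ ∣ N * p → ∀ A : ValuationSubring Qb, A.LiesOverPrime ℓ →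
        ∀ σ : Qb ≃ₐ[ℚ] Qb, A.IsFrobeniusAt σ ℓ →
          r σ * r σ - a ℓ • r σ + (ℓ : k0) • (1 : Module.End k0 W) = 0) := by
  obtain ⟨W, iA, iM, hWfin, hnt, r, h1, h2, h3⟩ :=
    trs_abs_rep (k := k0) (JZero.torsionGaloisRep N p) (trs_open N p) v hv
  obtain ⟨L, hL, hL'⟩ := h1.exists_field
  refine ⟨W, iA, iM, hWfin, hnt, r, L, hL, hL', ?_, ?_⟩
  · intro ℓ hℓ hℓm A hA σ hσ
    exact h2 σ (trs_inertia N p ℓ hℓ hℓm A hA σ hσ)
  · intro ℓ hℓ hℓm A hA σ hσ
    have h4 := h3 (trsHecke N p ⟨ℓ, hℓ⟩) (a ℓ) (ℓ : ZMod p) σ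
      (fun g => trs_hecke_galois N p ℓ hℓ hℓm g) (hTv ℓ hℓ hℓm)
      (trs_frobenius N p ℓ hℓ hℓm A hA σ hσ)
    rw [map_natCast] at h4
    exact h4

end Fermat.Agent.S29
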