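import Fermat.Agent.S29.CompareGen
import Fermat.Agent.S29.HeckeAnaMain
import Fermat.Agent.S29.PsiMain
import Fermat.Agent.S29.TorsRep

/-!
# S29 / S30 / S31, package CMP-GEN: the comparison at a general modulus, main statements

For the comparison homomorphism `cmgPhi N m : J₀(N)[m] →+ Hom(Γ₀(N), ℤ/m)` of `CompareGen.lean`:

* `cmg_surj`: its range contains every homomorphism killing the elements of `Γ₀(N)` with
  `|trace| ≤ 2`;
* `cmg_hecke`, `cmg_hecke_rel`: it intertwines the Hecke operator `T_ℓ` (`ℓ ∤ N`) on `J₀(N)[m]`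
  with the transfer operator `heckeTr N ℓ`;
* `cmg_main`: the packaged statement (injective, range, Hecke) for every modulus `m ≠ 0`.
-/

set_option autoImplicit false

open AlgebraicCurve ModularCurve

namespace Fermat.Agent.S29

local notation "Qb" => AlgebraicClosure ℚ

attribute [local instance] cmgAlg

section

variable (N : ℕ) [NeZero N] (m : ℕ) [NeZero m]

/-- **Range of the comparison homomorphism**: every `ψ : Γ₀(N) → ℤ/m` killing the elements with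
`|trace| ≤ 2` is in the range. -/
theorem cmg_surj (ψ : Additive ↥(CongruenceSubgroup.Gamma0 N) →+ ZMod m)
    (hψ : ∀ s ∈ redS N, ψ s = 0) : ψ ∈ Set.range (cmgPhi N m) := by
  obtain ⟨c, hc⟩ := psg_main_redS N m ψ hψ
  obtain ⟨c0, hc0⟩ := cmg_bcs_surjective N m c
  exact ⟨c0, by rw [cmgPhi_apply, hc0, hc]⟩

/-- **Hecke equivariance of the comparison homomorphism**, relational form. -/
theorem cmg_hecke_rel {ℓ : ℕ} (hℓ : ℓ.Prime) (hℓN : ¬ ℓ ∣ N)
    (c c' : ↥(Pic0.torsion Qb (modularFunctionFieldBar N) m))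
    (h : (c' : JZero N) = heckeOperatorBar N ⟨ℓ, hℓ⟩ (c : JZero N)) :
    cmgPhi N m c' = heckeTr N ℓ (ZMod m) (cmgPhi N m c) := by
  rw [cmgPhi_apply, cmgPhi_apply]
  refine hkac_main N m (phiModelC N) (plc_anaRingC_le N) (fun a => rfl)
    (pdg_deg_eq_one Qb N) hℓ hℓN (c : JZero N) (Pic0.mem_torsion.mp c.2) _ _ ?_ ?_
  · rw [bcsTorsHom_coe, bcsPic_eq_bcpPicL]
  · rw [bcsTorsHom_coe, bcsPic_eq_bcpPicL, h]

/-- **Hecke equivariance of the comparison homomorphism**, for the restricted Hecke operator. -/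
theorem cmg_hecke {ℓ : ℕ} (hℓ : ℓ.Prime) (hℓN : ¬ ℓ ∣ N)
    (c : ↥(Pic0.torsion Qb (modularFunctionFieldBar N) m)) :
    cmgPhi N m (trsHecke N m ⟨ℓ, hℓ⟩ c) = heckeTr N ℓ (ZMod m) (cmgPhi N m c) :=
  cmg_hecke_rel N m hℓ hℓN c _ rfl

/-- **The comparison at the modulus `m`**, packaged. -/
theorem cmg_main :
    ∃ Φ : ↥(Pic0.torsion Qb (modularFunctionFieldBar N) m) →+
        (Additive ↥(CongruenceSubgroup.Gamma0 N) →+ ZMod m),
      Function.Injective Φ ∧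
      (∀ ψ : Additive ↥(CongruenceSubgroup.Gamma0 N) →+ ZMod m,
        (∀ s ∈ redS N, ψ s = 0) → ψ ∈ Set.range Φ) ∧
      (∀ (ℓ : ℕ) (hℓ : ℓ.Prime), ¬ ℓ ∣ N →
        ∀ c c' : ↥(Pic0.torsion Qb (modularFunctionFieldBar N) m),
          (c' : JZero N) = heckeOperatorBar N ⟨ℓ, hℓ⟩ (c : JZero N) →
          Φ c' = heckeTr N ℓ (ZMod m) (Φ c)) ∧
      (∀ (ℓ : ℕ) (hℓ : ℓ.Prime), ¬ ℓ ∣ N →
        ∀ c : ↥(Pic0.torsion Qb (modularFunctionFieldBar N) m),
          Φ (trsHecke N m ⟨ℓ, hℓ⟩ c) = heckeTr N ℓ (ZMod m) (Φ c)) :=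
  ⟨cmgPhi N m, cmg_injective N m, cmg_surj N m,
    fun _ hℓ hℓN c c' h => cmg_hecke_rel N m hℓ hℓN c c' h,
    fun _ hℓ hℓN c => cmg_hecke N m hℓ hℓN c⟩

end

end Fermat.Agent.S29
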