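import Mathlib
import Fermat.Agent.S29.PeriodCoh
import Fermat.Agent.S22.Hecke
import Fermat.Agent.S20.Period
import Fermat.Agent.S20.PeriodInj

/-!
# S29, package [PERIOD], part 2: the period map intertwines `T_ℓ` with the transfer operator

`per_periodMap_heckeT`: for a prime `ℓ ∤ N` and `f ∈ S₂(Γ₀(N))`,
`periodMap N (T_ℓ f) = per_Tcoh (periodMap N f)`.
-/

set_option autoImplicit false

open UpperHalfPlane ModularForm CongruenceSubgroup ModularCurve ModularCurve.Period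
open Fermat.Agent.S22 Fermat.Agent.S20
open P2MW.S_ModularForm_heckeT_slash_eq_self_of_mem_Gamma0.ModularForm.HeckeSlashInvariance
open scoped MatrixGroups ModularForm

namespace Fermat.Agent.S29

variable {N : ℕ} [NeZero N]

/-- In weight 2 the period functional `psi` of the S22 library is the period map of S21. -/
theorem per_periodMap_eq_psi (f : CuspForm (Gamma0 N) 2) (γ : Gamma0 N) (u v : ℂ) :
    periodMap N f (Additive.ofMul γ) = psi f (γ : SL(2, ℤ)) u v := by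
  have hI : (0 : ℝ) < Complex.I.im := by simp
  have hpsi := psi_spec f (admissible_gf f) (le_refl 2) γ.2 u v hI
  have hn : ((2 : ℤ) - 2).toNat = 0 := by simp
  rw [hn] at hpsi
  have hPhi : ∀ (u v z : ℂ), Phi (gf f) 0 u v z = Gm (gf f) 0 z := by
    intro u v z
    simp [Phi]
  rw [hPhi, hPhi] at hpsi
  rw [period_periodMap_apply f γ UpperHalfPlane.I, periodPrim_apply, periodPrim_apply, ← mob_coe]
  obtain ⟨c, hc⟩ := PP.exists_const_of_hasDerivAt (G₁ := PP.pprim 1 (gf f)) (G₂ := Gm (gf f) 0)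
    (Φ₁ := gf f) (Φ₂ := fun z => gf f z * z ^ 0)
    (fun z hz => PP.hasDerivAt_pprim one_pos (period_cuspLike_gf f) hz)
    (fun z hz => Gm_isPrimOn (admissible_gf f) 0 z hz)
    (fun z hz => by simp)
  have h1 := hc (mob (γ : SL(2, ℤ)) Complex.I) (mob_im_pos (γ : SL(2, ℤ)) hI)
  have h2 := hc Complex.I hI
  rw [UpperHalfPlane.coe_I]
  linear_combination h1 - h2 + hpsi

/-- **The period map intertwines the Hecke operator `T_ℓ` (`ℓ ∤ N`) on `S₂(Γ₀(N))` with the
transfer operator on `Hom(Γ₀(N), ℂ)`.** -/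
theorem per_periodMap_heckeT {ℓ : ℕ} [Fact ℓ.Prime] (hℓN : ¬ ℓ ∣ N)
    (f : CuspForm (Gamma0 N) 2) :
    periodMap N (CuspForm.heckeTLin 2 (Fact.out : ℓ.Prime) hℓN f)
      = per_Tcoh hℓN ℂ (periodMap N f) := by
  have hp : ℓ.Prime := Fact.out
  have hp0 : (0 : ℝ) < ℓ := by exact_mod_cast hp.pos
  refine AddMonoidHom.ext fun γ' => ?_
  have key : ∀ γ : Gamma0 N, periodMap N (CuspForm.heckeTLin 2 (Fact.out : ℓ.Prime) hℓN f)
      (Additive.ofMul γ) = per_Tcoh hℓN ℂ (periodMap N f) (Additive.ofMul γ) := ?_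
  · exact key (Additive.toMul γ')
  intro γ
  rw [per_periodMap_eq_psi _ γ 1 0, per_Tcoh_apply]
  have hM : ∀ x : OnePoint (ZMod ℓ), IsUT (heckeRep ℓ x)
      ((fun x : OnePoint (ZMod ℓ) => x.elim (ℓ : ℝ) (fun _ => 1)) x)
      ((fun x : OnePoint (ZMod ℓ) => x.elim (0 : ℝ) (fun j => (j.val : ℝ))) x)
      ((fun x : OnePoint (ZMod ℓ) => x.elim (1 : ℝ) (fun _ => (ℓ : ℝ))) x) := by
    intro x
    induction x using OnePoint.rec with
    | infty =>
      refine ⟨by simpa using hp0, by simp, ?_⟩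
      simp [val_heckeDiagMatrix hp.ne_zero]
    | coe j =>
      refine ⟨by simp, by simpa using hp0, ?_⟩
      simp [val_heckeMatrix hp.ne_zero]
  have hT : (⇑(CuspForm.heckeTLin 2 hp hℓN f) : ℍ → ℂ)
      = ∑ x : OnePoint (ZMod ℓ), (⇑f ∣[(2 : ℤ)] heckeRep ℓ x) := by
    rw [CuspForm.coe_heckeTLin_apply, heckeT_eq_sum_onePoint]
  rw [psi_hecke_sum (n := 0) (by norm_num) (heckeRep ℓ) _ _ _ hM f _ hT γ.2 (per_perm ℓ γ)
    (fun x => ((per_gam hℓN γ x : Gamma0 N) : SL(2, ℤ))) (fun x => (per_gam hℓN γ x).2)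
    (fun x => per_gam_spec hℓN γ x) 1 0]
  refine Finset.sum_congr rfl fun x _ => ?_
  rw [per_periodMap_eq_psi f (per_gam hℓN γ x)]

end Fermat.Agent.S29
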