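import Mathlib
import Fermat.Agent.S29.HeckeTr
import Fermat.Agent.S29.PeriodHecke
import Fermat.Agent.Lib.HeckeEigenform
import Fermat.Agent.S22.FG
import Fermat.Prelude.Thm_UpperHalfPlane_eq_of_forall_qCoeff_eq

/-!
# S29, package [PERIOD], part 3: the period homomorphism of a normalised eigenform

* `per_heckeT_eigen`: a normalised eigenform is an eigenvector of `T_l` (`l ∤ N` prime) with
  eigenvalue `qCoeff g l`;
* `per_main`: `heckeTr N l ℂ (periodMap N g) = qCoeff g l • periodMap N g`;
* `per_periodMap_ne_zero`: `periodMap N g ≠ 0`;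
* `per_trace_le_two`: periods vanish on elements with `|trace| ≤ 2` (parabolic, elliptic, `±1`);
* `per_span_fg`: the `ℤ`-span of the periods is finitely generated.
-/

set_option autoImplicit false

open UpperHalfPlane ModularForm CongruenceSubgroup ModularCurve ModularCurve.Period
open ModularFormClass
open Fermat.Agent.S22 Fermat.Agent.S20 Fermat.Agent.Lib.HeckeEigenform
open scoped MatrixGroups ModularForm

namespace Fermat.Agent.S29

variable {N : ℕ}

/-- Two weight-2 cusp forms on `Γ₀(N)` with the same `q`-coefficients are equal. -/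
theorem per_ext_qCoeff (f g : CuspForm (Gamma0 N) 2)
    (h : ∀ n : ℕ, qCoeff (⇑f) n = qCoeff (⇑g) n) : f = g := by
  have hΓ := CongruenceSubgroup.one_mem_strictPeriods_Gamma0 N
  have hf := SlashInvariantFormClass.periodic_comp_ofComplex f hΓ
  have hg := SlashInvariantFormClass.periodic_comp_ofComplex g hΓ
  have hcusp : Fact (IsCusp OnePoint.infty
      (Subgroup.map (Matrix.SpecialLinearGroup.mapGL ℝ) (Gamma0 N))) :=
    ⟨Subgroup.isCusp_of_mem_strictPeriods one_pos hΓ⟩
  exact DFunLike.coe_injective (UpperHalfPlane.eq_of_forall_qCoeff_eq (by simpa using hf)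
    (ModularFormClass.holo f) (ModularFormClass.bdd_at_infty f) (by simpa using hg)
    (ModularFormClass.holo g) (ModularFormClass.bdd_at_infty g) h)

/-- The Hecke relation at a prime `l ∤ N` for the coefficients of a normalised eigenform. -/
theorem per_qCoeff_mul_prime {g : CuspForm (Gamma0 N) 2} (hg : g.IsNormalizedEigenform)
    {l : ℕ} (hl : l.Prime) (hlN : ¬ l ∣ N) (n : ℕ) :
    qCoeff (⇑g) (n * l) + (if l ∣ n then (l : ℂ) * qCoeff (⇑g) (n / l) else 0)
      = qCoeff (⇑g) l * qCoeff (⇑g) n := by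
  rcases Nat.eq_zero_or_pos n with rfl | hn
  · simp [qCoeff_zero_eq_zero g]
  obtain ⟨r, m, hm, rfl⟩ := Nat.exists_eq_pow_mul_and_not_dvd hn.ne' l hl.ne_one
  have hcop : ∀ s : ℕ, Nat.Coprime (l ^ s) m :=
    fun s => Nat.Coprime.pow_left s ((Nat.Prime.coprime_iff_not_dvd hl).mpr hm)
  have e1 : l ^ r * m * l = l ^ (r + 1) * m := by ring
  rw [e1, hg.qCoeff_mul_of_coprime _ _ (hcop (r + 1)), hg.qCoeff_mul_of_coprime _ _ (hcop r)]
  cases r with
  | zero =>
    have hnd : ¬ l ∣ l ^ 0 * m := by simpa using hm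
    rw [if_neg hnd]
    simp [hg.qCoeff_one]
  | succ s =>
    have hd : l ∣ l ^ (s + 1) * m := Dvd.dvd.mul_right (dvd_pow_self l (Nat.succ_ne_zero s)) m
    have hdiv : l ^ (s + 1) * m / l = l ^ s * m := by
      rw [pow_succ, mul_assoc, mul_comm l m, ← mul_assoc, Nat.mul_div_cancel _ hl.pos]
    rw [if_pos hd, hdiv, hg.qCoeff_mul_of_coprime _ _ (hcop s),
      hg.qCoeff_prime_pow_of_not_dvd l s hl hlN]
    ring

/-- **A normalised eigenform is a `T_l`-eigenvector** (`l` prime, `l ∤ N`) with eigenvalue its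
`l`-th `q`-coefficient. -/
theorem per_heckeT_eigen {g : CuspForm (Gamma0 N) 2} (hg : g.IsNormalizedEigenform)
    {l : ℕ} (hl : l.Prime) (hlN : ¬ l ∣ N) :
    CuspForm.heckeTLin 2 hl hlN g = qCoeff (⇑g) l • g := by
  refine per_ext_qCoeff _ _ fun n => ?_
  rw [qCoeff_heckeTLin hl hlN g n, qCoeff_smul, per_qCoeff_mul_prime hg hl hlN n]

variable [NeZero N]

/-- **[PERIOD] main statement**: the period homomorphism of a normalised eigenform is an
eigenvector of the transfer Hecke operator. -/
theorem per_main {g : CuspForm (Gamma0 N) 2} (hg : g.IsNormalizedEigenform)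
    {l : ℕ} (hl : l.Prime) (hlN : ¬ l ∣ N) :
    heckeTr N l ℂ (periodMap N g) = qCoeff (⇑g) l • periodMap N g := by
  have : Fact l.Prime := ⟨hl⟩
  rw [heckeTr_eq_per_Tcoh hlN, ← per_periodMap_heckeT hlN g, per_heckeT_eigen hg hl hlN,
    period_periodMap_smul]

/-- The period homomorphism of a nonzero cusp form is nonzero. -/
theorem per_periodMap_ne_zero_of_ne_zero {g : CuspForm (Gamma0 N) 2} (hg : g ≠ 0) :
    periodMap N g ≠ 0 := by
  intro h
  apply hg
  apply eq_zero_of_periodMap_add_charInvolution N g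
  rw [h, map_zero, add_zero]

omit [NeZero N] in
theorem per_ne_zero {g : CuspForm (Gamma0 N) 2} (hg : g.IsNormalizedEigenform) : g ≠ 0 := by
  rintro rfl
  have h1 := hg.qCoeff_one
  rw [qCoeff_zero_eq_zero_of_zero] at h1
  exact zero_ne_one h1
where
  qCoeff_zero_eq_zero_of_zero : qCoeff (⇑(0 : CuspForm (Gamma0 N) 2)) 1 = 0 := by
    have := qCoeff_smul (0 : ℂ) (0 : CuspForm (Gamma0 N) 2) 1
    rw [zero_smul, zero_mul] at this
    exact this

/-- The period homomorphism of a normalised eigenform is nonzero. -/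
theorem per_periodMap_ne_zero {g : CuspForm (Gamma0 N) 2} (hg : g.IsNormalizedEigenform) :
    periodMap N g ≠ 0 :=
  per_periodMap_ne_zero_of_ne_zero (per_ne_zero hg)

/-- Elements of `SL(2, ℤ)` with `|trace| < 2` have order dividing `12`. -/
theorem per_pow_twelve (γ : SL(2, ℤ))
    (ht : |(γ : Matrix (Fin 2) (Fin 2) ℤ).trace| < 2) : γ ^ 12 = 1 := by
  have hdet : (γ : Matrix (Fin 2) (Fin 2) ℤ).det = 1 := γ.det_coe
  have hCH := Matrix.aeval_self_charpoly (γ : Matrix (Fin 2) (Fin 2) ℤ)
  rw [Matrix.charpoly_fin_two, hdet] at hCH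
  simp only [map_add, map_sub, map_pow, Polynomial.aeval_X, map_mul, Polynomial.aeval_C,
    map_one] at hCH
  set A : Matrix (Fin 2) (Fin 2) ℤ := (γ : Matrix (Fin 2) (Fin 2) ℤ) with hA
  set t : ℤ := A.trace with ht'
  have hsq : A ^ 2 = (algebraMap ℤ (Matrix (Fin 2) (Fin 2) ℤ) t) * A - 1 := by
    have := hCH
    rw [sub_add_eq_add_sub, sub_eq_zero] at this
    rw [eq_sub_iff_add_eq]
    exact this
  have hcomm : Commute (algebraMap ℤ (Matrix (Fin 2) (Fin 2) ℤ) t) A := Algebra.commutes t A
  have ht3 : t = -1 ∨ t = 0 ∨ t = 1 := by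
    have := abs_lt.mp ht
    omega
  have hA12 : A ^ 12 = 1 := by
    rcases ht3 with h | h | h
    · rw [h] at hsq
      simp only [Int.reduceNeg, eq_intCast, Int.cast_neg, Int.cast_one,
        neg_mul, one_mul] at hsq
      have h3 : A ^ 3 = 1 := by
        have : A ^ 3 = A ^ 2 * A := by rw [pow_succ]
        rw [this, hsq, sub_mul, neg_mul, ← pow_two, hsq]
        simp
      calc A ^ 12 = (A ^ 3) ^ 4 := by rw [← pow_mul]
        _ = 1 := by rw [h3, one_pow]
    · rw [h] at hsq
      simp only [map_zero, zero_mul, zero_sub] at hsq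
      calc A ^ 12 = (A ^ 2) ^ 6 := by rw [← pow_mul]
        _ = 1 := by rw [hsq]; exact Even.neg_one_pow (by decide)
    · rw [h] at hsq
      simp only [map_one, one_mul] at hsq
      have h3 : A ^ 3 = -1 := by
        have : A ^ 3 = A ^ 2 * A := by rw [pow_succ]
        rw [this, hsq, sub_mul, ← pow_two, hsq]
        simp
      calc A ^ 12 = (A ^ 3) ^ 4 := by rw [← pow_mul]
        _ = 1 := by rw [h3]; exact Even.neg_one_pow (by decide)
  apply Subtype.ext
  rw [Matrix.SpecialLinearGroup.coe_pow, Matrix.SpecialLinearGroup.coe_one]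
  exact hA12

/-- **Periods vanish on parabolic and elliptic elements** (and on `±1`). -/
theorem per_trace_le_two (f : CuspForm (Gamma0 N) 2) (γ : Gamma0 N)
    (ht : |((γ : SL(2, ℤ)) : Matrix (Fin 2) (Fin 2) ℤ).trace| ≤ 2) :
    periodMap N f (Additive.ofMul γ) = 0 := by
  rcases lt_or_eq_of_le ht with h | h
  · have h12 : γ ^ 12 = 1 := by
      apply Subtype.ext
      rw [SubmonoidClass.coe_pow, OneMemClass.coe_one]
      exact per_pow_twelve _ h
    have h2 : (12 : ℕ) • periodMap N f (Additive.ofMul γ) = 0 := by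
      rw [← map_nsmul, ← ofMul_pow, h12, ofMul_one, map_zero]
    rcases smul_eq_zero.mp h2 with h3 | h3
    · norm_num at h3
    · exact h3
  · have hpar := periodMap_mem_parabolicHoms N f
    rw [mem_parabolicHoms_iff] at hpar
    refine hpar γ ?_
    have : ((γ : SL(2, ℤ)) : Matrix (Fin 2) (Fin 2) ℤ).trace ^ 2
        = |((γ : SL(2, ℤ)) : Matrix (Fin 2) (Fin 2) ℤ).trace| ^ 2 := (sq_abs _).symm
    rw [this, h]
    norm_num

/-- The `ℤ`-span of the periods of a cusp form is finitely generated. -/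
theorem per_span_fg (f : CuspForm (Gamma0 N) 2) :
    (Submodule.span ℤ (Set.range (periodMap N f))).FG := by
  have hfg : Group.FG (Gamma0 N) := (Group.fg_iff_subgroup_fg _).mpr (fg_Gamma0_fg N)
  obtain ⟨S, hS⟩ := Group.fg_def.mp hfg
  classical
  refine ⟨S.image (fun γ : Gamma0 N => periodMap N f (Additive.ofMul γ)), ?_⟩
  apply le_antisymm
  · apply Submodule.span_mono
    intro x hx
    simp only [Finset.coe_image, Set.mem_image] at hx
    obtain ⟨γ, -, rfl⟩ := hx
    exact Set.mem_range_self _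
  · rw [Submodule.span_le]
    rintro _ ⟨γ', rfl⟩
    have hγ : Additive.toMul γ' ∈ Subgroup.closure (S : Set (Gamma0 N)) := by
      rw [hS]; trivial
    have key : ∀ γ : Gamma0 N, γ ∈ Subgroup.closure (S : Set (Gamma0 N)) →
        periodMap N f (Additive.ofMul γ) ∈ Submodule.span ℤ
          ((S.image (fun γ : Gamma0 N => periodMap N f (Additive.ofMul γ)) : Finset ℂ) : Set ℂ) := by
      intro γ hγ
      induction hγ using Subgroup.closure_induction with
      | mem x hx =>
        apply Submodule.subset_span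
        simp only [Finset.coe_image, Set.mem_image]
        exact ⟨x, hx, rfl⟩
      | one => rw [ofMul_one, map_zero]; exact Submodule.zero_mem _
      | mul x y _ _ hx hy => rw [ofMul_mul, map_add]; exact Submodule.add_mem _ hx hy
      | inv x _ hx => rw [ofMul_inv, map_neg]; exact Submodule.neg_mem _ hx
    exact key _ hγ

end Fermat.Agent.S29
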