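import Fermat.Agent.S29.Reduce
import Fermat.Agent.S29.PeriodMain

/-!
# S29: PERIOD + REDUCE

`per_red_eig`: the hypotheses of `red_eig` on the complex side are discharged for the period
homomorphism of a normalised eigenform `g` of weight `2` on `Γ₀(N)`: from a comparison map `Φ`
(injective, range containing the homomorphisms killing the elements of trace of absolute value at
most `2`, Hecke-equivariant) we get the integral eigenvalues `a l` with `(a l : ℂ) = a_l(g)` and a
nonzero vector of `k0 ⊗ J[p]` on which `T l` acts as `φ (a l)`.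
-/

set_option autoImplicit false

open TensorProduct CongruenceSubgroup ModularFormClass ModularCurve
open scoped MatrixGroups

namespace Fermat.Agent.S29

/-- the period homomorphism of a cusp form kills `redS N` -/
theorem per_redS {N : ℕ} [NeZero N] (f : CuspForm (Gamma0 N) 2) :
    ∀ s ∈ redS N, periodMap N f s = 0 := fun s hs =>
  per_trace_le_two f (Additive.toMul s) hs

/-- **PERIOD + REDUCE.** -/
theorem per_red_eig (N p : ℕ) [NeZero N] [Fact p.Prime] {k0 : Type*} [Field k0]
    [Algebra (ZMod p) k0] {Jp : Type*} [AddCommGroup Jp] [Module (ZMod p) Jp]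
    (T : ℕ → Module.End (ZMod p) Jp)
    (Φ : Jp →+ (Additive (Gamma0 N) →+ ZMod p)) (hΦ : Function.Injective Φ)
    (hΦS : ∀ ψ : Additive (Gamma0 N) →+ ZMod p, (∀ s ∈ redS N, ψ s = 0) → ψ ∈ Set.range Φ)
    (hΦT : ∀ l : ℕ, l.Prime → ¬ l ∣ N * p → ∀ c : Jp,
      Φ (T l c) = heckeTr N l (ZMod p) (Φ c))
    {g : CuspForm (Gamma0 N) 2} (hg : g.IsNormalizedEigenform)
    (φ : integralClosure ℤ ℂ →+* k0) (hφ : (RingHom.ker φ).IsMaximal) :
    ∃ a : ℕ → integralClosure ℤ ℂ,
      (∀ l : ℕ, l.Prime → ¬ l ∣ N * p → (a l : ℂ) = qCoeff (⇑g) l) ∧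
      ∃ v : k0 ⊗[ZMod p] Jp, v ≠ 0 ∧
        ∀ l : ℕ, l.Prime → ¬ l ∣ N * p → (T l).baseChange k0 v = φ (a l) • v :=
  red_eig N p T Φ hΦ hΦS hΦT (periodMap N g) (per_periodMap_ne_zero hg) (per_span_fg g)
    (per_redS g) (fun l => qCoeff (⇑g) l)
    (fun _ hl hlN => per_main hg hl fun h => hlN (Dvd.dvd.mul_right h p)) φ hφ

end Fermat.Agent.S29
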