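import Fermat.Agent.S29.AssembleCore
import Fermat.Agent.S29.CompareGenMain
import Fermat.Agent.S29.PeriodEig
import Fermat.Agent.S29.TorsRep

/-!
# S29, final assembly

`s29gen_core`: for every algebraically closed field `k₀` of characteristic `p` receiving the
algebraic integers, the Galois-side output (a finite-dimensional representation of finite level,
unramified outside `N p`, with the Eichler–Shimura relation at the Frobenius elements) attached to
a normalised eigenform: the comparison `cmgPhi N p` (`CompareGenMain`) fed to `per_red_eig`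
(`PeriodEig`) gives an eigenvector in `k₀ ⊗ J₀(N)[p]`, and `trs_main` (`TorsRep`) the
representation.

`s29gen_main`: the frozen statement S29.
-/

set_option autoImplicit false

open ModularCurve AlgebraicCurve TensorProduct

namespace Fermat.Agent.S29

local notation "Qb" => AlgebraicClosure ℚ

/-- The Galois-side output attached to a normalised eigenform, over an algebraically closed field
of characteristic `p`. -/
theorem s29gen_core (N p : ℕ) [NeZero N] (hp : p.Prime)
    {g : CuspForm (CongruenceSubgroup.Gamma0 N) 2} (hg : g.IsNormalizedEigenform)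
    (k0 : Type) [Field k0] [IsAlgClosed k0] [CharP k0 p]
    (π : integralClosure ℤ ℂ →+* k0) :
    ∃ a : ℕ → integralClosure ℤ ℂ,
      (∀ ℓ : ℕ, ℓ.Prime → ¬ ℓ ∣ N * p →
        ((a ℓ : integralClosure ℤ ℂ) : ℂ) = ModularFormClass.qCoeff g ℓ) ∧
      ∃ (W : Type) (_ : AddCommGroup W) (_ : Module k0 W) (_ : FiniteDimensional k0 W)
        (_ : Nontrivial W) (r : (Qb ≃ₐ[ℚ] Qb) →* Module.End k0 W),
        (∃ L : IntermediateField ℚ Qb, FiniteDimensional ℚ L ∧
          ∀ σ : Qb ≃ₐ[ℚ] Qb, (∀ x ∈ L, σ x = x) → r σ = 1) ∧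
        (∀ ℓ : ℕ, ℓ.Prime → ¬ ℓ ∣ N * p → ∀ A : ValuationSubring Qb, A.LiesOverPrime ℓ →
          ∀ σ ∈ A.inertiaSubgroupIn ℚ, r σ = 1) ∧
        (∀ ℓ : ℕ, ℓ.Prime → ¬ ℓ ∣ N * p → ∀ A : ValuationSubring Qb, A.LiesOverPrime ℓ →
          ∀ σ : Qb ≃ₐ[ℚ] Qb, A.IsFrobeniusAt σ ℓ →
            r σ * r σ - π (a ℓ) • r σ + (ℓ : k0) • (1 : Module.End k0 W) = 0) := by
  have : Fact p.Prime := ⟨hp⟩
  let _ : Algebra (ZMod p) k0 := ZMod.algebra k0 p
  obtain ⟨a, ha, v, hv, hTv⟩ := per_red_eig N p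
    (fun l => if h : l.Prime then trsHecke N p ⟨l, h⟩ else 0)
    (cmgPhi N p) (cmg_injective N p) (cmg_surj N p)
    (by
      intro l hl hlm c
      rw [dif_pos hl]
      exact cmg_hecke N p hl (fun h => hlm (h.mul_right p)) c)
    hg π (qpw_ker_isMaximal hp π)
  obtain ⟨W, iA, iM, hfd, hnt, r, L, hL, hL', hI, hF⟩ :=
    trs_main N p (fun ℓ => π (a ℓ)) v hv (fun ℓ hℓ hℓm => by
      have h := hTv ℓ hℓ hℓm
      rwa [dif_pos hℓ] at h)
  exact ⟨a, ha, W, iA, iM, hfd, hnt, r, ⟨L, hL, hL'⟩, hI, hF⟩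

/-- **A normalised weight-2 eigenform on `Γ₀(N)` has an attached residual Galois representation**,
unramified outside `N p` (the frozen statement S29). -/
theorem s29gen_main {N : ℕ} {g : CuspForm (CongruenceSubgroup.Gamma0 N) 2}
    (hg : g.IsNormalizedEigenform)
    {p : ℕ} (hp : p.Prime) {k : Type} [Field k] [CharP k p]
    (φ : integralClosure ℤ ℂ →+* k) :
    ∃ ρ : ResidualGaloisRep k, ρ.IsAttachedTo g φ ∧
      ∀ ℓ : ℕ, ℓ.Prime → ¬ ℓ ∣ N * p → ρ.IsUnramifiedAt ℓ := by
  rcases Nat.eq_zero_or_pos N with h | h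
  · subst h
    exact s29fin_zero p g φ
  · have : NeZero N := ⟨h.ne'⟩
    exact s29fin_attached N p hp h.ne' g φ (fun k0 _ _ _ π => s29gen_core N p hp hg k0 π)

end Fermat.Agent.S29
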