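import Mathlib
import Fermat.Prelude.Def_GaloisRep_Residual

/-!
# S29 stage 3, package (i): the linear-algebra trick

If every element `g` of a group acts on a nonzero finite-dimensional space `V` over an
algebraically closed field through a root of a quadratic `X^2 - a(g) X + ε(g)` with `ε` a
character, then there is a two-dimensional representation whose characteristic polynomials are
exactly these quadratics (all characteristics, no Burnside).
-/

set_option autoImplicit false

namespace Fermat.Agent.S29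

open Polynomial

section core

variable {k : Type*} [Field k] {G : Type*} [Group G] {W : Type*} [AddCommGroup W] [Module k W]

theorem s29la_inv (ρ : G →* Module.End k W) (ε : G →* kˣ) (a : G → k)
    (hrel : ∀ g v, ρ g (ρ g v) - a g • ρ g v + ((ε g : kˣ) : k) • v = 0) (g : G) (v : W) :
    ((ε g : kˣ) : k) • ρ g⁻¹ v = a g • v - ρ g v := by
  have h := hrel g (ρ g⁻¹ v)
  have e : ρ g (ρ g⁻¹ v) = v := by
    rw [← Module.End.mul_apply, ← map_mul, mul_inv_cancel, map_one, Module.End.one_apply]
  rw [e] at h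
  linear_combination (norm := module) h

theorem s29la_polar (ρ : G →* Module.End k W) (ε : G →* kˣ) (a : G → k)
    (hrel : ∀ g v, ρ g (ρ g v) - a g • ρ g v + ((ε g : kˣ) : k) • v = 0) (g h : G) (v : W) :
    ρ h (ρ g v) = a (g * h) • v - ρ g (ρ h v) - (a g * a h) • v + a g • ρ h v + a h • ρ g v := by
  have h1 := s29la_inv ρ ε a hrel (g * h) v
  have h2 := s29la_inv ρ ε a hrel g v
  have h3 := s29la_inv ρ ε a hrel h (ρ g⁻¹ v)
  have h4 : ρ h (((ε g : kˣ) : k) • ρ g⁻¹ v) = ρ h (a g • v - ρ g v) := by rw [h2]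
  rw [map_smul, map_sub, map_smul] at h4
  rw [mul_inv_rev, map_mul, map_mul, map_mul, Module.End.mul_apply, Module.End.mul_apply,
    Units.val_mul] at h1
  linear_combination (norm := module) h1 - ((ε g : kˣ) : k) • h3 - a h • h2 + h4

/-- Irreducibility of a representation, in elementary form. -/
def S29laIrr (ρ : G →* Module.End k W) : Prop :=
  ∀ U : Submodule k W, (∀ g, ∀ x ∈ U, ρ g x ∈ U) → U = ⊥ ∨ U = ⊤

theorem s29la_orbit_top (ρ : G →* Module.End k W) (hirr : S29laIrr ρ) (w : W) (hw : w ≠ 0) :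
    Submodule.span k (Set.range fun h => ρ h w) = ⊤ := by
  have hinv : ∀ g, ∀ x ∈ Submodule.span k (Set.range fun h => ρ h w),
      ρ g x ∈ Submodule.span k (Set.range fun h => ρ h w) := by
    intro g x hx
    induction hx using Submodule.span_induction with
    | mem x hx =>
      obtain ⟨h, rfl⟩ := hx
      exact Submodule.subset_span ⟨g * h, by simp [map_mul]⟩
    | zero => simp
    | add x y _ _ hx hy => rw [map_add]; exact Submodule.add_mem _ hx hy
    | smul c x _ hx => rw [map_smul]; exact Submodule.smul_mem _ c hx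
  rcases hirr (Submodule.span k (Set.range fun h => ρ h w)) hinv with h | h
  · exfalso
    have : w ∈ Submodule.span k (Set.range fun h => ρ h w) :=
      Submodule.subset_span ⟨1, by simp⟩
    rw [h] at this
    exact hw ((Submodule.mem_bot k).1 this)
  · exact h

theorem s29la_rank_one (ρ : G →* Module.End k W) (ε : G →* kˣ) (a : G → k)
    (hrel : ∀ g v, ρ g (ρ g v) - a g • ρ g v + ((ε g : kˣ) : k) • v = 0)
    (hirr : S29laIrr ρ) (g : G) (α β : k) (hab : α + β = a g) (w : W) (hw : w ≠ 0)
    (hgw : ρ g w = α • w) (v : W) : ρ g v - β • v ∈ Submodule.span k {w} := by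
  have hle : (⊤ : Submodule k W) ≤
      Submodule.comap (ρ g - β • (1 : Module.End k W)) (Submodule.span k {w}) := by
    rw [← s29la_orbit_top ρ hirr w hw, Submodule.span_le]
    rintro _ ⟨h, rfl⟩
    show (ρ g - β • (1 : Module.End k W)) (ρ h w) ∈ Submodule.span k {w}
    have hp := s29la_polar ρ ε a hrel h g w
    have hgw' : ρ h (ρ g w) = α • ρ h w := by rw [hgw, map_smul]
    refine Submodule.mem_span_singleton.2 ⟨a (h * g) - a h * a g + α * a h, ?_⟩
    obtain rfl : β = a g - α := by linear_combination hab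
    simp only [LinearMap.sub_apply, LinearMap.smul_apply, Module.End.one_apply]
    rw [hp, hgw', hgw]
    module
  have := hle (Submodule.mem_top (x := v))
  simpa using this

theorem s29la_finrank_le_two [FiniteDimensional k W] (ρ : G →* Module.End k W) (ε : G →* kˣ)
    (a : G → k) (hrel : ∀ g v, ρ g (ρ g v) - a g • ρ g v + ((ε g : kˣ) : k) • v = 0)
    (hirr : S29laIrr ρ) (g : G) (α β : k) (hab : α + β = a g) (hprod : α * β = ((ε g : kˣ) : k))
    (hns : ∀ c : k, ρ g ≠ c • (1 : Module.End k W)) : Module.finrank k W ≤ 2 := by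
  -- the two factorisations
  have hf1 : ∀ v, ρ g (ρ g v - β • v) = α • (ρ g v - β • v) := by
    intro v
    have h := hrel g v
    rw [← hab, ← hprod] at h
    rw [map_sub, map_smul]
    linear_combination (norm := module) h
  have hf2 : ∀ v, ρ g (ρ g v - α • v) = β • (ρ g v - α • v) := by
    intro v
    have h := hrel g v
    rw [← hab, ← hprod] at h
    rw [map_sub, map_smul]
    linear_combination (norm := module) h
  obtain ⟨v0, hv0⟩ : ∃ v, ρ g v - β • v ≠ 0 := by
    by_contra hcon
    push Not at hcon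
    exact hns β (LinearMap.ext fun v => by
      simpa [sub_eq_zero] using hcon v)
  obtain ⟨v1, hv1⟩ : ∃ v, ρ g v - α • v ≠ 0 := by
    by_contra hcon
    push Not at hcon
    exact hns α (LinearMap.ext fun v => by
      simpa [sub_eq_zero] using hcon v)
  set w := ρ g v0 - β • v0 with hw
  set w' := ρ g v1 - α • v1 with hw'
  have hA : ∀ v, ρ g v - β • v ∈ Submodule.span k {w} :=
    s29la_rank_one ρ ε a hrel hirr g α β hab w hv0 (hf1 v0)
  have hB : ∀ v, ρ g v = β • v → v ∈ Submodule.span k {w'} := by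
    intro v hv
    by_cases hv0' : v = 0
    · rw [hv0']; exact Submodule.zero_mem _
    have hmem := s29la_rank_one ρ ε a hrel hirr g β α (by rw [add_comm]; exact hab) v hv0' hv v1
    obtain ⟨c, hc⟩ := Submodule.mem_span_singleton.1 hmem
    have hc0 : c ≠ 0 := by
      rintro rfl
      rw [zero_smul] at hc
      exact hv1 hc.symm
    refine Submodule.mem_span_singleton.2 ⟨c⁻¹, ?_⟩
    rw [hw', ← hc, smul_smul, inv_mul_cancel₀ hc0, one_smul]
  set T : W →ₗ[k] W := ρ g - β • (1 : Module.End k W) with hT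
  have h1 : LinearMap.range T ≤ Submodule.span k {w} := by
    rintro _ ⟨v, rfl⟩
    simpa [hT] using hA v
  have h2 : LinearMap.ker T ≤ Submodule.span k {w'} := by
    intro v hv
    refine hB v ?_
    have := LinearMap.mem_ker.1 hv
    simpa [hT, sub_eq_zero] using this
  have h3 := LinearMap.finrank_range_add_finrank_ker T
  have h4 := Submodule.finrank_mono h1
  have h5 := Submodule.finrank_mono h2
  rw [finrank_span_singleton hv0] at h4
  rw [finrank_span_singleton hv1] at h5
  omega

theorem s29la_finrank_le_one [FiniteDimensional k W] (ρ : G →* Module.End k W)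
    (hirr : S29laIrr ρ) (hs : ∀ g, ∃ c : k, ρ g = c • (1 : Module.End k W)) :
    Module.finrank k W ≤ 1 := by
  by_cases hW : ∃ w : W, w ≠ 0
  · obtain ⟨w, hw⟩ := hW
    have hinv : ∀ g, ∀ x ∈ Submodule.span k {w}, ρ g x ∈ Submodule.span k {w} := by
      intro g x hx
      obtain ⟨c, hc⟩ := hs g
      rw [hc]
      simpa using Submodule.smul_mem _ c hx
    rcases hirr (Submodule.span k {w}) hinv with h | h
    · exfalso
      have : w ∈ Submodule.span k {w} := Submodule.mem_span_singleton_self w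
      rw [h] at this
      exact hw ((Submodule.mem_bot k).1 this)
    · have h1 := finrank_span_singleton (K := k) hw
      rw [h, finrank_top] at h1
      omega
  · push Not at hW
    have : Subsingleton W := ⟨fun x y => by rw [hW x, hW y]⟩
    rw [Module.finrank_zero_of_subsingleton]
    omega

end core


section matrix

variable {k : Type*} [Field k] {G : Type*} [Group G]

theorem s29la_ch2 (N : Matrix (Fin 2) (Fin 2) k) :
    N * N - N.trace • N + N.det • (1 : Matrix (Fin 2) (Fin 2) k) = 0 := by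
  ext i j
  fin_cases i <;> fin_cases j <;>
    simp [Matrix.mul_apply, Fin.sum_univ_two, Matrix.trace_fin_two, Matrix.det_fin_two] <;> ring

theorem s29la_tr_det_of_nonscalar (N : Matrix (Fin 2) (Fin 2) k) (a e : k)
    (hrel : N * N - a • N + e • (1 : Matrix (Fin 2) (Fin 2) k) = 0)
    (hns : ∀ c : k, N ≠ c • (1 : Matrix (Fin 2) (Fin 2) k)) : N.trace = a ∧ N.det = e := by
  have h := s29la_ch2 N
  have hd : (a - N.trace) • N = (e - N.det) • (1 : Matrix (Fin 2) (Fin 2) k) := by
    linear_combination (norm := module) h - hrel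
  by_cases ha : a - N.trace = 0
  · rw [ha, zero_smul] at hd
    have h00 := congrFun (congrFun hd 0) 0
    simp at h00
    exact ⟨by linear_combination -ha, by linear_combination h00⟩
  · exfalso
    refine hns ((a - N.trace)⁻¹ * (e - N.det)) ?_
    rw [← smul_smul, ← hd, smul_smul, inv_mul_cancel₀ ha, one_smul]

theorem s29la_matrix_charpoly (M : G →* Matrix (Fin 2) (Fin 2) k) (ε : G →* kˣ) (a : G → k)
    (hrel : ∀ g, M g * M g - a g • M g + ((ε g : kˣ) : k) • (1 : Matrix (Fin 2) (Fin 2) k) = 0)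
    (g₀ : G) (hns : ∀ c : k, M g₀ ≠ c • (1 : Matrix (Fin 2) (Fin 2) k)) (g : G) :
    (M g).charpoly = X ^ 2 - C (a g) * X + C ((ε g : kˣ) : k) := by
  rw [Matrix.charpoly_fin_two]
  suffices h : (M g).trace = a g ∧ (M g).det = ((ε g : kˣ) : k) by rw [h.1, h.2]
  by_cases hg : ∀ c : k, M g ≠ c • (1 : Matrix (Fin 2) (Fin 2) k)
  · exact s29la_tr_det_of_nonscalar _ _ _ (hrel g) hg
  · push Not at hg
    obtain ⟨c, hc⟩ := hg
    have hc0 : c ≠ 0 := by
      rintro rfl
      have h1 : M g * M g⁻¹ = 1 := by rw [← map_mul, mul_inv_cancel, map_one]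
      rw [hc, zero_smul, zero_mul] at h1
      exact zero_ne_one h1
    have hgg : ∀ d : k, M (g * g₀) ≠ d • (1 : Matrix (Fin 2) (Fin 2) k) := by
      intro d hd
      rw [map_mul, hc, smul_mul_assoc, one_mul] at hd
      refine hns (c⁻¹ * d) ?_
      rw [← smul_smul, ← hd, smul_smul, inv_mul_cancel₀ hc0, one_smul]
    have h1 := (s29la_tr_det_of_nonscalar _ _ _ (hrel (g * g₀)) hgg).2
    have h2 := (s29la_tr_det_of_nonscalar _ _ _ (hrel g₀) hns).2
    have hdet : (c • (1 : Matrix (Fin 2) (Fin 2) k)).det = c ^ 2 := by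
      simp
    have htr : (c • (1 : Matrix (Fin 2) (Fin 2) k)).trace = 2 * c := by
      simp
      ring
    rw [map_mul, Matrix.det_mul, h2, hc, hdet, map_mul, Units.val_mul] at h1
    have he : c ^ 2 = ((ε g : kˣ) : k) := mul_right_cancel₀ (Units.ne_zero _) h1
    have hr := congrFun (congrFun (hrel g) 0) 0
    rw [hc] at hr
    simp at hr
    refine ⟨?_, ?_⟩
    · rw [hc, htr]
      have h3 : c * (2 * c - a g) = 0 := by linear_combination hr + he
      rcases mul_eq_zero.1 h3 with h4 | h4
      · exact absurd h4 hc0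
      · linear_combination h4
    · rw [hc, hdet, he]

theorem s29la_dim_one (M₁ : G →* Matrix (Fin 1) (Fin 1) k) (ε : G →* kˣ) (a : G → k)
    (hrel : ∀ g, M₁ g * M₁ g - a g • M₁ g +
      ((ε g : kˣ) : k) • (1 : Matrix (Fin 1) (Fin 1) k) = 0) :
    ∃ M : G →* Matrix (Fin 2) (Fin 2) k,
      (∀ g, (M g).charpoly = X ^ 2 - C (a g) * X + C ((ε g : kˣ) : k)) ∧
      ∀ g, M₁ g = 1 → ε g = 1 → M g = 1 := by
  have hmul : ∀ g h, M₁ (g * h) 0 0 = M₁ g 0 0 * M₁ h 0 0 := by
    intro g h
    rw [map_mul, Matrix.mul_apply, Fin.sum_univ_one]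
  have hone : M₁ 1 0 0 = 1 := by rw [map_one]; simp
  have hne : ∀ g, M₁ g 0 0 ≠ 0 := by
    intro g h0
    have := hmul g g⁻¹
    rw [mul_inv_cancel, hone, h0, zero_mul] at this
    exact one_ne_zero this
  have hq : ∀ g, M₁ g 0 0 * M₁ g 0 0 - a g * M₁ g 0 0 + ((ε g : kˣ) : k) = 0 := by
    intro g
    have hr := congrFun (congrFun (hrel g) 0) 0
    simpa [Matrix.mul_apply] using hr
  refine ⟨{ toFun := fun g => !![M₁ g 0 0, 0; 0, ((ε g : kˣ) : k) * (M₁ g 0 0)⁻¹]
            map_one' := ?_
            map_mul' := ?_ }, ?_, ?_⟩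
  · rw [hone, Matrix.one_fin_two]
    simp
  · intro g h
    rw [Matrix.mul_fin_two, hmul g h, map_mul, Units.val_mul]
    have h1 := hne g
    have h2 := hne h
    congr 1
    simp only [mul_zero, zero_mul, add_zero, zero_add]
    congr 2
    field_simp
  · intro g
    show (!![M₁ g 0 0, 0; 0, ((ε g : kˣ) : k) * (M₁ g 0 0)⁻¹]).charpoly = _
    rw [Matrix.charpoly_fin_two, Matrix.trace_fin_two_of, Matrix.det_fin_two_of]
    have h1 := hne g
    have h2 := hq g
    have e1 : M₁ g 0 0 + ((ε g : kˣ) : k) * (M₁ g 0 0)⁻¹ = a g := by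
      field_simp
      linear_combination h2
    have e2 : M₁ g 0 0 * (((ε g : kˣ) : k) * (M₁ g 0 0)⁻¹) - 0 * 0 = ((ε g : kˣ) : k) := by
      field_simp
      ring
    rw [e1, e2]
  · intro g hg he
    show !![M₁ g 0 0, 0; 0, ((ε g : kˣ) : k) * (M₁ g 0 0)⁻¹] = 1
    rw [hg, he, Matrix.one_fin_two]
    simp

end matrix


section assemble

variable {k : Type*} [Field k] {G : Type*} [Group G] {W : Type*} [AddCommGroup W] [Module k W]

/-- Matrix form of a representation in a basis. -/
noncomputable def s29laMat {n : ℕ} (b : Module.Basis (Fin n) k W) (ρ : G →* Module.End k W) :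
    G →* Matrix (Fin n) (Fin n) k where
  toFun g := LinearMap.toMatrix b b (ρ g)
  map_one' := by rw [map_one]; exact LinearMap.toMatrix_one b
  map_mul' g h := by rw [map_mul]; exact LinearMap.toMatrix_mul b (ρ g) (ρ h)

theorem s29laMat_apply {n : ℕ} (b : Module.Basis (Fin n) k W) (ρ : G →* Module.End k W) (g : G) :
    s29laMat b ρ g = LinearMap.toMatrix b b (ρ g) := rfl

theorem s29laMat_rel {n : ℕ} (b : Module.Basis (Fin n) k W) (ρ : G →* Module.End k W) (g : G)
    (a e : k) (hrel : ∀ v, ρ g (ρ g v) - a • ρ g v + e • v = 0) :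
    s29laMat b ρ g * s29laMat b ρ g - a • s29laMat b ρ g +
      e • (1 : Matrix (Fin n) (Fin n) k) = 0 := by
  have h : ρ g * ρ g - a • ρ g + e • (1 : Module.End k W) = 0 :=
    LinearMap.ext fun v => by simpa using hrel v
  have h2 := congrArg (LinearMap.toMatrix b b) h
  rw [map_add, map_sub, map_smul, map_smul, LinearMap.toMatrix_mul, LinearMap.toMatrix_one,
    map_zero] at h2
  exact h2

theorem s29la_irr_dim_one [FiniteDimensional k W] (ρ : G →* Module.End k W)
    (ε : G →* kˣ) (a : G → k)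
    (hrel : ∀ g v, ρ g (ρ g v) - a g • ρ g v + ((ε g : kˣ) : k) • v = 0)
    (h1 : Module.finrank k W = 1) :
    ∃ M : G →* Matrix (Fin 2) (Fin 2) k,
      (∀ g, (M g).charpoly = X ^ 2 - C (a g) * X + C ((ε g : kˣ) : k)) ∧
      ∀ g, ρ g = 1 → ε g = 1 → M g = 1 := by
  let b := Module.finBasisOfFinrankEq k W h1
  obtain ⟨M, hM1, hM2⟩ := s29la_dim_one (s29laMat b ρ) ε a
    (fun g => s29laMat_rel b ρ g _ _ (hrel g))
  refine ⟨M, hM1, fun g hg he => hM2 g ?_ he⟩
  rw [s29laMat_apply, hg]
  exact LinearMap.toMatrix_one b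

theorem s29la_irr [IsAlgClosed k] [FiniteDimensional k W] [Nontrivial W]
    (ρ : G →* Module.End k W) (ε : G →* kˣ) (a : G → k)
    (hrel : ∀ g v, ρ g (ρ g v) - a g • ρ g v + ((ε g : kˣ) : k) • v = 0)
    (hirr : S29laIrr ρ) :
    ∃ M : G →* Matrix (Fin 2) (Fin 2) k,
      (∀ g, (M g).charpoly = X ^ 2 - C (a g) * X + C ((ε g : kˣ) : k)) ∧
      ∀ g, ρ g = 1 → ε g = 1 → M g = 1 := by
  have hpos : 0 < Module.finrank k W := Module.finrank_pos
  by_cases hs : ∀ g, ∃ c : k, ρ g = c • (1 : Module.End k W)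
  · have h1 : Module.finrank k W = 1 := by
      have := s29la_finrank_le_one ρ hirr hs
      omega
    exact s29la_irr_dim_one ρ ε a hrel h1
  · push Not at hs
    obtain ⟨g₀, hg₀⟩ := hs
    obtain ⟨α, hα⟩ : ∃ α : k, α * α - a g₀ * α + ((ε g₀ : kˣ) : k) = 0 := by
      have hdeg : (C (1 : k) * X ^ 2 + C (-a g₀) * X + C ((ε g₀ : kˣ) : k) : k[X]).degree ≠ 0 := by
        rw [Polynomial.degree_quadratic one_ne_zero]
        norm_num
      obtain ⟨α, hα⟩ := IsAlgClosed.exists_root _ hdeg
      refine ⟨α, ?_⟩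
      have h := hα
      simp only [IsRoot, eval_add, eval_mul, eval_C, eval_pow, eval_X] at h
      linear_combination h
    have h2 : Module.finrank k W ≤ 2 :=
      s29la_finrank_le_two ρ ε a hrel hirr g₀ α (a g₀ - α) (by ring)
        (by linear_combination -hα) hg₀
    rcases Nat.lt_or_ge (Module.finrank k W) 2 with h | h
    · exact s29la_irr_dim_one ρ ε a hrel (by omega)
    · have h2' : Module.finrank k W = 2 := by omega
      let b := Module.finBasisOfFinrankEq k W h2'
      refine ⟨s29laMat b ρ, fun g => s29la_matrix_charpoly (s29laMat b ρ) ε a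
        (fun g => s29laMat_rel b ρ g _ _ (hrel g)) g₀ ?_ g, ?_⟩
      · intro c hc
        apply hg₀ c
        apply (LinearMap.toMatrix b b).injective
        rw [map_smul, LinearMap.toMatrix_one]
        exact hc
      · intro g hg _
        rw [s29laMat_apply, hg]
        exact LinearMap.toMatrix_one b

variable {V : Type*} [AddCommGroup V] [Module k V]

theorem s29la_exists_min [FiniteDimensional k V] [Nontrivial V] (ρ : G →* Module.End k V) :
    ∃ U : Submodule k V, U ≠ ⊥ ∧ (∀ g, ∀ x ∈ U, ρ g x ∈ U) ∧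
      ∀ U' : Submodule k V, U' ≤ U → (∀ g, ∀ x ∈ U', ρ g x ∈ U') → U' = ⊥ ∨ U' = U := by
  let S : Set (Submodule k V) := {U | U ≠ ⊥ ∧ ∀ g, ∀ x ∈ U, ρ g x ∈ U}
  have hne : S.Nonempty := ⟨⊤, top_ne_bot, fun g x _ => Submodule.mem_top⟩
  have hwf : WellFounded ((· < ·) : Submodule k V → Submodule k V → Prop) := wellFounded_lt
  refine ⟨hwf.min S hne, (hwf.min_mem S hne).1, (hwf.min_mem S hne).2, ?_⟩
  intro U' hle hinv
  by_cases h0 : U' = ⊥
  · exact Or.inl h0
  · right
    by_contra hneq
    exact hwf.not_lt_min S (show U' ∈ S from ⟨h0, hinv⟩) (lt_of_le_of_ne hle hneq)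

/-- Restriction of a representation to an invariant submodule. -/
noncomputable def s29laRes (ρ : G →* Module.End k V) (U : Submodule k V)
    (hU : ∀ g, ∀ x ∈ U, ρ g x ∈ U) : G →* Module.End k U where
  toFun g := (ρ g).restrict (hU g)
  map_one' := by
    ext x
    simp
  map_mul' g h := by
    ext x
    simp

theorem s29laRes_coe (ρ : G →* Module.End k V) (U : Submodule k V)
    (hU : ∀ g, ∀ x ∈ U, ρ g x ∈ U) (g : G) (x : U) :
    ((s29laRes ρ U hU g x : U) : V) = ρ g (x : V) := rfl

theorem s29laRes_irr (ρ : G →* Module.End k V) (U : Submodule k V)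
    (hU : ∀ g, ∀ x ∈ U, ρ g x ∈ U)
    (hmin : ∀ U' : Submodule k V, U' ≤ U → (∀ g, ∀ x ∈ U', ρ g x ∈ U') → U' = ⊥ ∨ U' = U) :
    S29laIrr (s29laRes ρ U hU) := by
  intro U'' hinv
  have hinv' : ∀ g, ∀ x ∈ U''.map U.subtype, ρ g x ∈ U''.map U.subtype := by
    rintro g _ ⟨y, hy, rfl⟩
    exact ⟨s29laRes ρ U hU g y, hinv g y hy, rfl⟩
  rcases hmin (U''.map U.subtype) (Submodule.map_subtype_le U U'') hinv' with h | h
  · left
    rw [Submodule.eq_bot_iff]
    intro y hy
    have : (y : V) ∈ U''.map U.subtype := ⟨y, hy, rfl⟩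
    rw [h] at this
    exact Subtype.ext ((Submodule.mem_bot k).1 this)
  · right
    rw [Submodule.eq_top_iff']
    intro y
    have : (y : V) ∈ U''.map U.subtype := by rw [h]; exact y.2
    obtain ⟨y', hy', he⟩ := this
    have : y' = y := Subtype.ext he
    rw [← this]
    exact hy'

/-- **The linear-algebra trick.** `V ≠ 0` finite-dimensional over an algebraically closed field,
every `g` satisfies a quadratic `X^2 - a X + ε(g)` on `V` with `ε` a character: then there is a
two-dimensional matrix representation `M` with `charpoly (M g) = X^2 - a X + ε(g)` for every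
`g` and every such `a`, trivial on every `g` with `ρ g = 1` and `ε g = 1`. -/
theorem s29la_main [IsAlgClosed k] [FiniteDimensional k V] [Nontrivial V]
    (ρ : G →* Module.End k V) (ε : G →* kˣ)
    (h : ∀ g, ∃ a : k, ρ g * ρ g - a • ρ g + ((ε g : kˣ) : k) • (1 : Module.End k V) = 0) :
    ∃ M : G →* Matrix (Fin 2) (Fin 2) k,
      (∀ g a, ρ g * ρ g - a • ρ g + ((ε g : kˣ) : k) • (1 : Module.End k V) = 0 →
        (M g).charpoly = X ^ 2 - C a * X + C ((ε g : kˣ) : k)) ∧
      ∀ g, ρ g = 1 → ε g = 1 → M g = 1 := by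
  choose a ha using h
  have hvec : ∀ (g : G) (a' : k),
      ρ g * ρ g - a' • ρ g + ((ε g : kˣ) : k) • (1 : Module.End k V) = 0 →
      ∀ v, ρ g (ρ g v) - a' • ρ g v + ((ε g : kˣ) : k) • v = 0 := by
    intro g a' h v
    have := LinearMap.congr_fun h v
    simpa using this
  obtain ⟨U, hU0, hUinv, hUmin⟩ := s29la_exists_min ρ
  have : Nontrivial U := (Submodule.nontrivial_iff_ne_bot).2 hU0
  have hrelU : ∀ g (v : U), s29laRes ρ U hUinv g (s29laRes ρ U hUinv g v) -
      a g • s29laRes ρ U hUinv g v + ((ε g : kˣ) : k) • v = 0 := by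
    intro g v
    apply Subtype.ext
    simpa [s29laRes_coe] using hvec g (a g) (ha g) (v : V)
  obtain ⟨M, hM1, hM2⟩ := s29la_irr (s29laRes ρ U hUinv) ε a hrelU (s29laRes_irr ρ U hUinv hUmin)
  refine ⟨M, ?_, ?_⟩
  · intro g a' ha'
    have e : a' = a g := by
      obtain ⟨w, hw⟩ := exists_ne (0 : V)
      have h1 := hvec g a' ha' (ρ g⁻¹ w)
      have h2 := hvec g (a g) (ha g) (ρ g⁻¹ w)
      have e1 : ρ g (ρ g⁻¹ w) = w := by
        rw [← Module.End.mul_apply, ← map_mul, mul_inv_cancel, map_one, Module.End.one_apply]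
      rw [e1] at h1 h2
      have h3 : (a' - a g) • w = 0 := by linear_combination (norm := module) h2 - h1
      rcases smul_eq_zero.1 h3 with h4 | h4
      · linear_combination h4
      · exact absurd h4 hw
    rw [e]
    exact hM1 g
  · intro g hg he
    refine hM2 g ?_ he
    ext x
    rw [s29laRes_coe, hg]
    rfl

end assemble

section glue

/-- Glue: a matrix representation of the absolute Galois group over `k0` factoring through a
finite level, pushed along a ring homomorphism `k0 →+* k`, as a `ResidualGaloisRep k`. -/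
theorem s29la_residual {k0 k : Type} [Field k0] [Field k] (ι : k0 →+* k)
    (M : (AlgebraicClosure ℚ ≃ₐ[ℚ] AlgebraicClosure ℚ) →* Matrix (Fin 2) (Fin 2) k0)
    (hM : GaloisFactorsThroughFiniteLevel M) :
    ∃ ρ : ResidualGaloisRep k,
      (∀ σ, LinearMap.charpoly (ρ.ρ σ) = ((M σ).charpoly).map ι) ∧
      (∀ σ, M σ = 1 → ρ.ρ σ = 1) := by
  have h1 : ∀ σ, M σ = 1 → Matrix.toLin' ((M σ).map ι) = (1 : Module.End k (Fin 2 → k)) := by
    intro σ hσ
    rw [hσ, Matrix.map_one _ (map_zero ι) (map_one ι), Matrix.toLin'_one]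
    rfl
  refine ⟨{ V := Fin 2 → k
            finrank_eq := by simp
            ρ := { toFun := fun σ => Matrix.toLin' ((M σ).map ι)
                   map_one' := h1 1 (map_one M)
                   map_mul' := fun σ τ => by
                     rw [map_mul, Matrix.map_mul, Matrix.toLin'_mul]
                     rfl }
            factorsThroughFiniteLevel := by
              obtain ⟨L, hL, hL1⟩ := hM
              exact ⟨L, hL, fun σ hσ => h1 σ (hL1 σ hσ)⟩ }, ?_, ?_⟩
  · intro σ
    show (Matrix.toLin' ((M σ).map ι)).charpoly = _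
    rw [Matrix.charpoly_toLin', Matrix.charpoly_map]
  · intro σ hσ
    exact h1 σ hσ


/-- The Galois form, in the shape consumed by S29: a nonzero finite-dimensional representation of
the absolute Galois group over an algebraically closed `k0`, factoring (together with the
character `ε`) through a finite level, on which every `σ` satisfies a quadratic
`X^2 - a X + ε(σ)`, gives a `ResidualGaloisRep k` along any `ι : k0 →+* k` with the exact
characteristic polynomials, trivial wherever both `ρ` and `ε` are trivial. -/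
theorem s29la_galois {k0 k : Type} [Field k0] [IsAlgClosed k0] [Field k] (ι : k0 →+* k)
    {V : Type*} [AddCommGroup V] [Module k0 V] [FiniteDimensional k0 V] [Nontrivial V]
    (ρ : (AlgebraicClosure ℚ ≃ₐ[ℚ] AlgebraicClosure ℚ) →* Module.End k0 V)
    (ε : (AlgebraicClosure ℚ ≃ₐ[ℚ] AlgebraicClosure ℚ) →* k0ˣ)
    (L : IntermediateField ℚ (AlgebraicClosure ℚ)) (hL : FiniteDimensional ℚ L)
    (hLρ : ∀ σ : AlgebraicClosure ℚ ≃ₐ[ℚ] AlgebraicClosure ℚ, (∀ x ∈ L, σ x = x) → ρ σ = 1)
    (hLε : ∀ σ : AlgebraicClosure ℚ ≃ₐ[ℚ] AlgebraicClosure ℚ, (∀ x ∈ L, σ x = x) → ε σ = 1)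
    (h : ∀ σ, ∃ a : k0,
      ρ σ * ρ σ - a • ρ σ + ((ε σ : k0ˣ) : k0) • (1 : Module.End k0 V) = 0) :
    ∃ r : ResidualGaloisRep k,
      (∀ σ a, ρ σ * ρ σ - a • ρ σ + ((ε σ : k0ˣ) : k0) • (1 : Module.End k0 V) = 0 →
        LinearMap.charpoly (r.ρ σ) = X ^ 2 - C (ι a) * X + C (ι ((ε σ : k0ˣ) : k0))) ∧
      (∀ σ, ρ σ = 1 → ε σ = 1 → r.ρ σ = 1) := by
  obtain ⟨M, hM1, hM2⟩ := s29la_main ρ ε h
  obtain ⟨r, hr1, hr2⟩ := s29la_residual ι M
    ⟨L, hL, fun σ hσ => hM2 σ (hLρ σ hσ) (hLε σ hσ)⟩
  refine ⟨r, ?_, ?_⟩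
  · intro σ a ha
    rw [hr1, hM1 σ a ha]
    simp
  · intro σ h1 h2
    exact hr2 σ (hM2 σ h1 h2)

/-- Trace and determinant of an endomorphism of a two-dimensional space from its
characteristic polynomial (for the S42 shape). -/
theorem s29la_trace_det {K : Type*} [Field K] {V : Type*} [AddCommGroup V] [Module K V]
    [FiniteDimensional K V] (hV : Module.finrank K V = 2) (f : Module.End K V) (a e : K)
    (h : LinearMap.charpoly f = X ^ 2 - C a * X + C e) :
    LinearMap.trace K V f = a ∧ LinearMap.det f = e := by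
  let b := Module.finBasisOfFinrankEq K V hV
  have h1 := LinearMap.charpoly_toMatrix f b
  rw [Matrix.charpoly_fin_two, h] at h1
  have htr : LinearMap.trace K V f = (LinearMap.toMatrix b b f).trace :=
    LinearMap.trace_eq_matrix_trace K b f
  have hdet : LinearMap.det f = (LinearMap.toMatrix b b f).det :=
    (LinearMap.det_toMatrix b f).symm
  have c1 := congrArg (fun p : K[X] => p.coeff 1) h1
  have c0 := congrArg (fun p : K[X] => p.coeff 0) h1
  simp [coeff_X, coeff_C] at c1 c0
  exact ⟨by rw [htr]; exact c1, c0⟩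

end glue

end Fermat.Agent.S29
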