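import Mathlib
import Fermat.Prelude.Def_GaloisRep_Residual
import Fermat.Agent.S29.LinAlg

/-!
# S29 stage 3, ASSEMBLY (formal part)

`s29as_rep`: from a finite-dimensional representation `R` of the absolute Galois group over an
algebraically closed field `k0`, with operators `T ℓ` commuting with it, the Eichler–Shimura
relation `R σ ^ 2 - T ℓ * R σ + ℓ = 0` at Frobenius elements, triviality on inertia, a finite
level, a cyclotomic-type character `ε`, the Frobenius density statement and ONE nonzero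
simultaneous eigenvector of the `T ℓ`, to a `ResidualGaloisRep` with the exact Frobenius
characteristic polynomials and unramified at the good primes.

`s29as_tensor`: the same for `V = k0 ⊗ Jp`, `Jp` a finite `ZMod p`-module with a Galois action.
-/

set_option autoImplicit false

namespace Fermat.Agent.S29

open Polynomial TensorProduct

local notation "Qb" => AlgebraicClosure ℚ

/-- The relation `T^2 - a T + c = 0` passes to powers (with constant term `c^n`). -/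
theorem s29as_pow {k : Type*} [Field k] [IsAlgClosed k] {V : Type*} [AddCommGroup V]
    [Module k V] (T : Module.End k V) (a c : k)
    (h : T * T - a • T + c • (1 : Module.End k V) = 0) (n : ℕ) :
    ∃ a' : k, T ^ n * T ^ n - a' • T ^ n + c ^ n • (1 : Module.End k V) = 0 := by
  obtain ⟨α, hα⟩ : ∃ α : k, α * α - a * α + c = 0 := by
    by_cases hc : c = 0
    · exact ⟨0, by rw [hc]; ring⟩
    have hdeg : (C (1 : k) * X ^ 2 + C (-a) * X + C c : k[X]).degree ≠ 0 := by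
      rw [Polynomial.degree_quadratic one_ne_zero]
      norm_num
    obtain ⟨α, hα⟩ := IsAlgClosed.exists_root _ hdeg
    refine ⟨α, ?_⟩
    have h' := hα
    simp only [IsRoot, eval_add, eval_mul, eval_C, eval_pow, eval_X] at h'
    linear_combination h'
  set β : k := a - α with hβ
  have hP : Polynomial.aeval T ((X - C α) * (X - C β) : k[X]) = 0 := by
    have e : ((X - C α) * (X - C β) : k[X]) = X * X - C a * X + C c := by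
      have hc : c = α * β := by rw [hβ]; linear_combination hα
      rw [hc, hβ]
      simp only [map_sub, map_mul]
      ring
    rw [e]
    simp only [map_add, map_sub, map_mul, aeval_X, aeval_C, Algebra.algebraMap_eq_smul_one,
      smul_mul_assoc, one_mul]
    exact h
  have hdvd : ((X - C α) * (X - C β) : k[X]) ∣ (X ^ n - C (α ^ n)) * (X ^ n - C (β ^ n)) := by
    refine mul_dvd_mul ?_ ?_
    · rw [C_pow]; exact sub_dvd_pow_sub_pow X (C α) n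
    · rw [C_pow]; exact sub_dvd_pow_sub_pow X (C β) n
  obtain ⟨Q, hQ⟩ := hdvd
  have hQ' := congrArg (Polynomial.aeval T) hQ
  rw [map_mul (Polynomial.aeval T) ((X - C α) * (X - C β)) Q, hP, zero_mul] at hQ'
  refine ⟨α ^ n + β ^ n, ?_⟩
  have hc : c ^ n = α ^ n * β ^ n := by
    rw [← mul_pow]
    congr 1
    rw [hβ]; linear_combination hα
  rw [hc]
  simp only [map_sub, map_mul, map_pow, aeval_X, aeval_C, Algebra.algebraMap_eq_smul_one,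
    _root_.smul_pow, one_pow] at hQ'
  have e : T ^ n * T ^ n - (α ^ n + β ^ n) • T ^ n + (α ^ n * β ^ n) • (1 : Module.End k V) =
      (T ^ n - α ^ n • (1 : Module.End k V)) * (T ^ n - β ^ n • (1 : Module.End k V)) := by
    simp only [sub_mul, mul_sub, smul_mul_assoc, mul_smul_comm, one_mul, mul_one, smul_sub,
      smul_smul]
    module
  rw [e]
  exact hQ'

/-- **Formal assembly, representation form.** -/
theorem s29as_rep (N p : ℕ) (hNp : N * p ≠ 0)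
    {k0 k : Type} [Field k0] [IsAlgClosed k0] [Field k] (ι : k0 →+* k)
    {V : Type*} [AddCommGroup V] [Module k0 V] [FiniteDimensional k0 V]
    (R : (Qb ≃ₐ[ℚ] Qb) →* Module.End k0 V) (T : ℕ → Module.End k0 V) (a : ℕ → k0)
    (ε : (Qb ≃ₐ[ℚ] Qb) →* k0ˣ)
    (hεL : ∃ L : IntermediateField ℚ Qb, FiniteDimensional ℚ L ∧
      ∀ σ : Qb ≃ₐ[ℚ] Qb, (∀ x ∈ L, σ x = x) → ε σ = 1)
    (hεF : ∀ ℓ : ℕ, ℓ.Prime → ¬ ℓ ∣ N * p → ∀ A : ValuationSubring Qb, A.LiesOverPrime ℓ →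
      ∀ σ : Qb ≃ₐ[ℚ] Qb, A.IsFrobeniusAt σ ℓ → ((ε σ : k0ˣ) : k0) = (ℓ : k0))
    (hεI : ∀ ℓ : ℕ, ℓ.Prime → ¬ ℓ ∣ N * p → ∀ A : ValuationSubring Qb, A.LiesOverPrime ℓ →
      ∀ σ ∈ A.inertiaSubgroupIn ℚ, ε σ = 1)
    (hRL : ∃ L : IntermediateField ℚ Qb, FiniteDimensional ℚ L ∧
      ∀ σ : Qb ≃ₐ[ℚ] Qb, (∀ x ∈ L, σ x = x) → R σ = 1)
    (hRI : ∀ ℓ : ℕ, ℓ.Prime → ¬ ℓ ∣ N * p → ∀ A : ValuationSubring Qb, A.LiesOverPrime ℓ →
      ∀ σ ∈ A.inertiaSubgroupIn ℚ, R σ = 1)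
    (hRF : ∀ ℓ : ℕ, ℓ.Prime → ¬ ℓ ∣ N * p → ∀ A : ValuationSubring Qb, A.LiesOverPrime ℓ →
      ∀ σ : Qb ≃ₐ[ℚ] Qb, A.IsFrobeniusAt σ ℓ →
        R σ * R σ - T ℓ * R σ + (ℓ : k0) • (1 : Module.End k0 V) = 0)
    (hRT : ∀ ℓ : ℕ, ℓ.Prime → ¬ ℓ ∣ N * p → ∀ σ : Qb ≃ₐ[ℚ] Qb, T ℓ * R σ = R σ * T ℓ)
    (hfd : ∀ L : IntermediateField ℚ Qb, FiniteDimensional ℚ L → IsGalois ℚ L →
      ∀ (σ : Qb ≃ₐ[ℚ] Qb) (S : Finset ℕ), ∃ ℓ : ℕ, ℓ.Prime ∧ ℓ ∉ S ∧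
        ∃ A : ValuationSubring Qb, A.LiesOverPrime ℓ ∧ ∃ τ : Qb ≃ₐ[ℚ] Qb,
          A.IsFrobeniusAt τ ℓ ∧ ∃ b : ℕ, ∀ x ∈ L, (τ ^ b) x = σ x)
    (heig : ∃ v : V, v ≠ 0 ∧ ∀ ℓ : ℕ, ℓ.Prime → ¬ ℓ ∣ N * p → T ℓ v = a ℓ • v) :
    ∃ ρ : ResidualGaloisRep k,
      (∀ ℓ : ℕ, ℓ.Prime → ¬ ℓ ∣ N * p → ∀ A : ValuationSubring Qb, A.LiesOverPrime ℓ →
        ∀ σ : Qb ≃ₐ[ℚ] Qb, A.IsFrobeniusAt σ ℓ →
          LinearMap.charpoly (ρ.ρ σ) = X ^ 2 - C (ι (a ℓ)) * X + C (ι (ℓ : k0))) ∧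
      (∀ ℓ : ℕ, ℓ.Prime → ¬ ℓ ∣ N * p → ρ.IsUnramifiedAt ℓ) := by
  classical
  obtain ⟨v, hv0, hv⟩ := heig
  -- the simultaneous eigenspace
  let V0 : Submodule k0 V :=
    { carrier := {w | ∀ ℓ : ℕ, ℓ.Prime → ¬ ℓ ∣ N * p → T ℓ w = a ℓ • w}
      add_mem' := fun {x y} hx hy ℓ h1 h2 => by
        rw [map_add, hx ℓ h1 h2, hy ℓ h1 h2, smul_add]
      zero_mem' := fun ℓ _ _ => by rw [map_zero, smul_zero]
      smul_mem' := fun c x hx ℓ h1 h2 => by rw [map_smul, hx ℓ h1 h2, smul_comm] }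
  have hV0 : ∀ w : V, w ∈ V0 ↔ ∀ ℓ : ℕ, ℓ.Prime → ¬ ℓ ∣ N * p → T ℓ w = a ℓ • w :=
    fun w => Iff.rfl
  have hinv : ∀ σ, ∀ x ∈ V0, R σ x ∈ V0 := by
    intro σ x hx
    rw [hV0] at hx ⊢
    intro ℓ h1 h2
    have h3 := LinearMap.congr_fun (hRT ℓ h1 h2 σ) x
    simp only [Module.End.mul_apply] at h3
    rw [h3, hx ℓ h1 h2, map_smul]
  have hnt : Nontrivial V0 :=
    ⟨⟨⟨v, (hV0 v).2 hv⟩, 0, fun h => hv0 (congrArg Subtype.val h)⟩⟩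
  obtain ⟨L1, hL1, hL1'⟩ := hRL
  obtain ⟨L2, hL2, hL2'⟩ := hεL
  have hLfin : FiniteDimensional ℚ (L1 ⊔ L2 : IntermediateField ℚ Qb) :=
    IntermediateField.finiteDimensional_sup L1 L2
  -- the restricted representation
  have hρ1 : ∀ σ : Qb ≃ₐ[ℚ] Qb, R σ = 1 → s29laRes R V0 hinv σ = 1 := by
    intro σ hσ
    ext x
    rw [s29laRes_coe, hσ]
    rfl
  have hLρ : ∀ σ : Qb ≃ₐ[ℚ] Qb, (∀ x ∈ (L1 ⊔ L2 : IntermediateField ℚ Qb), σ x = x) →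
      s29laRes R V0 hinv σ = 1 := fun σ hσ =>
    hρ1 σ (hL1' σ fun x hx => hσ x ((le_sup_left : L1 ≤ L1 ⊔ L2) hx))
  have hLε : ∀ σ : Qb ≃ₐ[ℚ] Qb, (∀ x ∈ (L1 ⊔ L2 : IntermediateField ℚ Qb), σ x = x) →
      ε σ = 1 := fun σ hσ =>
    hL2' σ fun x hx => hσ x ((le_sup_right : L2 ≤ L1 ⊔ L2) hx)
  -- the relation at Frobenius elements
  have hF0 : ∀ ℓ : ℕ, ℓ.Prime → ¬ ℓ ∣ N * p → ∀ A : ValuationSubring Qb, A.LiesOverPrime ℓ →
      ∀ σ : Qb ≃ₐ[ℚ] Qb, A.IsFrobeniusAt σ ℓ →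
        s29laRes R V0 hinv σ * s29laRes R V0 hinv σ - a ℓ • s29laRes R V0 hinv σ +
          (ℓ : k0) • (1 : Module.End k0 V0) = 0 := by
    intro ℓ h1 h2 A hA σ hσ
    ext x
    have h3 := LinearMap.congr_fun (hRF ℓ h1 h2 A hA σ hσ) (x : V)
    have h4 := (hV0 _).1 (hinv σ x x.2) ℓ h1 h2
    simp only [LinearMap.add_apply, LinearMap.sub_apply, Module.End.mul_apply,
      LinearMap.smul_apply, Module.End.one_apply, LinearMap.zero_apply] at h3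
    rw [h4] at h3
    simpa [s29laRes_coe] using h3
  -- the relation at every element
  have hall : ∀ σ : Qb ≃ₐ[ℚ] Qb, ∃ a' : k0,
      s29laRes R V0 hinv σ * s29laRes R V0 hinv σ - a' • s29laRes R V0 hinv σ +
        ((ε σ : k0ˣ) : k0) • (1 : Module.End k0 V0) = 0 := by
    intro σ
    have hLle : (L1 ⊔ L2 : IntermediateField ℚ Qb) ≤
        IntermediateField.normalClosure ℚ (L1 ⊔ L2 : IntermediateField ℚ Qb) Qb :=
      IntermediateField.le_normalClosure _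
    have hfinL := hLfin
    have hgal : IsGalois ℚ
        (IntermediateField.normalClosure ℚ (L1 ⊔ L2 : IntermediateField ℚ Qb) Qb) :=
      { to_isSeparable := inferInstance
        to_normal :=
          haveI : Algebra.IsAlgebraic ℚ Qb := AlgebraicClosure.isAlgebraic ℚ
          haveI : IsAlgClosure ℚ Qb := ⟨inferInstance, inferInstance⟩
          haveI : Normal ℚ Qb := IsAlgClosure.normal ℚ Qb
          normalClosure.normal ℚ _ Qb }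
    obtain ⟨ℓ, hℓ, hℓS, A, hA, τ, hτ, b, hb⟩ :=
      hfd (IntermediateField.normalClosure ℚ (L1 ⊔ L2 : IntermediateField ℚ Qb) Qb)
        inferInstance hgal σ (N * p).primeFactors
    have hgood : ¬ ℓ ∣ N * p := fun hd => hℓS (Nat.mem_primeFactors.2 ⟨hℓ, hd, hNp⟩)
    have hfix : ∀ x ∈ (L1 ⊔ L2 : IntermediateField ℚ Qb), (σ⁻¹ * τ ^ b) x = x := by
      intro x hx
      rw [AlgEquiv.mul_apply, hb x (hLle hx), ← AlgEquiv.mul_apply, inv_mul_cancel,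
        AlgEquiv.one_apply]
    have hdec : τ ^ b = σ * (σ⁻¹ * τ ^ b) := by group
    have h1 : s29laRes R V0 hinv σ = s29laRes R V0 hinv τ ^ b := by
      have h := hLρ _ hfix
      rw [← map_pow]
      conv_rhs => rw [hdec]
      rw [map_mul, h, mul_one]
    have h2 : ε σ = ε τ ^ b := by
      have h := hLε _ hfix
      rw [← map_pow]
      conv_rhs => rw [hdec]
      rw [map_mul, h, mul_one]
    obtain ⟨a', ha'⟩ := s29as_pow (s29laRes R V0 hinv τ) (a ℓ) (ℓ : k0)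
      (hF0 ℓ hℓ hgood A hA τ hτ) b
    refine ⟨a', ?_⟩
    rw [h1, h2, Units.val_pow_eq_pow_val, hεF ℓ hℓ hgood A hA τ hτ]
    exact ha'
  obtain ⟨r, hr1, hr2⟩ := s29la_galois ι (s29laRes R V0 hinv) ε
    (L1 ⊔ L2 : IntermediateField ℚ Qb) hLfin hLρ hLε hall
  refine ⟨r, ?_, ?_⟩
  · intro ℓ h1 h2 A hA σ hσ
    have h3 := hF0 ℓ h1 h2 A hA σ hσ
    rw [← hεF ℓ h1 h2 A hA σ hσ] at h3 ⊢
    exact hr1 σ (a ℓ) h3
  · intro ℓ h1 h2 A hA σ hσ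
    exact hr2 σ (hρ1 σ (hRI ℓ h1 h2 A hA σ hσ)) (hεI ℓ h1 h2 A hA σ hσ)


/-- **Formal assembly, tensor form**: `V = k0 ⊗ Jp` for a finite `ZMod p`-module `Jp` with a
Galois action `r` and operators `T ℓ`. -/
theorem s29as_tensor (N p : ℕ) (hNp : N * p ≠ 0)
    {k0 k : Type} [Field k0] [IsAlgClosed k0] [Algebra (ZMod p) k0] [Field k] (ι : k0 →+* k)
    {Jp : Type*} [AddCommGroup Jp] [Module (ZMod p) Jp] [Module.Finite (ZMod p) Jp]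
    (r : (Qb ≃ₐ[ℚ] Qb) →* Module.End (ZMod p) Jp) (T : ℕ → Module.End (ZMod p) Jp)
    (a : ℕ → k0) (ε : (Qb ≃ₐ[ℚ] Qb) →* k0ˣ)
    (hεL : ∃ L : IntermediateField ℚ Qb, FiniteDimensional ℚ L ∧
      ∀ σ : Qb ≃ₐ[ℚ] Qb, (∀ x ∈ L, σ x = x) → ε σ = 1)
    (hεF : ∀ ℓ : ℕ, ℓ.Prime → ¬ ℓ ∣ N * p → ∀ A : ValuationSubring Qb, A.LiesOverPrime ℓ →
      ∀ σ : Qb ≃ₐ[ℚ] Qb, A.IsFrobeniusAt σ ℓ → ((ε σ : k0ˣ) : k0) = (ℓ : k0))
    (hεI : ∀ ℓ : ℕ, ℓ.Prime → ¬ ℓ ∣ N * p → ∀ A : ValuationSubring Qb, A.LiesOverPrime ℓ →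
      ∀ σ ∈ A.inertiaSubgroupIn ℚ, ε σ = 1)
    (hrL : ∃ L : IntermediateField ℚ Qb, FiniteDimensional ℚ L ∧
      ∀ σ : Qb ≃ₐ[ℚ] Qb, (∀ x ∈ L, σ x = x) → r σ = 1)
    (hrI : ∀ ℓ : ℕ, ℓ.Prime → ¬ ℓ ∣ N * p → ∀ A : ValuationSubring Qb, A.LiesOverPrime ℓ →
      ∀ σ ∈ A.inertiaSubgroupIn ℚ, r σ = 1)
    (hrF : ∀ ℓ : ℕ, ℓ.Prime → ¬ ℓ ∣ N * p → ∀ A : ValuationSubring Qb, A.LiesOverPrime ℓ →
      ∀ σ : Qb ≃ₐ[ℚ] Qb, A.IsFrobeniusAt σ ℓ →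
        ∀ x : Jp, r σ (r σ x) - T ℓ (r σ x) + ℓ • x = 0)
    (hrT : ∀ ℓ : ℕ, ℓ.Prime → ¬ ℓ ∣ N * p → ∀ (σ : Qb ≃ₐ[ℚ] Qb) (x : Jp),
      T ℓ (r σ x) = r σ (T ℓ x))
    (hfd : ∀ L : IntermediateField ℚ Qb, FiniteDimensional ℚ L → IsGalois ℚ L →
      ∀ (σ : Qb ≃ₐ[ℚ] Qb) (S : Finset ℕ), ∃ ℓ : ℕ, ℓ.Prime ∧ ℓ ∉ S ∧
        ∃ A : ValuationSubring Qb, A.LiesOverPrime ℓ ∧ ∃ τ : Qb ≃ₐ[ℚ] Qb,
          A.IsFrobeniusAt τ ℓ ∧ ∃ b : ℕ, ∀ x ∈ L, (τ ^ b) x = σ x)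
    (heig : ∃ v : k0 ⊗[ZMod p] Jp, v ≠ 0 ∧
      ∀ ℓ : ℕ, ℓ.Prime → ¬ ℓ ∣ N * p → (T ℓ).baseChange k0 v = a ℓ • v) :
    ∃ ρ : ResidualGaloisRep k,
      (∀ ℓ : ℕ, ℓ.Prime → ¬ ℓ ∣ N * p → ∀ A : ValuationSubring Qb, A.LiesOverPrime ℓ →
        ∀ σ : Qb ≃ₐ[ℚ] Qb, A.IsFrobeniusAt σ ℓ →
          LinearMap.charpoly (ρ.ρ σ) = X ^ 2 - C (ι (a ℓ)) * X + C (ι (ℓ : k0))) ∧
      (∀ ℓ : ℕ, ℓ.Prime → ¬ ℓ ∣ N * p → ρ.IsUnramifiedAt ℓ) := by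
  let B : Module.End (ZMod p) Jp →ₐ[ZMod p] Module.End k0 (k0 ⊗[ZMod p] Jp) :=
    Module.End.baseChangeHom (ZMod p) k0 Jp
  have hB : ∀ f : Module.End (ZMod p) Jp, B f = f.baseChange k0 := fun f => rfl
  refine s29as_rep N p hNp ι ((B : Module.End (ZMod p) Jp →* _).comp r)
    (fun ℓ => B (T ℓ)) a ε hεL hεF hεI ?_ ?_ ?_ ?_ hfd ?_
  · obtain ⟨L, hL, hL'⟩ := hrL
    refine ⟨L, hL, fun σ hσ => ?_⟩
    show B (r σ) = 1
    rw [hL' σ hσ, map_one]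
  · intro ℓ h1 h2 A hA σ hσ
    show B (r σ) = 1
    rw [hrI ℓ h1 h2 A hA σ hσ, map_one]
  · intro ℓ h1 h2 A hA σ hσ
    show B (r σ) * B (r σ) - B (T ℓ) * B (r σ) + (ℓ : k0) • (1 : Module.End k0 _) = 0
    have h3 : r σ * r σ - T ℓ * r σ + (ℓ : ZMod p) • (1 : Module.End (ZMod p) Jp) = 0 := by
      ext x
      have h4 := hrF ℓ h1 h2 A hA σ hσ x
      simp only [LinearMap.add_apply, LinearMap.sub_apply, Module.End.mul_apply,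
        LinearMap.smul_apply, Module.End.one_apply, LinearMap.zero_apply]
      rw [Nat.cast_smul_eq_nsmul]
      exact h4
    have h5 := congrArg B h3
    rw [map_add, map_sub, map_mul, map_mul, map_smul, map_one, map_zero] at h5
    rw [← h5]
    congr 1
    rw [← map_natCast (algebraMap (ZMod p) k0) ℓ, algebraMap_smul]
  · intro ℓ h1 h2 σ
    show B (T ℓ) * B (r σ) = B (r σ) * B (T ℓ)
    rw [← map_mul, ← map_mul]
    congr 1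
    ext x
    exact hrT ℓ h1 h2 σ x
  · obtain ⟨v, hv0, hv⟩ := heig
    exact ⟨v, hv0, fun ℓ h1 h2 => by rw [hB]; exact hv ℓ h1 h2⟩

end Fermat.Agent.S29
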