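import Mathlib
import Fermat.Prelude.Def_ExtCitation_KummerBridge
import Fermat.Prelude.Def_EllipticCurve_FrobeniusTrace
import Fermat.Prelude.Def_FLTPrelim_Ramification

/-!
# S29 / CYCLO: the mod-`p` cyclotomic character at Frobenius elements

* `cyc_frobenius`: the Prelude's `ExtCitation.cycloChar p` takes the value `ℓ` at every Frobenius
  element at a valuation subring of `ℚ̄` over a prime `ℓ ≠ p`;
* `cycK p k`: the mod-`p` cyclotomic character with values in a field `k` of characteristic `p`,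
  `cycK_frobenius`;
* `cyc_factorsThroughFiniteLevel`: the cyclotomic character factors through a number field.
-/

set_option autoImplicit false
set_option linter.style.haveILetI false

namespace Fermat.Agent.S29

local notation "Qb" => AlgebraicClosure ℚ

/-- Roots of unity lie in every valuation subring. -/
theorem cyc_mem_of_pow_eq_one {L : Type*} [Field L] (A : ValuationSubring L) (z : L) (n : ℕ)
    (hn : n ≠ 0) (h : z ^ n = 1) : z ∈ A := by
  rw [← A.valuation_le_one_iff]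
  have h1 : A.valuation z ^ n = 1 := by rw [← map_pow, h, map_one]
  by_contra hlt
  exact (one_lt_pow₀ (not_le.mp hlt) hn).ne' h1

/-- A Frobenius element at `A` preserves `A` and induces the `ℓ`-th power map on the residue
field. -/
theorem cyc_frob_residue {K L : Type*} [Field K] [Field L] [Algebra K L]
    (A : ValuationSubring L) (σ : L ≃ₐ[K] L) (ℓ : ℕ) (hσ : A.IsFrobeniusAt σ ℓ) (c : A) :
    ∃ c' : A, (c' : L) = σ (c : L) ∧
      IsLocalRing.residue A c' = IsLocalRing.residue A c ^ ℓ := by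
  refine ⟨(⟨σ, hσ.mem_decompositionSubgroup⟩ : A.decompositionSubgroup K) • c, rfl, ?_⟩
  rw [IsLocalRing.ResidueField.residue_smul]
  exact hσ.smul_residue_eq _

/-- A primitive `p`-th root of unity stays of order `p` in the residue field of a valuation
subring over a prime `ℓ ≠ p`. -/
theorem cyc_orderOf_residue {L : Type*} [Field L] (A : ValuationSubring L) {p ℓ : ℕ}
    (hp : p.Prime) (hℓ : ℓ.Prime) (hℓp : ℓ ≠ p) (hA : A.LiesOverPrime ℓ) (z : A)
    (hz : (z : L) ^ p = 1) (hz1 : (z : L) ≠ 1) :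
    orderOf (IsLocalRing.residue A z) = p := by
  haveI : Fact p.Prime := ⟨hp⟩
  have hzp : z ^ p = 1 := Subtype.ext (by simpa using hz)
  refine orderOf_eq_prime (by rw [← map_pow, hzp, map_one]) ?_
  intro h1
  -- the geometric sum vanishes
  have hgeom : ∑ i ∈ Finset.range p, z ^ i = 0 := by
    have hmul := mul_geom_sum z p
    rw [hzp, sub_self] at hmul
    rcases mul_eq_zero.mp hmul with h | h
    · exfalso
      apply hz1
      have : z = 1 := sub_eq_zero.mp h
      rw [this]; rfl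
    · exact h
  have hres := congrArg (IsLocalRing.residue A) hgeom
  rw [map_sum, map_zero] at hres
  simp only [map_pow, h1, one_pow, Finset.sum_const, Finset.card_range, nsmul_eq_mul, mul_one]
    at hres
  -- `ℓ = 0` in the residue field
  have hℓ0 : ((ℓ : ℕ) : IsLocalRing.ResidueField A) = 0 := by
    have hmem : (ℓ : L) ∈ A := (ValuationSubring.mem_nonunits_iff_exists_mem_maximalIdeal.mp hA).1
    have h2 : (⟨(ℓ : L), hmem⟩ : A) ∈ IsLocalRing.maximalIdeal A :=
      (ValuationSubring.mem_nonunits_iff_exists_mem_maximalIdeal.mp hA).2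
    have h3 : IsLocalRing.residue A ⟨(ℓ : L), hmem⟩ = 0 :=
      (IsLocalRing.residue_eq_zero_iff _).mpr h2
    have h4 : (⟨(ℓ : L), hmem⟩ : A) = ((ℓ : ℕ) : A) := Subtype.ext (by simp)
    rw [h4, map_natCast] at h3
    exact h3
  -- Bezout
  have hcop : Nat.Coprime p ℓ := (Nat.coprime_primes hp hℓ).mpr (Ne.symm hℓp)
  have hb := Nat.gcd_eq_gcd_ab p ℓ
  rw [hcop.gcd_eq_one] at hb
  have hb' := congrArg (Int.cast : ℤ → IsLocalRing.ResidueField A) hb
  push_cast at hb'
  rw [hres, hℓ0, zero_mul, zero_mul, add_zero] at hb'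
  exact one_ne_zero hb'

/-- If `σ` preserves `A` and induces the `m`-th power map on residues of elements of `A`, then
its cyclotomic character is `m`. -/
theorem cyc_of_residue_pow (p : ℕ) [Fact p.Prime] (ℓ : ℕ) (hℓ : ℓ.Prime) (hℓp : ℓ ≠ p)
    (A : ValuationSubring Qb) (hA : A.LiesOverPrime ℓ) (σ : Qb ≃ₐ[ℚ] Qb) (m : ℕ)
    (hσ : ∀ c : A, ∃ c' : A, (c' : Qb) = σ (c : Qb) ∧
      IsLocalRing.residue A c' = IsLocalRing.residue A c ^ m) :
    ((ExtCitation.cycloChar p σ : (ZMod p)ˣ) : ZMod p) = (m : ZMod p) := by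
  have hp : p.Prime := Fact.out
  haveI : NeZero p := ⟨hp.ne_zero⟩
  obtain ⟨ζ, hζ⟩ := HasEnoughRootsOfUnity.exists_primitiveRoot Qb p
  have hζp : ζ ^ p = 1 := hζ.pow_eq_one
  have hζ1 : ζ ≠ 1 := hζ.ne_one hp.one_lt
  have hζA : ζ ∈ A := cyc_mem_of_pow_eq_one A ζ p hp.ne_zero hζp
  -- the action of `σ` on `ζ`
  have hspec : σ ζ = ζ ^ (ExtCitation.cycloExp p σ) := by
    have hmem : (hζ.toRootsOfUnity : Qbˣ) ∈ rootsOfUnity p Qb := hζ.toRootsOfUnity.2
    have h := modularCyclotomicCharacter.spec Qb (ExtCitation.card_rootsOfUnity_eq_self p)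
      (σ : Qb ≃+* Qb) hmem
    exact h
  -- reduce
  obtain ⟨c', hc', hres⟩ := hσ ⟨ζ, hζA⟩
  have hc'' : c' = (⟨ζ, hζA⟩ : A) ^ (ExtCitation.cycloExp p σ) :=
    Subtype.ext (by rw [hc']; simpa using hspec)
  rw [hc'', map_pow] at hres
  have hord := cyc_orderOf_residue A hp hℓ hℓp hA ⟨ζ, hζA⟩ hζp hζ1
  have hx : IsUnit (IsLocalRing.residue A ⟨ζ, hζA⟩) :=
    IsUnit.of_pow_eq_one (n := p)
      (by rw [← map_pow]
          have : (⟨ζ, hζA⟩ : A) ^ p = 1 := Subtype.ext (by simpa using hζp)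
          rw [this, map_one]) hp.ne_zero
  obtain ⟨u, hu⟩ := hx
  have hu' : u ^ (ExtCitation.cycloExp p σ) = u ^ m :=
    Units.ext (by rw [Units.val_pow_eq_pow_val, Units.val_pow_eq_pow_val, hu]; exact hres)
  have hordu : orderOf u = p := by rw [← orderOf_units, hu]; exact hord
  have hmod := (pow_eq_pow_iff_modEq).mp hu'
  rw [hordu] at hmod
  rw [ExtCitation.coe_cycloChar]
  exact (ZMod.natCast_eq_natCast_iff _ _ _).mpr hmod

/-- **The cyclotomic character at a Frobenius element.** -/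
theorem cyc_frobenius (p : ℕ) [Fact p.Prime] (ℓ : ℕ) (hℓ : ℓ.Prime) (hℓp : ℓ ≠ p)
    (A : ValuationSubring Qb) (hA : A.LiesOverPrime ℓ) (σ : Qb ≃ₐ[ℚ] Qb)
    (hσ : A.IsFrobeniusAt σ ℓ) :
    ((ExtCitation.cycloChar p σ : (ZMod p)ˣ) : ZMod p) = (ℓ : ZMod p) :=
  cyc_of_residue_pow p ℓ hℓ hℓp A hA σ ℓ (fun c => cyc_frob_residue A σ ℓ hσ c)

/-- Elements of the inertia group act trivially on residues. -/
theorem cyc_inertia_residue {K L : Type*} [Field K] [Field L] [Algebra K L]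
    (A : ValuationSubring L) {σ : L ≃ₐ[K] L} (hσ : σ ∈ A.inertiaSubgroupIn K) (c : A) :
    ∃ c' : A, (c' : L) = σ (c : L) ∧ IsLocalRing.residue A c' = IsLocalRing.residue A c := by
  obtain ⟨s, hs, rfl⟩ := hσ
  refine ⟨s • c, rfl, ?_⟩
  rw [IsLocalRing.ResidueField.residue_smul]
  have h1 : MulSemiringAction.toRingAut (A.decompositionSubgroup K)
      (IsLocalRing.ResidueField A) s = 1 := hs
  exact congrArg (fun f : RingAut (IsLocalRing.ResidueField A) => f (IsLocalRing.residue A c)) h1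

/-- **The cyclotomic character is trivial on inertia at `ℓ ≠ p`.** -/
theorem cyc_inertia (p : ℕ) [Fact p.Prime] (ℓ : ℕ) (hℓ : ℓ.Prime) (hℓp : ℓ ≠ p)
    (A : ValuationSubring Qb) (hA : A.LiesOverPrime ℓ) (σ : Qb ≃ₐ[ℚ] Qb)
    (hσ : σ ∈ A.inertiaSubgroupIn ℚ) : ExtCitation.cycloChar p σ = 1 := by
  have h := cyc_of_residue_pow p ℓ hℓ hℓp A hA σ 1 (fun c => by
    obtain ⟨c', h1, h2⟩ := cyc_inertia_residue A hσ c
    exact ⟨c', h1, by rw [h2, pow_one]⟩)
  exact Units.ext (by rw [h, Nat.cast_one, Units.val_one])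

/-- On a `p`-torsion element, multiplication by `ℓ` is multiplication by the cyclotomic exponent
of a Frobenius element at `ℓ`. -/
theorem cyc_nsmul (p : ℕ) [Fact p.Prime] (ℓ : ℕ) (hℓ : ℓ.Prime) (hℓp : ℓ ≠ p)
    (A : ValuationSubring Qb) (hA : A.LiesOverPrime ℓ) (σ : Qb ≃ₐ[ℚ] Qb)
    (hσ : A.IsFrobeniusAt σ ℓ) {V : Type*} [AddCommGroup V] (v : V) (hv : p • v = 0) :
    ℓ • v = ExtCitation.cycloExp p σ • v := by
  have h := cyc_frobenius p ℓ hℓ hℓp A hA σ hσ
  rw [ExtCitation.coe_cycloChar] at h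
  have hmod : ExtCitation.cycloExp p σ ≡ ℓ [MOD p] := (ZMod.natCast_eq_natCast_iff _ _ _).mp h
  have key : ∀ a b : ℕ, a ≡ b [MOD p] → a ≤ b → b • v = a • v := by
    intro a b hab hle
    obtain ⟨c, hc⟩ := (Nat.modEq_iff_dvd' hle).mp hab
    have hb : b = a + p * c := by omega
    rw [hb, add_smul, mul_smul, smul_comm, hv, smul_zero, add_zero]
  rcases le_total (ExtCitation.cycloExp p σ) ℓ with hle | hle
  · exact key _ _ hmod hle
  · exact (key _ _ hmod.symm hle).symm

/-- The field generated by the `p`-th roots of unity. -/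
noncomputable def cycField (p : ℕ) : IntermediateField ℚ Qb :=
  IntermediateField.adjoin ℚ {z : Qb | z ^ p = 1}

theorem cycField_finiteDimensional (p : ℕ) (hp : p ≠ 0) : FiniteDimensional ℚ (cycField p) := by
  have hfin : {z : Qb | z ^ p = 1}.Finite := by
    have h1 : {z : Qb | z ^ p = 1} ⊆ ((Polynomial.X ^ p - 1 : Polynomial Qb).roots.toFinset : Set Qb) := by
      intro z hz
      have hne : (Polynomial.X ^ p - 1 : Polynomial Qb) ≠ 0 := Polynomial.X_pow_sub_C_ne_zero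
        (Nat.pos_of_ne_zero hp) (1 : Qb)
      simp only [Finset.mem_coe, Multiset.mem_toFinset, Polynomial.mem_roots hne,
        Polynomial.IsRoot.def, Polynomial.eval_sub, Polynomial.eval_pow, Polynomial.eval_X,
        Polynomial.eval_one]
      exact sub_eq_zero.mpr hz
    exact (Finset.finite_toSet _).subset h1
  haveI : Finite {z : Qb | z ^ p = 1} := hfin
  exact IntermediateField.finiteDimensional_adjoin
    (fun x hx => IsIntegral.of_pow (Nat.pos_of_ne_zero hp)
      (by rw [show x ^ p = 1 from hx]; exact isIntegral_one))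

/-- The cyclotomic character only depends on the restriction to the `p`-th cyclotomic field. -/
theorem cyc_eq_one_of_fix (p : ℕ) [Fact p.Prime] (σ : Qb ≃ₐ[ℚ] Qb)
    (h : ∀ x ∈ cycField p, σ x = x) : ExtCitation.cycloChar p σ = 1 := by
  have hp : p.Prime := Fact.out
  haveI : NeZero p := ⟨hp.ne_zero⟩
  have h1 : ((1 : (ZMod p)ˣ) : ZMod p) = modularCyclotomicCharacter Qb
      (ExtCitation.card_rootsOfUnity_eq_self p) (σ : Qb ≃+* Qb) := by
    refine modularCyclotomicCharacter.unique Qb (ExtCitation.card_rootsOfUnity_eq_self p)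
      (σ : Qb ≃+* Qb) ?_
    intro t ht
    have ht' : ((t : Qbˣ) : Qb) ^ p = 1 := by
      have := (mem_rootsOfUnity p t).mp ht
      rw [← Units.val_pow_eq_pow_val, this, Units.val_one]
    haveI : Fact (1 < p) := ⟨hp.one_lt⟩
    rw [Units.val_one, ZMod.val_one, pow_one]
    exact h _ (IntermediateField.subset_adjoin ℚ _ ht')
  exact (Units.ext h1).symm

theorem cyc_eq_of_eqOn (p : ℕ) [Fact p.Prime] (σ τ : Qb ≃ₐ[ℚ] Qb)
    (h : ∀ x ∈ cycField p, σ x = τ x) : ExtCitation.cycloChar p σ = ExtCitation.cycloChar p τ := by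
  have h1 : ExtCitation.cycloChar p (τ⁻¹ * σ) = 1 := by
    refine cyc_eq_one_of_fix p _ fun x hx => ?_
    rw [AlgEquiv.mul_apply, h x hx]
    exact τ.symm_apply_apply x
  rw [map_mul, map_inv, inv_mul_eq_one] at h1
  exact h1.symm

/-- The cyclotomic character factors through a number field. -/
theorem cyc_factorsThroughFiniteLevel (p : ℕ) [Fact p.Prime] :
    ∃ L : IntermediateField ℚ Qb, FiniteDimensional ℚ L ∧
      ∀ σ : Qb ≃ₐ[ℚ] Qb, (∀ x ∈ L, σ x = x) → ExtCitation.cycloChar p σ = 1 :=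
  ⟨cycField p, cycField_finiteDimensional p (Fact.out : p.Prime).ne_zero,
    fun σ h => cyc_eq_one_of_fix p σ h⟩

/-- The mod-`p` cyclotomic character with values in a field of characteristic `p`. -/
noncomputable def cycK (p : ℕ) [Fact p.Prime] (k : Type*) [Field k] [CharP k p] :
    (Qb ≃ₐ[ℚ] Qb) →* kˣ :=
  (Units.map ((ZMod.castHom (dvd_refl p) k : ZMod p →+* k) : ZMod p →* k)).comp
    (ExtCitation.cycloChar p)

theorem cycK_apply (p : ℕ) [Fact p.Prime] (k : Type*) [Field k] [CharP k p] (σ : Qb ≃ₐ[ℚ] Qb) :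
    ((cycK p k σ : kˣ) : k)
      = ZMod.castHom (dvd_refl p) k ((ExtCitation.cycloChar p σ : (ZMod p)ˣ) : ZMod p) :=
  rfl

/-- **The cyclotomic character with values in `k` at a Frobenius element.** -/
theorem cycK_frobenius (p : ℕ) [Fact p.Prime] (k : Type*) [Field k] [CharP k p] (ℓ : ℕ)
    (hℓ : ℓ.Prime) (hℓp : ℓ ≠ p) (A : ValuationSubring Qb) (hA : A.LiesOverPrime ℓ)
    (σ : Qb ≃ₐ[ℚ] Qb) (hσ : A.IsFrobeniusAt σ ℓ) : ((cycK p k σ : kˣ) : k) = (ℓ : k) := by
  rw [cycK_apply, cyc_frobenius p ℓ hℓ hℓp A hA σ hσ, map_natCast]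

/-- The cyclotomic character with values in `k` is trivial on inertia at `ℓ ≠ p`. -/
theorem cycK_inertia (p : ℕ) [Fact p.Prime] (k : Type*) [Field k] [CharP k p] (ℓ : ℕ)
    (hℓ : ℓ.Prime) (hℓp : ℓ ≠ p) (A : ValuationSubring Qb) (hA : A.LiesOverPrime ℓ)
    (σ : Qb ≃ₐ[ℚ] Qb) (hσ : σ ∈ A.inertiaSubgroupIn ℚ) : cycK p k σ = 1 := by
  rw [cycK, MonoidHom.comp_apply, cyc_inertia p ℓ hℓ hℓp A hA σ hσ, map_one]

theorem cycK_eq_one_of_fix (p : ℕ) [Fact p.Prime] (k : Type*) [Field k] [CharP k p]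
    (σ : Qb ≃ₐ[ℚ] Qb) (h : ∀ x ∈ cycField p, σ x = x) : cycK p k σ = 1 := by
  rw [cycK, MonoidHom.comp_apply, cyc_eq_one_of_fix p σ h, map_one]

theorem cycK_eq_of_eqOn (p : ℕ) [Fact p.Prime] (k : Type*) [Field k] [CharP k p]
    (σ τ : Qb ≃ₐ[ℚ] Qb) (h : ∀ x ∈ cycField p, σ x = τ x) : cycK p k σ = cycK p k τ := by
  rw [cycK, MonoidHom.comp_apply, MonoidHom.comp_apply, cyc_eq_of_eqOn p σ τ h]

theorem cycK_finite_range (p : ℕ) [Fact p.Prime] (k : Type*) [Field k] [CharP k p] :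
    (Set.range (cycK p k)).Finite := by
  haveI : NeZero p := ⟨(Fact.out : p.Prime).ne_zero⟩
  have h1 : Set.range (cycK p k)
      ⊆ Set.range (Units.map ((ZMod.castHom (dvd_refl p) k : ZMod p →+* k) : ZMod p →* k)) := by
    rintro _ ⟨σ, rfl⟩
    exact ⟨ExtCitation.cycloChar p σ, rfl⟩
  exact (Set.finite_range _).subset h1

end Fermat.Agent.S29
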