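/-
S29 project, package FROBDENS (helper16), part 2: elementary inputs (Mathlib only).

* `fdc_cyclic_le`, `fdc_exists_subgroup`, `fdc_normal` : subgroups of a finite cyclic group;
* `fdc_totient_induction` : the Moebius-free inversion: if for all `m ∣ n`
  `(n/m) * ∑_{e ∣ m} Z e = L + O(1)`, then `n * Z e = φ(e) * L + O(1)` for all `e ∣ n`.
-/
import Mathlib

set_option autoImplicit false

namespace Fermat.Agent.S29

/-- in a finite cyclic group, a subgroup whose order divides the order of `H` is contained in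
`H` -/
theorem fdc_cyclic_le {G : Type*} [Group G] [Finite G] [IsCyclic G] (H D : Subgroup G)
    (hD : Nat.card D ∣ Nat.card H) : D ≤ H := by
  classical
  have := Fintype.ofFinite G
  set m := Nat.card H with hm
  have hm0 : 0 < m := Nat.card_pos
  have hle := IsCyclic.card_pow_eq_one_le (α := G) hm0
  have hsub : (H : Set G).toFinset ⊆ Finset.univ.filter (fun a : G => a ^ m = 1) := by
    intro x hx
    rw [Set.mem_toFinset, SetLike.mem_coe] at hx
    rw [Finset.mem_filter]
    refine ⟨Finset.mem_univ _, ?_⟩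
    have h1 : (⟨x, hx⟩ : H) ^ Nat.card H = 1 := pow_card_eq_one'
    have h2 : (((⟨x, hx⟩ : H) ^ Nat.card H : H) : G) = 1 := by rw [h1]; rfl
    rw [Subgroup.coe_pow] at h2
    exact h2
  have hcard : ((H : Set G).toFinset).card = m := by
    rw [Set.toFinset_card, hm, Nat.card_eq_fintype_card]
    rfl
  have heq := Finset.eq_of_subset_of_card_le hsub (by rw [hcard]; exact hle)
  intro x hx
  have h1 : (⟨x, hx⟩ : D) ^ Nat.card D = 1 := pow_card_eq_one'
  have h2 : x ^ Nat.card D = 1 := by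
    have h2' : (((⟨x, hx⟩ : D) ^ Nat.card D : D) : G) = 1 := by rw [h1]; rfl
    rw [Subgroup.coe_pow] at h2'
    exact h2'

  have h3 : x ^ m = 1 := by
    obtain ⟨k, hk⟩ := hD
    rw [hk, pow_mul, h2, one_pow]
  have h4 : x ∈ (H : Set G).toFinset := by
    rw [heq, Finset.mem_filter]
    exact ⟨Finset.mem_univ _, h3⟩
  rwa [Set.mem_toFinset, SetLike.mem_coe] at h4

/-- a finite cyclic group has a subgroup of every order dividing the order of the group -/
theorem fdc_exists_subgroup {G : Type*} [Group G] [Finite G] [IsCyclic G] (m : ℕ)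
    (hm : m ∣ Nat.card G) : ∃ H : Subgroup G, Nat.card H = m := by
  obtain ⟨g, hg⟩ := IsCyclic.exists_generator (α := G)
  have hord : orderOf g = Nat.card G := orderOf_eq_card_of_forall_mem_zpowers hg
  have hn0 : 0 < Nat.card G := Nat.card_pos
  obtain ⟨k, hk⟩ := hm
  have hm0 : 0 < m := Nat.pos_of_ne_zero (by rintro rfl; simp at hk; omega)
  have hk0 : 0 < k := Nat.pos_of_ne_zero (by rintro rfl; simp at hk; omega)
  refine ⟨Subgroup.zpowers (g ^ k), ?_⟩
  rw [Nat.card_zpowers, orderOf_pow, hord, hk, Nat.gcd_mul_left_left,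
    Nat.mul_div_cancel _ hk0]

/-- every subgroup of a cyclic group is normal -/
theorem fdc_normal {G : Type*} [Group G] [IsCyclic G] (H : Subgroup G) : H.Normal := by
  have hcomm : ∀ a b : G, a * b = b * a := fun a b => (IsCyclic.commGroup (α := G)).mul_comm a b
  refine ⟨fun x hx g => ?_⟩
  rw [hcomm g x, mul_inv_cancel_right]
  exact hx

/-- **Moebius-free inversion.** -/
theorem fdc_totient_induction (n : ℕ) (hn : 0 < n) (Z : ℕ → ℝ → ℝ) (L : ℝ → ℝ)
    (I : ℝ → Prop)
    (h : ∀ m ∈ n.divisors, ∃ C : ℝ, ∀ s : ℝ, I s →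
      |((n / m : ℕ) : ℝ) * ∑ e ∈ m.divisors, Z e s - L s| ≤ C) :
    ∀ e ∈ n.divisors, ∃ C : ℝ, ∀ s : ℝ, I s →
      |(n : ℝ) * Z e s - (Nat.totient e : ℝ) * L s| ≤ C := by
  intro m
  induction m using Nat.strong_induction_on with
  | _ m ih =>
    intro hm
    have hmn : m ∣ n := Nat.dvd_of_mem_divisors hm
    have hm0 : m ≠ 0 := by
      rintro rfl
      exact hn.ne' (Nat.eq_zero_of_zero_dvd hmn)
    obtain ⟨C₀, hC₀⟩ := h m hm
    have ih' : ∀ e : ℕ, ∃ C : ℝ, e ∈ m.properDivisors → ∀ s : ℝ, I s →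
        |(n : ℝ) * Z e s - (Nat.totient e : ℝ) * L s| ≤ C := by
      intro e
      by_cases he : e ∈ m.properDivisors
      · rw [Nat.mem_properDivisors] at he
        obtain ⟨C, hC⟩ := ih e he.2 (Nat.mem_divisors.mpr ⟨he.1.trans hmn, hn.ne'⟩)
        exact ⟨C, fun _ => hC⟩
      · exact ⟨0, fun h => absurd h he⟩
    choose C hC using ih'
    refine ⟨m * C₀ + ∑ e ∈ m.properDivisors, C e, fun s hs => ?_⟩
    have hsumZ : ∑ e ∈ m.divisors, Z e s = Z m s + ∑ e ∈ m.properDivisors, Z e s := by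
      rw [← Nat.cons_self_properDivisors hm0, Finset.sum_cons]
    have htot : (m : ℝ) = (Nat.totient m : ℝ) + ∑ e ∈ m.properDivisors, (Nat.totient e : ℝ) := by
      have h1 := Nat.sum_totient m
      rw [← Nat.cons_self_properDivisors hm0, Finset.sum_cons] at h1
      have h2 := congrArg (Nat.cast : ℕ → ℝ) h1
      push_cast at h2
      linarith
    have hnm : (((n / m : ℕ) : ℝ)) * (m : ℝ) = (n : ℝ) := by
      rw [← Nat.cast_mul, Nat.div_mul_cancel hmn]
    have hkey : (n : ℝ) * Z m s - (Nat.totient m : ℝ) * L s =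
        (m : ℝ) * (((n / m : ℕ) : ℝ) * ∑ e ∈ m.divisors, Z e s - L s) -
          ∑ e ∈ m.properDivisors, ((n : ℝ) * Z e s - (Nat.totient e : ℝ) * L s) := by
      rw [Finset.sum_sub_distrib, ← Finset.mul_sum, ← Finset.sum_mul, hsumZ]
      have h3 : (∑ e ∈ m.properDivisors, (Nat.totient e : ℝ)) = (m : ℝ) - Nat.totient m := by
        linarith
      rw [h3, ← hnm]
      ring
    rw [hkey]
    have hb1 : |(m : ℝ) * (((n / m : ℕ) : ℝ) * ∑ e ∈ m.divisors, Z e s - L s)| ≤ m * C₀ := by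
      rw [abs_mul, abs_of_nonneg (Nat.cast_nonneg m)]
      exact mul_le_mul_of_nonneg_left (hC₀ s hs) (Nat.cast_nonneg m)
    have hb2 : |∑ e ∈ m.properDivisors, ((n : ℝ) * Z e s - (Nat.totient e : ℝ) * L s)| ≤
        ∑ e ∈ m.properDivisors, C e :=
      (Finset.abs_sum_le_sum_abs _ _).trans (Finset.sum_le_sum (fun e he => hC e he s hs))
    calc |(m : ℝ) * (((n / m : ℕ) : ℝ) * ∑ e ∈ m.divisors, Z e s - L s) -
          ∑ e ∈ m.properDivisors, ((n : ℝ) * Z e s - (Nat.totient e : ℝ) * L s)|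
        ≤ |(m : ℝ) * (((n / m : ℕ) : ℝ) * ∑ e ∈ m.divisors, Z e s - L s)| +
          |∑ e ∈ m.properDivisors, ((n : ℝ) * Z e s - (Nat.totient e : ℝ) * L s)| :=
          abs_sub _ _
      _ ≤ m * C₀ + ∑ e ∈ m.properDivisors, C e := add_le_add hb1 hb2

end Fermat.Agent.S29
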