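/-
S29 project, package FROBDENS (helper16), part 1: the density of the degree-one primes that
split completely in a Galois extension `M/F` of number fields is `1/[M:F]` (two-sided
estimate of the prime sum against `log (1/(s-1))`).
-/
import Fermat.Agent.S14.Density

set_option autoImplicit false

open NumberField IsDedekindDomain
open NumberField.Set

namespace Fermat.Agent.S29

open Fermat.Agent.S14

section Split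

variable (F M : Type*) [Field F] [Field M] [NumberField F] [NumberField M] [Algebra F M]

/-- the prime sum of a set `Up` of primes of `M` lying over primes of a set `Good` of primes of
`F` with the same norm, when every prime of `Good` has at most `p` primes above it. -/
theorem fds_sum_ge (Good : Set (HeightOneSpectrum (𝓞 F))) (Up : Set (HeightOneSpectrum (𝓞 M)))
    (p : ℕ) (hcard : ∀ 𝔮 ∈ Good, (dn1Over F M 𝔮).Finite ∧ (dn1Over F M 𝔮).ncard ≤ p)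
    (hup : ∀ 𝔓 ∈ Up, ∃ 𝔮 ∈ Good, 𝔓 ∈ dn1Over F M 𝔮 ∧
      Ideal.absNorm 𝔓.asIdeal = Ideal.absNorm 𝔮.asIdeal)
    {s : ℝ}
    (hsumF : Summable (fun 𝔮 : HeightOneSpectrum (𝓞 F) => (Ideal.absNorm 𝔮.asIdeal : ℝ) ^ (-s))) :
    primeIdealZetaSum Up s ≤ (p : ℝ) * primeIdealZetaSum Good s := by
  classical
  have hG0 : 0 ≤ (p : ℝ) * primeIdealZetaSum Good s :=
    mul_nonneg (Nat.cast_nonneg p) (primeIdealZetaSum_nonneg _ s)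
  rw [primeIdealZetaSum_def]
  refine tsum_le_of_sum_le' hG0 (fun T => ?_)
  choose π hπG hπo hπn using hup
  let π' : Up → HeightOneSpectrum (𝓞 F) := fun 𝔓 => π 𝔓.1 𝔓.2
  have h1 : ∑ 𝔓 ∈ T, (Ideal.absNorm 𝔓.1.asIdeal : ℝ) ^ (-s) =
      ∑ 𝔓 ∈ T, (Ideal.absNorm (π' 𝔓).asIdeal : ℝ) ^ (-s) :=
    Finset.sum_congr rfl (fun 𝔓 _ => by rw [hπn 𝔓.1 𝔓.2])
  rw [h1, Finset.sum_comp (fun 𝔮 : HeightOneSpectrum (𝓞 F) =>
    (Ideal.absNorm 𝔮.asIdeal : ℝ) ^ (-s)) π']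
  have hfib : ∀ 𝔮 ∈ T.image π', (T.filter (fun 𝔓 => π' 𝔓 = 𝔮)).card ≤ p := by
    intro 𝔮 h𝔮
    obtain ⟨𝔓₀, -, rfl⟩ := Finset.mem_image.mp h𝔮
    have hG : π' 𝔓₀ ∈ Good := hπG 𝔓₀.1 𝔓₀.2
    obtain ⟨hfin, hle⟩ := hcard _ hG
    refine le_trans ?_ hle
    rw [Set.ncard_eq_toFinset_card _ hfin]
    refine Finset.card_le_card_of_injOn (fun 𝔓 => 𝔓.1) ?_ ?_
    · intro 𝔓 h𝔓
      rw [Finset.mem_coe, Finset.mem_filter] at h𝔓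
      rw [Finset.mem_coe, Set.Finite.mem_toFinset, ← h𝔓.2]
      exact hπo 𝔓.1 𝔓.2
    · intro a _ b _ hab
      exact Subtype.ext hab
  have himg : ∀ 𝔮 ∈ T.image π', 𝔮 ∈ Good := by
    intro 𝔮 h𝔮
    obtain ⟨𝔓₀, -, rfl⟩ := Finset.mem_image.mp h𝔮
    exact hπG 𝔓₀.1 𝔓₀.2
  calc ∑ 𝔮 ∈ T.image π', (T.filter (fun 𝔓 => π' 𝔓 = 𝔮)).card •
        (Ideal.absNorm 𝔮.asIdeal : ℝ) ^ (-s)
      ≤ ∑ 𝔮 ∈ T.image π', (p : ℝ) * (Ideal.absNorm 𝔮.asIdeal : ℝ) ^ (-s) := by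
        refine Finset.sum_le_sum (fun 𝔮 h𝔮 => ?_)
        rw [nsmul_eq_mul]
        exact mul_le_mul_of_nonneg_right (by exact_mod_cast hfib 𝔮 h𝔮) (dn1_term_nonneg s 𝔮)
    _ = (p : ℝ) * ∑ 𝔮 ∈ T.image π', (Ideal.absNorm 𝔮.asIdeal : ℝ) ^ (-s) := by
        rw [Finset.mul_sum]
    _ ≤ (p : ℝ) * primeIdealZetaSum Good s := by
        refine mul_le_mul_of_nonneg_left ?_ (Nat.cast_nonneg p)
        rw [dn1_zetaSum_eq]
        have h2 : ∑ 𝔮 ∈ T.image π', (Ideal.absNorm 𝔮.asIdeal : ℝ) ^ (-s) =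
            ∑ 𝔮 ∈ T.image π', Good.indicator
              (fun 𝔭 : HeightOneSpectrum (𝓞 F) => (Ideal.absNorm 𝔭.asIdeal : ℝ) ^ (-s)) 𝔮 :=
          Finset.sum_congr rfl (fun 𝔮 h𝔮 => by rw [Set.indicator_of_mem (himg 𝔮 h𝔮)])
        rw [h2]
        exact (hsumF.indicator Good).sum_le_tsum _
          (fun 𝔮 _ => Set.indicator_nonneg (fun 𝔭 _ => dn1_term_nonneg s 𝔭) 𝔮)

/-- the degree-one primes of `F`, of norm outside `S`, that split completely in `M` -/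
def fdsSpl (S : Finset ℕ) : Set (HeightOneSpectrum (𝓞 F)) :=
  {𝔮 | (Ideal.absNorm 𝔮.asIdeal).Prime ∧ Ideal.absNorm 𝔮.asIdeal ∉ S ∧
    ∀ 𝔔 : Ideal (𝓞 M), 𝔔.IsPrime → 𝔔.LiesOver 𝔮.asIdeal → 𝔔.inertiaDeg (𝓞 F) = 1}

/-- **Density of the completely split primes**: for a Galois extension `M/F` of number fields,
`[M:F]` times the prime sum of the degree-one primes of `F` (norm outside `S`) that split
completely in `M` is `log (1/(s-1)) + O(1)`. -/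
theorem fds_split_density [IsGalois F M] (S : Finset ℕ)
    (hS : ∀ 𝔮 : HeightOneSpectrum (𝓞 F), (Ideal.absNorm 𝔮.asIdeal).Prime →
      Ideal.absNorm 𝔮.asIdeal ∉ S → ∀ 𝔔 : Ideal (𝓞 M), 𝔔.IsPrime → 𝔔.LiesOver 𝔮.asIdeal →
        𝔔.ramificationIdx (𝓞 F) = 1) :
    ∃ C : ℝ, ∀ s : ℝ, 1 < s → s ≤ 2 →
      |(Module.finrank F M : ℝ) * primeIdealZetaSum (fdsSpl F M S) s -
        Real.log (1 / (s - 1))| ≤ C := by
  obtain ⟨C₁, hC₁⟩ := primeSum_univ_bound M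
  obtain ⟨C₂, hC₂⟩ := primeSum_bad_bound M S
  set d := Module.finrank F M with hd
  have hd0 : 0 < d := Module.finrank_pos
  -- the fibre over a split prime
  have hfib : ∀ 𝔮 ∈ fdsSpl F M S, (dn1Over F M 𝔮).ncard = d ∧
      ∀ 𝔓 ∈ dn1Over F M 𝔮, Ideal.absNorm 𝔓.asIdeal = Ideal.absNorm 𝔮.asIdeal := by
    intro 𝔮 h𝔮
    obtain ⟨hℓ, hℓS, hf⟩ := h𝔮
    have := 𝔮.isPrime
    have : 𝔮.asIdeal.IsMaximal := 𝔮.isMaximal
    obtain ⟨𝔔₀, h1, h2⟩ := Ideal.exists_maximal_ideal_liesOver_of_isIntegral (S := 𝓞 M) 𝔮.asIdeal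
    have h1' : 𝔔₀.IsPrime := h1.isPrime
    have hmain := Ideal.ncard_primesOver_mul_ramificationIdxIn_mul_inertiaDegIn 𝔮.asIdeal (𝓞 M)
      (M ≃ₐ[F] M)
    rw [IsGalois.card_aut_eq_finrank,
      Ideal.ramificationIdxIn_eq_ramificationIdx 𝔮.asIdeal 𝔔₀ (M ≃ₐ[F] M),
      hS 𝔮 hℓ hℓS 𝔔₀ h1' h2, one_mul,
      Ideal.inertiaDegIn_eq_inertiaDeg 𝔮.asIdeal 𝔔₀ (M ≃ₐ[F] M), hf 𝔔₀ h1' h2, mul_one] at hmain
    refine ⟨by rw [dn1Over_ncard, hmain], fun 𝔓 h𝔓 => ?_⟩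
    have : 𝔓.asIdeal.LiesOver 𝔮.asIdeal := h𝔓
    have := 𝔓.isPrime
    rw [← Ideal.absNorm_pow_inertiaDeg 𝔮.asIdeal 𝔓.asIdeal, hf 𝔓.asIdeal 𝔓.isPrime h𝔓, pow_one]
  set Bad : Set (HeightOneSpectrum (𝓞 M)) :=
    {𝔭 | ¬ (Ideal.absNorm 𝔭.asIdeal).Prime ∨ Ideal.absNorm 𝔭.asIdeal ∈ S} with hBad
  -- the good primes of `M` lie over split primes
  have hup : ∀ 𝔓 ∈ Badᶜ, ∃ 𝔮 ∈ fdsSpl F M S, 𝔓 ∈ dn1Over F M 𝔮 ∧
      Ideal.absNorm 𝔓.asIdeal = Ideal.absNorm 𝔮.asIdeal := by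
    intro 𝔓 h𝔓
    have h𝔓' : ¬ (¬ (Ideal.absNorm 𝔓.asIdeal).Prime ∨ Ideal.absNorm 𝔓.asIdeal ∈ S) := h𝔓
    rw [not_or, not_not] at h𝔓'
    obtain ⟨hℓ, hℓS⟩ := h𝔓'
    have hP := 𝔓.isPrime
    let 𝔮 : HeightOneSpectrum (𝓞 F) :=
      ⟨𝔓.asIdeal.under (𝓞 F), Ideal.IsPrime.under (𝓞 F) 𝔓.asIdeal,
        Ideal.under_ne_bot (𝓞 F) 𝔓.ne_bot⟩
    have hlo : 𝔓.asIdeal.LiesOver 𝔮.asIdeal := ⟨rfl⟩
    have hq := 𝔮.isPrime
    have hpow := Ideal.absNorm_pow_inertiaDeg 𝔮.asIdeal 𝔓.asIdeal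
    obtain ⟨hN, hf1⟩ := (Nat.Prime.pow_eq_iff hℓ).mp hpow
    refine ⟨𝔮, ⟨by rw [hN]; exact hℓ, by rw [hN]; exact hℓS, fun 𝔔 h𝔔 h𝔔lo => ?_⟩, hlo, hN.symm⟩
    rw [Ideal.inertiaDeg_eq_of_isGaloisGroup 𝔮.asIdeal 𝔔 𝔓.asIdeal (M ≃ₐ[F] M), hf1]
  refine ⟨C₁ + |C₂|, fun s hs1 hs2 => ?_⟩
  have hsumF := primeSum_summable F hs1
  have hsumM := primeSum_summable M hs1
  have hupper := dn1_sum_le F M (fdsSpl F M S) d hd0 (fun 𝔮 h => (hfib 𝔮 h).1)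
    (fun 𝔮 h => (hfib 𝔮 h).2) hsumM
  have hlower := fds_sum_ge F M (fdsSpl F M S) Badᶜ d
    (fun 𝔮 h => ⟨Set.finite_of_ncard_ne_zero (by rw [(hfib 𝔮 h).1]; exact hd0.ne'),
      (hfib 𝔮 h).1.le⟩) hup hsumF
  have hsplit := dn1_zetaSum_add_compl Bad hsumM
  have h2 := abs_le.mp (hC₁ s hs1 hs2)
  have h3 := hC₂ s hs1
  have h4 := le_abs_self C₂
  rw [abs_le]
  constructor <;> linarith [h2.1, h2.2]

end Split

end Fermat.Agent.S29
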