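/-
S29 project, package FROBDENS (helper16), part 3: a cyclic extension `M/F` of number fields has
(infinitely many) degree-one primes of `F` that remain inert in `M`.
-/
import Fermat.Agent.S29.FrobDensSplit
import Fermat.Agent.S29.FrobDensElem
import Fermat.Agent.S14.Frob

set_option autoImplicit false
set_option linter.unusedSectionVars false

open NumberField IsDedekindDomain
open NumberField.Set
open scoped Pointwise

namespace Fermat.Agent.S29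

open Fermat.Agent.S14

section Tower

variable {F E M : Type} [Field F] [Field E] [Field M] [NumberField F] [NumberField E]
  [NumberField M] [Algebra F E] [Algebra E M] [Algebra F M] [IsScalarTower F E M]

/-- if the prime `𝔓` of the intermediate field has residue degree one, the residue degree of
`𝔔` over `F` divides `[M:E]` -/
theorem fdc_tower_dvd [IsGalois E M] (𝔓 : Ideal (𝓞 E)) (𝔔 : Ideal (𝓞 M)) [𝔔.IsPrime]
    [𝔓.IsPrime] [𝔔.LiesOver 𝔓] (hf : 𝔓.inertiaDeg (𝓞 F) = 1) :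
    𝔔.inertiaDeg (𝓞 F) ∣ Module.finrank E M := by
  have h1 : 𝔔.inertiaDeg (𝓞 F) = 𝔓.inertiaDeg (𝓞 F) * 𝔔.inertiaDeg (𝓞 E) :=
    Ideal.inertiaDeg_tower 𝔓 𝔔
  rw [h1, hf, one_mul]
  have hmain := Ideal.ncard_primesOver_mul_ramificationIdxIn_mul_inertiaDegIn 𝔓 (𝓞 M)
    (M ≃ₐ[E] M)
  rw [IsGalois.card_aut_eq_finrank, Ideal.inertiaDegIn_eq_inertiaDeg 𝔓 𝔔 (M ≃ₐ[E] M)] at hmain
  exact ⟨(𝔓.primesOver (𝓞 M)).ncard * 𝔓.ramificationIdxIn (𝓞 M), by rw [← hmain]; ring⟩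

/-- primes of the intermediate field under an unramified prime are unramified -/
theorem fdc_tower_unram (𝔓 : Ideal (𝓞 E)) (𝔔 : Ideal (𝓞 M)) [𝔔.IsPrime]
    [𝔓.IsPrime] [𝔔.LiesOver 𝔓] (he : 𝔔.ramificationIdx (𝓞 F) = 1) :
    𝔓.ramificationIdx (𝓞 F) = 1 := by
  have h1 : 𝔔.ramificationIdx (𝓞 F) = 𝔓.ramificationIdx (𝓞 F) * 𝔔.ramificationIdx (𝓞 E) :=
    Ideal.ramificationIdx_tower 𝔓 𝔔
  rw [he] at h1
  exact Nat.eq_one_of_mul_eq_one_right h1.symm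

/-- if the decomposition group of `𝔔` fixes the intermediate field `E`, the prime of `E` below
`𝔔` has residue degree one over `F` -/
theorem fdc_tower_split [IsGalois F M] (𝔮 : Ideal (𝓞 F)) [h𝔮 : 𝔮.IsPrime] (h0 : 𝔮 ≠ ⊥)
    (𝔔 : Ideal (𝓞 M)) [h𝔔 : 𝔔.IsPrime] [hlo : 𝔔.LiesOver 𝔮]
    (hfix : ∀ σ ∈ MulAction.stabilizer (M ≃ₐ[F] M) 𝔔, ∀ x : E,
      σ (algebraMap E M x) = algebraMap E M x) :
    (𝔔.under (𝓞 E)).inertiaDeg (𝓞 F) = 1 := by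
  have h𝔔0 : 𝔔 ≠ ⊥ := Ideal.ne_bot_of_liesOver_of_ne_bot h0 𝔔
  have hfin : Finite (𝓞 M ⧸ 𝔔) := Ideal.finiteQuotientOfFreeOfNeBot 𝔔 h𝔔0
  obtain ⟨σ, hσ⟩ := IsArithFrobAt.exists_of_isInvariant (𝓞 F) (M ≃ₐ[F] M) 𝔔
  have hσs : σ ∈ MulAction.stabilizer (M ≃ₐ[F] M) 𝔔 := hσ.mem_stabilizer
  have hσ' := (frob_isArith_iff σ 𝔮 𝔔).mp hσ
  have hlo' : (𝔔.under (𝓞 E)).LiesOver 𝔮 := Ideal.LiesOver.tower_bot 𝔔 (𝔔.under (𝓞 E)) 𝔮
  refine frob_inertiaDeg_eq_one (K := F) (L := E) h𝔮 h0 (𝔔.under (𝓞 E))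
    (Ideal.IsPrime.under (𝓞 E) 𝔔) hlo' (fun x => ?_)
  rw [Ideal.under_def, Ideal.mem_comap, map_sub, map_pow]
  have h2 := hσ' (algebraMap (𝓞 E) (𝓞 M) x)
  have h3 : σ • (algebraMap (𝓞 E) (𝓞 M) x) = algebraMap (𝓞 E) (𝓞 M) x := by
    apply Subtype.ext
    exact hfix σ hσs (x : E)
  rwa [h3] at h2

end Tower

section Fiber

variable {F : Type*} [Field F] [NumberField F]

/-- the prime sum of a set cut out by finitely many values of a function is the sum of the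
prime sums of the fibres -/
theorem fdc_zetaSum_fiber (P : Set (HeightOneSpectrum (𝓞 F)))
    (f : HeightOneSpectrum (𝓞 F) → ℕ) (T : Finset ℕ) {s : ℝ}
    (hsum : Summable (fun 𝔭 : HeightOneSpectrum (𝓞 F) => (Ideal.absNorm 𝔭.asIdeal : ℝ) ^ (-s))) :
    primeIdealZetaSum {𝔮 | 𝔮 ∈ P ∧ f 𝔮 ∈ T} s =
      ∑ e ∈ T, primeIdealZetaSum {𝔮 | 𝔮 ∈ P ∧ f 𝔮 = e} s := by
  classical
  rw [dn1_zetaSum_eq]
  simp_rw [dn1_zetaSum_eq]
  rw [← Summable.tsum_finsetSum (fun e _ => hsum.indicator _)]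
  congr 1
  funext 𝔮
  simp only [Set.indicator_apply, Set.mem_ofPred_eq]
  by_cases hP : 𝔮 ∈ P
  · simp only [hP, true_and]
    rw [Finset.sum_ite_eq]
  · simp [hP]

theorem fdc_zetaSum_empty (s : ℝ) :
    primeIdealZetaSum (∅ : Set (HeightOneSpectrum (𝓞 F))) s = 0 := by
  rw [dn1_zetaSum_eq]
  simp

end Fiber

section Cyclic

variable (F M : Type) [Field F] [Field M] [NumberField F] [NumberField M] [Algebra F M]

/-- the degree-one primes of `F` of norm outside `S` whose residue degree in `M` is `e` -/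
def fdcCls (S : Finset ℕ) (e : ℕ) : Set (HeightOneSpectrum (𝓞 F)) :=
  {𝔮 | 𝔮 ∈ {𝔮 : HeightOneSpectrum (𝓞 F) | (Ideal.absNorm 𝔮.asIdeal).Prime ∧
    Ideal.absNorm 𝔮.asIdeal ∉ S} ∧ 𝔮.asIdeal.inertiaDegIn (𝓞 M) = e}

variable {F M}

/-- **Key fact**: a good prime splits completely in the fixed field of `H` iff its residue
degree in `M` divides `|H|`. -/
theorem fdc_mem_spl_iff [IsGalois F M] [hcyc : IsCyclic (M ≃ₐ[F] M)] (S : Finset ℕ)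
    (hS : ∀ ℓ : ℕ, ℓ.Prime → (ℓ : ℤ) ∣ discr M → ℓ ∈ S) (H : Subgroup (M ≃ₐ[F] M))
    (𝔮 : HeightOneSpectrum (𝓞 F)) :
    𝔮 ∈ fdsSpl F (IntermediateField.fixedField H) S ↔
      𝔮 ∈ {𝔮 : HeightOneSpectrum (𝓞 F) | 𝔮 ∈ {𝔮 : HeightOneSpectrum (𝓞 F) |
        (Ideal.absNorm 𝔮.asIdeal).Prime ∧ Ideal.absNorm 𝔮.asIdeal ∉ S} ∧
        𝔮.asIdeal.inertiaDegIn (𝓞 M) ∈ (Nat.card H).divisors} := by
  have hHn : H.Normal := fdc_normal H
  have hq := 𝔮.isPrime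
  have hqm : 𝔮.asIdeal.IsMaximal := 𝔮.isMaximal
  obtain ⟨𝔔, h𝔔m, h𝔔lo⟩ :=
    Ideal.exists_maximal_ideal_liesOver_of_isIntegral (S := 𝓞 M) 𝔮.asIdeal
  have h𝔔 : 𝔔.IsPrime := h𝔔m.isPrime
  have hfdeg : 𝔮.asIdeal.inertiaDegIn (𝓞 M) = 𝔔.inertiaDeg (𝓞 F) :=
    Ideal.inertiaDegIn_eq_inertiaDeg 𝔮.asIdeal 𝔔 (M ≃ₐ[F] M)
  have hcardH : Module.finrank (IntermediateField.fixedField H) M = Nat.card H :=
    IntermediateField.finrank_fixedField_eq_card H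
  have hH0 : Nat.card H ≠ 0 := Nat.card_pos.ne'
  have hlo𝔓 : 𝔔.LiesOver (𝔔.under (𝓞 (IntermediateField.fixedField H))) := ⟨rfl⟩
  have h𝔓 : (𝔔.under (𝓞 (IntermediateField.fixedField H))).IsPrime :=
    Ideal.IsPrime.under _ 𝔔
  have hlo𝔓' : (𝔔.under (𝓞 (IntermediateField.fixedField H))).LiesOver 𝔮.asIdeal :=
    Ideal.LiesOver.tower_bot 𝔔 (𝔔.under (𝓞 (IntermediateField.fixedField H))) 𝔮.asIdeal
  constructor
  · rintro ⟨hℓ, hℓS, hf⟩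
    refine ⟨⟨hℓ, hℓS⟩, ?_⟩
    rw [Nat.mem_divisors]
    refine ⟨?_, hH0⟩
    rw [hfdeg, ← hcardH]
    exact fdc_tower_dvd (𝔔.under (𝓞 (IntermediateField.fixedField H))) 𝔔 (hf _ h𝔓 hlo𝔓')
  · rintro ⟨⟨hℓ, hℓS⟩, hdiv⟩
    rw [Nat.mem_divisors] at hdiv
    refine ⟨hℓ, hℓS, fun 𝔓 h𝔓' h𝔓lo => ?_⟩
    have hℓd : ¬ ((Ideal.absNorm 𝔮.asIdeal : ℕ) : ℤ) ∣ discr M := fun h => hℓS (hS _ hℓ h)
    have he : 𝔔.ramificationIdx (𝓞 F) = 1 :=
      dn1_ramificationIdx_eq_one F M 𝔮.asIdeal hℓ hℓd 𝔔 h𝔔 h𝔔lo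
    have hfinq : Finite (𝓞 F ⧸ 𝔮.asIdeal) := Ideal.finiteQuotientOfFreeOfNeBot _ 𝔮.ne_bot
    have hstab : Nat.card (MulAction.stabilizer (M ≃ₐ[F] M) 𝔔) =
        𝔮.asIdeal.inertiaDegIn (𝓞 M) := by
      rw [Ideal.card_stabilizer_eq 𝔮.asIdeal 𝔔,
        Ideal.ramificationIdxIn_eq_ramificationIdx 𝔮.asIdeal 𝔔 (M ≃ₐ[F] M), he, one_mul]
    have hle : MulAction.stabilizer (M ≃ₐ[F] M) 𝔔 ≤ H :=
      fdc_cyclic_le H _ (by rw [hstab]; exact hdiv.1)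
    have h1 : (𝔔.under (𝓞 (IntermediateField.fixedField H))).inertiaDeg (𝓞 F) = 1 := by
      refine fdc_tower_split (E := IntermediateField.fixedField H) 𝔮.asIdeal 𝔮.ne_bot 𝔔
        (fun σ hσ x => ?_)
      exact x.2 ⟨σ, hle hσ⟩
    rw [Ideal.inertiaDeg_eq_of_isGaloisGroup 𝔮.asIdeal 𝔓
      (𝔔.under (𝓞 (IntermediateField.fixedField H)))
      ((IntermediateField.fixedField H) ≃ₐ[F] (IntermediateField.fixedField H)), h1]

/-- **Inert degree-one primes in a cyclic extension**: a cyclic extension `M/F` of number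
fields has a degree-one prime of `F`, of norm outside any given finite set, which remains
inert in `M`. -/
theorem fdc_main (F M : Type) [Field F] [Field M] [NumberField F] [NumberField M] [Algebra F M]
    [IsGalois F M] (hcyc : IsCyclic (M ≃ₐ[F] M)) (S : Finset ℕ) :
    ∃ 𝔮 : Ideal (𝓞 F), 𝔮.IsPrime ∧ (Ideal.absNorm 𝔮).Prime ∧ Ideal.absNorm 𝔮 ∉ S ∧
      ∀ 𝔔 : Ideal (𝓞 M), 𝔔.IsPrime → 𝔔.LiesOver 𝔮 →
        𝔔.inertiaDeg (𝓞 F) = Module.finrank F M := by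
  classical
  set S' : Finset ℕ := S ∪ (discr M).natAbs.primeFactors with hS'
  have hS'd : ∀ ℓ : ℕ, ℓ.Prime → (ℓ : ℤ) ∣ discr M → ℓ ∈ S' := by
    intro ℓ hℓ h
    apply Finset.mem_union_right
    rw [Nat.mem_primeFactors]
    exact ⟨hℓ, Int.natCast_dvd.mp h, Int.natAbs_ne_zero.mpr (discr_ne_zero M)⟩
  set n := Module.finrank F M with hn
  have hn0 : 0 < n := Module.finrank_pos
  have hcardG : Nat.card (M ≃ₐ[F] M) = n := IsGalois.card_aut_eq_finrank F M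
  -- the split densities of the intermediate fields
  have hclaim1 : ∀ m ∈ n.divisors, ∃ C : ℝ, ∀ s : ℝ, (1 < s ∧ s ≤ 2) →
      |((n / m : ℕ) : ℝ) * ∑ e ∈ m.divisors, primeIdealZetaSum (fdcCls F M S' e) s -
        Real.log (1 / (s - 1))| ≤ C := by
    intro m hm
    have hmn : m ∣ n := Nat.dvd_of_mem_divisors hm
    have hm0 : 0 < m := Nat.pos_of_mem_divisors hm
    obtain ⟨H, hH⟩ := fdc_exists_subgroup (G := M ≃ₐ[F] M) m (by rw [hcardG]; exact hmn)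
    have hHn : H.Normal := fdc_normal H
    have hrankE : Module.finrank (IntermediateField.fixedField H) M = m := by
      rw [IntermediateField.finrank_fixedField_eq_card, hH]
    have hrankFE : Module.finrank F (IntermediateField.fixedField H) = n / m := by
      have h1 := Module.finrank_mul_finrank F (IntermediateField.fixedField H) M
      rw [hrankE] at h1
      rw [hn, ← h1, Nat.mul_div_cancel _ hm0]
    obtain ⟨C, hC⟩ := fds_split_density F (IntermediateField.fixedField H) S' (by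
      intro 𝔮 hℓ hℓS 𝔓 h𝔓 h𝔓lo
      have h𝔓0 : 𝔓 ≠ ⊥ := Ideal.ne_bot_of_liesOver_of_ne_bot 𝔮.ne_bot 𝔓
      have h𝔓m : 𝔓.IsMaximal := h𝔓.isMaximal h𝔓0
      obtain ⟨𝔔, h𝔔m, h𝔔lo⟩ := Ideal.exists_maximal_ideal_liesOver_of_isIntegral (S := 𝓞 M) 𝔓
      have h𝔔 : 𝔔.IsPrime := h𝔔m.isPrime
      have h𝔔lo' : 𝔔.LiesOver 𝔮.asIdeal := Ideal.LiesOver.trans 𝔔 𝔓 𝔮.asIdeal
      have hℓd : ¬ ((Ideal.absNorm 𝔮.asIdeal : ℕ) : ℤ) ∣ discr M := fun h => hℓS (hS'd _ hℓ h)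
      have he : 𝔔.ramificationIdx (𝓞 F) = 1 :=
        dn1_ramificationIdx_eq_one F M 𝔮.asIdeal hℓ hℓd 𝔔 h𝔔 h𝔔lo'
      exact fdc_tower_unram 𝔓 𝔔 he)
    refine ⟨C, fun s hs => ?_⟩
    have h2 := hC s hs.1 hs.2
    rw [hrankFE] at h2
    have hset : fdsSpl F (IntermediateField.fixedField H) S' =
        {𝔮 | 𝔮 ∈ {𝔮 : HeightOneSpectrum (𝓞 F) | (Ideal.absNorm 𝔮.asIdeal).Prime ∧
          Ideal.absNorm 𝔮.asIdeal ∉ S'} ∧
          𝔮.asIdeal.inertiaDegIn (𝓞 M) ∈ (Nat.card H).divisors} :=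
      Set.ext (fun 𝔮 => fdc_mem_spl_iff S' hS'd H 𝔮)
    rw [hset, hH, fdc_zetaSum_fiber _ _ _ (primeSum_summable F hs.1)] at h2
    exact h2
  obtain ⟨C, hC⟩ := fdc_totient_induction n hn0
    (fun e s => primeIdealZetaSum (fdcCls F M S' e) s) (fun s => Real.log (1 / (s - 1)))
    (fun s => 1 < s ∧ s ≤ 2) hclaim1 n (Nat.mem_divisors_self n hn0.ne')
  -- the class of the inert primes is not empty
  have hne : (fdcCls F M S' n).Nonempty := by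
    by_contra hemp
    rw [Set.not_nonempty_iff_eq_empty] at hemp
    refine dn1_log_unbounded (a := (Nat.totient n : ℝ)) (B := C)
      (by exact_mod_cast Nat.totient_pos.mpr hn0) (fun s hs1 hs2 => ?_)
    have h3 := hC s ⟨hs1, hs2⟩
    simp only [hemp, fdc_zetaSum_empty, mul_zero, zero_sub, abs_neg] at h3
    exact (le_abs_self _).trans h3
  obtain ⟨𝔮, ⟨hℓ, hℓS'⟩, hf⟩ := hne
  refine ⟨𝔮.asIdeal, 𝔮.isPrime, hℓ, fun h => hℓS' (Finset.mem_union_left _ h),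
    fun 𝔔 h𝔔 h𝔔lo => ?_⟩
  have := 𝔮.isPrime
  rw [← Ideal.inertiaDegIn_eq_inertiaDeg 𝔮.asIdeal 𝔔 (M ≃ₐ[F] M), hf]

end Cyclic

end Fermat.Agent.S29
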