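import Mathlib
import Fermat.Prelude.Def_EllipticCurve_FrobeniusTrace
import Fermat.Prelude.Def_FLTPrelim_Ramification
import Fermat.Agent.S37.Frob
import Fermat.Agent.S14.Frob
import Fermat.Agent.S14.DensityCore

/-!
# S29, package FD-LIFT: Frobenius density, from number fields to `Gal(ℚ̄/ℚ)`

`FdlCyc` is the number-field statement "a cyclic extension `M / F` of number fields has inert
primes of degree one (of norm outside any finite set)" (the cyclic generalisation of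
`Fermat.Agent.S14.exists_inert_prime`; it is proved from the simple pole of the Dedekind zeta
functions by Möbius inversion over the subextensions).

`fdl_main`: given `FdlCyc`, for every finite Galois `L / ℚ` inside `ℚ̄`, every finite set `S` of
primes and every `g ∈ Gal(ℚ̄/ℚ)` there are a prime `ℓ ∉ S`, a valuation subring `A` of `ℚ̄` over
`ℓ` and a Frobenius element `τ` at `A` such that `g` agrees on `L` with a power of `τ`.
-/

set_option autoImplicit false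
set_option linter.unusedSectionVars false

open NumberField

namespace Fermat.Agent.S29

open Fermat.Agent.S14

/-- The cyclic inert-prime statement (Frobenius density in number-field form). -/
def FdlCyc : Prop :=
  ∀ (F M : Type) [Field F] [Field M] [NumberField F] [NumberField M] [Algebra F M]
    [IsGalois F M], IsCyclic (M ≃ₐ[F] M) → ∀ S : Finset ℕ,
      ∃ 𝔮 : Ideal (𝓞 F), 𝔮.IsPrime ∧ (Ideal.absNorm 𝔮).Prime ∧ Ideal.absNorm 𝔮 ∉ S ∧
        ∀ 𝔔 : Ideal (𝓞 M), 𝔔.IsPrime → 𝔔.LiesOver 𝔮 →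
          𝔔.inertiaDeg (𝓞 F) = Module.finrank F M

section Arith

variable {K L : Type} [Field K] [Field L] [NumberField K] [NumberField L] [Algebra K L]

/-- powers of a Frobenius element -/
theorem fdl_pow (σ : L ≃ₐ[K] L) (𝔔 : Ideal (𝓞 L)) (q : ℕ) (hq : 0 < q)
    (h : ∀ x : 𝓞 L, σ • x - x ^ q ∈ 𝔔) (m : ℕ) (x : 𝓞 L) :
    (σ ^ m) • x - x ^ (q ^ m) ∈ 𝔔 := by
  have hstab : ∀ y : 𝓞 L, y ∈ 𝔔 → σ • y ∈ 𝔔 := by
    intro y hy
    have h1 := 𝔔.add_mem (h y) (𝔔.pow_mem_of_mem hy q hq)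
    rwa [sub_add_cancel] at h1
  induction m generalizing x with
  | zero => simp
  | succ m ih =>
    have e : (σ ^ (m + 1)) • x - x ^ (q ^ (m + 1)) =
        σ • ((σ ^ m) • x - x ^ (q ^ m)) + (σ • (x ^ (q ^ m)) - (x ^ (q ^ m)) ^ q) := by
      rw [pow_succ', mul_smul, smul_sub, ← pow_mul, ← pow_succ]
      ring
    rw [e]
    exact 𝔔.add_mem (hstab _ (ih x)) (h _)

/-- if `x ≡ x ^ Q` modulo `𝔔` for all `x`, the residue ring has at most `Q` elements -/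
theorem fdl_card_le (𝔔 : Ideal (𝓞 L)) (h𝔔 : 𝔔.IsPrime) (h𝔔0 : 𝔔 ≠ ⊥) (Q : ℕ) (hQ : 2 ≤ Q)
    (h : ∀ x : 𝓞 L, x - x ^ Q ∈ 𝔔) : Ideal.absNorm 𝔔 ≤ Q := by
  have h𝔔m : 𝔔.IsMaximal := h𝔔.isMaximal h𝔔0
  have hfin : Finite (𝓞 L ⧸ 𝔔) := Ideal.finiteQuotientOfFreeOfNeBot 𝔔 h𝔔0
  have hcard : Nat.card (𝓞 L ⧸ 𝔔) ≤ Q := by
    classical
    have := Fintype.ofFinite (𝓞 L ⧸ 𝔔)
    let f : Polynomial (𝓞 L ⧸ 𝔔) := Polynomial.X ^ Q - Polynomial.X
    have hdeg : (Polynomial.X : Polynomial (𝓞 L ⧸ 𝔔)).degree <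
        (Polynomial.X ^ Q : Polynomial (𝓞 L ⧸ 𝔔)).degree := by
      rw [Polynomial.degree_X_pow, Polynomial.degree_X]
      exact_mod_cast (by omega : 1 < Q)
    have hfdeg : f.natDegree = Q := by
      rw [Polynomial.natDegree_eq_of_degree_eq (Polynomial.degree_sub_eq_left_of_degree_lt hdeg),
        Polynomial.natDegree_X_pow]
    have hf0 : f ≠ 0 := Polynomial.ne_zero_of_natDegree_gt (n := 1) (by rw [hfdeg]; omega)
    have hroots : ∀ y : 𝓞 L ⧸ 𝔔, y ∈ f.roots := by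
      intro y
      obtain ⟨x, rfl⟩ := Ideal.Quotient.mk_surjective y
      rw [Polynomial.mem_roots hf0, Polynomial.IsRoot.def]
      simp only [f, Polynomial.eval_sub, Polynomial.eval_pow, Polynomial.eval_X]
      rw [← map_pow, ← map_sub, Ideal.Quotient.eq_zero_iff_mem]
      have := 𝔔.neg_mem (h x)
      rwa [neg_sub] at this
    have h1 : (Finset.univ : Finset (𝓞 L ⧸ 𝔔)).card ≤ f.roots.toFinset.card :=
      Finset.card_le_card (fun y _ => Multiset.mem_toFinset.mpr (hroots y))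
    calc Nat.card (𝓞 L ⧸ 𝔔) = (Finset.univ : Finset (𝓞 L ⧸ 𝔔)).card := by
          rw [Nat.card_eq_fintype_card, Finset.card_univ]
      _ ≤ f.roots.toFinset.card := h1
      _ ≤ Multiset.card f.roots := Multiset.toFinset_card_le _
      _ ≤ f.natDegree := Polynomial.card_roots' f
      _ = Q := hfdeg
  exact hcard

/-- a Frobenius element at a prime whose residue field has `q ^ n` elements has order at least
`n` -/
theorem fdl_le_of_pow_eq_one (σ : L ≃ₐ[K] L) (𝔔 : Ideal (𝓞 L)) (h𝔔 : 𝔔.IsPrime) (h𝔔0 : 𝔔 ≠ ⊥)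
    (q : ℕ) (hq : 2 ≤ q) (h : ∀ x : 𝓞 L, σ • x - x ^ q ∈ 𝔔) (n : ℕ)
    (hn : Ideal.absNorm 𝔔 = q ^ n) (m : ℕ) (hm : 0 < m) (hσ : σ ^ m = 1) : n ≤ m := by
  have h1 : ∀ x : 𝓞 L, x - x ^ (q ^ m) ∈ 𝔔 := by
    intro x
    have h2 := fdl_pow σ 𝔔 q (by omega) h m x
    rwa [hσ, one_smul] at h2
  have hQ : 2 ≤ q ^ m := by
    calc 2 ≤ q := hq
      _ = q ^ 1 := (pow_one q).symm
      _ ≤ q ^ m := Nat.pow_le_pow_right (by omega) hm
  have h3 := fdl_card_le 𝔔 h𝔔 h𝔔0 (q ^ m) hQ h1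
  rw [hn] at h3
  exact (Nat.pow_le_pow_iff_right (by omega : 1 < q)).mp h3

end Arith

section Unique

variable {L : Type} [Field L] [NumberField L] [IsGalois ℚ L]

theorem fdl_isArith_iff (σ : L ≃ₐ[ℚ] L) (𝔓 : Ideal (𝓞 L)) (ℓ : ℕ)
    (hlo : 𝔓.LiesOver (Ideal.span {(ℓ : ℤ)})) :
    IsArithFrobAt ℤ σ 𝔓 ↔ ∀ x : 𝓞 L, σ • x - x ^ ℓ ∈ 𝔓 := by
  have h1 : Nat.card (ℤ ⧸ 𝔓.under ℤ) = ℓ := by
    rw [← hlo.over, Nat.card_congr (Int.quotientSpanNatEquivZMod ℓ).toEquiv, Nat.card_zmod]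
  unfold IsArithFrobAt AlgHom.IsArithFrobAt
  rw [h1]
  rfl

/-- uniqueness of the Frobenius element at an unramified prime -/
theorem fdl_unique (σ σ' : L ≃ₐ[ℚ] L) (𝔓 : Ideal (𝓞 L)) (h𝔓 : 𝔓.IsPrime) (h𝔓0 : 𝔓 ≠ ⊥) (ℓ : ℕ)
    (hℓ : ℓ.Prime) (hlo : 𝔓.LiesOver (Ideal.span {(ℓ : ℤ)})) (hd : ¬ ((ℓ : ℤ) ∣ discr L))
    (h : ∀ x : 𝓞 L, σ • x - x ^ ℓ ∈ 𝔓) (h' : ∀ x : 𝓞 L, σ' • x - x ^ ℓ ∈ 𝔓) : σ = σ' := by
  have hℓ' : Prime (ℓ : ℤ) := Nat.prime_iff_prime_int.mp hℓ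
  have hmax : 𝔓.IsMaximal := h𝔓.isMaximal h𝔓0
  have hunr : Algebra.IsUnramifiedAt ℤ 𝔓 :=
    (not_dvd_discr_iff_forall_liesOver L (𝓞 L) hℓ').mp hd 𝔓 hmax hlo
  have h1 : IsArithFrobAt ℤ σ 𝔓 := (fdl_isArith_iff σ 𝔓 ℓ hlo).mpr h
  have h2 : IsArithFrobAt ℤ σ' 𝔓 := (fdl_isArith_iff σ' 𝔓 ℓ hlo).mpr h'
  have h3 := AlgHom.IsArithFrobAt.eq_of_isUnramifiedAt h1 h2 (by
    intro x hx
    exact mem_nonZeroDivisors_of_ne_zero (fun h0 => hx (h0 ▸ 𝔓.zero_mem)))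
  have hf : FaithfulSMul (L ≃ₐ[ℚ] L) (𝓞 L) := IsGaloisGroup.faithful (𝓞 ℚ)
  apply hf.eq_of_smul_eq_smul
  intro x
  exact DFunLike.congr_fun h3 x

end Unique

section Cyc

variable {L : Type} [Field L] [NumberField L] [IsGalois ℚ L]

/-- Number-field form of Frobenius density for `L / ℚ` Galois: for every `gL ∈ Gal(L/ℚ)` there
are a prime `ℓ ∉ S` unramified in `L` and a prime `𝔓` of `L` above `ℓ` such that `gL` is a power
of every Frobenius element at `𝔓`. -/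
theorem fdl_cyc_frob (hcyc : FdlCyc) (S : Finset ℕ) (gL : L ≃ₐ[ℚ] L) :
    ∃ (ℓ : ℕ) (𝔓 : Ideal (𝓞 L)), ℓ.Prime ∧ ℓ ∉ S ∧ 𝔓.IsPrime ∧ 𝔓 ≠ ⊥ ∧
      𝔓.LiesOver (Ideal.span {(ℓ : ℤ)}) ∧
      ∀ σ : L ≃ₐ[ℚ] L, (∀ x : 𝓞 L, σ • x - x ^ ℓ ∈ 𝔓) → ∃ b : ℕ, σ ^ b = gL := by
  classical
  set C : Subgroup (L ≃ₐ[ℚ] L) := Subgroup.zpowers gL with hC
  set F : IntermediateField ℚ L := IntermediateField.fixedField C with hF
  have hFC : F.fixingSubgroup = C := IntermediateField.fixingSubgroup_fixedField C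
  let e : F.fixingSubgroup ≃* (L ≃ₐ[F] L) := IntermediateField.fixingSubgroupEquiv F
  have hCcyc : IsCyclic C := by rw [hC]; infer_instance
  have hcyc1 : IsCyclic F.fixingSubgroup := by rw [hFC]; exact hCcyc
  have hcyc2 : IsCyclic (L ≃ₐ[F] L) := isCyclic_of_surjective e e.surjective
  set S' : Finset ℕ := S ∪ (discr L).natAbs.primeFactors with hS'
  obtain ⟨𝔮, h𝔮, hℓ, hℓS, hinert⟩ := hcyc F L hcyc2 S'
  set ℓ := Ideal.absNorm 𝔮 with hℓdef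
  have h𝔮0 : 𝔮 ≠ ⊥ := by
    rintro rfl
    rw [hℓdef, Ideal.absNorm_bot] at hℓ
    exact Nat.not_prime_zero hℓ
  have h𝔮m : 𝔮.IsMaximal := h𝔮.isMaximal h𝔮0
  obtain ⟨𝔓, h𝔓m, hlo, h𝔓0⟩ := frob_exists_prime (L := L) 𝔮 h𝔮 h𝔮0
  have h𝔓 : 𝔓.IsPrime := h𝔓m.isPrime
  have hdeg : 𝔓.inertiaDeg (𝓞 F) = Module.finrank F L := hinert 𝔓 h𝔓 hlo
  have hnorm : Ideal.absNorm 𝔓 = ℓ ^ Module.finrank F L := by
    rw [← hdeg, ← Ideal.inertiaDeg'_eq_inertiaDeg 𝔮 𝔓]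
    exact Ideal.absNorm_eq_pow_inertiaDeg'_of_liesOver 𝔓 𝔮 h𝔮 h𝔮0
  have hloZ : 𝔓.LiesOver (Ideal.span {(ℓ : ℤ)}) := dn1_liesOver_int F L 𝔮 hℓ 𝔓 h𝔓 hlo
  have hd : ¬ ((ℓ : ℤ) ∣ discr L) := by
    intro hdvd
    apply hℓS
    rw [hS', Finset.mem_union]
    right
    rw [Nat.mem_primeFactors]
    refine ⟨hℓ, Int.natCast_dvd.mp hdvd, ?_⟩
    exact Int.natAbs_ne_zero.mpr (discr_ne_zero L)
  have hℓS0 : ℓ ∉ S := fun h => hℓS (Finset.mem_union_left _ h)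
  refine ⟨ℓ, 𝔓, hℓ, hℓS0, h𝔓, h𝔓0, hloZ, fun σ hσ => ?_⟩
  -- the Frobenius element of `L / F` at `𝔓`
  have hfin : Finite (𝓞 L ⧸ 𝔓) := Ideal.finiteQuotientOfFreeOfNeBot 𝔓 h𝔓0
  obtain ⟨c, hc⟩ := IsArithFrobAt.exists_of_isInvariant (𝓞 F) (L ≃ₐ[F] L) 𝔓
  have hc' : ∀ x : 𝓞 L, c • x - x ^ ℓ ∈ 𝔓 := (frob_isArith_iff c 𝔮 𝔓).mp hc
  have hσc : σ = c.restrictScalars ℚ :=
    fdl_unique σ (c.restrictScalars ℚ) 𝔓 h𝔓 h𝔓0 ℓ hℓ hloZ hd hσ (fun x => hc' x)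
  have hσC : σ ∈ C := by
    rw [← hFC, hσc]
    intro x
    exact c.commutes x
  -- orders
  have hcardC : Nat.card C = Module.finrank F L := by
    rw [← IsGalois.card_aut_eq_finrank F L, ← hFC]
    exact Nat.card_congr e.toEquiv
  have hordg : orderOf gL = Module.finrank F L := by
    rw [← hcardC, hC, Nat.card_zpowers]
  have hordσ : Module.finrank F L ≤ orderOf σ :=
    fdl_le_of_pow_eq_one σ 𝔓 h𝔓 h𝔓0 ℓ hℓ.two_le hσ _ hnorm _ (orderOf_pos σ)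
      (pow_orderOf_eq_one σ)
  have hle : Subgroup.zpowers σ ≤ C := by
    rw [Subgroup.zpowers_le]
    exact hσC
  have heq : Subgroup.zpowers σ = C := by
    apply Subgroup.eq_of_le_of_card_ge hle
    calc Nat.card C = Module.finrank F L := hcardC
      _ ≤ orderOf σ := hordσ
      _ = Nat.card (Subgroup.zpowers σ) := (Nat.card_zpowers σ).symm
  have hg : gL ∈ Subgroup.zpowers σ := by
    rw [heq, hC]
    exact Subgroup.mem_zpowers gL
  rw [← mem_powers_iff_mem_zpowers] at hg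
  exact (Submonoid.mem_powers_iff _ _).mp hg

end Cyc

section Qbar

local notation "Qb" => AlgebraicClosure ℚ

/-- a Frobenius element at `A` is the `ℓ`-th power modulo the maximal ideal of `A` -/
theorem fdl_frobenius_sub_mem (A : ValuationSubring Qb) {τ : Qb ≃ₐ[ℚ] Qb} {ℓ : ℕ}
    (hτ : A.IsFrobeniusAt τ ℓ) {a : Qb} (ha : a ∈ A) : τ a - a ^ ℓ ∈ A.nonunits := by
  set s : A.decompositionSubgroup ℚ := ⟨τ, hτ.mem_decompositionSubgroup⟩ with hs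
  set b : A := MulSemiringAction.toRingHom (A.decompositionSubgroup ℚ) A s ⟨a, ha⟩ with hb
  have hbc : (b : Qb) = τ a := rfl
  have h1 : IsLocalRing.residue A b = IsLocalRing.residue A ⟨a, ha⟩ ^ ℓ :=
    hτ.smul_residue_eq (IsLocalRing.residue A ⟨a, ha⟩)
  have h2 : b - ⟨a, ha⟩ ^ ℓ ∈ IsLocalRing.maximalIdeal A := by
    rw [← IsLocalRing.residue_eq_zero_iff, map_sub, map_pow, h1, sub_self]
  have e : ((b - ⟨a, ha⟩ ^ ℓ : A) : Qb) = τ a - a ^ ℓ := rfl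
  rw [← e, ValuationSubring.mem_nonunits_iff_exists_mem_maximalIdeal]
  exact ⟨(b - ⟨a, ha⟩ ^ ℓ : A).2, h2⟩

/-- the embedding of the ring of integers of a subfield of `ℚ̄` -/
noncomputable def fdlEmb (L : IntermediateField ℚ Qb) : 𝓞 L →+* Qb :=
  (algebraMap L Qb).comp (algebraMap (𝓞 L) L)

/-- a valuation subring of `ℚ̄` centred at a given prime of a number field -/
theorem fdl_exists_valuationSubring (L : IntermediateField ℚ Qb) (𝔓 : Ideal (𝓞 L))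
    [h𝔓 : 𝔓.IsPrime] :
    ∃ A : ValuationSubring Qb, (∀ x : 𝓞 L, fdlEmb L x ∈ A) ∧
      ∀ x : 𝓞 L, (fdlEmb L x ∈ A.nonunits ↔ x ∈ 𝔓) := by
  have hinj : Function.Injective (fdlEmb L) :=
    (algebraMap L Qb).injective.comp (FaithfulSMul.algebraMap_injective (𝓞 L) L)
  have hg : ∀ y : 𝔓.primeCompl, IsUnit (fdlEmb L y) := by
    intro y
    rw [isUnit_iff_ne_zero]
    intro h0
    have : (y : 𝓞 L) = 0 := hinj (by rw [h0, map_zero])
    exact y.2 (this ▸ 𝔓.zero_mem)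
  let f : Localization.AtPrime 𝔓 →+* Qb := IsLocalization.lift hg
  have hf : ∀ x : 𝓞 L, f (algebraMap (𝓞 L) (Localization.AtPrime 𝔓) x) = fdlEmb L x :=
    fun x => IsLocalization.lift_eq hg x
  obtain ⟨A, h, hloc⟩ := IsLocalRing.exists_factor_valuationRing f
  have hmem : ∀ x : 𝓞 L, fdlEmb L x ∈ A := fun x => hf x ▸ h _
  refine ⟨A, hmem, fun x => ?_⟩
  have key : IsUnit (⟨fdlEmb L x, hmem x⟩ : A) ↔ x ∉ 𝔓 := by
    constructor
    · intro hu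
      have e : (⟨fdlEmb L x, hmem x⟩ : A) =
          f.codRestrict A.toSubring h (algebraMap (𝓞 L) (Localization.AtPrime 𝔓) x) :=
        Subtype.ext (hf x).symm
      rw [e] at hu
      have hu' := hloc.map_nonunit _ hu
      exact (IsLocalization.AtPrime.isUnit_to_map_iff (Localization.AtPrime 𝔓) 𝔓 x).mp hu'
    · intro hx
      have hu : IsUnit (algebraMap (𝓞 L) (Localization.AtPrime 𝔓) x) :=
        (IsLocalization.AtPrime.isUnit_to_map_iff (Localization.AtPrime 𝔓) 𝔓 x).mpr hx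
      have hu' := hu.map (f.codRestrict A.toSubring h)
      have e : (⟨fdlEmb L x, hmem x⟩ : A) =
          f.codRestrict A.toSubring h (algebraMap (𝓞 L) (Localization.AtPrime 𝔓) x) :=
        Subtype.ext (hf x).symm
      rw [e]
      exact hu'
  rw [ValuationSubring.mem_nonunits_iff_exists_mem_maximalIdeal]
  constructor
  · rintro ⟨ha, hm⟩
    by_contra hx
    exact (IsLocalRing.mem_maximalIdeal _).mp hm (key.mpr hx)
  · intro hx
    refine ⟨hmem x, ?_⟩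
    rw [IsLocalRing.mem_maximalIdeal, mem_nonunits_iff]
    exact fun hu => (key.mp hu) hx

/-- **Frobenius density, lifted to `Gal(ℚ̄/ℚ)`** (conditional on the number-field statement
`FdlCyc`), for a finite Galois level `L`. -/
theorem fdl_main_galois (hcyc : FdlCyc) (L : IntermediateField ℚ Qb) [FiniteDimensional ℚ L]
    [IsGalois ℚ L] (S : Finset ℕ) (g : Qb ≃ₐ[ℚ] Qb) :
    ∃ l : ℕ, l.Prime ∧ l ∉ S ∧ ∃ A : ValuationSubring Qb, A.LiesOverPrime l ∧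
      ∃ τ : Qb ≃ₐ[ℚ] Qb, A.IsFrobeniusAt τ l ∧ ∃ b : ℕ, ∀ x ∈ L, (τ ^ b) x = g x := by
  have hnf : NumberField L := {}
  have hnormal : Normal ℚ L := IsGalois.to_normal
  obtain ⟨ℓ, 𝔓, hℓ, hℓS, h𝔓, h𝔓0, hlo, hpow⟩ :=
    fdl_cyc_frob hcyc S (AlgEquiv.restrictNormalHom L g)
  obtain ⟨A, hA, hAiff⟩ := fdl_exists_valuationSubring L 𝔓
  have hAℓ : A.LiesOverPrime ℓ := by
    have h1 : ((ℓ : ℤ) : 𝓞 L) ∈ 𝔓 := by
      have h2 : (ℓ : ℤ) ∈ 𝔓.under ℤ := by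
        rw [← hlo.over]
        exact Ideal.mem_span_singleton_self _
      rw [Ideal.under_def, Ideal.mem_comap] at h2
      simpa using h2
    have h3 := (hAiff _).mpr h1
    have h4 : fdlEmb L ((ℓ : ℤ) : 𝓞 L) = (ℓ : Qb) := by simp
    rw [h4] at h3
    exact h3
  obtain ⟨τ, hτ⟩ := Fermat.Agent.S37.s37_exists_frobenius ℓ hℓ A hAℓ
  have hτL : ∀ x : 𝓞 L, (AlgEquiv.restrictNormalHom L τ) • x - x ^ ℓ ∈ 𝔓 := by
    intro x
    rw [← hAiff]
    have h1 := fdl_frobenius_sub_mem A hτ (hA x)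
    have h2 : fdlEmb L ((AlgEquiv.restrictNormalHom L τ) • x - x ^ ℓ) =
        τ (fdlEmb L x) - fdlEmb L x ^ ℓ := by
      rw [map_sub, map_pow]
      congr 1
      exact AlgEquiv.restrictNormal_commutes τ L (x : L)
    rw [h2]
    exact h1
  obtain ⟨b, hb⟩ := hpow _ hτL
  refine ⟨ℓ, hℓ, hℓS, A, hAℓ, τ, hτ, b, fun x hx => ?_⟩
  have h1 : AlgEquiv.restrictNormalHom L (τ ^ b) = AlgEquiv.restrictNormalHom L g := by
    rw [map_pow, hb]
  have h2 := AlgEquiv.restrictNormal_commutes (τ ^ b) L ⟨x, hx⟩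
  have h3 := AlgEquiv.restrictNormal_commutes g L ⟨x, hx⟩
  have h4 : (τ ^ b).restrictNormal L = g.restrictNormal L := h1
  rw [h4, h3] at h2
  exact h2.symm

/-- **Frobenius density, lifted to `Gal(ℚ̄/ℚ)`** (conditional on the number-field statement
`FdlCyc`): for every finite level `L ⊆ ℚ̄`, every finite set `S` of primes and every
`g ∈ Gal(ℚ̄/ℚ)` there are a prime `ℓ ∉ S`, a valuation subring `A` of `ℚ̄` above `ℓ` and a
Frobenius element `τ` at `A` such that `g` agrees on `L` with a power of `τ`. -/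
theorem fdl_main (hcyc : FdlCyc) (L : IntermediateField ℚ Qb) [FiniteDimensional ℚ L]
    (S : Finset ℕ) (g : Qb ≃ₐ[ℚ] Qb) :
    ∃ l : ℕ, l.Prime ∧ l ∉ S ∧ ∃ A : ValuationSubring Qb, A.LiesOverPrime l ∧
      ∃ τ : Qb ≃ₐ[ℚ] Qb, A.IsFrobeniusAt τ l ∧ ∃ b : ℕ, ∀ x ∈ L, (τ ^ b) x = g x := by
  have halg : Algebra.IsAlgebraic ℚ Qb := AlgebraicClosure.isAlgebraic ℚ
  have hcl : IsAlgClosure ℚ Qb := ⟨inferInstance, inferInstance⟩
  have hnQb : Normal ℚ Qb := IsAlgClosure.normal ℚ Qb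
  have hfd : FiniteDimensional ℚ (IntermediateField.normalClosure ℚ L Qb) :=
    normalClosure.is_finiteDimensional ℚ L Qb
  have hnormal : Normal ℚ (IntermediateField.normalClosure ℚ L Qb) :=
    normalClosure.normal ℚ L Qb
  have hgal : IsGalois ℚ (IntermediateField.normalClosure ℚ L Qb) := {}
  obtain ⟨l, hl, hlS, A, hA, τ, hτ, b, hb⟩ :=
    fdl_main_galois hcyc (IntermediateField.normalClosure ℚ L Qb) S g
  exact ⟨l, hl, hlS, A, hA, τ, hτ, b, fun x hx => hb x (L.le_normalClosure hx)⟩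

end Qbar

end Fermat.Agent.S29
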