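/-
S29 project, package FROBDENS (helper16): the unconditional Frobenius density statement in
`Gal(ℚ̄/ℚ)`, in Prelude vocabulary: `fd_main` = `fdl_main` (helper1, `FrobLift.lean`) fed with the
cyclic inert-prime theorem `fdc_main` (`FrobDensCyclic.lean`).
-/
import Fermat.Agent.S29.FrobLift
import Fermat.Agent.S29.FrobDensCyclic

set_option autoImplicit false

namespace Fermat.Agent.S29

/-- a cyclic extension of number fields has inert primes of degree one outside any finite set -/
theorem fd_cyc : FdlCyc :=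
  fun F M _ _ _ _ _ _ hcyc S => fdc_main F M hcyc S

/-- **Frobenius density (weak form).** For every finite extension `L / ℚ` inside `ℚ̄`, every
finite set `S` of primes and every `g ∈ Gal(ℚ̄/ℚ)` there are a prime `ℓ ∉ S`, a valuation
subring `A` of `ℚ̄` over `ℓ` and a Frobenius element `τ` at `A` such that `g` agrees on `L` with
a power of `τ`. -/
theorem fd_main (L : IntermediateField ℚ (AlgebraicClosure ℚ)) [FiniteDimensional ℚ L]
    (S : Finset ℕ) (g : AlgebraicClosure ℚ ≃ₐ[ℚ] AlgebraicClosure ℚ) :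
    ∃ l : ℕ, l.Prime ∧ l ∉ S ∧ ∃ A : ValuationSubring (AlgebraicClosure ℚ),
      A.LiesOverPrime l ∧ ∃ τ : AlgebraicClosure ℚ ≃ₐ[ℚ] AlgebraicClosure ℚ,
        A.IsFrobeniusAt τ l ∧ ∃ b : ℕ, ∀ x ∈ L, (τ ^ b) x = g x :=
  fdl_main fd_cyc L S g

end Fermat.Agent.S29
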