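import Mathlib

/-!
# S29 stage 3, package QUADPOW

* `qpw_pow`: a quadratic relation `T ^ 2 - a T + c = 0` in an algebra passes to every power
  `T ^ n`, with constant term `c ^ n` (Newton / Lucas recursion; no invertibility needed).
* `qpw_rep_pow`, `qpw_rep_inv`, `qpw_rep_zpow`, `qpw_rep_of_eq`: the same for a group
  representation together with a character `ε` giving the constant terms.
* `qpw_ker_isMaximal`, `qpw_quot_isAlgClosed`, `qpw_k0`: for a ring homomorphism `φ` from the
  ring of algebraic integers to a field of characteristic `p`, the quotient by `ker φ` is an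
  algebraically closed field of characteristic `p` through which `φ` factors.
-/

set_option autoImplicit false

namespace Fermat.Agent.S29

section powers

variable {R A : Type*} [CommRing R] [Ring A] [Algebra R A]

/-- Power sums of the two "roots" `T` and `a - T` of `X ^ 2 - a X + c` are scalars. -/
theorem qpw_powersum (T : A) (a c : R) (h : T * T - a • T + c • (1 : A) = 0) (n : ℕ) :
    ∃ s : R, T ^ n + (algebraMap R A a - T) ^ n = algebraMap R A s ∧
      ∃ s' : R, T ^ (n + 1) + (algebraMap R A a - T) ^ (n + 1) = algebraMap R A s' := by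
  have hTT' : T * (algebraMap R A a - T) = algebraMap R A c := by
    rw [mul_sub, ← Algebra.commutes a T, ← Algebra.smul_def]
    have h2 : c • (1 : A) = algebraMap R A c := by rw [Algebra.smul_def, mul_one]
    rw [h2] at h
    linear_combination (norm := abel) -h
  have hcomm : (algebraMap R A a - T) * T = T * (algebraMap R A a - T) := by
    rw [mul_sub, sub_mul, Algebra.commutes a T]
  induction n with
  | zero =>
    refine ⟨2, ?_, a, ?_⟩
    · rw [pow_zero, pow_zero, map_ofNat]; norm_num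
    · rw [zero_add, pow_one, pow_one]; abel
  | succ n ih =>
    obtain ⟨s, hs, s', hs'⟩ := ih
    refine ⟨s', hs', a * s' - c * s, ?_⟩
    have key : T ^ (n + 1 + 1) + (algebraMap R A a - T) ^ (n + 1 + 1) =
        (T + (algebraMap R A a - T)) * (T ^ (n + 1) + (algebraMap R A a - T) ^ (n + 1)) -
          (T * (algebraMap R A a - T)) * (T ^ n + (algebraMap R A a - T) ^ n) := by
      have e1 : (algebraMap R A a - T) * T ^ (n + 1) = T * (algebraMap R A a - T) * T ^ n := by
        rw [pow_succ' T n, ← mul_assoc, hcomm]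
      have e2 : T * (algebraMap R A a - T) ^ (n + 1) =
          T * (algebraMap R A a - T) * (algebraMap R A a - T) ^ n := by
        rw [pow_succ' _ n, ← mul_assoc]
      rw [add_mul, mul_add, mul_add, mul_add, e1, e2, pow_succ' T (n + 1),
        pow_succ' (algebraMap R A a - T) (n + 1)]
      abel
    rw [key, hs, hs', hTT', map_sub, map_mul, map_mul]
    congr 2
    abel

/-- **Powers.** If `T * T - a • T + c • 1 = 0` then `T ^ n` satisfies a quadratic relation
with constant term `c ^ n`. -/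
theorem qpw_pow (T : A) (a c : R) (h : T * T - a • T + c • (1 : A) = 0) (n : ℕ) :
    ∃ a' : R, T ^ n * T ^ n - a' • T ^ n + c ^ n • (1 : A) = 0 := by
  obtain ⟨s, hs, -⟩ := qpw_powersum T a c h n
  refine ⟨s, ?_⟩
  have hTT' : T * (algebraMap R A a - T) = algebraMap R A c := by
    rw [mul_sub, ← Algebra.commutes a T, ← Algebra.smul_def]
    have h2 : c • (1 : A) = algebraMap R A c := by rw [Algebra.smul_def, mul_one]
    rw [h2] at h
    linear_combination (norm := abel) -h
  have hcomm : Commute T (algebraMap R A a - T) := by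
    show T * (algebraMap R A a - T) = (algebraMap R A a - T) * T
    rw [mul_sub, sub_mul, Algebra.commutes a T]
  have h1 : T ^ n * (algebraMap R A a - T) ^ n = algebraMap R A (c ^ n) := by
    rw [← hcomm.mul_pow, hTT', map_pow]
  have h2 : c ^ n • (1 : A) = algebraMap R A (c ^ n) := by rw [Algebra.smul_def, mul_one]
  rw [Algebra.smul_def, ← hs, h2, ← h1, add_mul, (hcomm.pow_pow n n).eq]
  abel

end powers

section rep

variable {k : Type*} [CommRing k] {G : Type*} [Group G] {V : Type*} [AddCommGroup V]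
  [Module k V]

/-- The relation at `τ` gives a relation at `τ ^ n`. -/
theorem qpw_rep_pow (ρ : G →* Module.End k V) (ε : G →* kˣ) (τ : G) (a : k)
    (h : ρ τ * ρ τ - a • ρ τ + ((ε τ : kˣ) : k) • (1 : Module.End k V) = 0) (n : ℕ) :
    ∃ a' : k, ρ (τ ^ n) * ρ (τ ^ n) - a' • ρ (τ ^ n) +
      ((ε (τ ^ n) : kˣ) : k) • (1 : Module.End k V) = 0 := by
  obtain ⟨a', ha'⟩ := qpw_pow (ρ τ) a ((ε τ : kˣ) : k) h n
  refine ⟨a', ?_⟩
  rw [map_pow, map_pow, Units.val_pow_eq_pow_val]
  exact ha'

/-- The relation at `τ` gives a relation at `τ⁻¹`. -/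
theorem qpw_rep_inv (ρ : G →* Module.End k V) (ε : G →* kˣ) (τ : G) (a : k)
    (h : ρ τ * ρ τ - a • ρ τ + ((ε τ : kˣ) : k) • (1 : Module.End k V) = 0) :
    ∃ a' : k, ρ τ⁻¹ * ρ τ⁻¹ - a' • ρ τ⁻¹ +
      ((ε τ⁻¹ : kˣ) : k) • (1 : Module.End k V) = 0 := by
  refine ⟨(((ε τ)⁻¹ : kˣ) : k) * a, ?_⟩
  have e1 : ρ τ⁻¹ * ρ τ = 1 := by rw [← map_mul, inv_mul_cancel, map_one]
  have e2 : (((ε τ)⁻¹ : kˣ) : k) * ((ε τ : kˣ) : k) = 1 := by
    rw [← Units.val_mul, inv_mul_cancel, Units.val_one]
  have h3 : (((ε τ)⁻¹ : kˣ) : k) • (ρ τ⁻¹ * ρ τ⁻¹ *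
      (ρ τ * ρ τ - a • ρ τ + ((ε τ : kˣ) : k) • (1 : Module.End k V))) = 0 := by
    rw [h, mul_zero, smul_zero]
  have e3 : ρ τ⁻¹ * ρ τ⁻¹ * (ρ τ * ρ τ) = 1 := by
    rw [mul_assoc, ← mul_assoc (ρ τ⁻¹) (ρ τ), e1, one_mul, e1]
  have e4 : ρ τ⁻¹ * ρ τ⁻¹ * ρ τ = ρ τ⁻¹ := by rw [mul_assoc, e1, mul_one]
  rw [mul_add, mul_sub, e3, mul_smul_comm, e4, mul_smul_comm, mul_one, smul_add, smul_sub,
    smul_smul, smul_smul, e2, one_smul] at h3
  have e5 : ε τ⁻¹ = (ε τ)⁻¹ := map_inv ε τ
  rw [e5, ← h3]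
  abel

/-- The relation at `τ` gives a relation at every integer power of `τ`. -/
theorem qpw_rep_zpow (ρ : G →* Module.End k V) (ε : G →* kˣ) (τ : G) (a : k)
    (h : ρ τ * ρ τ - a • ρ τ + ((ε τ : kˣ) : k) • (1 : Module.End k V) = 0) (n : ℤ) :
    ∃ a' : k, ρ (τ ^ n) * ρ (τ ^ n) - a' • ρ (τ ^ n) +
      ((ε (τ ^ n) : kˣ) : k) • (1 : Module.End k V) = 0 := by
  obtain ⟨m, rfl | rfl⟩ := Int.eq_nat_or_neg n
  · rw [zpow_natCast]
    exact qpw_rep_pow ρ ε τ a h m
  · rw [zpow_neg, zpow_natCast, ← inv_pow]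
    obtain ⟨a1, h1⟩ := qpw_rep_inv ρ ε τ a h
    exact qpw_rep_pow ρ ε τ⁻¹ a1 h1 m

/-- Transfer form (as used with the Frobenius density theorem): if `g` acts and has character
value like an integer power of `τ`, the relation at `τ` gives one at `g`. -/
theorem qpw_rep_of_eq (ρ : G →* Module.End k V) (ε : G →* kˣ) (g τ : G) (n : ℤ)
    (hρ : ρ g = ρ (τ ^ n)) (hε : ε g = ε (τ ^ n)) (a : k)
    (h : ρ τ * ρ τ - a • ρ τ + ((ε τ : kˣ) : k) • (1 : Module.End k V) = 0) :
    ∃ a' : k, ρ g * ρ g - a' • ρ g + ((ε g : kˣ) : k) • (1 : Module.End k V) = 0 := by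
  rw [hρ, hε]
  exact qpw_rep_zpow ρ ε τ a h n

end rep

section resfield

open Polynomial

/-- The kernel of a ring homomorphism from the ring of algebraic integers to a field of prime
characteristic is a maximal ideal. -/
theorem qpw_ker_isMaximal {p : ℕ} (hp : p.Prime) {k : Type*} [Field k] [CharP k p]
    (φ : integralClosure ℤ ℂ →+* k) : (RingHom.ker φ).IsMaximal := by
  have : (RingHom.ker φ).IsPrime := RingHom.ker_isPrime φ
  apply Ideal.isMaximal_of_isIntegral_of_isMaximal_comap (R := ℤ)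
  have hprime : ((RingHom.ker φ).comap (algebraMap ℤ (integralClosure ℤ ℂ))).IsPrime :=
    Ideal.comap_isPrime _ _
  refine hprime.isMaximal ?_
  intro hbot
  have hmem : (p : ℤ) ∈ (RingHom.ker φ).comap (algebraMap ℤ (integralClosure ℤ ℂ)) := by
    rw [Ideal.mem_comap, RingHom.mem_ker, map_natCast, map_natCast]
    exact CharP.cast_eq_zero k p
  rw [hbot, Ideal.mem_bot] at hmem
  exact hp.ne_zero (by exact_mod_cast hmem)

/-- The residue field of the ring of algebraic integers at a maximal ideal is algebraically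
closed. -/
theorem qpw_quot_isAlgClosed (I : Ideal (integralClosure ℤ ℂ)) [hI : I.IsMaximal] :
    @IsAlgClosed (integralClosure ℤ ℂ ⧸ I) (Ideal.Quotient.field I) := by
  let _ : Field (integralClosure ℤ ℂ ⧸ I) := Ideal.Quotient.field I
  apply IsAlgClosed.of_exists_root
  intro q hqm hqirr
  have hsurj : Function.Surjective (Ideal.Quotient.mk I) := Ideal.Quotient.mk_surjective
  have hlift : q ∈ Polynomial.lifts (Ideal.Quotient.mk I) :=
    (Polynomial.mem_lifts q).mpr (Polynomial.map_surjective _ hsurj q)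
  obtain ⟨P, hPmap, hPdeg, hPm⟩ := Polynomial.lifts_and_degree_eq_and_monic hlift hqm
  have hinj : Function.Injective (algebraMap (integralClosure ℤ ℂ) ℂ) := Subtype.val_injective
  have hdeg : (P.map (algebraMap (integralClosure ℤ ℂ) ℂ)).degree ≠ 0 := by
    rw [Polynomial.degree_map_eq_of_injective hinj, hPdeg]
    exact Polynomial.degree_ne_of_natDegree_ne
      (Polynomial.natDegree_pos_iff_degree_pos.mpr
        (Polynomial.degree_pos_of_irreducible hqirr)).ne'
  obtain ⟨x, hx⟩ := IsAlgClosed.exists_root (P.map (algebraMap (integralClosure ℤ ℂ) ℂ)) hdeg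
  have hint : IsIntegral (integralClosure ℤ ℂ) x := by
    refine ⟨P, hPm, ?_⟩
    rw [Polynomial.eval₂_eq_eval_map]
    exact hx
  have hintZ : IsIntegral ℤ x := isIntegral_trans x hint
  have hy : P.eval (⟨x, hintZ⟩ : integralClosure ℤ ℂ) = 0 := by
    apply hinj
    rw [map_zero, ← Polynomial.eval_map_apply]
    exact hx
  refine ⟨Ideal.Quotient.mk I ⟨x, hintZ⟩, ?_⟩
  rw [← hPmap, Polynomial.eval_map_apply, hy, map_zero]

/-- **[K0]** A ring homomorphism `φ` from the ring of algebraic integers to a field `k` of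
prime characteristic `p` factors as a surjection `π` onto an algebraically closed field `k0`
of characteristic `p` followed by a field embedding `ι : k0 →+* k`. -/
theorem qpw_k0 {p : ℕ} (hp : p.Prime) {k : Type} [Field k] [CharP k p]
    (φ : integralClosure ℤ ℂ →+* k) :
    ∃ (k0 : Type) (_ : Field k0) (_ : IsAlgClosed k0) (_ : CharP k0 p)
      (π : integralClosure ℤ ℂ →+* k0) (ι : k0 →+* k),
      Function.Surjective π ∧ ∀ x, ι (π x) = φ x := by
  have hmax : (RingHom.ker φ).IsMaximal := qpw_ker_isMaximal hp φ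
  let _ : Field (integralClosure ℤ ℂ ⧸ RingHom.ker φ) := Ideal.Quotient.field (RingHom.ker φ)
  have hinj : Function.Injective (RingHom.kerLift φ) := RingHom.kerLift_injective φ
  refine ⟨integralClosure ℤ ℂ ⧸ RingHom.ker φ, Ideal.Quotient.field (RingHom.ker φ),
    qpw_quot_isAlgClosed (RingHom.ker φ), RingHom.charP (RingHom.kerLift φ) hinj p,
    Ideal.Quotient.mk (RingHom.ker φ), RingHom.kerLift φ, Ideal.Quotient.mk_surjective, ?_⟩
  intro x
  exact RingHom.kerLift_mk φ x

end resfield

end Fermat.Agent.S29
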