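import Fermat.Agent.S29.Assemble
import Fermat.Agent.S29.Cyclo
import Fermat.Agent.S29.FrobDens
import Fermat.Agent.S29.QuadPow

/-!
# S29 stage 3, ASSEMBLY: from the Galois-side output to the frozen shape of S29

* `s29fin_of_galside`: a nonzero finite-dimensional representation `r` over an algebraically
  closed `k0` of characteristic `p`, of finite level, trivial on inertia at the good primes and
  with `r σ ^ 2 - a ℓ • r σ + ℓ = 0` at Frobenius elements, gives (cyclotomic character `cycK`,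
  Frobenius density `fd_main`, `s29as_rep`) a `ResidualGaloisRep k` with the exact Frobenius
  characteristic polynomials, unramified at the good primes.
* `s29fin_attached`: the conclusion of the frozen statement S29 for `N ≠ 0` from that output
  for every algebraically closed residue field.
* `s29fin_zero`: the case `N = 0` of S29 (vacuous conditions).
-/

set_option autoImplicit false
set_option linter.style.haveILetI false

namespace Fermat.Agent.S29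

open Polynomial

local notation "Qb" => AlgebraicClosure ℚ

/-- From the Galois-side output to a `ResidualGaloisRep`. -/
theorem s29fin_of_galside (N p : ℕ) [Fact p.Prime] (hN : N ≠ 0)
    {k0 k : Type} [Field k0] [IsAlgClosed k0] [CharP k0 p] [Field k] (ι : k0 →+* k)
    (a : ℕ → k0)
    {W : Type*} [AddCommGroup W] [Module k0 W] [FiniteDimensional k0 W] [Nontrivial W]
    (r : (Qb ≃ₐ[ℚ] Qb) →* Module.End k0 W)
    (hrL : ∃ L : IntermediateField ℚ Qb, FiniteDimensional ℚ L ∧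
      ∀ σ : Qb ≃ₐ[ℚ] Qb, (∀ x ∈ L, σ x = x) → r σ = 1)
    (hrI : ∀ ℓ : ℕ, ℓ.Prime → ¬ ℓ ∣ N * p → ∀ A : ValuationSubring Qb, A.LiesOverPrime ℓ →
      ∀ σ ∈ A.inertiaSubgroupIn ℚ, r σ = 1)
    (hrF : ∀ ℓ : ℕ, ℓ.Prime → ¬ ℓ ∣ N * p → ∀ A : ValuationSubring Qb, A.LiesOverPrime ℓ →
      ∀ σ : Qb ≃ₐ[ℚ] Qb, A.IsFrobeniusAt σ ℓ →
        r σ * r σ - a ℓ • r σ + (ℓ : k0) • (1 : Module.End k0 W) = 0) :
    ∃ ρ : ResidualGaloisRep k,
      (∀ ℓ : ℕ, ℓ.Prime → ¬ ℓ ∣ N * p → ∀ A : ValuationSubring Qb, A.LiesOverPrime ℓ →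
        ∀ σ : Qb ≃ₐ[ℚ] Qb, A.IsFrobeniusAt σ ℓ →
          LinearMap.charpoly (ρ.ρ σ) = X ^ 2 - C (ι (a ℓ)) * X + C (ℓ : k)) ∧
      (∀ ℓ : ℕ, ℓ.Prime → ¬ ℓ ∣ N * p → ρ.IsUnramifiedAt ℓ) := by
  have hp : p.Prime := Fact.out
  have hNp : N * p ≠ 0 := Nat.mul_ne_zero hN hp.ne_zero
  have hne : ∀ ℓ : ℕ, ¬ ℓ ∣ N * p → ℓ ≠ p := fun ℓ h1 h2 => h1 (h2 ▸ dvd_mul_left p N)
  obtain ⟨ρ, h1, h2⟩ := s29as_rep N p hNp ι r (fun ℓ => a ℓ • (1 : Module.End k0 W)) a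
    (cycK p k0)
    ⟨cycField p, cycField_finiteDimensional p hp.ne_zero,
      fun σ h => cycK_eq_one_of_fix p k0 σ h⟩
    (fun ℓ hℓ hℓN A hA σ hσ => cycK_frobenius p k0 ℓ hℓ (hne ℓ hℓN) A hA σ hσ)
    (fun ℓ hℓ hℓN A hA σ hσ => cycK_inertia p k0 ℓ hℓ (hne ℓ hℓN) A hA σ hσ)
    hrL hrI
    (fun ℓ hℓ hℓN A hA σ hσ => by
      rw [smul_mul_assoc, one_mul]
      exact hrF ℓ hℓ hℓN A hA σ hσ)
    (fun ℓ _ _ σ => by rw [smul_mul_assoc, mul_smul_comm, one_mul, mul_one])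
    (fun L hL _ σ S => by
      have := hL
      exact fd_main L S σ)
    (by
      obtain ⟨w, hw⟩ := exists_ne (0 : W)
      exact ⟨w, hw, fun ℓ _ _ => by simp⟩)
  refine ⟨ρ, fun ℓ hℓ hℓN A hA σ hσ => ?_, h2⟩
  rw [h1 ℓ hℓ hℓN A hA σ hσ, map_natCast]

/-- The conclusion of the frozen statement S29 for a nonzero level, from the Galois-side output
over every algebraically closed field of characteristic `p` receiving the algebraic integers. -/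
theorem s29fin_attached (N p : ℕ) (hp : p.Prime) (hN : N ≠ 0)
    (g : CuspForm (CongruenceSubgroup.Gamma0 N) 2)
    {k : Type} [Field k] [CharP k p] (φ : integralClosure ℤ ℂ →+* k)
    (hcore : ∀ (k0 : Type) [Field k0] [IsAlgClosed k0] [CharP k0 p]
      (π : integralClosure ℤ ℂ →+* k0),
      ∃ a : ℕ → integralClosure ℤ ℂ,
        (∀ ℓ : ℕ, ℓ.Prime → ¬ ℓ ∣ N * p →
          ((a ℓ : integralClosure ℤ ℂ) : ℂ) = ModularFormClass.qCoeff g ℓ) ∧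
        ∃ (W : Type) (_ : AddCommGroup W) (_ : Module k0 W) (_ : FiniteDimensional k0 W)
          (_ : Nontrivial W) (r : (Qb ≃ₐ[ℚ] Qb) →* Module.End k0 W),
          (∃ L : IntermediateField ℚ Qb, FiniteDimensional ℚ L ∧
            ∀ σ : Qb ≃ₐ[ℚ] Qb, (∀ x ∈ L, σ x = x) → r σ = 1) ∧
          (∀ ℓ : ℕ, ℓ.Prime → ¬ ℓ ∣ N * p → ∀ A : ValuationSubring Qb, A.LiesOverPrime ℓ →
            ∀ σ ∈ A.inertiaSubgroupIn ℚ, r σ = 1) ∧
          (∀ ℓ : ℕ, ℓ.Prime → ¬ ℓ ∣ N * p → ∀ A : ValuationSubring Qb, A.LiesOverPrime ℓ →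
            ∀ σ : Qb ≃ₐ[ℚ] Qb, A.IsFrobeniusAt σ ℓ →
              r σ * r σ - π (a ℓ) • r σ + (ℓ : k0) • (1 : Module.End k0 W) = 0)) :
    ∃ ρ : ResidualGaloisRep k, ρ.IsAttachedTo g φ ∧
      ∀ ℓ : ℕ, ℓ.Prime → ¬ ℓ ∣ N * p → ρ.IsUnramifiedAt ℓ := by
  have : Fact p.Prime := ⟨hp⟩
  obtain ⟨k0, _, _, _, π, ι, -, hι⟩ := qpw_k0 hp φ
  obtain ⟨a, ha, W, _, _, _, _, r, hrL, hrI, hrF⟩ := hcore k0 π
  obtain ⟨ρ, h1, h2⟩ := s29fin_of_galside N p hN ι (fun ℓ => π (a ℓ)) r hrL hrI hrF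
  refine ⟨ρ, ?_, h2⟩
  intro ℓ hℓ hℓN hℓk A hA σ hσ
  have hℓp : ¬ ℓ ∣ N * p := by
    intro hd
    rcases (Nat.Prime.dvd_mul hℓ).1 hd with h | h
    · exact hℓN h
    · have : ℓ = p := (Nat.prime_dvd_prime_iff_eq hℓ hp).1 h
      exact hℓk (by rw [this]; exact CharP.cast_eq_zero k p)
  refine ⟨a ℓ, ha ℓ hℓ hℓp, ?_⟩
  rw [h1 ℓ hℓ hℓp A hA σ hσ, hι]

/-- The level-zero case of S29: both conditions are vacuous. -/
theorem s29fin_zero (p : ℕ) (g : CuspForm (CongruenceSubgroup.Gamma0 0) 2)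
    {k : Type} [Field k] (φ : integralClosure ℤ ℂ →+* k) :
    ∃ ρ : ResidualGaloisRep k, ρ.IsAttachedTo g φ ∧
      ∀ ℓ : ℕ, ℓ.Prime → ¬ ℓ ∣ 0 * p → ρ.IsUnramifiedAt ℓ := by
  obtain ⟨ρ, -, -⟩ := s29la_residual (RingHom.id k)
    (1 : (Qb ≃ₐ[ℚ] Qb) →* Matrix (Fin 2) (Fin 2) k) ⟨⊥, inferInstance, fun _ _ => rfl⟩
  refine ⟨ρ, fun ℓ _ hℓ => absurd (dvd_zero ℓ) hℓ, fun ℓ _ hℓ => ?_⟩
  rw [zero_mul] at hℓ
  exact absurd (dvd_zero ℓ) hℓ

end Fermat.Agent.S29
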