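import Fermat.Agent.S29.LinAlg
import Fermat.Agent.S13.Assembly
import Fermat.Agent.S13.DivPoly
import Fermat.Prelude.Def_FreyPackage_EigenformResidualAttachment

/-!
# S42 from the shape of S29

`s42fin_of_attached`: the property `FreyPackage.EigenformResidualAttachmentAt M` of the frozen
statement S42 follows from the conclusion `∃ ρ : ResidualGaloisRep k, ρ.IsAttachedTo g φ` of
S29 at level `M`, the prime `P.p` and the residue fields of the algebraic integers: the field is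
`ℤ̄ ⧸ 𝔪`, trace and determinant are read off the characteristic polynomial, and the number field
`F` is the normal closure of the compositum of a finite level of the representation and of the
field generated by the coordinates of the `p`-torsion points of the Frey curve.
-/

set_option autoImplicit false
set_option linter.style.haveILetI false

open WeierstrassCurve WeierstrassCurve.Affine WeierstrassCurve.Affine.Point Polynomial

namespace Fermat.Agent.S29

local notation "Qb" => AlgebraicClosure ℚ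

/-- The `p`-torsion of the Frey curve is fixed pointwise by the absolute Galois group of a
number field. -/
theorem s42fin_frey_level (P : FreyPackage) :
    ∃ L : IntermediateField ℚ Qb, FiniteDimensional ℚ L ∧
      ∀ σ : Qb ≃ₐ[ℚ] Qb, (∀ x ∈ L, σ x = x) →
        galoisRepModuleEnd (S := ℚ) (K := Qb) P.freyCurve P.p σ = 1 := by
  classical
  have hp2 : P.p ≠ 2 := by
    have := P.hp5
    omega
  have hpF : ((P.p : ℕ) : Qb) ≠ 0 := Nat.cast_ne_zero.mpr P.hp0
  have hfin : Finite (Fermat.Agent.S13.asmT P) :=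
    Fermat.Agent.S13.dp_finite_torsion _ P.pp hp2 hpF
  have := Fintype.ofFinite (Fermat.Agent.S13.asmT P)
  let S : Finset Qb :=
    Finset.univ.biUnion (fun x : Fermat.Agent.S13.asmT P => Fermat.Agent.S13.asmCoords P x.1)
  have halg : Algebra.IsAlgebraic ℚ Qb := AlgebraicClosure.isAlgebraic ℚ
  refine ⟨IntermediateField.adjoin ℚ (S : Set Qb),
    IntermediateField.finiteDimensional_adjoin (fun x _ => Algebra.IsIntegral.isIntegral x),
    fun σ hσ => ?_⟩
  ext x
  rw [galoisRepModuleEnd_apply]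
  exact Fermat.Agent.S13.asm_smul_eq_of_fix P σ x.1
    (fun a ha => hσ a (IntermediateField.subset_adjoin ℚ _
      (Finset.mem_coe.2 (Finset.mem_biUnion.mpr ⟨x, Finset.mem_univ _, ha⟩))))


/-- **S42 from the shape of S29.** -/
theorem s42fin_of_attached (P : FreyPackage) (M : ℕ)
    (h29 : ∀ (g : CuspForm (CongruenceSubgroup.Gamma0 M) 2), g.IsNormalizedEigenform →
      ∀ (k : Type) [Field k] [CharP k P.p] (φ : integralClosure ℤ ℂ →+* k),
        ∃ ρ : ResidualGaloisRep k, ρ.IsAttachedTo g φ) :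
    P.EigenformResidualAttachmentAt M := by
  intro g hg 𝔪 hmax hp𝔪
  haveI := hmax
  letI : Field (integralClosure ℤ ℂ ⧸ 𝔪) := Ideal.Quotient.field 𝔪
  haveI hchar : CharP (integralClosure ℤ ℂ ⧸ 𝔪) P.p :=
    (CharP.charP_iff_prime_eq_zero P.pp).2 (by
      have h0 : Ideal.Quotient.mk 𝔪 (P.p : integralClosure ℤ ℂ) = 0 :=
        Ideal.Quotient.eq_zero_iff_mem.2 hp𝔪
      rwa [map_natCast] at h0)
  letI : Algebra (ZMod P.p) (integralClosure ℤ ℂ ⧸ 𝔪) := ZMod.algebra _ P.p
  obtain ⟨r, hr⟩ := h29 g hg (integralClosure ℤ ℂ ⧸ 𝔪) (Ideal.Quotient.mk 𝔪)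
  obtain ⟨L1, hL1, hL1'⟩ := r.factorsThroughFiniteLevel
  obtain ⟨L2, hL2, hL2'⟩ := s42fin_frey_level P
  have halg : Algebra.IsAlgebraic ℚ Qb := AlgebraicClosure.isAlgebraic ℚ
  have hcl : IsAlgClosure ℚ Qb := ⟨inferInstance, inferInstance⟩
  have hnQb : Normal ℚ Qb := IsAlgClosure.normal ℚ Qb
  have hLfin : FiniteDimensional ℚ (L1 ⊔ L2 : IntermediateField ℚ Qb) :=
    IntermediateField.finiteDimensional_sup L1 L2
  have hFfin : FiniteDimensional ℚ
      (IntermediateField.normalClosure ℚ (L1 ⊔ L2 : IntermediateField ℚ Qb) Qb) :=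
    normalClosure.is_finiteDimensional ℚ _ Qb
  have hFnormal : Normal ℚ
      (IntermediateField.normalClosure ℚ (L1 ⊔ L2 : IntermediateField ℚ Qb) Qb) :=
    normalClosure.normal ℚ _ Qb
  have hFgal : IsGalois ℚ
      (IntermediateField.normalClosure ℚ (L1 ⊔ L2 : IntermediateField ℚ Qb) Qb) := {}
  have hFnf : NumberField
      (IntermediateField.normalClosure ℚ (L1 ⊔ L2 : IntermediateField ℚ Qb) Qb) := {}
  have hLle : (L1 ⊔ L2 : IntermediateField ℚ Qb) ≤
      IntermediateField.normalClosure ℚ (L1 ⊔ L2 : IntermediateField ℚ Qb) Qb :=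
    IntermediateField.le_normalClosure _
  have hℓk : ∀ ℓ : ℕ, ℓ.Prime → ℓ ≠ P.p → ((ℓ : ℕ) : integralClosure ℤ ℂ ⧸ 𝔪) ≠ 0 := by
    intro ℓ hℓ hne h0
    have h1 := (CharP.cast_eq_zero_iff (integralClosure ℤ ℂ ⧸ 𝔪) P.p ℓ).1 h0
    exact hne ((Nat.prime_dvd_prime_iff_eq P.pp hℓ).1 h1).symm
  refine ⟨integralClosure ℤ ℂ ⧸ 𝔪, inferInstance, inferInstance, r.V, inferInstance,
    inferInstance, r.ρ, Ideal.Quotient.mk 𝔪,
    IntermediateField.normalClosure ℚ (L1 ⊔ L2 : IntermediateField ℚ Qb) Qb,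
    inferInstance, hFnf, hFgal, inferInstance, inferInstance, ?_, r.finrank_eq, ?_, ?_, ?_⟩
  · intro x hx
    rw [RingHom.mem_ker]
    exact Ideal.Quotient.eq_zero_iff_mem.2 hx
  · intro σ hσ
    have hfix : ∀ x ∈ IntermediateField.normalClosure ℚ (L1 ⊔ L2 : IntermediateField ℚ Qb) Qb,
        σ x = x := by
      intro x hx
      have h1 := AlgEquiv.restrictNormal_commutes σ
        (IntermediateField.normalClosure ℚ (L1 ⊔ L2 : IntermediateField ℚ Qb) Qb) ⟨x, hx⟩
      have h2 : σ.restrictNormal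
          (IntermediateField.normalClosure ℚ (L1 ⊔ L2 : IntermediateField ℚ Qb) Qb) = 1 :=
        MonoidHom.mem_ker.1 hσ
      rw [h2] at h1
      exact h1.symm
    refine ⟨MonoidHom.mem_ker.2 ?_, MonoidHom.mem_ker.2 ?_⟩
    · exact hL2' σ fun x hx => hfix x (hLle ((le_sup_right : L2 ≤ L1 ⊔ L2) hx))
    · exact hL1' σ fun x hx => hfix x (hLle ((le_sup_left : L1 ≤ L1 ⊔ L2) hx))
  · intro ℓ hℓ hℓM hℓp A hA τ hτ
    obtain ⟨a, ha, hcp⟩ := hr ℓ hℓ hℓM (hℓk ℓ hℓ hℓp) A hA τ hτ
    exact ⟨a, ha, (s29la_trace_det r.finrank_eq (r.ρ τ) _ _ hcp).1⟩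
  · intro ℓ hℓ hℓM hℓp A hA τ hτ
    obtain ⟨a, ha, hcp⟩ := hr ℓ hℓ hℓM (hℓk ℓ hℓ hℓp) A hA τ hτ
    exact (s29la_trace_det r.finrank_eq (r.ρ τ) _ _ hcp).2

end Fermat.Agent.S29
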