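/-
Stage 3 leaf AUT-C: automorphisms of an algebraically closed field over a subfield move
transcendental elements a lot.  Mathlib only.
-/
import Mathlib

namespace Fermat.Agent.S29

/-- The shift automorphism of a polynomial ring in the variable `i₀`. -/
theorem autc_shift_comp {ι K : Type*} [CommRing K] [DecidableEq ι] (i₀ : ι) (c d : K)
    (hcd : c + d = 0) :
    ((MvPolynomial.aeval (R := K)
        (fun i : ι => if i = i₀ then MvPolynomial.X i + MvPolynomial.C c
          else MvPolynomial.X i)).comp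
      (MvPolynomial.aeval (R := K)
        (fun i : ι => if i = i₀ then MvPolynomial.X i + MvPolynomial.C d
          else MvPolynomial.X i))) = AlgHom.id K (MvPolynomial ι K) := by
  apply MvPolynomial.algHom_ext
  intro i
  by_cases hi : i = i₀
  · subst hi
    simp only [AlgHom.comp_apply, MvPolynomial.aeval_X, if_true, map_add, MvPolynomial.aeval_C,
      MvPolynomial.algebraMap_eq, AlgHom.id_apply]
    rw [add_assoc, ← MvPolynomial.C_add, hcd, MvPolynomial.C_0, add_zero]
  · simp [hi]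

theorem autc_exists_add {K Ω : Type*} [Field K] [Field Ω] [Algebra K Ω] [IsAlgClosed Ω]
    (z : Ω) (hz : Transcendental K z) (c : K) :
    ∃ σ : Ω ≃ₐ[K] Ω, σ z = z + algebraMap K Ω c := by
  classical
  have hs : AlgebraicIndepOn K id ({z} : Set Ω) := by
    have : Subsingleton ({z} : Set Ω) := by infer_instance
    exact (algebraicIndependent_singleton_iff (R := K)
      (x := fun x : ({z} : Set Ω) => id (x : Ω)) ⟨z, rfl⟩).2 hz
  obtain ⟨t, hst, ht⟩ := exists_isTranscendenceBasis_superset hs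
  have hzt : z ∈ t := hst rfl
  let z' : t := ⟨z, hzt⟩
  have hA : IsAlgClosure (Algebra.adjoin K (Set.range ((↑) : t → Ω))) Ω :=
    IsAlgClosed.isAlgClosure_of_transcendence_basis _ ht
  let f : MvPolynomial t K →ₐ[K] MvPolynomial t K :=
    MvPolynomial.aeval (fun i : t => if i = z' then MvPolynomial.X i + MvPolynomial.C c
      else MvPolynomial.X i)
  let g : MvPolynomial t K →ₐ[K] MvPolynomial t K :=
    MvPolynomial.aeval (fun i : t => if i = z' then MvPolynomial.X i + MvPolynomial.C (-c)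
      else MvPolynomial.X i)
  have hfg : f.comp g = AlgHom.id K _ := autc_shift_comp z' c (-c) (by ring)
  have hgf : g.comp f = AlgHom.id K _ := autc_shift_comp z' (-c) c (by ring)
  let φ : MvPolynomial t K ≃ₐ[K] MvPolynomial t K := AlgEquiv.ofAlgHom f g hfg hgf
  let e : Algebra.adjoin K (Set.range ((↑) : t → Ω)) ≃ₐ[K]
      Algebra.adjoin K (Set.range ((↑) : t → Ω)) :=
    ht.1.aevalEquiv.symm.trans (φ.trans ht.1.aevalEquiv)
  let σ0 : Ω ≃+* Ω := IsAlgClosure.equivOfEquiv Ω Ω e.toRingEquiv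
  have hσ0 : ∀ s, σ0 (algebraMap _ Ω s) = algebraMap _ Ω (e s) :=
    IsAlgClosure.equivOfEquiv_algebraMap Ω Ω e.toRingEquiv
  have hcomm : ∀ r : K, σ0 (algebraMap K Ω r) = algebraMap K Ω r := by
    intro r
    have h1 := hσ0 (algebraMap K _ r)
    rw [e.commutes] at h1
    rwa [← IsScalarTower.algebraMap_apply] at h1
  refine ⟨AlgEquiv.ofRingEquiv (f := σ0) hcomm, ?_⟩
  have hz1 : algebraMap (Algebra.adjoin K (Set.range ((↑) : t → Ω))) Ω
      (ht.1.aevalEquiv (MvPolynomial.X z')) = z := by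
    rw [ht.1.algebraMap_aevalEquiv, MvPolynomial.aeval_X]
  have h2 := hσ0 (ht.1.aevalEquiv (MvPolynomial.X z'))
  rw [hz1] at h2
  show σ0 z = _
  rw [h2]
  have h3 : e (ht.1.aevalEquiv (MvPolynomial.X z')) =
      ht.1.aevalEquiv (MvPolynomial.X z' + MvPolynomial.C c) := by
    simp [e, φ, f]
  rw [h3, ht.1.algebraMap_aevalEquiv]
  simp [z']

theorem autc_infinite_orbit {K Ω : Type*} [Field K] [Field Ω] [Algebra K Ω] [IsAlgClosed Ω]
    [CharZero K] (z : Ω) (hz : Transcendental K z) :
    Set.Infinite {w : Ω | ∃ σ : Ω ≃ₐ[K] Ω, σ z = w} := by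
  have hinj : Function.Injective (fun n : ℕ => z + algebraMap K Ω (n : K)) := by
    intro m n hmn
    have h1 : algebraMap K Ω (m : K) = algebraMap K Ω (n : K) := add_left_cancel hmn
    have h2 : (m : K) = (n : K) := (algebraMap K Ω).injective h1
    exact_mod_cast h2
  refine Set.infinite_of_injective_forall_mem hinj ?_
  intro n
  obtain ⟨σ, hσ⟩ := autc_exists_add z hz (n : K)
  exact ⟨σ, hσ⟩

theorem autc_isAlgebraic_of_finite_orbit {K Ω : Type*} [Field K] [Field Ω] [Algebra K Ω]
    [IsAlgClosed Ω] [CharZero K] (z : Ω)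
    (h : Set.Finite {w : Ω | ∃ σ : Ω ≃ₐ[K] Ω, σ z = w}) : IsAlgebraic K z := by
  by_contra hz
  exact autc_infinite_orbit z hz h

/-- An element fixed by every automorphism over `K` is algebraic over `K`. -/
theorem autc_isAlgebraic_of_fixed {K Ω : Type*} [Field K] [Field Ω] [Algebra K Ω]
    [IsAlgClosed Ω] [CharZero K] (z : Ω) (h : ∀ σ : Ω ≃ₐ[K] Ω, σ z = z) : IsAlgebraic K z := by
  refine autc_isAlgebraic_of_finite_orbit z ((Set.finite_singleton z).subset ?_)
  rintro w ⟨σ, rfl⟩
  exact h σ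

/-- An element fixed by a finite-index subgroup of the automorphisms over `K` is algebraic
over `K`. -/
theorem autc_isAlgebraic_of_finiteIndex {K Ω : Type*} [Field K] [Field Ω] [Algebra K Ω]
    [IsAlgClosed Ω] [CharZero K] (z : Ω) (H : Subgroup (Ω ≃ₐ[K] Ω)) [H.FiniteIndex]
    (h : ∀ σ ∈ H, σ z = z) : IsAlgebraic K z := by
  have hfin : Finite ((Ω ≃ₐ[K] Ω) ⧸ H) := Subgroup.finite_quotient_of_finiteIndex
  refine autc_isAlgebraic_of_finite_orbit z
    ((Set.finite_range (fun q : (Ω ≃ₐ[K] Ω) ⧸ H => (Quotient.out q) z)).subset ?_)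
  rintro w ⟨σ, rfl⟩
  obtain ⟨τ, hτ⟩ := QuotientGroup.mk_out_eq_mul H σ
  refine ⟨(σ : (Ω ≃ₐ[K] Ω) ⧸ H), ?_⟩
  show (Quotient.out (σ : (Ω ≃ₐ[K] Ω) ⧸ H)) z = σ z
  rw [hτ, AlgEquiv.mul_apply, h _ τ.2]

/-- Over an algebraically closed base, an algebraic element lies in the base. -/
theorem autc_mem_range_of_isAlgebraic {K Ω : Type*} [Field K] [Field Ω] [Algebra K Ω]
    [IsAlgClosed K] (z : Ω) (hz : IsAlgebraic K z) : z ∈ (algebraMap K Ω).range := by
  have hint : IsIntegral K z := hz.isIntegral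
  have hdeg : (minpoly K z).degree = 1 :=
    IsAlgClosed.degree_eq_one_of_irreducible K (minpoly.irreducible hint)
  exact minpoly.mem_range_of_degree_eq_one K z hdeg

/-- Over an algebraically closed base of characteristic zero, an element with finite orbit
lies in the base. -/
theorem autc_mem_range_of_finite_orbit {K Ω : Type*} [Field K] [Field Ω] [Algebra K Ω]
    [IsAlgClosed K] [IsAlgClosed Ω] [CharZero K] (z : Ω)
    (h : Set.Finite {w : Ω | ∃ σ : Ω ≃ₐ[K] Ω, σ z = w}) : z ∈ (algebraMap K Ω).range :=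
  autc_mem_range_of_isAlgebraic z (autc_isAlgebraic_of_finite_orbit z h)

/-- Over an algebraically closed base of characteristic zero, an element fixed by a
finite-index subgroup of automorphisms lies in the base. -/
theorem autc_mem_range_of_finiteIndex {K Ω : Type*} [Field K] [Field Ω] [Algebra K Ω]
    [IsAlgClosed K] [IsAlgClosed Ω] [CharZero K] (z : Ω) (H : Subgroup (Ω ≃ₐ[K] Ω))
    [H.FiniteIndex] (h : ∀ σ ∈ H, σ z = z) : z ∈ (algebraMap K Ω).range :=
  autc_mem_range_of_isAlgebraic z (autc_isAlgebraic_of_finiteIndex z H h)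

/-- Over an algebraically closed base of characteristic zero, an element fixed by all
automorphisms lies in the base. -/
theorem autc_mem_range_of_fixed {K Ω : Type*} [Field K] [Field Ω] [Algebra K Ω]
    [IsAlgClosed K] [IsAlgClosed Ω] [CharZero K] (z : Ω)
    (h : ∀ σ : Ω ≃ₐ[K] Ω, σ z = z) : z ∈ (algebraMap K Ω).range :=
  autc_mem_range_of_isAlgebraic z (autc_isAlgebraic_of_fixed z h)

end Fermat.Agent.S29
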