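import Fermat.Agent.S29.BaseChangePlace
import Fermat.Agent.S18.BaseChangeField
import Fermat.Prelude.Def_ModularCurve_ArithmeticGalois

/-!
# S29, BASECHANGE: the concrete instance of `BaseChangePlace` for `F₀ · K₀ ⊆ F₀ · L`

`K₀ → L` fields of characteristic zero, `Fq ⊆ ℚ((q))`, `FK := laurentBaseChange K₀ Fq`,
`FL := laurentBaseChange L Fq`, `bcfHom K₀ L Fq : FK →+* FL` (coefficientwise).  This file
instantiates the abstract base change of places / divisors / classes (`bcpMap`, `bcpDiv`,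
`bcpPic`) at these fields; no statement below carries an instance argument.

* `bccMap`, `bccMap_ord`, `bccMap_eq_of_ord`, `bccMap_injective`, `bcc_trivial_or`, `bcc_range`;
* `bccDiv`, `bccDiv_ord`, `bccDiv_degree`, `bccDiv_principal`, `bccDiv0`, `bccPic`, `bccPic_mk`;
* `bcc_smul_bcfHom`, `bcc_smul_map`: automorphisms of `L` fixing `K₀` fix the image of `FK`
  and the places `bccMap P`.
-/

set_option autoImplicit false
set_option linter.unusedSectionVars false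
set_option linter.style.haveILetI false

open ModularCurve AlgebraicCurve

namespace Fermat.Agent.S29

open Fermat.Agent.S18

section conc

variable (K₀ L : Type*) [Field K₀] [Field L] [Algebra ℚ K₀] [Algebra ℚ L] [Algebra K₀ L]
variable (Fq : IntermediateField ℚ (LaurentSeries ℚ))

attribute [local instance 2000] bcfAlgebra bcfAlgebraConst

local instance (priority := 2000) bccTowerConst :
    IsScalarTower K₀ L ↥(laurentBaseChange L Fq) :=
  bcf_isScalarTower_const K₀ L Fq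

local instance (priority := 2000) bccTower :
    IsScalarTower K₀ ↥(laurentBaseChange K₀ Fq) ↥(laurentBaseChange L Fq) :=
  bcf_isScalarTower K₀ L Fq

omit [Algebra ℚ K₀] [Algebra ℚ L] [Algebra K₀ L] in
/-- coefficients of a scalar multiple in an intermediate field of Laurent series -/
theorem bcc_coeff_smul {K : Type*} [Field K] (S : IntermediateField K (LaurentSeries K))
    (c : K) (y : ↥S) (m : ℤ) :
    ((c • y : ↥S) : LaurentSeries K).coeff m = c * (y : LaurentSeries K).coeff m := by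
  have h : ((c • y : ↥S) : LaurentSeries K) =
      algebraMap K (LaurentSeries K) c * (y : LaurentSeries K) := by
    rw [Algebra.smul_def]
    rfl
  rw [h, algebraMap_laurentSeries_eq_single, HahnSeries.coeff_single_zero_mul]

omit [Algebra ℚ K₀] [Algebra ℚ L] [Algebra K₀ L] in
theorem bcc_coeff_sum {K : Type*} [Field K] (S : IntermediateField K (LaurentSeries K))
    {ι : Type*} (s : Finset ι) (f : ι → ↥S) (m : ℤ) :
    ((∑ i ∈ s, f i : ↥S) : LaurentSeries K).coeff m =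
      ∑ i ∈ s, (f i : LaurentSeries K).coeff m := by
  classical
  induction s using Finset.induction_on with
  | empty => simp
  | insert a s ha ih =>
      rw [Finset.sum_insert ha, Finset.sum_insert ha, ← ih]
      rfl

/-- linear disjointness of `FK` and `L` over `K₀` inside `FL` -/
theorem bcc_LD : BcpLD K₀ L ↥(laurentBaseChange K₀ Fq) ↥(laurentBaseChange L Fq) := by
  classical
  intro n x hx
  rw [linearIndependent_iff'] at hx ⊢
  intro s g hg i hi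
  rw [← Module.forall_dual_apply_eq_zero_iff (R := K₀)]
  intro φ
  refine hx s (fun i => φ (g i)) ?_ i hi
  apply Subtype.ext
  ext m
  have hm := congrArg (fun y : ↥(laurentBaseChange L Fq) => (y : LaurentSeries L).coeff m) hg
  simp only [bcc_coeff_sum, bcc_coeff_smul] at hm
  rw [bcc_coeff_sum]
  simp only [bcc_coeff_smul]
  have h0 : ((0 : ↥(laurentBaseChange L Fq)) : LaurentSeries L).coeff m = 0 := rfl
  rw [h0] at hm
  have h2 := congrArg φ hm
  rw [map_sum, map_zero] at h2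
  have h3 : ((0 : ↥(laurentBaseChange K₀ Fq)) : LaurentSeries K₀).coeff m = 0 := rfl
  rw [h3, ← h2]
  refine Finset.sum_congr rfl fun j _ => ?_
  have h4 : ((algebraMap ↥(laurentBaseChange K₀ Fq) ↥(laurentBaseChange L Fq) (x j) :
      ↥(laurentBaseChange L Fq)) : LaurentSeries L).coeff m =
      algebraMap K₀ L ((x j : LaurentSeries K₀).coeff m) := rfl
  rw [h4, mul_comm (g j), ← Algebra.smul_def, map_smul, smul_eq_mul, mul_comm]

/-- `FL` is generated by `FK` and the constants -/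
theorem bcc_gen :
    IntermediateField.adjoin ↥(laurentBaseChange K₀ Fq)
      (Set.range (algebraMap L ↥(laurentBaseChange L Fq))) = ⊤ :=
  bcf_adjoin_eq_top K₀ L Fq

/-- the place of `FL / L` above a place of `FK / K₀` -/
noncomputable def bccMap
    (hdeg₀ : ∀ P : Place K₀ ↥(laurentBaseChange K₀ Fq), P.deg = 1) :
    Place K₀ ↥(laurentBaseChange K₀ Fq) → Place L ↥(laurentBaseChange L Fq) :=
  bcpMap (bcc_LD K₀ L Fq) (bcc_gen K₀ L Fq) hdeg₀

theorem bccMap_ord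
    (hdeg₀ : ∀ P : Place K₀ ↥(laurentBaseChange K₀ Fq), P.deg = 1) (P : Place K₀ ↥(laurentBaseChange K₀ Fq)) (y : ↥(laurentBaseChange K₀ Fq)) :
    (bccMap K₀ L Fq hdeg₀ P).ord (bcfHom K₀ L Fq y) = P.ord y :=
  bcpMap_ord (bcc_LD K₀ L Fq) (bcc_gen K₀ L Fq) hdeg₀ P y

theorem bccMap_deg
    (hdeg₀ : ∀ P : Place K₀ ↥(laurentBaseChange K₀ Fq), P.deg = 1) (P : Place K₀ ↥(laurentBaseChange K₀ Fq)) :
    (bccMap K₀ L Fq hdeg₀ P).deg = 1 :=
  bcpMap_deg (bcc_LD K₀ L Fq) (bcc_gen K₀ L Fq) hdeg₀ P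

theorem bccMap_eq_of_ord
    (hdeg₀ : ∀ P : Place K₀ ↥(laurentBaseChange K₀ Fq), P.deg = 1) (P : Place K₀ ↥(laurentBaseChange K₀ Fq))
    (Q : Place L ↥(laurentBaseChange L Fq))
    (h : ∀ y : ↥(laurentBaseChange K₀ Fq), Q.ord (bcfHom K₀ L Fq y) = P.ord y) :
    Q = bccMap K₀ L Fq hdeg₀ P :=
  bcpMap_eq_of_ord (bcc_LD K₀ L Fq) (bcc_gen K₀ L Fq) hdeg₀ P Q h

theorem bccMap_injective
    (hdeg₀ : ∀ P : Place K₀ ↥(laurentBaseChange K₀ Fq), P.deg = 1) : Function.Injective (bccMap K₀ L Fq hdeg₀) :=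
  bcpMap_injective (bcc_LD K₀ L Fq) (bcc_gen K₀ L Fq) hdeg₀

/-- every place of `FL / L` is trivial on `FK` or lies over a place of `FK / K₀` -/
theorem bcc_trivial_or
    (hdeg₀ : ∀ P : Place K₀ ↥(laurentBaseChange K₀ Fq), P.deg = 1) (Q : Place L ↥(laurentBaseChange L Fq)) :
    (∀ y : ↥(laurentBaseChange K₀ Fq), y ≠ 0 → Q.ord (bcfHom K₀ L Fq y) = 0) ∨
      ∃ P : Place K₀ ↥(laurentBaseChange K₀ Fq),
        ∀ y : ↥(laurentBaseChange K₀ Fq), Q.ord (bcfHom K₀ L Fq y) = P.ord y :=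
  bcp_trivial_or (bcc_LD K₀ L Fq) (bcc_gen K₀ L Fq) hdeg₀ Q

theorem bcc_range
    (hdeg₀ : ∀ P : Place K₀ ↥(laurentBaseChange K₀ Fq), P.deg = 1) (Q : Place L ↥(laurentBaseChange L Fq)) :
    (∀ y : ↥(laurentBaseChange K₀ Fq), y ≠ 0 → Q.ord (bcfHom K₀ L Fq y) = 0) ∨
      Q ∈ Set.range (bccMap K₀ L Fq hdeg₀) :=
  bcp_range (bcc_LD K₀ L Fq) (bcc_gen K₀ L Fq) hdeg₀ Q

/-- base change of divisors -/
noncomputable def bccDiv
    (hdeg₀ : ∀ P : Place K₀ ↥(laurentBaseChange K₀ Fq), P.deg = 1) :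
    Divisor K₀ ↥(laurentBaseChange K₀ Fq) →+ Divisor L ↥(laurentBaseChange L Fq) :=
  bcpDiv (bcc_LD K₀ L Fq) (bcc_gen K₀ L Fq) hdeg₀

theorem bccDiv_eq_mapDomain
    (hdeg₀ : ∀ P : Place K₀ ↥(laurentBaseChange K₀ Fq), P.deg = 1) (D : Divisor K₀ ↥(laurentBaseChange K₀ Fq)) :
    bccDiv K₀ L Fq hdeg₀ D = Finsupp.mapDomain (bccMap K₀ L Fq hdeg₀) D := rfl

theorem bccDiv_apply_map
    (hdeg₀ : ∀ P : Place K₀ ↥(laurentBaseChange K₀ Fq), P.deg = 1) (D : Divisor K₀ ↥(laurentBaseChange K₀ Fq))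
    (P : Place K₀ ↥(laurentBaseChange K₀ Fq)) :
    bccDiv K₀ L Fq hdeg₀ D (bccMap K₀ L Fq hdeg₀ P) = D P :=
  bcpDiv_apply_map (bcc_LD K₀ L Fq) (bcc_gen K₀ L Fq) hdeg₀ D P

theorem bccDiv_apply_of_notMem
    (hdeg₀ : ∀ P : Place K₀ ↥(laurentBaseChange K₀ Fq), P.deg = 1) (D : Divisor K₀ ↥(laurentBaseChange K₀ Fq))
    (Q : Place L ↥(laurentBaseChange L Fq)) (hQ : Q ∉ Set.range (bccMap K₀ L Fq hdeg₀)) :
    bccDiv K₀ L Fq hdeg₀ D Q = 0 :=
  bcpDiv_apply_of_notMem (bcc_LD K₀ L Fq) (bcc_gen K₀ L Fq) hdeg₀ D Q hQ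

theorem bccDiv_single
    (hdeg₀ : ∀ P : Place K₀ ↥(laurentBaseChange K₀ Fq), P.deg = 1) (P : Place K₀ ↥(laurentBaseChange K₀ Fq)) (n : ℤ) :
    bccDiv K₀ L Fq hdeg₀ (Finsupp.single P n) = Finsupp.single (bccMap K₀ L Fq hdeg₀ P) n :=
  bcpDiv_single (bcc_LD K₀ L Fq) (bcc_gen K₀ L Fq) hdeg₀ P n

/-- the divisor of `ι y` is the base change of the divisor of `y` -/
theorem bccDiv_ord
    (hdeg₀ : ∀ P : Place K₀ ↥(laurentBaseChange K₀ Fq), P.deg = 1) (y : ↥(laurentBaseChange K₀ Fq)) (hy : y ≠ 0)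
    (D : Divisor K₀ ↥(laurentBaseChange K₀ Fq)) (hD : ∀ v, D v = v.ord y)
    (Q : Place L ↥(laurentBaseChange L Fq)) :
    bccDiv K₀ L Fq hdeg₀ D Q = Q.ord (bcfHom K₀ L Fq y) :=
  bcpDiv_ord (bcc_LD K₀ L Fq) (bcc_gen K₀ L Fq) hdeg₀ y hy D hD Q

theorem bccDiv_degree
    (hdeg₀ : ∀ P : Place K₀ ↥(laurentBaseChange K₀ Fq), P.deg = 1) (D : Divisor K₀ ↥(laurentBaseChange K₀ Fq)) :
    Divisor.degree (bccDiv K₀ L Fq hdeg₀ D) = Divisor.degree D :=
  bcpDiv_degree (bcc_LD K₀ L Fq) (bcc_gen K₀ L Fq) hdeg₀ D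

theorem bccDiv_principal
    (hdeg₀ : ∀ P : Place K₀ ↥(laurentBaseChange K₀ Fq), P.deg = 1) (D : Divisor K₀ ↥(laurentBaseChange K₀ Fq))
    (hD : D ∈ Divisor.principal (K := K₀) (F := ↥(laurentBaseChange K₀ Fq))) :
    bccDiv K₀ L Fq hdeg₀ D ∈ Divisor.principal (K := L) (F := ↥(laurentBaseChange L Fq)) :=
  bcpDiv_principal (bcc_LD K₀ L Fq) (bcc_gen K₀ L Fq) hdeg₀ D hD

/-- base change of divisors of degree zero -/
noncomputable def bccDiv0
    (hdeg₀ : ∀ P : Place K₀ ↥(laurentBaseChange K₀ Fq), P.deg = 1) :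
    Divisor.degZero (K := K₀) (F := ↥(laurentBaseChange K₀ Fq)) →+
      Divisor.degZero (K := L) (F := ↥(laurentBaseChange L Fq)) :=
  bcpDiv0 (bcc_LD K₀ L Fq) (bcc_gen K₀ L Fq) hdeg₀

theorem bccDiv0_coe
    (hdeg₀ : ∀ P : Place K₀ ↥(laurentBaseChange K₀ Fq), P.deg = 1) (D : Divisor.degZero (K := K₀) (F := ↥(laurentBaseChange K₀ Fq))) :
    ((bccDiv0 K₀ L Fq hdeg₀ D : Divisor.degZero (K := L) (F := ↥(laurentBaseChange L Fq))) :
      Divisor L ↥(laurentBaseChange L Fq)) =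
      bccDiv K₀ L Fq hdeg₀ (D : Divisor K₀ ↥(laurentBaseChange K₀ Fq)) := rfl

/-- base change of divisor classes of degree zero -/
noncomputable def bccPic
    (hdeg₀ : ∀ P : Place K₀ ↥(laurentBaseChange K₀ Fq), P.deg = 1) :
    Pic0 K₀ ↥(laurentBaseChange K₀ Fq) →+ Pic0 L ↥(laurentBaseChange L Fq) :=
  bcpPic (bcc_LD K₀ L Fq) (bcc_gen K₀ L Fq) hdeg₀

theorem bccPic_mk
    (hdeg₀ : ∀ P : Place K₀ ↥(laurentBaseChange K₀ Fq), P.deg = 1) (D : Divisor.degZero (K := K₀) (F := ↥(laurentBaseChange K₀ Fq))) :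
    bccPic K₀ L Fq hdeg₀ (Pic0.mk D) = Pic0.mk (bccDiv0 K₀ L Fq hdeg₀ D) := rfl

theorem bccPic_mk'
    (hdeg₀ : ∀ P : Place K₀ ↥(laurentBaseChange K₀ Fq), P.deg = 1) (D : Divisor.degZero (K := K₀) (F := ↥(laurentBaseChange K₀ Fq)))
    (h : Finsupp.mapDomain (bccMap K₀ L Fq hdeg₀)
      (D : Divisor K₀ ↥(laurentBaseChange K₀ Fq)) ∈
        Divisor.degZero (K := L) (F := ↥(laurentBaseChange L Fq))) :
    bccPic K₀ L Fq hdeg₀ (Pic0.mk D) =
      Pic0.mk ⟨Finsupp.mapDomain (bccMap K₀ L Fq hdeg₀)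
        (D : Divisor K₀ ↥(laurentBaseChange K₀ Fq)), h⟩ := rfl

/-! ### automorphisms of `L` over `K₀` -/

/-- an automorphism of `L` fixing `K₀` fixes the image of `FK` in `FL` -/
theorem bcc_smul_bcfHom (σ : L ≃ₐ[ℚ] L)
    (hσ : ∀ c : K₀, σ (algebraMap K₀ L c) = algebraMap K₀ L c)
    (y : ↥(laurentBaseChange K₀ Fq)) :
    arithmeticGalois Fq σ • bcfHom K₀ L Fq y = bcfHom K₀ L Fq y := by
  apply Subtype.ext
  rw [coe_arithmeticGalois_smul, bcfHom_coe, coeffMap_coeffMap]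
  exact coeffMap_congr (RingHom.ext fun c => hσ c) _

/-- an automorphism of `L` fixing `K₀` fixes the places coming from `FK` -/
theorem bcc_smul_map
    (hdeg₀ : ∀ P : Place K₀ ↥(laurentBaseChange K₀ Fq), P.deg = 1) (σ : L ≃ₐ[ℚ] L)
    (hσ : ∀ c : K₀, σ (algebraMap K₀ L c) = algebraMap K₀ L c)
    (P : Place K₀ ↥(laurentBaseChange K₀ Fq)) :
    arithmeticGalois Fq σ • bccMap K₀ L Fq hdeg₀ P = bccMap K₀ L Fq hdeg₀ P := by
  apply bccMap_eq_of_ord
  intro y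
  have h := SemilinearAut.ord_smul (arithmeticGalois Fq σ) (bccMap K₀ L Fq hdeg₀ P)
    (bcfHom K₀ L Fq y)
  rw [bcc_smul_bcfHom K₀ L Fq σ hσ y] at h
  rw [h, bccMap_ord]

/-- an automorphism of `L` fixing `K₀` fixes the divisors coming from `FK` -/
theorem bcc_smul_div
    (hdeg₀ : ∀ P : Place K₀ ↥(laurentBaseChange K₀ Fq), P.deg = 1) (σ : L ≃ₐ[ℚ] L)
    (hσ : ∀ c : K₀, σ (algebraMap K₀ L c) = algebraMap K₀ L c)
    (D : Divisor K₀ ↥(laurentBaseChange K₀ Fq)) :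
    arithmeticGalois Fq σ • bccDiv K₀ L Fq hdeg₀ D = bccDiv K₀ L Fq hdeg₀ D := by
  induction D using Finsupp.induction_linear with
  | zero => rw [map_zero, smul_zero]
  | add f g hf hg => rw [map_add, smul_add, hf, hg]
  | single P n =>
    rw [bccDiv_single, SemilinearAut.smul_single, bcc_smul_map K₀ L Fq hdeg₀ σ hσ P]

end conc

end Fermat.Agent.S29
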