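import Fermat.Agent.S24.Degree
import Fermat.Agent.S24.SumFormulaA4
import Fermat.Agent.S24.Differential

/-!
# S29, leaf [PLC-DEG]: soft facts on the function field of `X₀(N)` over any algebraically
closed constant field of characteristic zero

For `L` algebraically closed of characteristic zero (in particular `L = ℂ`), and
`F_L := laurentBaseChange L (modularFunctionFieldFull N)`:

* `pdgJ L N : F_L` is the `j`-invariant; it is transcendental over `L` (`pdg_transcendental`)
  and `F_L` is finite over `L(j)`, of degree at most the index of `Γ₀(N)`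
  (`pdg_finiteDimensional`, `pdg_finrank_le`);
* principal divisors have finite support and degree zero (`pdg_hasPrincipalDivisors`);
* every place has degree one (`pdg_deg_eq_one`, `pdg_residue_bijective`);
* a nonzero function without zeros and poles is a constant (`pdg_const`);
* a transcendental function has a zero and a pole (`pdg_exists_zero`, `pdg_exists_pole'`);
  in particular `j` has a pole (`pdg_exists_pole`).

Everything is obtained from the generic lemmas of the S24 library; only the degree bound of
`S24/Degree.lean` is re-run with `L` in place of `ℚ̄`.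
-/

set_option autoImplicit false
set_option linter.unusedSectionVars false
set_option linter.style.haveILetI false

open AlgebraicCurve IntermediateField
open scoped MatrixGroups

namespace Fermat.Agent.S29

section general

variable (L : Type) [Field L] [Algebra ℚ L] (N : ℕ) [NeZero N]

/-- The element `j` of the function field of `X₀(N)` over `L`. -/
noncomputable def pdgJ :
    ↥(ModularCurve.laurentBaseChange L (ModularCurve.modularFunctionFieldFull N)) :=
  ⟨ModularCurve.coeffEmb L ModularCurve.jq,
    ModularCurve.coeffEmb_mem_laurentBaseChange L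
      (by
        have h := ModularCurve.jqd_mem_full N (one_dvd N)
        rwa [ModularCurve.qExpand_one_apply] at h)⟩

theorem pdgJ_coe :
    ((pdgJ L N : ↥(ModularCurve.laurentBaseChange L (ModularCurve.modularFunctionFieldFull N))) :
      LaurentSeries L) = ModularCurve.coeffEmb L ModularCurve.jq := rfl

theorem pdgJ_coe_jqModC :
    ((pdgJ L N : ↥(ModularCurve.laurentBaseChange L (ModularCurve.modularFunctionFieldFull N))) :
      LaurentSeries L) = ModularCurve.jqModC L := by
  show ModularCurve.coeffEmb L ModularCurve.jq = _
  rw [← ModularCurve.jqModC_rat, ModularCurve.coeffEmb, ModularCurve.coeffMap_jqModC]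

/-- `j` is transcendental over the constants. -/
theorem pdg_transcendental : Transcendental L (pdgJ L N) := by
  intro h
  apply Fermat.Agent.S24.dg_transcendental_jqModC L
  rw [← pdgJ_coe_jqModC L N]
  obtain ⟨p, hp0, hp⟩ := h
  refine ⟨p, hp0, ?_⟩
  have := congrArg (fun x : ↥(ModularCurve.laurentBaseChange L
    (ModularCurve.modularFunctionFieldFull N)) => (x : LaurentSeries L)) hp
  simpa using this

/-- The degree bound `[F_L : L(j)] ≤ [SL(2,ℤ) : Γ₀(N)]`. -/
theorem pdg_rank_le :
    Module.rank ↥(L⟮pdgJ L N⟯)
        ↥(ModularCurve.laurentBaseChange L (ModularCurve.modularFunctionFieldFull N)) ≤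
      ((CongruenceSubgroup.Gamma0 N).index : Cardinal) := by
  rw [← IntermediateField.relrank_top_right (L⟮pdgJ L N⟯)]
  show Subfield.relrank (L⟮pdgJ L N⟯).toSubfield
    (⊤ : IntermediateField L ↥(ModularCurve.laurentBaseChange L
      (ModularCurve.modularFunctionFieldFull N))).toSubfield ≤ _
  set val : ↥(ModularCurve.laurentBaseChange L (ModularCurve.modularFunctionFieldFull N)) →+*
      LaurentSeries L :=
    (ModularCurve.laurentBaseChange L (ModularCurve.modularFunctionFieldFull N)).val.toRingHom
    with hval
  set ce : LaurentSeries ℚ →+* LaurentSeries L := ModularCurve.coeffEmb L with hce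
  rw [← Subfield.relrank_map_map _ _ val]
  refine Fermat.Agent.S24.dg_relrank_sup_le ((Fermat.Agent.S28.Qj 1).map ce)
    ((ModularCurve.modularFunctionFieldFull N).toSubfield.map ce) _ _
    ((Subfield.gc_map_comap ce).monotone_l (Fermat.Agent.S24.dg_Qj_le_full N)) ?_ ?_ ?_ _ ?_
  · rw [Subfield.map_le_iff_le_comap, Fermat.Agent.S28.Qj, Subfield.closure_le]
    rintro x rfl
    refine ⟨pdgJ L N, IntermediateField.mem_adjoin_simple_self _ _, ?_⟩
    show ((pdgJ L N : ↥(ModularCurve.laurentBaseChange L
      (ModularCurve.modularFunctionFieldFull N))) : LaurentSeries L)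
        = ce (Fermat.Agent.S28.jd ℚ 1)
    rw [Fermat.Agent.S28.jd_one]
    rfl
  · exact (Subfield.gc_map_comap val).monotone_l (fun x _ => trivial)
  · rintro _ ⟨y, -, rfl⟩
    have hy : (y : LaurentSeries L) ∈
        (ModularCurve.laurentBaseChange L (ModularCurve.modularFunctionFieldFull N)).toSubfield :=
      y.2
    have hle : (ModularCurve.laurentBaseChange L
          (ModularCurve.modularFunctionFieldFull N)).toSubfield ≤
        Subfield.closure
          (((L⟮pdgJ L N⟯).toSubfield.map val : Set _) ∪
            ((ModularCurve.modularFunctionFieldFull N).toSubfield.map ce)) := by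
      have e : (ModularCurve.laurentBaseChange L
            (ModularCurve.modularFunctionFieldFull N)).toSubfield =
          Subfield.closure (Set.range (algebraMap L (LaurentSeries L)) ∪
            (⇑(ModularCurve.coeffEmb L) ''
              ((ModularCurve.modularFunctionFieldFull N : IntermediateField ℚ (LaurentSeries ℚ)) :
                Set (LaurentSeries ℚ)))) :=
        IntermediateField.adjoin_toSubfield _ _
      rw [e, Subfield.closure_le]
      rintro z (⟨c, rfl⟩ | ⟨x, hx, rfl⟩)
      · refine Subfield.subset_closure (Or.inl ?_)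
        exact ⟨algebraMap _ _ c, (L⟮pdgJ L N⟯).algebraMap_mem c, rfl⟩
      · refine Subfield.subset_closure (Or.inr ?_)
        exact ⟨x, hx, rfl⟩
    exact hle hy
  · rw [Subfield.relrank_map_map]
    exact Fermat.Agent.S24.dg_relrank_full_le N

theorem pdg_finiteDimensional :
    FiniteDimensional L⟮pdgJ L N⟯
      ↥(ModularCurve.laurentBaseChange L (ModularCurve.modularFunctionFieldFull N)) := by
  haveI : Module.Free ↥(L⟮pdgJ L N⟯)
      ↥(ModularCurve.laurentBaseChange L (ModularCurve.modularFunctionFieldFull N)) :=
    Module.Free.of_divisionRing _ _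
  exact Module.rank_lt_aleph0_iff.mp ((pdg_rank_le L N).trans_lt Cardinal.natCast_lt_aleph0)

theorem pdg_finrank_le :
    Module.finrank L⟮pdgJ L N⟯
        ↥(ModularCurve.laurentBaseChange L (ModularCurve.modularFunctionFieldFull N)) ≤
      Nat.card (SL(2, ℤ) ⧸ CongruenceSubgroup.Gamma0 N) :=
  Module.finrank_le_of_rank_le (pdg_rank_le L N)

end general

section closed

variable (L : Type) [Field L] [Algebra ℚ L] [IsAlgClosed L] [CharZero L] (N : ℕ) [NeZero N]

/-- Every place of `F_L` has residue field `L`. -/
theorem pdg_residue_bijective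
    (v : Place L ↥(ModularCurve.laurentBaseChange L (ModularCurve.modularFunctionFieldFull N))) :
    Function.Bijective (algebraMap L v.ResidueField) := by
  haveI := pdg_finiteDimensional L N
  haveI : Algebra.IsAlgebraic L⟮pdgJ L N⟯
      ↥(ModularCurve.laurentBaseChange L (ModularCurve.modularFunctionFieldFull N)) :=
    Algebra.IsAlgebraic.of_finite _ _
  exact Fermat.Agent.S24.place_residue_bijective v (pdgJ L N)

/-- Every place of `F_L` has degree one. -/
theorem pdg_deg_eq_one
    (v : Place L ↥(ModularCurve.laurentBaseChange L (ModularCurve.modularFunctionFieldFull N))) :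
    v.deg = 1 := by
  haveI := pdg_finiteDimensional L N
  haveI : Algebra.IsAlgebraic L⟮pdgJ L N⟯
      ↥(ModularCurve.laurentBaseChange L (ModularCurve.modularFunctionFieldFull N)) :=
    Algebra.IsAlgebraic.of_finite _ _
  exact Fermat.Agent.S24.place_deg_eq_one v (pdgJ L N)

/-- Principal divisors of `F_L` have finite support and degree zero. -/
theorem pdg_hasPrincipalDivisors :
    HasPrincipalDivisors L
      ↥(ModularCurve.laurentBaseChange L (ModularCurve.modularFunctionFieldFull N)) := by
  classical
  haveI := pdg_finiteDimensional L N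
  refine ⟨fun f hf => ?_⟩
  have hfin := Fermat.Agent.S24.ord_support_finite (pdgJ L N) (pdg_transcendental L N) f hf
  refine ⟨Finsupp.ofSupportFinite (fun P => P.ord f) hfin, fun v => rfl, ?_⟩
  set W : Divisor L ↥(ModularCurve.laurentBaseChange L (ModularCurve.modularFunctionFieldFull N)) :=
    Finsupp.ofSupportFinite (fun P => P.ord f) hfin with hW
  have hdeg : Divisor.degree W = ∑ᶠ v, W v := by
    rw [finsum_eq_sum_of_support_subset (s := W.support) _ (by intro v hv; simpa using hv)]
    show (Finsupp.liftAddHom fun v : Place L ↥(ModularCurve.laurentBaseChange L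
        (ModularCurve.modularFunctionFieldFull N)) =>
      AddMonoidHom.mulRight ((v.deg : ℕ) : ℤ)) W = _
    rw [Finsupp.liftAddHom_apply, Finsupp.sum]
    refine Finset.sum_congr rfl fun v _ => ?_
    simp [pdg_deg_eq_one L N v]
  rw [hdeg]
  exact Fermat.Agent.S24.finsum_ord_eq_zero (pdgJ L N) (pdg_transcendental L N) f hf

/-- A transcendental function has a zero. -/
theorem pdg_exists_zero
    (u : ↥(ModularCurve.laurentBaseChange L (ModularCurve.modularFunctionFieldFull N)))
    (hu : Transcendental L u) :
    ∃ P : Place L ↥(ModularCurve.laurentBaseChange L (ModularCurve.modularFunctionFieldFull N)),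
      0 < P.ord u := by
  haveI := pdg_finiteDimensional L N
  haveI := Fermat.Agent.S24.a4_finiteDimensional (pdg_transcendental L N) hu
  have hsum := Fermat.Agent.S24.finsum_ord_zeroPlaces u hu
  by_contra hcon
  have hempty : Fermat.Agent.S24.zeroPlaces L u = ∅ := by
    ext P
    simp only [Set.mem_empty_iff_false, iff_false]
    intro hP
    exact hcon ⟨P, hP⟩
  rw [hempty, finsum_mem_empty] at hsum
  have hpos : 0 < Module.finrank L⟮u⟯
      ↥(ModularCurve.laurentBaseChange L (ModularCurve.modularFunctionFieldFull N)) :=
    Module.finrank_pos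
  omega

/-- A transcendental function has a pole. -/
theorem pdg_exists_pole'
    (u : ↥(ModularCurve.laurentBaseChange L (ModularCurve.modularFunctionFieldFull N)))
    (hu : Transcendental L u) :
    ∃ P : Place L ↥(ModularCurve.laurentBaseChange L (ModularCurve.modularFunctionFieldFull N)),
      P.ord u < 0 := by
  obtain ⟨P, hP⟩ := pdg_exists_zero L N u⁻¹ (Fermat.Agent.S24.sf_transcendental_inv hu)
  refine ⟨P, ?_⟩
  rw [P.ord_inv] at hP
  omega

/-- `j` has a pole. -/
theorem pdg_exists_pole :
    ∃ Q : Place L ↥(ModularCurve.laurentBaseChange L (ModularCurve.modularFunctionFieldFull N)),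
      Q.ord (pdgJ L N) < 0 :=
  pdg_exists_pole' L N (pdgJ L N) (pdg_transcendental L N)

/-- A nonzero function without zeros and poles is a constant. -/
theorem pdg_const
    (u : ↥(ModularCurve.laurentBaseChange L (ModularCurve.modularFunctionFieldFull N)))
    (h : ∀ P : Place L ↥(ModularCurve.laurentBaseChange L
      (ModularCurve.modularFunctionFieldFull N)), P.ord u = 0) :
    ∃ c : L, u = algebraMap L
      ↥(ModularCurve.laurentBaseChange L (ModularCurve.modularFunctionFieldFull N)) c := by
  by_cases hu : IsAlgebraic L u
  · obtain ⟨c, hc⟩ := Fermat.Agent.S24.a4_mem_range_of_isAlgebraic hu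
    exact ⟨c, hc.symm⟩
  · obtain ⟨P, hP⟩ := pdg_exists_zero L N u hu
    rw [h P] at hP
    exact absurd hP (lt_irrefl 0)

end closed

/-- Instance form over `ℂ`. -/
instance pdg_instHasPrincipalDivisorsComplex (N : ℕ) [NeZero N] :
    HasPrincipalDivisors ℂ
      ↥(ModularCurve.laurentBaseChange ℂ (ModularCurve.modularFunctionFieldFull N)) :=
  pdg_hasPrincipalDivisors ℂ N

end Fermat.Agent.S29
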