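import Fermat.Agent.S29.AutC
import Fermat.Agent.S29.BcConc
import Fermat.Agent.S29.PlcDeg
import Fermat.Agent.S18.BaseChangeField
import Fermat.Agent.S24.SumFormulaBase
import Fermat.Prelude.Def_ModularCurve_ArithmeticGalois

/-!
# S29, BC-INJ (abstract core): functions of `F₀ · L` with Galois-invariant divisor

`K₀ ⊆ L` algebraically closed fields of characteristic zero, `Fq ⊆ ℚ((q))`,
`F_{K₀} := laurentBaseChange K₀ Fq ⊆ K₀((q))`, `F_L := laurentBaseChange L Fq ⊆ L((q))`.

* `bci_exists_coeffMap`: a Laurent series with all coefficients in the range of `ι` is in the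
  image of `coeffMap ι`;
* `bci_mem_of_coeffMap`: `F_L ∩ K₀((q)) = F_{K₀}` (the linear functional trick);
* `bci_main`: if `h ∈ F_L` is such that the orders of `σ h` and of `h` agree at every place, for
  every automorphism `σ` of `L` over `K₀` (acting coefficientwise), and if the functions of `F_L`
  without zeros and poles are constants, then `h = c · ι(h₀)` with `c ∈ Lˣ` and `h₀ ∈ F_{K₀}`;
* `bci_principal`, `bci_pic_injective`: a divisor of `F_{K₀}` whose base change is principal is
  principal; base change of divisor classes `bccPic` is injective.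
-/

set_option autoImplicit false
set_option linter.unusedSectionVars false
set_option linter.style.haveILetI false

open ModularCurve AlgebraicCurve

namespace Fermat.Agent.S29

open Fermat.Agent.S18

section coeff

variable {K₀ L : Type*} [Field K₀] [Field L]

/-- A Laurent series whose coefficients all lie in the range of `ι` is in the image of
`coeffMap ι`. -/
theorem bci_exists_coeffMap (ι : K₀ →+* L) (x : LaurentSeries L)
    (hx : ∀ n, x.coeff n ∈ ι.range) : ∃ y : LaurentSeries K₀, coeffMap ι y = x := by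
  classical
  choose f hf using hx
  have hsupp : Function.support f ⊆ x.support := by
    intro n hn
    rw [Function.mem_support] at hn
    rw [HahnSeries.mem_support, ← hf n]
    exact (map_ne_zero ι).mpr hn
  refine ⟨⟨f, x.isPWO_support.mono hsupp⟩, ?_⟩
  ext n
  rw [coeffMap_coeff]
  exact hf n

end coeff

section functional

variable {K₀ L : Type*} [Field K₀] [Field L] [Algebra K₀ L]

/-- coefficientwise application of a `K₀`-linear functional on `L` -/
noncomputable def bciFun (φ : L →ₗ[K₀] K₀) (x : LaurentSeries L) : LaurentSeries K₀ :=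
  x.map φ

@[simp]
theorem bciFun_coeff (φ : L →ₗ[K₀] K₀) (x : LaurentSeries L) (n : ℤ) :
    (bciFun φ x).coeff n = φ (x.coeff n) := rfl

theorem bciFun_zero (φ : L →ₗ[K₀] K₀) : bciFun φ 0 = 0 := by
  ext n
  simp

theorem bciFun_add (φ : L →ₗ[K₀] K₀) (x y : LaurentSeries L) :
    bciFun φ (x + y) = bciFun φ x + bciFun φ y := by
  ext n
  simp

theorem bci_coeff_algebraMap_mul (c : L) (x : LaurentSeries L) (n : ℤ) :
    (algebraMap L (LaurentSeries L) c * x).coeff n = c * x.coeff n := by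
  rw [algebraMap_laurentSeries_eq_single, HahnSeries.coeff_single_zero_mul]

theorem bciFun_smul_coeffMap (φ : L →ₗ[K₀] K₀) (c : L) (z : LaurentSeries K₀) :
    bciFun φ (algebraMap L (LaurentSeries L) c * coeffMap (algebraMap K₀ L) z) =
      algebraMap K₀ (LaurentSeries K₀) (φ c) * z := by
  ext n
  rw [bciFun_coeff, bci_coeff_algebraMap_mul, bci_coeff_algebraMap_mul, coeffMap_coeff,
    mul_comm c, ← Algebra.smul_def, map_smul, smul_eq_mul, mul_comm]

variable [Algebra ℚ K₀] [Algebra ℚ L] (Fq : IntermediateField ℚ (LaurentSeries ℚ))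

variable (K₀ L) in
/-- the generators `c · ι z` (`c ∈ L`, `z ∈ F_{K₀}`) of the `L`-span of the image of `F_{K₀}` -/
def bciGen : Set (LaurentSeries L) :=
  {x | ∃ (c : L) (z : LaurentSeries K₀), z ∈ laurentBaseChange K₀ Fq ∧
    x = algebraMap L (LaurentSeries L) c * coeffMap (algebraMap K₀ L) z}

variable (K₀ L) in
/-- the `L`-span of the image of `F_{K₀}` -/
def bciSpan : AddSubmonoid (LaurentSeries L) :=
  AddSubmonoid.closure (bciGen K₀ L Fq)

variable {Fq}

theorem bci_map_mem_span {z : LaurentSeries K₀} (hz : z ∈ laurentBaseChange K₀ Fq) :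
    coeffMap (algebraMap K₀ L) z ∈ bciSpan K₀ L Fq :=
  AddSubmonoid.subset_closure ⟨1, z, hz, by rw [map_one, one_mul]⟩

theorem bci_one_mem_span : (1 : LaurentSeries L) ∈ bciSpan K₀ L Fq := by
  have h := bci_map_mem_span (K₀ := K₀) (L := L) (Fq := Fq) (one_mem (laurentBaseChange K₀ Fq))
  rwa [map_one] at h

theorem bci_const_mem_span (c : L) :
    algebraMap L (LaurentSeries L) c ∈ bciSpan K₀ L Fq :=
  AddSubmonoid.subset_closure ⟨c, 1, one_mem (laurentBaseChange K₀ Fq), by rw [map_one, mul_one]⟩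

theorem bci_mul_mem_span {a b : LaurentSeries L} (ha : a ∈ bciSpan K₀ L Fq)
    (hb : b ∈ bciSpan K₀ L Fq) : a * b ∈ bciSpan K₀ L Fq := by
  unfold bciSpan at ha hb ⊢
  induction ha, hb using AddSubmonoid.closure_induction₂ with
  | mem x y hx hy =>
      obtain ⟨c, z, hz, rfl⟩ := hx
      obtain ⟨c', z', hz', rfl⟩ := hy
      refine AddSubmonoid.subset_closure ⟨c * c', z * z', mul_mem hz hz', ?_⟩
      rw [map_mul, map_mul]
      ring
  | zero_left x hx => rw [zero_mul]; exact zero_mem _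
  | zero_right x hx => rw [mul_zero]; exact zero_mem _
  | add_left x y z _ _ _ h₁ h₂ => rw [add_mul]; exact add_mem h₁ h₂
  | add_right x y z _ _ _ h₁ h₂ => rw [mul_add]; exact add_mem h₁ h₂

theorem bci_neg_mem_span {a : LaurentSeries L} (ha : a ∈ bciSpan K₀ L Fq) :
    -a ∈ bciSpan K₀ L Fq := by
  have h := bci_mul_mem_span (bci_const_mem_span (K₀ := K₀) (Fq := Fq) (-1 : L)) ha
  rwa [map_neg, map_one, neg_one_mul] at h

/-- the functional, applied to a multiple of an element of the span, lands in `F_{K₀}` -/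
theorem bci_fun_mem (φ : L →ₗ[K₀] K₀) {x : LaurentSeries L}
    (hx : x ∈ bciSpan K₀ L Fq) :
    ∀ c : L, bciFun φ (algebraMap L (LaurentSeries L) c * x) ∈ laurentBaseChange K₀ Fq := by
  unfold bciSpan at hx
  induction hx using AddSubmonoid.closure_induction with
  | mem x hx =>
      obtain ⟨d, z, hz, rfl⟩ := hx
      intro c
      rw [← mul_assoc, ← map_mul, bciFun_smul_coeffMap]
      exact mul_mem ((laurentBaseChange K₀ Fq).algebraMap_mem _) hz
  | zero =>
      intro c
      rw [mul_zero, bciFun_zero]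
      exact zero_mem _
  | add x y _ _ hx hy =>
      intro c
      rw [mul_add, bciFun_add]
      exact add_mem (hx c) (hy c)

/-- the functional is linear over `K₀((q))` on the span -/
theorem bci_fun_mul (φ : L →ₗ[K₀] K₀) {x : LaurentSeries L}
    (hx : x ∈ bciSpan K₀ L Fq) :
    ∀ (c : L) (y : LaurentSeries K₀),
      bciFun φ (coeffMap (algebraMap K₀ L) y * (algebraMap L (LaurentSeries L) c * x)) =
        y * bciFun φ (algebraMap L (LaurentSeries L) c * x) := by
  unfold bciSpan at hx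
  induction hx using AddSubmonoid.closure_induction with
  | mem x hx =>
      obtain ⟨d, z, hz, rfl⟩ := hx
      intro c y
      have h1 : coeffMap (algebraMap K₀ L) y * (algebraMap L (LaurentSeries L) c *
          (algebraMap L (LaurentSeries L) d * coeffMap (algebraMap K₀ L) z)) =
          algebraMap L (LaurentSeries L) (c * d) * coeffMap (algebraMap K₀ L) (y * z) := by
        rw [map_mul, map_mul]
        ring
      have h2 : algebraMap L (LaurentSeries L) c *
          (algebraMap L (LaurentSeries L) d * coeffMap (algebraMap K₀ L) z) =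
          algebraMap L (LaurentSeries L) (c * d) * coeffMap (algebraMap K₀ L) z := by
        rw [map_mul]
        ring
      rw [h1, h2, bciFun_smul_coeffMap, bciFun_smul_coeffMap]
      ring
  | zero =>
      intro c y
      rw [mul_zero, mul_zero, bciFun_zero, mul_zero]
  | add x y _ _ hx hy =>
      intro c z
      rw [mul_add, mul_add, bciFun_add, bciFun_add, hx c z, hy c z, mul_add]

variable (K₀) in
/-- every element of `F_L` is a quotient of two elements of the span -/
theorem bci_frac {x : LaurentSeries L} (hx : x ∈ laurentBaseChange L Fq) :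
    ∃ a b : LaurentSeries L, a ∈ bciSpan K₀ L Fq ∧ b ∈ bciSpan K₀ L Fq ∧ b ≠ 0 ∧ x * b = a := by
  have hx' : x ∈ (laurentBaseChange L Fq).toSubfield := hx
  rw [← bcf_closure_eq K₀ L Fq] at hx'
  clear hx
  induction hx' using Subfield.closure_induction with
  | mem y hy =>
      rcases hy with ⟨c, rfl⟩ | ⟨z, hz, rfl⟩
      · exact ⟨algebraMap L (LaurentSeries L) c, 1, bci_const_mem_span c, bci_one_mem_span,
          one_ne_zero, mul_one _⟩
      · exact ⟨_, 1, bci_map_mem_span hz, bci_one_mem_span, one_ne_zero, mul_one _⟩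
  | one => exact ⟨1, 1, bci_one_mem_span, bci_one_mem_span, one_ne_zero, mul_one _⟩
  | add x y _ _ hx hy =>
      obtain ⟨a, b, ha, hb, hb0, hab⟩ := hx
      obtain ⟨a', b', ha', hb', hb0', hab'⟩ := hy
      refine ⟨a * b' + a' * b, b * b', add_mem (bci_mul_mem_span ha hb')
        (bci_mul_mem_span ha' hb), bci_mul_mem_span hb hb', mul_ne_zero hb0 hb0', ?_⟩
      rw [← hab, ← hab']
      ring
  | neg x _ hx =>
      obtain ⟨a, b, ha, hb, hb0, hab⟩ := hx
      exact ⟨-a, b, bci_neg_mem_span ha, hb, hb0, by rw [neg_mul, hab]⟩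
  | inv x _ hx =>
      obtain ⟨a, b, ha, hb, hb0, hab⟩ := hx
      by_cases ha0 : a = 0
      · have hx0 : x = 0 := by
          rw [ha0] at hab
          exact (mul_eq_zero.mp hab).resolve_right hb0
        exact ⟨0, 1, zero_mem _, bci_one_mem_span, one_ne_zero, by rw [hx0, inv_zero, zero_mul]⟩
      · have hx0 : x ≠ 0 := by
          rintro rfl
          exact ha0 (by rw [← hab, zero_mul])
        exact ⟨b, a, hb, ha, ha0, by rw [← hab, inv_mul_cancel_left₀ hx0]⟩
  | mul x y _ _ hx hy =>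
      obtain ⟨a, b, ha, hb, hb0, hab⟩ := hx
      obtain ⟨a', b', ha', hb', hb0', hab'⟩ := hy
      refine ⟨a * a', b * b', bci_mul_mem_span ha ha', bci_mul_mem_span hb hb',
        mul_ne_zero hb0 hb0', ?_⟩
      rw [← hab, ← hab']
      ring

/-- **`F_L ∩ K₀((q)) = F_{K₀}`**: a series with coefficients in `K₀` whose image lies in `F_L`
lies in `F_{K₀}`. -/
theorem bci_mem_of_coeffMap (y : LaurentSeries K₀)
    (hy : coeffMap (algebraMap K₀ L) y ∈ laurentBaseChange L Fq) :
    y ∈ laurentBaseChange K₀ Fq := by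
  obtain ⟨a, b, ha, hb, hb0, hab⟩ := bci_frac K₀ hy
  obtain ⟨n, hn⟩ : ∃ n, b.coeff n ≠ 0 := by
    by_contra hcon
    apply hb0
    ext n
    by_contra hne
    exact hcon ⟨n, hne⟩
  obtain ⟨φ, hφ⟩ : ∃ φ : L →ₗ[K₀] K₀, φ (b.coeff n) ≠ 0 := by
    by_contra hcon
    apply hn
    rw [← Module.forall_dual_apply_eq_zero_iff (R := K₀)]
    intro φ
    by_contra hne
    exact hcon ⟨φ, hne⟩
  have h1 := bci_fun_mul φ hb 1 y
  rw [map_one, one_mul, hab] at h1
  have ha' := bci_fun_mem φ ha 1
  have hb' := bci_fun_mem φ hb 1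
  rw [map_one, one_mul] at ha' hb'
  have hb0' : bciFun φ b ≠ 0 := by
    intro h0
    apply hφ
    have := congrArg (fun s => HahnSeries.coeff s n) h0
    simpa using this
  have hy' : y = bciFun φ a * (bciFun φ b)⁻¹ := by
    rw [h1, mul_inv_cancel_right₀ hb0']
  rw [hy']
  exact mul_mem ha' (inv_mem hb')

end functional

section main

variable {K₀ L : Type*} [Field K₀] [Field L] [Algebra ℚ K₀] [Algebra ℚ L] [Algebra K₀ L]
  (Fq : IntermediateField ℚ (LaurentSeries ℚ))

/-- an automorphism of `L` over `K₀`, as an automorphism over `ℚ` -/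
noncomputable def bciAut (τ : L ≃ₐ[K₀] L) : L ≃ₐ[ℚ] L :=
  AlgEquiv.ofRingEquiv (f := τ.toRingEquiv)
    (fun q => RingHom.map_rat_algebraMap (τ.toRingEquiv : L →+* L) q)

@[simp]
theorem bciAut_apply (τ : L ≃ₐ[K₀] L) (x : L) : bciAut τ x = τ x := rfl

theorem bciAut_algebraMap (τ : L ≃ₐ[K₀] L) (c : K₀) :
    bciAut τ (algebraMap K₀ L c) = algebraMap K₀ L c := τ.commutes c

theorem bci_coe_algebraMap_mul (c : L) (h : ↥(laurentBaseChange L Fq)) (m : ℤ) :
    ((algebraMap L ↥(laurentBaseChange L Fq) c * h : ↥(laurentBaseChange L Fq)) :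
      LaurentSeries L).coeff m = c * (h : LaurentSeries L).coeff m := by
  exact bci_coeff_algebraMap_mul c (h : LaurentSeries L) m

omit [Algebra ℚ K₀] [Algebra ℚ L] [Algebra K₀ L] in
/-- a semilinear automorphism multiplies a function with invariant divisor by a constant,
after normalisation by a constant -/
theorem bci_exists_const {K F : Type*} [Field K] [Field F] [Algebra K F]
    (g : SemilinearAut K F) (c : K) (hc : c ≠ 0) (h : F) (hh : h ≠ 0)
    (hfix : ∀ Q : Place K F, Q.ord (g • h) = Q.ord h)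
    (hconst : ∀ u : F, u ≠ 0 → (∀ Q : Place K F, Q.ord u = 0) → ∃ d : K, u = algebraMap K F d) :
    ∃ d : K, g • (algebraMap K F c * h) = algebraMap K F d * (algebraMap K F c * h) := by
  have hsmul0 : ∀ y : F, y ≠ 0 → g • y ≠ 0 := by
    intro y hy h0
    apply hy
    have h1 : g⁻¹ • g • y = g⁻¹ • (0 : F) := congrArg (g⁻¹ • ·) h0
    rwa [inv_smul_smul, smul_zero] at h1
  have hc' : algebraMap K F c ≠ 0 := (map_ne_zero _).mpr hc
  have hh'0 : algebraMap K F c * h ≠ 0 := mul_ne_zero hc' hh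
  have hgh'0 : g • (algebraMap K F c * h) ≠ 0 := hsmul0 _ hh'0
  have hgh0 : g • h ≠ 0 := hsmul0 h hh
  have hgc : g • algebraMap K F c ≠ 0 := hsmul0 _ hc'
  have hord : ∀ Q : Place K F,
      Q.ord (g • (algebraMap K F c * h) * (algebraMap K F c * h)⁻¹) = 0 := by
    intro Q
    have e2 : Q.ord (g • (algebraMap K F c * h)) = Q.ord h := by
      rw [smul_mul', Q.ord_mul hgc hgh0, SemilinearAut.smul_algebraMap,
        Fermat.Agent.S24.sf_ord_algebraMap, zero_add]
      exact hfix Q
    have e3 : Q.ord (algebraMap K F c * h) = Q.ord h := by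
      rw [Q.ord_mul hc' hh, Fermat.Agent.S24.sf_ord_algebraMap, zero_add]
    rw [Q.ord_mul hgh'0 (inv_ne_zero hh'0), Q.ord_inv, e2, e3, add_neg_cancel]
  obtain ⟨d, hd⟩ := hconst _ (mul_ne_zero hgh'0 (inv_ne_zero hh'0)) hord
  exact ⟨d, by rw [← hd, inv_mul_cancel_right₀ hh'0]⟩

omit [Algebra K₀ L] in
/-- a normalised function with Galois-invariant divisor is Galois-invariant -/
theorem bci_smul_eq (σ : L ≃ₐ[ℚ] L) (h : ↥(laurentBaseChange L Fq)) (hh : h ≠ 0)
    (c : L) (hc : c ≠ 0) (n : ℤ) (hn : (h : LaurentSeries L).coeff n = c⁻¹)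
    (hfix : ∀ Q : Place L ↥(laurentBaseChange L Fq),
      Q.ord (arithmeticGalois Fq σ • h) = Q.ord h)
    (hconst : ∀ u : ↥(laurentBaseChange L Fq), u ≠ 0 →
      (∀ Q : Place L ↥(laurentBaseChange L Fq), Q.ord u = 0) →
      ∃ c : L, u = algebraMap L ↥(laurentBaseChange L Fq) c) :
    arithmeticGalois Fq σ • (algebraMap L ↥(laurentBaseChange L Fq) c * h) =
      algebraMap L ↥(laurentBaseChange L Fq) c * h := by
  obtain ⟨d, hd⟩ := bci_exists_const (arithmeticGalois Fq σ) c hc h hh hfix hconst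
  have hlead : ((algebraMap L ↥(laurentBaseChange L Fq) c * h : ↥(laurentBaseChange L Fq)) :
      LaurentSeries L).coeff n = 1 := by
    rw [bci_coe_algebraMap_mul, hn, mul_inv_cancel₀ hc]
  have h1 : ((arithmeticGalois Fq σ • (algebraMap L ↥(laurentBaseChange L Fq) c * h) :
      ↥(laurentBaseChange L Fq)) : LaurentSeries L).coeff n = 1 := by
    rw [coe_arithmeticGalois_smul, coeffMap_coeff, hlead]
    exact map_one σ
  have h2 : ((arithmeticGalois Fq σ • (algebraMap L ↥(laurentBaseChange L Fq) c * h) :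
      ↥(laurentBaseChange L Fq)) : LaurentSeries L).coeff n = d := by
    rw [hd, bci_coe_algebraMap_mul, hlead, mul_one]
  have hd1 : d = 1 := by rw [← h2, h1]
  rw [hd, hd1, map_one, one_mul]

/-- **BC-INJ, abstract core.** If the orders of `σ h` and `h` agree at every place of `F_L` for
every automorphism `σ` of `L` fixing `K₀`, then `h` is a constant multiple of an element of
`F_{K₀}`. -/
theorem bci_main [IsAlgClosed K₀] [IsAlgClosed L] [CharZero K₀]
    (h : ↥(laurentBaseChange L Fq)) (hh : h ≠ 0)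
    (hfix : ∀ σ : L ≃ₐ[ℚ] L, (∀ c : K₀, σ (algebraMap K₀ L c) = algebraMap K₀ L c) →
      ∀ Q : Place L ↥(laurentBaseChange L Fq), Q.ord (arithmeticGalois Fq σ • h) = Q.ord h)
    (hconst : ∀ u : ↥(laurentBaseChange L Fq), u ≠ 0 →
      (∀ Q : Place L ↥(laurentBaseChange L Fq), Q.ord u = 0) →
      ∃ c : L, u = algebraMap L ↥(laurentBaseChange L Fq) c) :
    ∃ (c : L) (h₀ : ↥(laurentBaseChange K₀ Fq)), c ≠ 0 ∧
      h = algebraMap L ↥(laurentBaseChange L Fq) c * bcfHom K₀ L Fq h₀ := by
  have hx0 : (h : LaurentSeries L) ≠ 0 := fun h0 => hh (Subtype.ext h0)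
  obtain ⟨n, hn⟩ : ∃ n : ℤ, n = (h : LaurentSeries L).order := ⟨_, rfl⟩
  obtain ⟨c, hc⟩ : ∃ c : L, c = ((h : LaurentSeries L).coeff n)⁻¹ := ⟨_, rfl⟩
  have hc0 : c ≠ 0 := by
    rw [hc, hn]
    exact inv_ne_zero fun h0 => hx0 (HahnSeries.coeff_order_eq_zero.mp h0)
  have hcn : (h : LaurentSeries L).coeff n = c⁻¹ := by rw [hc, inv_inv]
  obtain ⟨h', hh'⟩ : ∃ h' : ↥(laurentBaseChange L Fq),
      h' = algebraMap L ↥(laurentBaseChange L Fq) c * h := ⟨_, rfl⟩
  -- `σ h' = h'` for every `σ` fixing `K₀`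
  have hinv : ∀ σ : L ≃ₐ[ℚ] L, (∀ c : K₀, σ (algebraMap K₀ L c) = algebraMap K₀ L c) →
      arithmeticGalois Fq σ • h' = h' := by
    intro σ hσ
    rw [hh']
    exact bci_smul_eq Fq σ h hh c hc0 n hcn (hfix σ hσ) hconst
  -- the coefficients of `h'` lie in `K₀`
  have hrange : ∀ m, (h' : LaurentSeries L).coeff m ∈ (algebraMap K₀ L).range := by
    intro m
    apply autc_mem_range_of_fixed
    intro τ
    have h1 := hinv (bciAut τ) (bciAut_algebraMap τ)
    exact congrArg (fun y : ↥(laurentBaseChange L Fq) => (y : LaurentSeries L).coeff m) h1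
  obtain ⟨y, hy⟩ := bci_exists_coeffMap (algebraMap K₀ L) (h' : LaurentSeries L) hrange
  have hymem : y ∈ laurentBaseChange K₀ Fq := by
    apply bci_mem_of_coeffMap (L := L) y
    rw [hy]
    exact h'.2
  refine ⟨c⁻¹, ⟨y, hymem⟩, inv_ne_zero hc0, ?_⟩
  have hb : bcfHom K₀ L Fq ⟨y, hymem⟩ = h' := Subtype.ext (by rw [bcfHom_coe, hy])
  rw [hb, hh', ← mul_assoc, ← map_mul, inv_mul_cancel₀ hc0, map_one, one_mul]

end main

section pic

variable (K₀ L : Type*) [Field K₀] [Field L] [Algebra ℚ K₀] [Algebra ℚ L] [Algebra K₀ L]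
  [IsAlgClosed K₀] [IsAlgClosed L] [CharZero K₀]
  (Fq : IntermediateField ℚ (LaurentSeries ℚ))

/-- **BC-INJ.** A divisor of `F_{K₀}` whose base change to `F_L` is principal is principal. -/
theorem bci_principal
    (hdeg₀ : ∀ P : Place K₀ ↥(laurentBaseChange K₀ Fq), P.deg = 1)
    (hconst : ∀ u : ↥(laurentBaseChange L Fq), u ≠ 0 →
      (∀ Q : Place L ↥(laurentBaseChange L Fq), Q.ord u = 0) →
      ∃ c : L, u = algebraMap L ↥(laurentBaseChange L Fq) c)
    (D : Divisor K₀ ↥(laurentBaseChange K₀ Fq))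
    (hD : bccDiv K₀ L Fq hdeg₀ D ∈
      Divisor.principal (K := L) (F := ↥(laurentBaseChange L Fq))) :
    D ∈ Divisor.principal (K := K₀) (F := ↥(laurentBaseChange K₀ Fq)) := by
  obtain ⟨h, hh, hdiv⟩ := hD
  have hfix : ∀ σ : L ≃ₐ[ℚ] L, (∀ c : K₀, σ (algebraMap K₀ L c) = algebraMap K₀ L c) →
      ∀ Q : Place L ↥(laurentBaseChange L Fq),
        Q.ord (arithmeticGalois Fq σ • h) = Q.ord h := by
    intro σ hσ Q
    have h1 := SemilinearAut.ord_smul (arithmeticGalois Fq σ)
      ((arithmeticGalois Fq σ)⁻¹ • Q) h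
    rw [smul_inv_smul] at h1
    rw [h1, ← hdiv, ← hdiv Q, ← SemilinearAut.divisor_smul_apply,
      bcc_smul_div K₀ L Fq hdeg₀ σ hσ D]
  obtain ⟨c, h₀, hc, hh₀⟩ := bci_main Fq h hh hfix hconst
  have hh₀0 : h₀ ≠ 0 := by
    rintro rfl
    apply hh
    rw [hh₀, map_zero, mul_zero]
  have hc' : algebraMap L ↥(laurentBaseChange L Fq) c ≠ 0 := (map_ne_zero _).mpr hc
  have hb0 : bcfHom K₀ L Fq h₀ ≠ 0 := (map_ne_zero _).mpr hh₀0
  refine ⟨h₀, hh₀0, fun P => ?_⟩
  rw [← bccDiv_apply_map K₀ L Fq hdeg₀ D P, hdiv, hh₀, Place.ord_mul _ hc' hb0,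
    Fermat.Agent.S24.sf_ord_algebraMap, zero_add, bccMap_ord]

/-- **BC-INJ.** Base change of divisor classes from `F_{K₀}` to `F_L` is injective. -/
theorem bci_pic_injective
    (hdeg₀ : ∀ P : Place K₀ ↥(laurentBaseChange K₀ Fq), P.deg = 1)
    (hconst : ∀ u : ↥(laurentBaseChange L Fq), u ≠ 0 →
      (∀ Q : Place L ↥(laurentBaseChange L Fq), Q.ord u = 0) →
      ∃ c : L, u = algebraMap L ↥(laurentBaseChange L Fq) c) :
    Function.Injective (bccPic K₀ L Fq hdeg₀) := by
  rw [injective_iff_map_eq_zero]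
  intro x hx
  obtain ⟨D, rfl⟩ := Pic0.mk_surjective x
  rw [bccPic_mk] at hx
  have h1 : bccDiv K₀ L Fq hdeg₀ (D : Divisor K₀ ↥(laurentBaseChange K₀ Fq)) ∈
      Divisor.principal (K := L) (F := ↥(laurentBaseChange L Fq)) := by
    have h2 := (QuotientAddGroup.eq_zero_iff _).mp hx
    exact AddSubgroup.mem_addSubgroupOf.mp h2
  have h3 := bci_principal K₀ L Fq hdeg₀ hconst _ h1
  exact (QuotientAddGroup.eq_zero_iff _).mpr (AddSubgroup.mem_addSubgroupOf.mpr h3)

/-- a class whose base change is killed by `m` is killed by `m` -/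
theorem bci_torsion_of_map
    (hdeg₀ : ∀ P : Place K₀ ↥(laurentBaseChange K₀ Fq), P.deg = 1)
    (hconst : ∀ u : ↥(laurentBaseChange L Fq), u ≠ 0 →
      (∀ Q : Place L ↥(laurentBaseChange L Fq), Q.ord u = 0) →
      ∃ c : L, u = algebraMap L ↥(laurentBaseChange L Fq) c)
    (m : ℤ) (x : Pic0 K₀ ↥(laurentBaseChange K₀ Fq))
    (hx : m • bccPic K₀ L Fq hdeg₀ x = 0) : m • x = 0 := by
  apply bci_pic_injective K₀ L Fq hdeg₀ hconst
  rw [map_zsmul, hx, map_zero]

end pic

section modular

variable (K₀ L : Type) [Field K₀] [Field L] [Algebra ℚ K₀] [Algebra ℚ L] [Algebra K₀ L]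
  [IsAlgClosed K₀] [IsAlgClosed L] [CharZero K₀] [CharZero L] (N : ℕ) [NeZero N]

/-- **BC-INJ for `X₀(N)`**: base change of divisor classes of degree zero of the function
field of `X₀(N)` along an extension `K₀ ⊆ L` of algebraically closed fields of characteristic
zero is injective. -/
theorem bci_modular_injective :
    Function.Injective (bccPic K₀ L (modularFunctionFieldFull N) (pdg_deg_eq_one K₀ N)) :=
  bci_pic_injective K₀ L (modularFunctionFieldFull N) (pdg_deg_eq_one K₀ N)
    (fun u _ h => pdg_const L N u h)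

/-- a class of `X₀(N)` over `K₀` whose base change is killed by `m` is killed by `m` -/
theorem bci_modular_torsion (m : ℤ)
    (x : Pic0 K₀ ↥(laurentBaseChange K₀ (modularFunctionFieldFull N)))
    (hx : m • bccPic K₀ L (modularFunctionFieldFull N) (pdg_deg_eq_one K₀ N) x = 0) :
    m • x = 0 :=
  bci_torsion_of_map K₀ L (modularFunctionFieldFull N) (pdg_deg_eq_one K₀ N)
    (fun u _ h => pdg_const L N u h) m x hx

end modular

end Fermat.Agent.S29
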