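import Fermat.Agent.S29.BcInj
import Fermat.Agent.S29.BaseChangeInst

/-!
# S29, BC-INJ for `bcpPicL`

The two concrete instances of the base change of places / divisors / classes
(`bccMap`, `bccDiv`, `bccPic` of `BcConc.lean` and `bcpPlace`, `bcpDivL`, `bcpPicL` of
`BaseChangeInst.lean`) coincide, hence `bcpPicL` is injective (`bcil_injective`,
`bcil_modular_injective`).
-/

set_option autoImplicit false
set_option linter.unusedSectionVars false

open ModularCurve AlgebraicCurve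

namespace Fermat.Agent.S29

open Fermat.Agent.S18

section bridge

variable (K₀ L : Type*) [Field K₀] [Field L] [Algebra ℚ K₀] [Algebra ℚ L] [Algebra K₀ L]
  (Fq : IntermediateField ℚ (LaurentSeries ℚ))

theorem bcil_map_eq (hdeg₀ : ∀ P : Place K₀ ↥(laurentBaseChange K₀ Fq), P.deg = 1) :
    bccMap K₀ L Fq hdeg₀ = bcpPlace K₀ L Fq hdeg₀ :=
  funext fun P => bcpPlace_eq_of_ord K₀ L Fq hdeg₀ P _ (bccMap_ord K₀ L Fq hdeg₀ P)

theorem bcil_div_eq (hdeg₀ : ∀ P : Place K₀ ↥(laurentBaseChange K₀ Fq), P.deg = 1) :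
    bccDiv K₀ L Fq hdeg₀ = bcpDivL K₀ L Fq hdeg₀ := by
  refine Finsupp.addHom_ext fun P n => ?_
  rw [bccDiv_single, bcpDivL_single, bcil_map_eq]

theorem bcil_pic_eq (hdeg₀ : ∀ P : Place K₀ ↥(laurentBaseChange K₀ Fq), P.deg = 1) :
    bccPic K₀ L Fq hdeg₀ = bcpPicL K₀ L Fq hdeg₀ := by
  refine AddMonoidHom.ext fun x => ?_
  obtain ⟨D, rfl⟩ := Pic0.mk_surjective x
  rw [bccPic_mk, bcpPicL_mk]
  refine congrArg Pic0.mk (Subtype.ext ?_)
  rw [bccDiv0_coe, bcpDivL0_coe, bcil_div_eq]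

/-- an automorphism of `L` fixing `K₀` fixes the places `bcpPlace P` -/
theorem bcil_smul_place (hdeg₀ : ∀ P : Place K₀ ↥(laurentBaseChange K₀ Fq), P.deg = 1)
    (σ : L ≃ₐ[ℚ] L) (hσ : ∀ c : K₀, σ (algebraMap K₀ L c) = algebraMap K₀ L c)
    (P : Place K₀ ↥(laurentBaseChange K₀ Fq)) :
    arithmeticGalois Fq σ • bcpPlace K₀ L Fq hdeg₀ P = bcpPlace K₀ L Fq hdeg₀ P := by
  rw [← bcil_map_eq]
  exact bcc_smul_map K₀ L Fq hdeg₀ σ hσ P

variable [IsAlgClosed K₀] [IsAlgClosed L] [CharZero K₀]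

/-- **BC-INJ** for `bcpPicL`. -/
theorem bcil_injective (hdeg₀ : ∀ P : Place K₀ ↥(laurentBaseChange K₀ Fq), P.deg = 1)
    (hconst : ∀ u : ↥(laurentBaseChange L Fq), u ≠ 0 →
      (∀ Q : Place L ↥(laurentBaseChange L Fq), Q.ord u = 0) →
      ∃ c : L, u = algebraMap L ↥(laurentBaseChange L Fq) c) :
    Function.Injective (bcpPicL K₀ L Fq hdeg₀) := by
  rw [← bcil_pic_eq]
  exact bci_pic_injective K₀ L Fq hdeg₀ hconst

/-- a divisor whose base change `bcpDivL` is principal is principal -/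
theorem bcil_principal (hdeg₀ : ∀ P : Place K₀ ↥(laurentBaseChange K₀ Fq), P.deg = 1)
    (hconst : ∀ u : ↥(laurentBaseChange L Fq), u ≠ 0 →
      (∀ Q : Place L ↥(laurentBaseChange L Fq), Q.ord u = 0) →
      ∃ c : L, u = algebraMap L ↥(laurentBaseChange L Fq) c)
    (D : Divisor K₀ ↥(laurentBaseChange K₀ Fq))
    (hD : bcpDivL K₀ L Fq hdeg₀ D ∈
      Divisor.principal (K := L) (F := ↥(laurentBaseChange L Fq))) :
    D ∈ Divisor.principal (K := K₀) (F := ↥(laurentBaseChange K₀ Fq)) := by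
  rw [← bcil_div_eq] at hD
  exact bci_principal K₀ L Fq hdeg₀ hconst D hD

end bridge

section modular

variable (K₀ L : Type) [Field K₀] [Field L] [Algebra ℚ K₀] [Algebra ℚ L] [Algebra K₀ L]
  [IsAlgClosed K₀] [IsAlgClosed L] [CharZero K₀] [CharZero L] (N : ℕ) [NeZero N]

/-- **BC-INJ for `X₀(N)`**, in the vocabulary of `BaseChangeInst.lean`: base change of divisor
classes of degree zero along an extension of algebraically closed fields of characteristic zero
is injective (for every proof `hdeg₀` that the places over `K₀` have degree one). -/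
theorem bcil_modular_injective
    (hdeg₀ : ∀ P : Place K₀ ↥(laurentBaseChange K₀ (modularFunctionFieldFull N)), P.deg = 1) :
    Function.Injective (bcpPicL K₀ L (modularFunctionFieldFull N) hdeg₀) :=
  bcil_injective K₀ L (modularFunctionFieldFull N) hdeg₀ (fun u _ h => pdg_const L N u h)

end modular

end Fermat.Agent.S29
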