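/-
Stage 3, package BC-SURJ (orbit side): the action of `Aut(L/K₀)` on the base-changed function
field `F₀ · L`, its places and its divisor classes.

* `bcoH K₀ L F₀`: the image of `Aut(L/K₀)` in `SemilinearAut L (F₀ · L)` (Prelude
  `arithmeticGalois`).
* elements of `bcoH` fix `bcfHom (F₀ · K₀)` pointwise (`bco_smul_bcfHom`), hence preserve the
  restriction of a place to `F₀ · K₀` (`bco_ord_smul`, `bco_fix`).
* a place of degree one with a value transcendental over `K₀` at a function of `F₀ · K₀` has an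
  infinite `bcoH`-orbit (`bco_infinite_orbit`); consequently a place with finite orbit is not
  trivial on `F₀ · K₀` (`bco_not_trivial_of_finite_orbit`, `bco_alg_of_finite_orbit`).
* the orbit of a `p`-torsion class is finite when the `p`-torsion is (`bco_class_orbit_finite`).
-/
import Mathlib
import Fermat.Prelude.Def_ModularCurve_ArithmeticGalois
import Fermat.Agent.S18.BaseChangeField
import Fermat.Agent.S37.Pairing
import Fermat.Agent.S29.AutC

set_option autoImplicit false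
set_option linter.unusedSectionVars false
set_option linter.style.haveILetI false

noncomputable section

open AlgebraicCurve ModularCurve

namespace Fermat.Agent.S29

open Fermat.Agent.S18 Fermat.Agent.S37

section Orbit

variable (K₀ L : Type*) [Field K₀] [Field L] [Algebra ℚ K₀] [Algebra ℚ L] [Algebra K₀ L]
variable (F₀ : IntermediateField ℚ (LaurentSeries ℚ))

/-- the automorphisms of `L` fixing `K₀` pointwise, inside `Aut(L/ℚ)` -/
def bcoFix : Subgroup (L ≃ₐ[ℚ] L) where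
  carrier := {σ | ∀ c : K₀, σ (algebraMap K₀ L c) = algebraMap K₀ L c}
  one_mem' := fun _ => rfl
  mul_mem' := fun {σ τ} hσ hτ c => by
    show σ (τ (algebraMap K₀ L c)) = algebraMap K₀ L c
    rw [hτ c, hσ c]
  inv_mem' := fun {σ} hσ c => by
    show σ.symm (algebraMap K₀ L c) = algebraMap K₀ L c
    rw [AlgEquiv.symm_apply_eq, hσ c]

theorem bco_mem_fix (σ : L ≃ₐ[ℚ] L) :
    σ ∈ bcoFix K₀ L ↔ ∀ c : K₀, σ (algebraMap K₀ L c) = algebraMap K₀ L c :=
  Iff.rfl

/-- a `K₀`-automorphism of `L` as a `ℚ`-automorphism -/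
def bcoLift (σ : L ≃ₐ[K₀] L) : L ≃ₐ[ℚ] L :=
  AlgEquiv.ofRingEquiv (f := σ.toRingEquiv) (fun q => by
    rw [eq_ratCast (algebraMap ℚ L) q]
    exact map_ratCast σ.toRingEquiv q)

theorem bcoLift_apply (σ : L ≃ₐ[K₀] L) (z : L) : bcoLift K₀ L σ z = σ z := rfl

theorem bcoLift_mem (σ : L ≃ₐ[K₀] L) : bcoLift K₀ L σ ∈ bcoFix K₀ L :=
  fun c => σ.commutes c

/-- the image of `Aut(L/K₀)` in the semilinear automorphisms of `F₀ · L` -/
def bcoH : Subgroup (SemilinearAut L ↥(laurentBaseChange L F₀)) :=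
  (bcoFix K₀ L).map (arithmeticGalois F₀)

theorem bco_mem_H (g : SemilinearAut L ↥(laurentBaseChange L F₀)) :
    g ∈ bcoH K₀ L F₀ ↔ ∃ σ ∈ bcoFix K₀ L, arithmeticGalois F₀ σ = g :=
  Iff.rfl

theorem bco_mem_of_fix {σ : L ≃ₐ[ℚ] L} (hσ : σ ∈ bcoFix K₀ L) :
    arithmeticGalois F₀ σ ∈ bcoH K₀ L F₀ :=
  ⟨σ, hσ, rfl⟩

/-- every `K₀`-automorphism of `L` is the base automorphism of an element of `bcoH` -/
theorem bco_exists (σ : L ≃ₐ[K₀] L) :
    ∃ g ∈ bcoH K₀ L F₀, ∀ z : L, SemilinearAut.baseAut g z = σ z :=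
  ⟨arithmeticGalois F₀ (bcoLift K₀ L σ), bco_mem_of_fix K₀ L F₀ (bcoLift_mem K₀ L σ),
    fun _ => rfl⟩

variable {K₀ L F₀}

/-- elements of `bcoH` fix the constants of `K₀` -/
theorem bco_baseAut {g : SemilinearAut L ↥(laurentBaseChange L F₀)} (hg : g ∈ bcoH K₀ L F₀)
    (c : K₀) : SemilinearAut.baseAut g (algebraMap K₀ L c) = algebraMap K₀ L c := by
  obtain ⟨σ, hσ, rfl⟩ := hg
  exact hσ c

/-- elements of `bcoH` fix the functions of `F₀ · K₀` -/
theorem bco_smul_bcfHom {g : SemilinearAut L ↥(laurentBaseChange L F₀)}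
    (hg : g ∈ bcoH K₀ L F₀) (y : ↥(laurentBaseChange K₀ F₀)) :
    g • bcfHom K₀ L F₀ y = bcfHom K₀ L F₀ y := by
  obtain ⟨σ, hσ, rfl⟩ := hg
  apply Subtype.ext
  rw [coe_arithmeticGalois_smul, bcfHom_coe, coeffMap_coeffMap]
  exact coeffMap_congr (RingHom.ext fun c => hσ c) _

/-- elements of `bcoH` preserve the restriction of a place to `F₀ · K₀` -/
theorem bco_ord_smul {g : SemilinearAut L ↥(laurentBaseChange L F₀)} (hg : g ∈ bcoH K₀ L F₀)
    (Q : Place L ↥(laurentBaseChange L F₀)) (y : ↥(laurentBaseChange K₀ F₀)) :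
    (g • Q).ord (bcfHom K₀ L F₀ y) = Q.ord (bcfHom K₀ L F₀ y) := by
  have h := SemilinearAut.ord_smul g Q (bcfHom K₀ L F₀ y)
  rwa [bco_smul_bcfHom hg] at h

/-- a place which is determined by its restriction to `F₀ · K₀` is fixed by `bcoH` -/
theorem bco_fix (Q : Place L ↥(laurentBaseChange L F₀))
    (huniq : ∀ Q' : Place L ↥(laurentBaseChange L F₀),
      (∀ y : ↥(laurentBaseChange K₀ F₀), Q'.ord (bcfHom K₀ L F₀ y) = Q.ord (bcfHom K₀ L F₀ y)) →
        Q' = Q)
    {g : SemilinearAut L ↥(laurentBaseChange L F₀)} (hg : g ∈ bcoH K₀ L F₀) : g • Q = Q :=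
  huniq (g • Q) (fun y => bco_ord_smul hg Q y)

/-- `(g x)(g Q) = g (x(Q))` for a semilinear automorphism -/
theorem bco_val_smul_gen {K F : Type*} [Field K] [Field F] [Algebra K F] (g : SemilinearAut K F)
    (P : Place K F) (x : F) (c : K) (h : e0HasVal P x c) :
    e0HasVal (g • P) (g • x) (SemilinearAut.baseAut g c) := by
  rcases h with h | h
  · left
    rw [h, SemilinearAut.smul_algebraMap]
  · right
    rw [← SemilinearAut.smul_algebraMap, ← smul_sub, SemilinearAut.ord_smul]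
    exact h

/-- the value of a function of `F₀ · K₀` at `g Q` is `g` of its value at `Q` -/
theorem bco_val_smul {g : SemilinearAut L ↥(laurentBaseChange L F₀)} (hg : g ∈ bcoH K₀ L F₀)
    (Q : Place L ↥(laurentBaseChange L F₀)) (y : ↥(laurentBaseChange K₀ F₀)) (c : L)
    (h : e0HasVal Q (bcfHom K₀ L F₀ y) c) :
    e0HasVal (g • Q) (bcfHom K₀ L F₀ y) (SemilinearAut.baseAut g c) := by
  have h1 := bco_val_smul_gen g Q _ c h
  rwa [bco_smul_bcfHom hg] at h1

/-- a place at which a function of `F₀ · K₀` takes a value transcendental over `K₀` has an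
infinite orbit under `bcoH` -/
theorem bco_infinite_orbit [IsAlgClosed L] (Q : Place L ↥(laurentBaseChange L F₀))
    (y : ↥(laurentBaseChange K₀ F₀)) (c : L) (hc : e0HasVal Q (bcfHom K₀ L F₀ y) c)
    (htr : Transcendental K₀ c) :
    Set.Infinite {Q' : Place L ↥(laurentBaseChange L F₀) | ∃ g ∈ bcoH K₀ L F₀, Q' = g • Q} := by
  haveI : CharZero K₀ := algebraRat.charZero K₀
  intro hfin
  have hinf := autc_infinite_orbit (K := K₀) c htr
  apply hinf
  have hsub : {w : L | ∃ σ : L ≃ₐ[K₀] L, σ c = w} ⊆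
      ⋃ Q' ∈ {Q' : Place L ↥(laurentBaseChange L F₀) | ∃ g ∈ bcoH K₀ L F₀, Q' = g • Q},
        {w : L | e0HasVal Q' (bcfHom K₀ L F₀ y) w} := by
    rintro w ⟨σ, rfl⟩
    obtain ⟨g, hg, hgσ⟩ := bco_exists K₀ L F₀ σ
    refine Set.mem_biUnion (x := g • Q) ⟨g, hg, rfl⟩ ?_
    have h1 := bco_val_smul hg Q y c hc
    rw [hgσ c] at h1
    exact h1
  refine (hfin.biUnion fun Q' _ => ?_).subset hsub
  refine Set.Subsingleton.finite ?_
  intro a ha b hb
  exact e0HasVal_unique Q' ha hb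

/-- if `Q` is trivial on `F₀ · K₀`, the value at `Q` of a non-constant function of `F₀ · K₀`
is not in `K₀` -/
theorem bco_val_not_mem_range (Q : Place L ↥(laurentBaseChange L F₀))
    (htriv : ∀ z : ↥(laurentBaseChange K₀ F₀), z ≠ 0 → Q.ord (bcfHom K₀ L F₀ z) = 0)
    (y : ↥(laurentBaseChange K₀ F₀))
    (hy : ∀ c₀ : K₀, y ≠ algebraMap K₀ ↥(laurentBaseChange K₀ F₀) c₀) (c : L)
    (hc : e0HasVal Q (bcfHom K₀ L F₀ y) c) : c ∉ (algebraMap K₀ L).range := by
  rintro ⟨c₀, rfl⟩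
  have hz : y - algebraMap K₀ ↥(laurentBaseChange K₀ F₀) c₀ ≠ 0 := sub_ne_zero.mpr (hy c₀)
  have h0 := htriv _ hz
  rw [map_sub, bcfHom_algebraMap] at h0
  rcases hc with h | h
  · apply hz
    apply bcfHom_injective K₀ L F₀
    rw [map_sub, bcfHom_algebraMap, map_zero, h, sub_self]
  · rw [h0] at h
    exact lt_irrefl _ h

/-- a place of degree one with finite `bcoH`-orbit is not trivial on `F₀ · K₀` (as soon as
`F₀ · K₀` contains a non-constant function) -/
theorem bco_not_trivial_of_finite_orbit [IsAlgClosed L] [IsAlgClosed K₀]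
    (Q : Place L ↥(laurentBaseChange L F₀)) (hdeg : Q.deg = 1)
    (y : ↥(laurentBaseChange K₀ F₀))
    (hy : ∀ c₀ : K₀, y ≠ algebraMap K₀ ↥(laurentBaseChange K₀ F₀) c₀)
    (hfin : Set.Finite
      {Q' : Place L ↥(laurentBaseChange L F₀) | ∃ g ∈ bcoH K₀ L F₀, Q' = g • Q}) :
    ¬ ∀ z : ↥(laurentBaseChange K₀ F₀), z ≠ 0 → Q.ord (bcfHom K₀ L F₀ z) = 0 := by
  intro htriv
  have hy0 : y ≠ 0 := by
    intro h
    exact hy 0 (by rw [h, map_zero])
  obtain ⟨c, hc⟩ := e0HasVal_exists Q hdeg (g := bcfHom K₀ L F₀ y)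
    (Or.inr (htriv y hy0).ge)
  have hnot := bco_val_not_mem_range Q htriv y hy c hc
  have htr : Transcendental K₀ c := fun halg => hnot (autc_mem_range_of_isAlgebraic c halg)
  exact bco_infinite_orbit Q y c hc htr hfin

/-- a place of degree one with finite `bcoH`-orbit lies over a place of `F₀ · K₀`, given the
dichotomy "trivial on `F₀ · K₀` or over a place of `F₀ · K₀`" -/
theorem bco_alg_of_finite_orbit [IsAlgClosed L] [IsAlgClosed K₀]
    (Q : Place L ↥(laurentBaseChange L F₀)) (hdeg : Q.deg = 1)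
    (y : ↥(laurentBaseChange K₀ F₀))
    (hy : ∀ c₀ : K₀, y ≠ algebraMap K₀ ↥(laurentBaseChange K₀ F₀) c₀)
    (hfin : Set.Finite
      {Q' : Place L ↥(laurentBaseChange L F₀) | ∃ g ∈ bcoH K₀ L F₀, Q' = g • Q})
    {T : Prop}
    (hor : (∀ z : ↥(laurentBaseChange K₀ F₀), z ≠ 0 → Q.ord (bcfHom K₀ L F₀ z) = 0) ∨ T) : T :=
  hor.resolve_left (bco_not_trivial_of_finite_orbit Q hdeg y hy hfin)

end Orbit

section ClassOrbit

variable {L F : Type*} [Field L] [Field F] [Algebra L F]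

/-- the natural map `Pic⁰ → Pic` -/
def bcoPicMap : Pic0 L F →+ Pic L F :=
  QuotientAddGroup.map _ _ (Divisor.degZero (K := L) (F := F)).subtype (fun _ hx => hx)

theorem bcoPicMap_mk (D : Divisor.degZero (K := L) (F := F)) :
    bcoPicMap (Pic0.mk D) = (QuotientAddGroup.mk (D : Divisor L F) : Pic L F) :=
  rfl

/-- the orbit (in `Pic`) of a divisor whose class is `p`-torsion is finite when the `p`-torsion
of `Pic⁰` is finite; this is the hypothesis `hDfin` of `pds_main`. -/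
theorem bco_class_orbit_finite (H : Subgroup (SemilinearAut L F)) (p : ℕ)
    (D : Divisor.degZero (K := L) (F := F)) (hD : Pic0.mk D ∈ Pic0.torsion L F p)
    (hfin : Set.Finite (Pic0.torsion L F p : Set (Pic0 L F))) :
    Set.Finite {c : Pic L F | ∃ g ∈ H, c = QuotientAddGroup.mk (g • (D : Divisor L F))} := by
  refine (hfin.image (bcoPicMap (L := L) (F := F))).subset ?_
  rintro c ⟨g, _, rfl⟩
  refine ⟨g • Pic0.mk D, SemilinearAut.smul_mem_torsion g hD, ?_⟩
  rw [SemilinearAut.pic0_smul_mk, bcoPicMap_mk, SemilinearAut.coe_degZeroSMulHom]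

end ClassOrbit

end Fermat.Agent.S29
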