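import Mathlib
import Fermat.Prelude.Def_AlgebraicCurve_BaseChangeGalois
import Fermat.Agent.S37.Pairing
import Fermat.Agent.S29.AutC

/-!
# S29 / BC-SURJ (abstract form): torsion classes descend along a constant field extension

Setting: function fields `F0 / K0` and `F / L`, an embedding `ι : F0 →+* F`, a map of places
`b : Place K0 F0 → Place L F` (base change of places) and an action `act` of `Aut(L / K0)` on
`F` by semilinear automorphisms fixing `ι F0`.

`bcs_main_abs`: if the `p`-torsion of `Pic0 L F` is finite, every `p`-torsion class of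
`Pic0 L F` is the class of `Finsupp.mapDomain b D0` for a divisor `D0` of degree `0` of `F0`.

The proof instantiates the descent statement `BcsPds L F` (the statement of `pds_main`:
a divisor class with finite orbit under a group `H` of semilinear automorphisms is represented
by a divisor supported on the `H`-fixed places) with `H := act.range`, `Alg := Set.range b`.
-/

set_option autoImplicit false

namespace Fermat.Agent.S29

open AlgebraicCurve Fermat.Agent.S24 Fermat.Agent.S37

/-- The descent statement for `(L, F)`: a divisor of degree `0` whose class has a finite orbit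
under a group `H` of semilinear automorphisms is linearly equivalent to a divisor supported on
a given set `Alg` of places which are fixed by `H` and which contains every place with finite
`H`-orbit and every pole of a given transcendental function. -/
def BcsPds (L F : Type*) [Field L] [Field F] [Algebra L F] : Prop :=
  ∀ (H : Subgroup (SemilinearAut L F)) (Alg : Set (Place L F)),
    (∀ Q ∈ Alg, ∀ g ∈ H, g • Q = Q) →
    (∀ Q : Place L F, Set.Finite {Q' | ∃ g ∈ H, Q' = g • Q} → Q ∈ Alg) →
    ∀ x : F, Transcendental L x → (∀ Q : Place L F, Q.ord x < 0 → Q ∈ Alg) →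
    (∃ Q : Place L F, Q.ord x < 0) →
    ∀ D : Divisor L F, Divisor.degree D = 0 →
    Set.Finite {c : Pic L F | ∃ g ∈ H, c = QuotientAddGroup.mk (g • D)} →
    ∃ D' : Divisor L F, (∀ Q, D' Q ≠ 0 → Q ∈ Alg) ∧ Divisor.degree D' = 0 ∧
      D - D' ∈ Divisor.principal (K := L) (F := F)

section Abs

variable {K0 L F0 F : Type*} [Field K0] [Field L] [Field F0] [Field F]
  [Algebra K0 L] [Algebra K0 F0] [Algebra L F]

/-- The natural map from degree-zero classes to all classes. -/
noncomputable def bcsJ (L F : Type*) [Field L] [Field F] [Algebra L F] : Pic0 L F →+ Pic L F :=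
  QuotientAddGroup.map _ _ (Divisor.degZero (K := L) (F := F)).subtype (fun _ hx => hx)

theorem bcsJ_mk (D : Divisor.degZero (K := L) (F := F)) :
    bcsJ L F (Pic0.mk D) = QuotientAddGroup.mk (D : Divisor L F) := rfl

/-- A place is determined by its order function. -/
theorem bcs_place_ext {K F : Type*} [Field K] [Field F] [Algebra K F] {P Q : Place K F}
    (h : ∀ f : F, P.ord f = Q.ord f) : P = Q := by
  apply Place.ext
  ext f
  rw [← ValuationSubring.mem_carrier, ← ValuationSubring.mem_carrier]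
  exact ⟨fun hf => (sf_ord_nonneg_iff Q f).mp (h f ▸ (sf_ord_nonneg_iff P f).mpr hf),
    fun hf => (sf_ord_nonneg_iff P f).mp ((h f).symm ▸ (sf_ord_nonneg_iff Q f).mpr hf)⟩

variable (ι : F0 →+* F) (b : Place K0 F0 → Place L F)

omit [Algebra K0 L] in
theorem bcs_injective (hord : ∀ (P0 : Place K0 F0) (y : F0), (b P0).ord (ι y) = P0.ord y) :
    Function.Injective b := by
  intro P P' h
  refine bcs_place_ext fun y => ?_
  rw [← hord P y, ← hord P' y, h]

omit [Algebra K0 L] in
/-- degree of the base change of a divisor -/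
theorem bcs_degree_mapDomain (hdeg0 : ∀ P0 : Place K0 F0, P0.deg = 1)
    (hdeg : ∀ Q : Place L F, Q.deg = 1) (D0 : Divisor K0 F0) :
    Divisor.degree (Finsupp.mapDomain b D0) = Divisor.degree D0 := by
  induction D0 using Finsupp.induction with
  | zero => simp
  | single_add v n D _ _ ih =>
      rw [Finsupp.mapDomain_add, map_add, map_add, ih, Finsupp.mapDomain_single,
        Divisor.degree_single, Divisor.degree_single, hdeg0, hdeg]

variable (act : (L ≃ₐ[K0] L) →* SemilinearAut L F)

/-- base-changed places are fixed by the automorphisms of the constant field. -/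
theorem bcs_fix
    (hord : ∀ (P0 : Place K0 F0) (y : F0), (b P0).ord (ι y) = P0.ord y)
    (huniq : ∀ (P0 : Place K0 F0) (Q : Place L F), (∀ y : F0, Q.ord (ι y) = P0.ord y) → Q = b P0)
    (hact_fix : ∀ (σ : L ≃ₐ[K0] L) (y : F0), act σ • ι y = ι y)
    (σ : L ≃ₐ[K0] L) (P0 : Place K0 F0) : act σ • b P0 = b P0 := by
  refine huniq P0 _ fun y => ?_
  have h := SemilinearAut.ord_smul (act σ) (b P0) (ι y)
  rw [hact_fix σ y] at h
  rw [h, hord]

omit [Algebra K0 F0] in
/-- the value of a function is transported by a semilinear automorphism. -/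
theorem bcs_val_smul
    (hact_base : ∀ (σ : L ≃ₐ[K0] L) (a : L), SemilinearAut.baseAut (act σ) a = σ a)
    (hact_fix : ∀ (σ : L ≃ₐ[K0] L) (y : F0), act σ • ι y = ι y)
    (σ : L ≃ₐ[K0] L) (Q : Place L F) (y : F0) (z : L)
    (h : 0 < Q.ord (ι y - algebraMap L F z)) :
    0 < (act σ • Q).ord (ι y - algebraMap L F (σ z)) := by
  have h1 := SemilinearAut.ord_smul (act σ) Q (ι y - algebraMap L F z)
  rw [smul_sub, hact_fix σ y, SemilinearAut.smul_algebraMap, hact_base] at h1
  rw [h1]
  exact h

/-- a place with finite orbit under the automorphisms of the constant field is a base-changed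
place. -/
theorem bcs_alg_of_finite_orbit [IsAlgClosed K0] [IsAlgClosed L] [CharZero K0]
    (hdeg : ∀ Q : Place L F, Q.deg = 1)
    (huniq : ∀ (P0 : Place K0 F0) (Q : Place L F), (∀ y : F0, Q.ord (ι y) = P0.ord y) → Q = b P0)
    (htriv : ∀ Q : Place L F, (∀ y : F0, y ≠ 0 → Q.ord (ι y) = 0) ∨
      ∃ P0 : Place K0 F0, ∀ y : F0, Q.ord (ι y) = P0.ord y)
    (hact_base : ∀ (σ : L ≃ₐ[K0] L) (a : L), SemilinearAut.baseAut (act σ) a = σ a)
    (hact_fix : ∀ (σ : L ≃ₐ[K0] L) (y : F0), act σ • ι y = ι y)
    (hιc : ∀ c : K0, ι (algebraMap K0 F0 c) = algebraMap L F (algebraMap K0 L c))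
    (x0 : F0) (hx0 : Transcendental L (ι x0))
    (Q : Place L F) (hQ : Set.Finite {Q' | ∃ g ∈ act.range, Q' = g • Q}) :
    Q ∈ Set.range b := by
  rcases htriv Q with htr | ⟨P0, hP0⟩
  · exfalso
    have hx00 : x0 ≠ 0 := by
      rintro rfl
      apply hx0
      rw [map_zero]
      exact isAlgebraic_zero
    have hnc : ∀ z : L, ι x0 ≠ algebraMap L F z := by
      intro z hz
      apply hx0
      rw [hz]
      exact isAlgebraic_algebraMap z
    -- the value of `ι x0` at `Q`
    obtain ⟨z, hz⟩ := e0HasVal_exists Q (hdeg Q) (g := ι x0) (Or.inr (htr x0 hx00).ge)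
    have hz' : 0 < Q.ord (ι x0 - algebraMap L F z) := hz.resolve_left (hnc z)
    -- the value is transcendental over `K0`
    have hztr : Transcendental K0 z := by
      intro halg
      obtain ⟨z0, rfl⟩ := autc_mem_range_of_isAlgebraic z halg
      have hne : x0 - algebraMap K0 F0 z0 ≠ 0 := by
        intro h0
        apply hnc (algebraMap K0 L z0)
        rw [← hιc, ← sub_eq_zero, ← map_sub, h0, map_zero]
      have h0 := htr _ hne
      rw [map_sub, hιc] at h0
      rw [h0] at hz'
      exact lt_irrefl _ hz'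
    have hinf := autc_infinite_orbit (K := K0) (Ω := L) z hztr
    apply hinf
    -- every conjugate of `z` is the value of `ι x0` at a place of the orbit
    have hsub : {w : L | ∃ σ : L ≃ₐ[K0] L, σ z = w} ⊆
        ⋃ Q' ∈ {Q' | ∃ g ∈ act.range, Q' = g • Q},
          {w : L | 0 < Q'.ord (ι x0 - algebraMap L F w)} := by
      rintro w ⟨σ, rfl⟩
      simp only [Set.mem_iUnion]
      exact ⟨act σ • Q, ⟨act σ, ⟨σ, rfl⟩, rfl⟩,
        bcs_val_smul ι act hact_base hact_fix σ Q x0 z hz'⟩
    refine (Set.Finite.biUnion hQ fun Q' _ => ?_).subset hsub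
    refine Set.Subsingleton.finite ?_
    intro w hw w' hw'
    exact e0HasVal_unique Q' (g := ι x0) (Or.inr hw) (Or.inr hw')
  · exact ⟨P0, (huniq P0 Q hP0).symm⟩

/-- **BC-SURJ, abstract form.** Every `p`-torsion class of `Pic0 L F` is the class of the base
change of a divisor of degree zero of `F0`, provided the `p`-torsion of `Pic0 L F` is finite. -/
theorem bcs_main_abs [IsAlgClosed K0] [IsAlgClosed L] [CharZero K0]
    (hpds : BcsPds L F)
    (hdeg0 : ∀ P0 : Place K0 F0, P0.deg = 1)
    (hdeg : ∀ Q : Place L F, Q.deg = 1)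
    (hord : ∀ (P0 : Place K0 F0) (y : F0), (b P0).ord (ι y) = P0.ord y)
    (huniq : ∀ (P0 : Place K0 F0) (Q : Place L F), (∀ y : F0, Q.ord (ι y) = P0.ord y) → Q = b P0)
    (htriv : ∀ Q : Place L F, (∀ y : F0, y ≠ 0 → Q.ord (ι y) = 0) ∨
      ∃ P0 : Place K0 F0, ∀ y : F0, Q.ord (ι y) = P0.ord y)
    (hact_base : ∀ (σ : L ≃ₐ[K0] L) (a : L), SemilinearAut.baseAut (act σ) a = σ a)
    (hact_fix : ∀ (σ : L ≃ₐ[K0] L) (y : F0), act σ • ι y = ι y)
    (hιc : ∀ c : K0, ι (algebraMap K0 F0 c) = algebraMap L F (algebraMap K0 L c))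
    (x0 : F0) (hx0 : Transcendental L (ι x0)) (hx0pole : ∃ P0 : Place K0 F0, P0.ord x0 < 0)
    (p : ℕ) (hfin : (Pic0.torsion L F p : Set (Pic0 L F)).Finite)
    (c : Pic0 L F) (hc : c ∈ Pic0.torsion L F p) :
    ∃ D0 : Divisor K0 F0, Divisor.degree D0 = 0 ∧
      ∃ h : Finsupp.mapDomain b D0 ∈ Divisor.degZero (K := L) (F := F),
        c = Pic0.mk ⟨Finsupp.mapDomain b D0, h⟩ := by
  classical
  obtain ⟨⟨D, hD⟩, rfl⟩ := Pic0.mk_surjective c
  have hbinj : Function.Injective b := bcs_injective ι b hord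
  -- the hypotheses of the descent statement
  have hfix : ∀ Q ∈ Set.range b, ∀ g ∈ act.range, g • Q = Q := by
    rintro _ ⟨P0, rfl⟩ _ ⟨σ, rfl⟩
    exact bcs_fix ι b act hord huniq hact_fix σ P0
  have hfinorb : ∀ Q : Place L F, Set.Finite {Q' | ∃ g ∈ act.range, Q' = g • Q} →
      Q ∈ Set.range b := fun Q hQ =>
    bcs_alg_of_finite_orbit ι b act hdeg huniq htriv hact_base hact_fix hιc x0 hx0 Q hQ
  have hx00 : x0 ≠ 0 := by
    rintro rfl
    apply hx0
    rw [map_zero]
    exact isAlgebraic_zero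
  have hpole : ∀ Q : Place L F, Q.ord (ι x0) < 0 → Q ∈ Set.range b := by
    intro Q hQ
    rcases htriv Q with htr | ⟨P0, hP0⟩
    · rw [htr x0 hx00] at hQ
      exact absurd hQ (lt_irrefl _)
    · exact ⟨P0, (huniq P0 Q hP0).symm⟩
  have hpoleex : ∃ Q : Place L F, Q.ord (ι x0) < 0 := by
    obtain ⟨P0, hP0⟩ := hx0pole
    exact ⟨b P0, by rw [hord]; exact hP0⟩
  have hDfin : Set.Finite {cls : Pic L F | ∃ g ∈ act.range,
      cls = QuotientAddGroup.mk (g • D)} := by
    refine (hfin.image (bcsJ L F)).subset ?_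
    rintro cls ⟨g, -, rfl⟩
    refine ⟨g • Pic0.mk ⟨D, hD⟩, SemilinearAut.smul_mem_torsion g hc, ?_⟩
    rw [SemilinearAut.pic0_smul_mk, bcsJ_mk, SemilinearAut.coe_degZeroSMulHom]
  obtain ⟨D', hD'supp, hD'deg, hDD'⟩ :=
    hpds act.range (Set.range b) hfix hfinorb (ι x0) hx0 hpole hpoleex D hD hDfin
  -- pull `D'` back to `F0`
  have hsupp : (D'.support : Set (Place L F)) ⊆ Set.range b := by
    intro Q hQ
    exact hD'supp Q (Finsupp.mem_support_iff.mp hQ)
  have hmap : Finsupp.mapDomain b (Finsupp.comapDomain b D' hbinj.injOn) = D' :=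
    Finsupp.mapDomain_comapDomain b hbinj D' hsupp
  refine ⟨Finsupp.comapDomain b D' hbinj.injOn, ?_, ?_⟩
  · rw [← bcs_degree_mapDomain b hdeg0 hdeg, hmap, hD'deg]
  · have hmem : Finsupp.mapDomain b (Finsupp.comapDomain b D' hbinj.injOn) ∈
        Divisor.degZero (K := L) (F := F) := by
      rw [hmap]; exact hD'deg
    refine ⟨hmem, ?_⟩
    refine (QuotientAddGroup.eq).mpr ?_
    rw [AddSubgroup.mem_addSubgroupOf]
    have h1 : ((-(⟨D, hD⟩ : Divisor.degZero (K := L) (F := F)) +
        ⟨Finsupp.mapDomain b (Finsupp.comapDomain b D' hbinj.injOn), hmem⟩ :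
          Divisor.degZero (K := L) (F := F)) : Divisor L F) = -(D - D') := by
      rw [AddSubgroup.coe_add, AddSubgroup.coe_neg]
      simp only [hmap]
      abel
    rw [h1]
    exact neg_mem hDD'

end Abs

end Fermat.Agent.S29
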