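import Mathlib
import Fermat.Prelude.Def_AlgebraicCurve_Repartitions
import Fermat.Prelude.Def_AlgebraicCurve_BaseChangeGalois
import Fermat.Agent.S24.SumFormulaBase

/-!
# S29, stage 3, leaf BASECHANGE (c): descent of divisor classes with finite orbit

Abstract setting: `F / L` a function field all of whose places have degree one, `H` a group of
semilinear automorphisms, `Alg` a set of `H`-fixed places ("algebraic places") containing every
place with finite `H`-orbit and every pole of a transcendental function `x`.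

`pds_main`: a degree-zero divisor whose class has finite `H`-orbit in `Pic` is linearly
equivalent to a divisor supported in `Alg`.

Tools (Riemann-Roch-lite, no genus): `pds_rr_eq_bot` (`L(E) = 0` for `deg E < 0`),
`pds_rr_step` (`L(E)` has codimension at most one in `L(E + Q)` for a place `Q` of degree one,
elementwise form), `pds_rr_smul` (`g • L(E) = L(g • E)`).
-/

set_option autoImplicit false

open AlgebraicCurve

namespace Fermat.Agent.S29

open Fermat.Agent.S24

variable {L F : Type*} [Field L] [Field F] [Algebra L F]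

/-- The degree of an effective divisor is nonnegative. -/
theorem pds_degree_nonneg (E : Divisor L F) (hE : ∀ v, 0 ≤ E v) : 0 ≤ Divisor.degree E := by
  have h : Divisor.degree E = E.sum fun v n => n * (v.deg : ℤ) := by
    simp [Divisor.degree, Finsupp.liftAddHom_apply]
  rw [h]
  exact Finsupp.sum_nonneg (fun v _ => mul_nonneg (hE v) (Int.natCast_nonneg _))

/-- `L(E) = 0` when `deg E < 0`. -/
theorem pds_rr_eq_bot [HasPrincipalDivisors L F] (E : Divisor L F)
    (hE : Divisor.degree E < 0) : riemannRochSpace E = ⊥ := by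
  rw [eq_bot_iff]
  intro f hf
  rw [Submodule.mem_bot]
  by_contra hf0
  obtain ⟨Df, hDf, hdeg⟩ := HasPrincipalDivisors.exists_divisor (K := L) f hf0
  have h1 : 0 ≤ Divisor.degree (E + Df) := by
    apply pds_degree_nonneg
    intro v
    rcases (mem_riemannRochSpace_iff.mp hf) v with h | h
    · exact absurd h hf0
    · rw [Finsupp.add_apply, hDf]; omega
  rw [map_add, hdeg, add_zero] at h1
  omega

/-- At a place of degree one, every function regular at the place has a value. -/
theorem pds_val_exists (P : Place L F) (hdeg : P.deg = 1) {g : F} (hg : g = 0 ∨ 0 ≤ P.ord g) :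
    ∃ c : L, g = algebraMap L F c ∨ 0 < P.ord (g - algebraMap L F c) := by
  have hmem : g ∈ P.toValuationSubring := by
    rcases hg with rfl | h
    · exact zero_mem _
    · exact (sf_ord_nonneg_iff P g).mp h
  have hbot : (⊥ : Subalgebra L P.ResidueField) = ⊤ :=
    Subalgebra.bot_eq_top_of_finrank_eq_one hdeg
  have hx : IsLocalRing.residue P.toValuationSubring ⟨g, hmem⟩
      ∈ (⊥ : Subalgebra L P.ResidueField) := by
    rw [hbot]; exact Algebra.mem_top
  obtain ⟨c, hc⟩ := Algebra.mem_bot.mp hx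
  refine ⟨c, ?_⟩
  have hc' : IsLocalRing.residue P.toValuationSubring
      (⟨g, hmem⟩ - algebraMap L P.toValuationSubring c) = 0 := by
    rw [map_sub, ← hc]
    exact sub_eq_zero.mpr rfl
  rw [IsLocalRing.residue_eq_zero_iff, sf_mem_maximalIdeal_iff_ord] at hc'
  rcases hc' with h | h
  · left
    have := congrArg Subtype.val h
    simpa [sub_eq_zero] using this
  · right
    simpa using h

/-- `L(E)` has codimension at most one in `L(E + Q)` for a place `Q` of degree one. -/
theorem pds_rr_step (Q : Place L F) (hQ : Q.deg = 1) (E : Divisor L F) {f g : F}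
    (hf : f ∈ riemannRochSpace (E + Finsupp.single Q 1))
    (hg : g ∈ riemannRochSpace (E + Finsupp.single Q 1)) :
    ∃ a b : L, (a ≠ 0 ∨ b ≠ 0) ∧ a • f + b • g ∈ riemannRochSpace E := by
  obtain ⟨π, hπ⟩ := IsDiscreteValuationRing.exists_irreducible Q.toValuationSubring
  have hπ0 : (π : F) ≠ 0 := by
    simpa [ne_eq, ZeroMemClass.coe_eq_zero] using hπ.ne_zero
  obtain ⟨n, hn⟩ : ∃ n : ℤ, n = E Q + 1 := ⟨_, rfl⟩
  obtain ⟨t, ht⟩ : ∃ t : F, t = (π : F) ^ n := ⟨_, rfl⟩
  have ht0 : t ≠ 0 := by rw [ht]; exact zpow_ne_zero n hπ0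
  have hordt : Q.ord t = n := by
    rw [ht, Q.ord_zpow, Q.ord_coe_irreducible hπ, mul_one]
  have hreg : ∀ h ∈ riemannRochSpace (E + Finsupp.single Q 1),
      h * t = 0 ∨ 0 ≤ Q.ord (h * t) := by
    intro h hh
    rcases (mem_riemannRochSpace_iff.mp hh) Q with h0 | h1
    · left; rw [h0, zero_mul]
    · by_cases h0 : h = 0
      · left; rw [h0, zero_mul]
      · right
        rw [Q.ord_mul h0 ht0, hordt]
        rw [Finsupp.add_apply, Finsupp.single_eq_same] at h1
        omega
  obtain ⟨cf, hcf⟩ := pds_val_exists Q hQ (hreg f hf)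
  obtain ⟨cg, hcg⟩ := pds_val_exists Q hQ (hreg g hg)
  obtain ⟨a, b, hab, hrel⟩ : ∃ a b : L, (a ≠ 0 ∨ b ≠ 0) ∧ a * cf + b * cg = 0 := by
    by_cases h : cg = 0
    · exact ⟨0, 1, Or.inr one_ne_zero, by rw [h]; ring⟩
    · exact ⟨cg, -cf, Or.inl h, by ring⟩
  refine ⟨a, b, hab, ?_⟩
  have hmem : a • f + b • g ∈ riemannRochSpace (E + Finsupp.single Q 1) :=
    Submodule.add_mem _ (Submodule.smul_mem _ a hf) (Submodule.smul_mem _ b hg)
  rw [mem_riemannRochSpace_iff]
  intro v
  by_cases hv : v = Q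
  · rw [hv]
    by_cases h0 : a • f + b • g = 0
    · exact Or.inl h0
    right
    have key : (a • f + b • g) * t = algebraMap L F a * (f * t - algebraMap L F cf)
        + algebraMap L F b * (g * t - algebraMap L F cg) := by
      have h : algebraMap L F a * algebraMap L F cf + algebraMap L F b * algebraMap L F cg
          = 0 := by
        rw [← map_mul, ← map_mul, ← map_add, hrel, map_zero]
      rw [Algebra.smul_def, Algebra.smul_def]
      linear_combination h
    have hpos : ∀ (c : L) (y : F), (y = 0 ∨ 0 < Q.ord y) →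
        (algebraMap L F c * y = 0 ∨ 1 ≤ Q.ord (algebraMap L F c * y)) := by
      intro c y hy
      by_cases hc : c = 0
      · left; rw [hc, map_zero, zero_mul]
      rcases hy with hy | hy
      · left; rw [hy, mul_zero]
      · right
        have hy0 : y ≠ 0 := by rintro rfl; simp at hy
        rw [Q.ord_mul ((map_ne_zero _).mpr hc) hy0, sf_ord_algebraMap]; omega
    have h1 : 1 ≤ Q.ord ((a • f + b • g) * t) := by
      have hne : (a • f + b • g) * t ≠ 0 := mul_ne_zero h0 ht0
      rw [key] at hne ⊢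
      refine sf_ord_add_ge Q hne 1 (hpos a _ ?_) (hpos b _ ?_)
      · rcases hcf with h | h
        · left; rw [h, sub_self]
        · right; exact h
      · rcases hcg with h | h
        · left; rw [h, sub_self]
        · right; exact h
    rw [Q.ord_mul h0 ht0, hordt] at h1
    omega
  · rcases (mem_riemannRochSpace_iff.mp hmem) v with h | h
    · exact Or.inl h
    · right
      rw [Finsupp.add_apply, Finsupp.single_eq_of_ne hv, add_zero] at h
      exact h

/-- `g • L(E) = L(g • E)` (elementwise). -/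
theorem pds_rr_smul (g : SemilinearAut L F) (E : Divisor L F) (f : F) :
    g • f ∈ riemannRochSpace (g • E) ↔ f ∈ riemannRochSpace E := by
  rw [mem_riemannRochSpace_iff, mem_riemannRochSpace_iff]
  have h0 : g • f = 0 ↔ f = 0 := smul_eq_zero_iff_eq g
  constructor
  · intro h v
    have := h (g • v)
    rwa [SemilinearAut.divisor_smul_apply_smul, SemilinearAut.ord_smul, h0] at this
  · intro h w
    have h1 := h (g⁻¹ • w)
    have h2 := SemilinearAut.ord_smul g (g⁻¹ • w) f
    rw [smul_inv_smul] at h2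
    rw [SemilinearAut.divisor_smul_apply, h0, h2]
    exact h1

/-- The order of a finite product of nonzero functions. -/
theorem pds_ord_prod (v : Place L F) {ι : Type*} (s : Finset ι) (u : ι → F)
    (hu : ∀ i ∈ s, u i ≠ 0) : v.ord (∏ i ∈ s, u i) = ∑ i ∈ s, v.ord (u i) := by
  classical
  induction s using Finset.induction_on with
  | empty => simp
  | insert a s ha ih =>
    rw [Finset.prod_insert ha, Finset.sum_insert ha,
      v.ord_mul (hu a (Finset.mem_insert_self a s))
        (Finset.prod_ne_zero_iff.mpr (fun i hi => hu i (Finset.mem_insert_of_mem hi))),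
      ih (fun i hi => hu i (Finset.mem_insert_of_mem hi))]

/-- A nonzero element of `L(D + E)` for some `E` supported on the poles of `x`. -/
theorem pds_exists_nonzero [HasPrincipalDivisors L F] (hdeg : ∀ Q : Place L F, Q.deg = 1)
    (x : F) (hx : Transcendental L x) (D : Divisor L F) :
    ∃ E : Divisor L F, (∀ Q, E Q ≠ 0 → Q.ord x < 0) ∧
      ∃ f ∈ riemannRochSpace (D + E), f ≠ 0 := by
  classical
  have hxne : ∀ a : L, x ≠ algebraMap L F a := by
    intro a h
    exact hx (h ▸ isAlgebraic_algebraMap a)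
  have hx0 : x ≠ 0 := by
    intro h
    exact hxne 0 (by rw [h, map_zero])
  obtain ⟨Dx, hDx, -⟩ := HasPrincipalDivisors.exists_divisor (K := L) x hx0
  have hval : ∀ Q : Place L F, ∃ c : L, 0 ≤ Q.ord x → 0 < Q.ord (x - algebraMap L F c) := by
    intro Q
    by_cases hQ : 0 ≤ Q.ord x
    · obtain ⟨c, hc⟩ := pds_val_exists Q (hdeg Q) (Or.inr hQ)
      refine ⟨c, fun _ => ?_⟩
      rcases hc with h | h
      · exact absurd h (hxne c)
      · exact h
    · exact ⟨0, fun h => absurd h hQ⟩
  choose c hc using hval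
  have hfac : ∀ Q : Place L F, x - algebraMap L F (c Q) ≠ 0 := by
    intro Q h
    exact hxne (c Q) (sub_eq_zero.mp h)
  have hlow : ∀ (v : Place L F) (a : L), min (v.ord x) 0 ≤ v.ord (x - algebraMap L F a) := by
    intro v a
    have hne : x + -algebraMap L F a ≠ 0 := by
      rw [← sub_eq_add_neg]; exact sub_ne_zero.mpr (hxne a)
    have := sf_ord_add_ge v hne (min (v.ord x) 0) (Or.inr (min_le_left _ _))
      (by
        by_cases ha : a = 0
        · left; rw [ha, map_zero, neg_zero]
        · right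
          rw [← map_neg, sf_ord_algebraMap]
          exact min_le_right _ _)
    rwa [← sub_eq_add_neg] at this
  obtain ⟨s, hs⟩ : ∃ s : Finset (Place L F), s = D.support.filter (fun Q => 0 ≤ Q.ord x) :=
    ⟨_, rfl⟩
  obtain ⟨m, hm⟩ : ∃ m : Place L F → ℕ, m = fun Q => (-D Q).toNat := ⟨_, rfl⟩
  obtain ⟨M, hM⟩ : ∃ M : ℕ, M = ∑ Q ∈ D.support, m Q := ⟨_, rfl⟩
  obtain ⟨f, hf⟩ : ∃ f : F, f = ∏ Q ∈ s, (x - algebraMap L F (c Q)) ^ (m Q) := ⟨_, rfl⟩
  have hf0 : f ≠ 0 := by
    rw [hf]
    exact Finset.prod_ne_zero_iff.mpr (fun Q _ => pow_ne_zero _ (hfac Q))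
  have hordf : ∀ v : Place L F,
      v.ord f = ∑ Q ∈ s, (m Q : ℤ) * v.ord (x - algebraMap L F (c Q)) := by
    intro v
    rw [hf, pds_ord_prod v _ _ (fun Q _ => pow_ne_zero _ (hfac Q))]
    refine Finset.sum_congr rfl (fun Q _ => ?_)
    rw [← zpow_natCast, v.ord_zpow]
  have hsM : (∑ Q ∈ s, (m Q : ℤ)) ≤ M := by
    rw [hM, hs]
    push_cast
    exact Finset.sum_le_sum_of_subset_of_nonneg (Finset.filter_subset _ _)
      (fun Q _ _ => Int.natCast_nonneg _)
  have hDM : ∀ v : Place L F, -D v ≤ M := by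
    intro v
    by_cases hv : v ∈ D.support
    · have h1 : m v ≤ M := by
        rw [hM]
        exact Finset.single_le_sum (f := m) (fun Q _ => Nat.zero_le _) hv
      have h2 : -D v ≤ (m v : ℤ) := by rw [hm]; exact Int.self_le_toNat _
      have h3 : (m v : ℤ) ≤ (M : ℤ) := by exact_mod_cast h1
      omega
    · rw [Finsupp.notMem_support_iff.mp hv]
      have : (0 : ℤ) ≤ M := Int.natCast_nonneg _
      omega
  refine ⟨-((2 * M : ℕ) : ℤ) • Dx.filter (fun Q => Q.ord x < 0), ?_, f, ?_, hf0⟩
  · intro Q hQ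
    by_contra hneg
    apply hQ
    rw [Finsupp.smul_apply, Finsupp.filter_apply_neg (fun Q : Place L F => Q.ord x < 0) Dx hneg, smul_zero]
  · rw [mem_riemannRochSpace_iff]
    intro v
    right
    rw [Finsupp.add_apply, Finsupp.smul_apply, hordf]
    by_cases hv : v.ord x < 0
    · rw [Finsupp.filter_apply_pos (fun Q : Place L F => Q.ord x < 0) Dx hv, hDx]
      have h1 : ∀ Q ∈ s, (m Q : ℤ) * v.ord x
          ≤ (m Q : ℤ) * v.ord (x - algebraMap L F (c Q)) := by
        intro Q _
        have := hlow v (c Q)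
        rw [min_eq_left hv.le] at this
        exact mul_le_mul_of_nonneg_left this (Int.natCast_nonneg _)
      have h2 := Finset.sum_le_sum h1
      rw [← Finset.sum_mul] at h2
      have h4 := hDM v
      have h5 : (0 : ℤ) ≤ M := Int.natCast_nonneg _
      have h6 : (0 : ℤ) ≤ ∑ Q ∈ s, (m Q : ℤ) :=
        Finset.sum_nonneg (fun Q _ => Int.natCast_nonneg _)
      rw [smul_eq_mul]
      push_cast
      nlinarith
    · rw [Finsupp.filter_apply_neg (fun Q : Place L F => Q.ord x < 0) Dx hv, smul_zero, add_zero]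
      have hnn : ∀ Q ∈ s, 0 ≤ (m Q : ℤ) * v.ord (x - algebraMap L F (c Q)) := by
        intro Q _
        have := hlow v (c Q)
        rw [min_eq_right (not_lt.mp hv)] at this
        exact mul_nonneg (Int.natCast_nonneg _) this
      by_cases hvs : v ∈ s
      · have h1 : -D v ≤ (m v : ℤ) := by rw [hm]; exact Int.self_le_toNat _
        have h2 : (m v : ℤ) ≤ (m v : ℤ) * v.ord (x - algebraMap L F (c v)) := by
          have := hc v (not_lt.mp hv)
          have h0 : (0 : ℤ) ≤ m v := Int.natCast_nonneg _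
          nlinarith
        have h3 := Finset.single_le_sum hnn hvs
        omega
      · have hD0 : D v = 0 := by
          by_contra h
          exact hvs (by
            rw [hs]
            exact Finset.mem_filter.mpr ⟨Finsupp.mem_support_iff.mpr h, not_lt.mp hv⟩)
        rw [hD0, neg_zero]
        exact Finset.sum_nonneg hnn

/-- Either `L(E)` is spanned by `w`, or `L(E - Q)` is nonzero. -/
theorem pds_dichotomy (Q : Place L F) (hQ : Q.deg = 1) (E : Divisor L F) {w : F}
    (hw : w ∈ riemannRochSpace E) (hw0 : w ≠ 0) :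
    (∀ f ∈ riemannRochSpace E, ∃ c : L, f = c • w) ∨
      ∃ f ∈ riemannRochSpace (E - Finsupp.single Q 1), f ≠ 0 := by
  by_cases h : ∀ f ∈ riemannRochSpace E, ∃ c : L, f = c • w
  · exact Or.inl h
  right
  push Not at h
  obtain ⟨f, hf, hfw⟩ := h
  have hw' : w ∈ riemannRochSpace ((E - Finsupp.single Q 1) + Finsupp.single Q 1) := by
    rwa [sub_add_cancel]
  have hf' : f ∈ riemannRochSpace ((E - Finsupp.single Q 1) + Finsupp.single Q 1) := by
    rwa [sub_add_cancel]
  obtain ⟨a, b, hab, hmem⟩ := pds_rr_step Q hQ (E - Finsupp.single Q 1) hw' hf'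
  refine ⟨a • w + b • f, hmem, ?_⟩
  intro h0
  by_cases hb : b = 0
  · rw [hb, zero_smul, add_zero] at h0
    have ha : a ≠ 0 := by tauto
    exact hw0 ((smul_eq_zero.mp h0).resolve_left ha)
  · apply hfw (-(b⁻¹ * a))
    have h1 : b • f = -(a • w) := by
      rw [eq_neg_iff_add_eq_zero, add_comm]; exact h0
    calc f = b⁻¹ • (b • f) := by rw [smul_smul, inv_mul_cancel₀ hb, one_smul]
      _ = -(b⁻¹ * a) • w := by rw [h1, smul_neg, smul_smul, neg_smul]

/-- Walking down along a fixed place `Q ∈ Alg` until `L(D + E)` is one-dimensional. -/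
theorem pds_descend [HasPrincipalDivisors L F] (Q : Place L F) (hQ : Q.deg = 1)
    (Alg : Set (Place L F)) (hQA : Q ∈ Alg) (D : Divisor L F) (hD : Divisor.degree D = 0) :
    ∀ (n : ℕ) (E : Divisor L F), (∀ v, E v ≠ 0 → v ∈ Alg) → Divisor.degree E < n →
      (∃ f ∈ riemannRochSpace (D + E), f ≠ 0) →
      ∃ E' : Divisor L F, (∀ v, E' v ≠ 0 → v ∈ Alg) ∧
        ∃ w ∈ riemannRochSpace (D + E'), w ≠ 0 ∧
          ∀ f ∈ riemannRochSpace (D + E'), ∃ c : L, f = c • w := by
  classical
  intro n
  induction n with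
  | zero =>
    intro E _ hdeg hex
    exfalso
    obtain ⟨f, hf, hf0⟩ := hex
    have hbot := pds_rr_eq_bot (D + E) (by rw [map_add, hD, zero_add]; exact_mod_cast hdeg)
    rw [hbot, Submodule.mem_bot] at hf
    exact hf0 hf
  | succ n ih =>
    intro E hE hdeg hex
    obtain ⟨w, hw, hw0⟩ := hex
    rcases pds_dichotomy Q hQ (D + E) hw hw0 with h | h
    · exact ⟨E, hE, w, hw, hw0, h⟩
    · refine ih (E - Finsupp.single Q 1) ?_ ?_ ?_
      · intro v hv
        by_cases hvQ : v = Q
        · rw [hvQ]; exact hQA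
        · apply hE
          rw [Finsupp.sub_apply, Finsupp.single_eq_of_ne hvQ, sub_zero] at hv
          exact hv
      · rw [map_sub, Divisor.degree_single, hQ]
        push_cast at hdeg ⊢
        omega
      · rwa [add_sub_assoc] at h

/-- A divisor supported on `H`-fixed places is `H`-fixed. -/
theorem pds_smul_eq_self (H : Subgroup (SemilinearAut L F)) (Alg : Set (Place L F))
    (hfix : ∀ Q ∈ Alg, ∀ g ∈ H, g • Q = Q) (E : Divisor L F) (hE : ∀ v, E v ≠ 0 → v ∈ Alg)
    (g : SemilinearAut L F) (hg : g ∈ H) : g • E = E := by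
  ext v
  rw [SemilinearAut.divisor_smul_apply]
  by_cases hv : v ∈ Alg
  · rw [hfix v hv g⁻¹ (H.inv_mem hg)]
  · have h1 : E v = 0 := by
      by_contra h; exact hv (hE v h)
    have h2 : E (g⁻¹ • v) = 0 := by
      by_contra h
      have h3 := hE _ h
      have h4 := hfix _ h3 g hg
      rw [smul_inv_smul] at h4
      exact hv (h4 ▸ h3)
    rw [h1, h2]

/-- **BASECHANGE (c).**  A degree-zero divisor whose class has finite `H`-orbit is linearly
equivalent to a divisor supported on `Alg`. -/
theorem pds_main {L F : Type*} [Field L] [Field F] [Algebra L F] [HasPrincipalDivisors L F]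
    (hdeg : ∀ Q : Place L F, Q.deg = 1)
    (H : Subgroup (SemilinearAut L F)) (Alg : Set (Place L F))
    (hfix : ∀ Q ∈ Alg, ∀ g ∈ H, g • Q = Q)
    (hfin : ∀ Q : Place L F, Set.Finite {Q' | ∃ g ∈ H, Q' = g • Q} → Q ∈ Alg)
    (x : F) (hx : Transcendental L x) (hxpole : ∀ Q : Place L F, Q.ord x < 0 → Q ∈ Alg)
    (hxex : ∃ Q : Place L F, Q.ord x < 0)
    (D : Divisor L F) (hD : Divisor.degree D = 0)
    (hDfin : Set.Finite {c : Pic L F | ∃ g ∈ H, c = QuotientAddGroup.mk (g • D)}) :
    ∃ D' : Divisor L F, (∀ Q, D' Q ≠ 0 → Q ∈ Alg) ∧ Divisor.degree D' = 0 ∧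
      D - D' ∈ Divisor.principal (K := L) (F := F) := by
  classical
  obtain ⟨Qi, hQi⟩ := hxex
  obtain ⟨E0, hE0, f0, hf0, hf00⟩ := pds_exists_nonzero hdeg x hx D
  obtain ⟨E, hE, w, hw, hw0, hone⟩ := pds_descend Qi (hdeg Qi) Alg (hxpole Qi hQi) D hD
    ((Divisor.degree E0).toNat + 1) E0 (fun v hv => hxpole v (hE0 v hv))
    (by push_cast; have := Int.self_le_toNat (Divisor.degree E0); omega) ⟨f0, hf0, hf00⟩
  obtain ⟨Dw, hDw, hDwdeg⟩ := HasPrincipalDivisors.exists_divisor (K := L) w hw0
  obtain ⟨A, hA⟩ : ∃ A : Divisor L F, A = D + E + Dw := ⟨_, rfl⟩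
  have hgA : ∀ g ∈ H, ∀ v : Place L F, (g • A) v = (g • D) v + E v + v.ord (g • w) := by
    intro g hg v
    have h2 := SemilinearAut.ord_smul g (g⁻¹ • v) w
    rw [smul_inv_smul] at h2
    rw [hA, smul_add, smul_add, Finsupp.add_apply, Finsupp.add_apply,
      pds_smul_eq_self H Alg hfix E hE g hg, SemilinearAut.divisor_smul_apply g Dw, hDw, h2]
  have hkey : ∀ g ∈ H, ∀ g' ∈ H,
      (QuotientAddGroup.mk (g • D) : Pic L F) = QuotientAddGroup.mk (g' • D) →
        g • A = g' • A := by
    intro g hg g' hg' hcl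
    rw [QuotientAddGroup.eq] at hcl
    obtain ⟨u, hu0, hu⟩ := hcl
    have hgw : g • w ∈ riemannRochSpace (g • D + E) := by
      have := (pds_rr_smul g (D + E) w).mpr hw
      rwa [smul_add, pds_smul_eq_self H Alg hfix E hE g hg] at this
    have hgw0 : g • w ≠ 0 := by rwa [Ne, smul_eq_zero_iff_eq]
    have hh : u⁻¹ * g • w ∈ riemannRochSpace (g' • D + E) := by
      rw [mem_riemannRochSpace_iff]
      intro v
      right
      rw [v.ord_mul (inv_ne_zero hu0) hgw0, v.ord_inv, ← hu v]
      rcases (mem_riemannRochSpace_iff.mp hgw) v with h | h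
      · exact absurd h hgw0
      · simp only [Finsupp.add_apply, Finsupp.neg_apply] at h ⊢
        omega
    have hh' : g'⁻¹ • (u⁻¹ * g • w) ∈ riemannRochSpace (D + E) := by
      have := (pds_rr_smul g'⁻¹ (g' • D + E) (u⁻¹ * g • w)).mpr hh
      rwa [smul_add, inv_smul_smul,
        pds_smul_eq_self H Alg hfix E hE g'⁻¹ (H.inv_mem hg')] at this
    obtain ⟨c, hc⟩ := hone _ hh'
    have hc0 : c ≠ 0 := by
      rintro rfl
      rw [zero_smul] at hc
      exact mul_ne_zero (inv_ne_zero hu0) hgw0 ((smul_eq_zero_iff_eq g'⁻¹).mp hc)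
    have hord : ∀ v : Place L F, v.ord (g • w) - v.ord u = v.ord (g' • w) := by
      intro v
      have e1 : u⁻¹ * g • w = g' • (c • w) := by rw [← hc, smul_inv_smul]
      have e2 : v.ord (u⁻¹ * g • w) = v.ord (g • w) - v.ord u := by
        rw [v.ord_mul (inv_ne_zero hu0) hgw0, v.ord_inv]; ring
      have e3 : v.ord (g' • (c • w)) = v.ord (g' • w) := by
        have a1 := SemilinearAut.ord_smul g' (g'⁻¹ • v) (c • w)
        have a2 := SemilinearAut.ord_smul g' (g'⁻¹ • v) w
        rw [smul_inv_smul] at a1 a2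
        rw [a1, a2, Algebra.smul_def, (g'⁻¹ • v).ord_mul ((map_ne_zero _).mpr hc0) hw0,
          sf_ord_algebraMap, zero_add]
      rw [← e2, e1, e3]
    ext v
    rw [hgA g hg v, hgA g' hg' v, ← hord v]
    have := hu v
    simp only [Finsupp.add_apply, Finsupp.neg_apply] at this
    omega
  have hSfin : Set.Finite {B : Divisor L F | ∃ g ∈ H, B = g • A} := by
    have hch : ∀ c : Pic L F, ∃ B : Divisor L F,
        ∀ g ∈ H, c = QuotientAddGroup.mk (g • D) → B = g • A := by
      intro c
      by_cases hc : ∃ g ∈ H, c = QuotientAddGroup.mk (g • D)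
      · obtain ⟨g0, hg0, hc0⟩ := hc
        exact ⟨g0 • A, fun g hg hcg => hkey g0 hg0 g hg (hc0.symm.trans hcg)⟩
      · exact ⟨0, fun g hg hcg => absurd ⟨g, hg, hcg⟩ hc⟩
    choose ψ hψ using hch
    refine (hDfin.image ψ).subset ?_
    rintro B ⟨g, hg, rfl⟩
    exact ⟨QuotientAddGroup.mk (g • D), ⟨g, hg, rfl⟩, hψ _ g hg rfl⟩
  have hAalg : ∀ Q, A Q ≠ 0 → Q ∈ Alg := by
    intro Q hQ
    apply hfin
    refine (Set.Finite.biUnion hSfin (fun B _ => B.support.finite_toSet)).subset ?_
    rintro Q' ⟨g, hg, rfl⟩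
    simp only [Set.mem_iUnion, Finset.mem_coe, Finsupp.mem_support_iff]
    exact ⟨g • A, ⟨g, hg, rfl⟩, by rwa [SemilinearAut.divisor_smul_apply_smul]⟩
  refine ⟨D + Dw, ?_, by rw [map_add, hD, hDwdeg, add_zero], ?_⟩
  · intro Q hQ
    by_contra hQA
    have hEQ : E Q = 0 := by
      by_contra h; exact hQA (hE Q h)
    have hAQ : A Q = 0 := by
      by_contra h; exact hQA (hAalg Q h)
    apply hQ
    rw [hA, Finsupp.add_apply, Finsupp.add_apply, hEQ] at hAQ
    rw [Finsupp.add_apply]; omega
  · have h : D - (D + Dw) = -Dw := by abel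
    rw [h]
    exact (Divisor.principal (K := L) (F := F)).neg_mem ⟨w, hw0, hDw⟩

end Fermat.Agent.S29
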