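import Mathlib
import Fermat.Prelude.Def_ModularCurve_ArithmeticGalois
import Fermat.Agent.S18.BaseChangeField
import Fermat.Agent.S29.BcSurj
import Fermat.Agent.S29.PicDescent
import Fermat.Agent.S29.PlcDeg

/-!
# S29 / BC-SURJ (instance): base change of constants `K₀ ⊆ L` for Laurent-series function fields

* `bcsAct K₀ L Fq`: the action of `Aut(L / K₀)` on `laurentBaseChange L Fq` through the
  coefficients (the Prelude's `arithmeticGalois`), `bcsAct_baseAut`, `bcsAct_smul_bcfHom`
  (it fixes the image of `laurentBaseChange K₀ Fq`);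
* `bcs_main_bcf`: `bcs_main_abs` for `F0 := laurentBaseChange K₀ Fq`, `F := laurentBaseChange L Fq`,
  `ι := bcfHom K₀ L Fq`, with the descent statement discharged by `pds_main`;
* `bcs_main_modular`: the same for the modular function fields of level `N` over algebraically
  closed fields `K₀ ⊆ L` of characteristic zero, with the soft facts from `PlcDeg`.
-/

set_option autoImplicit false

noncomputable section

namespace Fermat.Agent.S29

open AlgebraicCurve ModularCurve Fermat.Agent.S18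

section Act

variable (K₀ L : Type*) [Field K₀] [Field L] [Algebra ℚ K₀] [Algebra ℚ L] [Algebra K₀ L]
variable (Fq : IntermediateField ℚ (LaurentSeries ℚ))

/-- restriction of scalars `Aut(L / K₀) → Aut(L / ℚ)` -/
def bcsRes : (L ≃ₐ[K₀] L) →* (L ≃ₐ[ℚ] L) where
  toFun σ := AlgEquiv.ofRingEquiv (f := (σ : L ≃+* L)) (fun q => by
    rw [eq_ratCast (algebraMap ℚ L) q]
    exact map_ratCast σ q)
  map_one' := by ext; rfl
  map_mul' σ τ := by ext; rfl

omit [Algebra ℚ K₀] in
@[simp]
theorem bcsRes_apply (σ : L ≃ₐ[K₀] L) (a : L) : bcsRes K₀ L σ a = σ a := rfl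

/-- the action of `Aut(L / K₀)` on `laurentBaseChange L Fq` through the coefficients -/
def bcsAct : (L ≃ₐ[K₀] L) →* SemilinearAut L ↥(laurentBaseChange L Fq) :=
  (arithmeticGalois Fq).comp (bcsRes K₀ L)

omit [Algebra ℚ K₀] in
theorem bcsAct_baseAut (σ : L ≃ₐ[K₀] L) (a : L) :
    SemilinearAut.baseAut (bcsAct K₀ L Fq σ) a = σ a := rfl

omit [Algebra ℚ K₀] in
theorem bcsAct_coe_smul (σ : L ≃ₐ[K₀] L) (x : ↥(laurentBaseChange L Fq)) :
    ((bcsAct K₀ L Fq σ • x : ↥(laurentBaseChange L Fq)) : LaurentSeries L) =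
      coeffMap ((σ : L ≃+* L) : L →+* L) (x : LaurentSeries L) := rfl

/-- the coefficientwise action of `Aut(L / K₀)` fixes the image of `laurentBaseChange K₀ Fq` -/
theorem bcsAct_smul_bcfHom (σ : L ≃ₐ[K₀] L) (y : ↥(laurentBaseChange K₀ Fq)) :
    bcsAct K₀ L Fq σ • bcfHom K₀ L Fq y = bcfHom K₀ L Fq y := by
  apply Subtype.ext
  rw [bcsAct_coe_smul, bcfHom_coe, coeffMap_coeffMap]
  refine coeffMap_congr (RingHom.ext fun c => ?_) _
  exact σ.commutes c

end Act

section Main

variable {K₀ L : Type*} [Field K₀] [Field L] [Algebra ℚ K₀] [Algebra ℚ L] [Algebra K₀ L]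
variable (Fq : IntermediateField ℚ (LaurentSeries ℚ))

/-- **BC-SURJ** for `laurentBaseChange K₀ Fq ⊆ laurentBaseChange L Fq`, for any map of places `b`
with the three properties of the base change of places. -/
theorem bcs_main_bcf [IsAlgClosed K₀] [IsAlgClosed L] [CharZero K₀]
    [HasPrincipalDivisors L ↥(laurentBaseChange L Fq)]
    (hdeg0 : ∀ P0 : Place K₀ ↥(laurentBaseChange K₀ Fq), P0.deg = 1)
    (hdeg : ∀ Q : Place L ↥(laurentBaseChange L Fq), Q.deg = 1)
    (b : Place K₀ ↥(laurentBaseChange K₀ Fq) → Place L ↥(laurentBaseChange L Fq))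
    (hord : ∀ (P0 : Place K₀ ↥(laurentBaseChange K₀ Fq)) (y : ↥(laurentBaseChange K₀ Fq)),
      (b P0).ord (bcfHom K₀ L Fq y) = P0.ord y)
    (huniq : ∀ (P0 : Place K₀ ↥(laurentBaseChange K₀ Fq))
      (Q : Place L ↥(laurentBaseChange L Fq)),
      (∀ y : ↥(laurentBaseChange K₀ Fq), Q.ord (bcfHom K₀ L Fq y) = P0.ord y) → Q = b P0)
    (htriv : ∀ Q : Place L ↥(laurentBaseChange L Fq),
      (∀ y : ↥(laurentBaseChange K₀ Fq), y ≠ 0 → Q.ord (bcfHom K₀ L Fq y) = 0) ∨
      ∃ P0 : Place K₀ ↥(laurentBaseChange K₀ Fq),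
        ∀ y : ↥(laurentBaseChange K₀ Fq), Q.ord (bcfHom K₀ L Fq y) = P0.ord y)
    (x0 : ↥(laurentBaseChange K₀ Fq)) (hx0 : Transcendental L (bcfHom K₀ L Fq x0))
    (hx0pole : ∃ P0 : Place K₀ ↥(laurentBaseChange K₀ Fq), P0.ord x0 < 0)
    (p : ℕ)
    (hfin : (Pic0.torsion L ↥(laurentBaseChange L Fq) p :
      Set (Pic0 L ↥(laurentBaseChange L Fq))).Finite)
    (c : Pic0 L ↥(laurentBaseChange L Fq))
    (hc : c ∈ Pic0.torsion L ↥(laurentBaseChange L Fq) p) :
    ∃ D0 : Divisor K₀ ↥(laurentBaseChange K₀ Fq), Divisor.degree D0 = 0 ∧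
      ∃ h : Finsupp.mapDomain b D0 ∈
          Divisor.degZero (K := L) (F := ↥(laurentBaseChange L Fq)),
        c = Pic0.mk ⟨Finsupp.mapDomain b D0, h⟩ :=
  bcs_main_abs (bcfHom K₀ L Fq) b (bcsAct K₀ L Fq)
    (fun H Alg hfix hfin x hx hxp hxe D hD hDfin =>
      pds_main hdeg H Alg hfix hfin x hx hxp hxe D hD hDfin)
    hdeg0 hdeg hord huniq htriv (bcsAct_baseAut K₀ L Fq) (bcsAct_smul_bcfHom K₀ L Fq)
    (bcfHom_algebraMap K₀ L Fq) x0 hx0 hx0pole p hfin c hc

end Main

section Modular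

variable (K₀ L : Type) [Field K₀] [Field L] [Algebra ℚ K₀] [Algebra ℚ L] [Algebra K₀ L]
  (N : ℕ) [NeZero N]

omit [NeZero N] in
/-- the base change of `j` is `j` -/
theorem bcs_bcfHom_pdgJ :
    bcfHom K₀ L (modularFunctionFieldFull N) (pdgJ K₀ N) = pdgJ L N :=
  Subtype.ext (bcf_coeffMap_coeffEmb K₀ L jq)

variable [IsAlgClosed K₀] [IsAlgClosed L] [CharZero K₀] [CharZero L]

/-- **BC-SURJ** for the modular function fields of level `N` over algebraically closed fields
`K₀ ⊆ L` of characteristic zero: if the `p`-torsion of `Pic0` over `L` is finite, every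
`p`-torsion class over `L` is the class of the base change of a divisor of degree zero
over `K₀`. Here `b` is any map of places with the three properties of the base change of
places (`bcpMap_ord`, `bcpMap_eq_of_ord`, `bcp_trivial_or`). -/
theorem bcs_main_modular
    (b : Place K₀ ↥(laurentBaseChange K₀ (modularFunctionFieldFull N)) →
      Place L ↥(laurentBaseChange L (modularFunctionFieldFull N)))
    (hord : ∀ (P0 : Place K₀ ↥(laurentBaseChange K₀ (modularFunctionFieldFull N)))
      (y : ↥(laurentBaseChange K₀ (modularFunctionFieldFull N))),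
      (b P0).ord (bcfHom K₀ L (modularFunctionFieldFull N) y) = P0.ord y)
    (huniq : ∀ (P0 : Place K₀ ↥(laurentBaseChange K₀ (modularFunctionFieldFull N)))
      (Q : Place L ↥(laurentBaseChange L (modularFunctionFieldFull N))),
      (∀ y : ↥(laurentBaseChange K₀ (modularFunctionFieldFull N)),
        Q.ord (bcfHom K₀ L (modularFunctionFieldFull N) y) = P0.ord y) → Q = b P0)
    (htriv : ∀ Q : Place L ↥(laurentBaseChange L (modularFunctionFieldFull N)),
      (∀ y : ↥(laurentBaseChange K₀ (modularFunctionFieldFull N)), y ≠ 0 →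
        Q.ord (bcfHom K₀ L (modularFunctionFieldFull N) y) = 0) ∨
      ∃ P0 : Place K₀ ↥(laurentBaseChange K₀ (modularFunctionFieldFull N)),
        ∀ y : ↥(laurentBaseChange K₀ (modularFunctionFieldFull N)),
          Q.ord (bcfHom K₀ L (modularFunctionFieldFull N) y) = P0.ord y)
    (p : ℕ)
    (hfin : (Pic0.torsion L ↥(laurentBaseChange L (modularFunctionFieldFull N)) p :
      Set (Pic0 L ↥(laurentBaseChange L (modularFunctionFieldFull N)))).Finite)
    (c : Pic0 L ↥(laurentBaseChange L (modularFunctionFieldFull N)))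
    (hc : c ∈ Pic0.torsion L ↥(laurentBaseChange L (modularFunctionFieldFull N)) p) :
    ∃ D0 : Divisor K₀ ↥(laurentBaseChange K₀ (modularFunctionFieldFull N)),
      Divisor.degree D0 = 0 ∧
      ∃ h : Finsupp.mapDomain b D0 ∈
          Divisor.degZero (K := L) (F := ↥(laurentBaseChange L (modularFunctionFieldFull N))),
        c = Pic0.mk ⟨Finsupp.mapDomain b D0, h⟩ :=
  haveI := pdg_hasPrincipalDivisors L N
  bcs_main_bcf (modularFunctionFieldFull N) (pdg_deg_eq_one K₀ N) (pdg_deg_eq_one L N) b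
    hord huniq htriv (pdgJ K₀ N)
    (by rw [bcs_bcfHom_pdgJ]; exact pdg_transcendental L N)
    (pdg_exists_pole K₀ N) p hfin c hc

end Modular

end Fermat.Agent.S29
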