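import Mathlib
import Fermat.Agent.S29.BcSurjInst
import Fermat.Agent.S29.BaseChangeInst

/-!
# S29 / BC-SURJ (final form)

`bcs_main`: for algebraically closed fields `K₀ ⊆ L` of characteristic zero and a level `N`,
every `p`-torsion class of `Pic0` of the modular function field over `L` is the base change
(`bcpPicL`) of a class over `K₀`, provided the `p`-torsion over `L` is finite.

`bcs_main_torsion`: if moreover `bcpPicL` is injective, that class is `p`-torsion, i.e. `bcpPicL`
restricts to a bijection between the `p`-torsion subgroups (`bcs_bijOn`).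
-/

set_option autoImplicit false

namespace Fermat.Agent.S29

open AlgebraicCurve ModularCurve Fermat.Agent.S18

section

variable (K₀ L : Type) [Field K₀] [Field L] [Algebra ℚ K₀] [Algebra ℚ L] [Algebra K₀ L]
  [IsAlgClosed K₀] [IsAlgClosed L] [CharZero K₀] [CharZero L] (N : ℕ) [NeZero N]
  (hdeg₀ : ∀ P : Place K₀ ↥(laurentBaseChange K₀ (modularFunctionFieldFull N)), P.deg = 1)

/-- **BC-SURJ**: every `p`-torsion class over `L` is a base change. -/
theorem bcs_main (p : ℕ)
    (hfin : (Pic0.torsion L ↥(laurentBaseChange L (modularFunctionFieldFull N)) p :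
      Set (Pic0 L ↥(laurentBaseChange L (modularFunctionFieldFull N)))).Finite)
    (c : Pic0 L ↥(laurentBaseChange L (modularFunctionFieldFull N)))
    (hc : c ∈ Pic0.torsion L ↥(laurentBaseChange L (modularFunctionFieldFull N)) p) :
    ∃ c0 : Pic0 K₀ ↥(laurentBaseChange K₀ (modularFunctionFieldFull N)),
      bcpPicL K₀ L (modularFunctionFieldFull N) hdeg₀ c0 = c := by
  obtain ⟨D0, hD0, h, rfl⟩ := bcs_main_modular K₀ L N
    (bcpPlace K₀ L (modularFunctionFieldFull N) hdeg₀)
    (bcpPlace_ord K₀ L (modularFunctionFieldFull N) hdeg₀)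
    (bcpPlace_eq_of_ord K₀ L (modularFunctionFieldFull N) hdeg₀)
    (fun Q => by
      rcases bcpPlace_range K₀ L (modularFunctionFieldFull N) hdeg₀ Q with h | ⟨P0, rfl⟩
      · exact Or.inl h
      · exact Or.inr ⟨P0, bcpPlace_ord K₀ L (modularFunctionFieldFull N) hdeg₀ P0⟩)
    p hfin c hc
  refine ⟨Pic0.mk ⟨D0, hD0⟩, ?_⟩
  rw [bcpPicL_mk]
  exact congrArg Pic0.mk (Subtype.ext rfl)

/-- **BC-SURJ**, torsion form: with the injectivity of the base change (BC-INJ), every
`p`-torsion class over `L` is the base change of a `p`-torsion class over `K₀`. -/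
theorem bcs_main_torsion
    (hinj : Function.Injective (bcpPicL K₀ L (modularFunctionFieldFull N) hdeg₀)) (p : ℕ)
    (hfin : (Pic0.torsion L ↥(laurentBaseChange L (modularFunctionFieldFull N)) p :
      Set (Pic0 L ↥(laurentBaseChange L (modularFunctionFieldFull N)))).Finite)
    (c : Pic0 L ↥(laurentBaseChange L (modularFunctionFieldFull N)))
    (hc : c ∈ Pic0.torsion L ↥(laurentBaseChange L (modularFunctionFieldFull N)) p) :
    ∃ c0 : Pic0 K₀ ↥(laurentBaseChange K₀ (modularFunctionFieldFull N)),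
      c0 ∈ Pic0.torsion K₀ ↥(laurentBaseChange K₀ (modularFunctionFieldFull N)) p ∧
      bcpPicL K₀ L (modularFunctionFieldFull N) hdeg₀ c0 = c := by
  obtain ⟨c0, rfl⟩ := bcs_main K₀ L N hdeg₀ p hfin c hc
  refine ⟨c0, ?_, rfl⟩
  rw [Pic0.mem_torsion] at hc ⊢
  apply hinj
  rw [map_zsmul, hc, map_zero]

omit [IsAlgClosed K₀] [IsAlgClosed L] [CharZero K₀] [CharZero L] [NeZero N] in
/-- the base change maps `p`-torsion to `p`-torsion -/
theorem bcs_map_torsion (p : ℕ)
    (c0 : Pic0 K₀ ↥(laurentBaseChange K₀ (modularFunctionFieldFull N)))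
    (hc0 : c0 ∈ Pic0.torsion K₀ ↥(laurentBaseChange K₀ (modularFunctionFieldFull N)) p) :
    bcpPicL K₀ L (modularFunctionFieldFull N) hdeg₀ c0 ∈
      Pic0.torsion L ↥(laurentBaseChange L (modularFunctionFieldFull N)) p := by
  rw [Pic0.mem_torsion] at hc0 ⊢
  rw [← map_zsmul, hc0, map_zero]

/-- the base change is a bijection between the `p`-torsion subgroups -/
theorem bcs_bijOn
    (hinj : Function.Injective (bcpPicL K₀ L (modularFunctionFieldFull N) hdeg₀)) (p : ℕ)
    (hfin : (Pic0.torsion L ↥(laurentBaseChange L (modularFunctionFieldFull N)) p :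
      Set (Pic0 L ↥(laurentBaseChange L (modularFunctionFieldFull N)))).Finite) :
    Set.BijOn (bcpPicL K₀ L (modularFunctionFieldFull N) hdeg₀)
      (Pic0.torsion K₀ ↥(laurentBaseChange K₀ (modularFunctionFieldFull N)) p :
        Set (Pic0 K₀ ↥(laurentBaseChange K₀ (modularFunctionFieldFull N))))
      (Pic0.torsion L ↥(laurentBaseChange L (modularFunctionFieldFull N)) p :
        Set (Pic0 L ↥(laurentBaseChange L (modularFunctionFieldFull N)))) :=
  ⟨fun c0 hc0 => bcs_map_torsion K₀ L N hdeg₀ p c0 hc0, hinj.injOn,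
    fun c hc => by
      obtain ⟨c0, hc0, rfl⟩ := bcs_main_torsion K₀ L N hdeg₀ hinj p hfin c hc
      exact ⟨c0, hc0, rfl⟩⟩

end

end Fermat.Agent.S29
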