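import Mathlib
import Fermat.Agent.S29.BcSurjMain
import Fermat.Agent.S29.BcConc

/-!
# S29 / BC-SURJ: the statements for `bccPic`

The two concrete base-change maps `bcpPicL` (`BaseChangeInst`) and `bccPic` (`BcConc`) agree
(`bcs_bccPic_eq`), and BC-SURJ is restated for `bccPic`: `bcs_main_bcc`, `bcs_torsion_bcc`,
`bcs_bijOn_bcc`.
-/

set_option autoImplicit false

namespace Fermat.Agent.S29

open AlgebraicCurve ModularCurve Fermat.Agent.S18

section Bridge

variable (K₀ L : Type*) [Field K₀] [Field L] [Algebra ℚ K₀] [Algebra ℚ L] [Algebra K₀ L]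
variable (Fq : IntermediateField ℚ (LaurentSeries ℚ))
variable (hdeg₀ : ∀ P : Place K₀ ↥(laurentBaseChange K₀ Fq), P.deg = 1)

/-- the two base changes of places agree -/
theorem bcs_bccMap_eq : bccMap K₀ L Fq hdeg₀ = bcpPlace K₀ L Fq hdeg₀ :=
  funext fun P => bcpPlace_eq_of_ord K₀ L Fq hdeg₀ P _ (bccMap_ord K₀ L Fq hdeg₀ P)

/-- the two base changes of divisor classes agree -/
theorem bcs_bccPic_eq : bccPic K₀ L Fq hdeg₀ = bcpPicL K₀ L Fq hdeg₀ := by
  refine AddMonoidHom.ext fun x => ?_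
  obtain ⟨D, rfl⟩ := Pic0.mk_surjective x
  rw [bccPic_mk, bcpPicL_mk]
  refine congrArg Pic0.mk (Subtype.ext ?_)
  rw [bccDiv0_coe, bcpDivL0_coe, bccDiv_eq_mapDomain, bcs_bccMap_eq]
  rfl

end Bridge

section Main

variable (K₀ L : Type) [Field K₀] [Field L] [Algebra ℚ K₀] [Algebra ℚ L] [Algebra K₀ L]
  [IsAlgClosed K₀] [IsAlgClosed L] [CharZero K₀] [CharZero L] (N : ℕ) [NeZero N]
  (hdeg₀ : ∀ P : Place K₀ ↥(laurentBaseChange K₀ (modularFunctionFieldFull N)), P.deg = 1)

/-- **BC-SURJ** for `bccPic`: every `p`-torsion class over `L` is a base change. -/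
theorem bcs_main_bcc (p : ℕ)
    (hfin : (Pic0.torsion L ↥(laurentBaseChange L (modularFunctionFieldFull N)) p :
      Set (Pic0 L ↥(laurentBaseChange L (modularFunctionFieldFull N)))).Finite)
    (c : Pic0 L ↥(laurentBaseChange L (modularFunctionFieldFull N)))
    (hc : c ∈ Pic0.torsion L ↥(laurentBaseChange L (modularFunctionFieldFull N)) p) :
    ∃ c0 : Pic0 K₀ ↥(laurentBaseChange K₀ (modularFunctionFieldFull N)),
      bccPic K₀ L (modularFunctionFieldFull N) hdeg₀ c0 = c := by
  rw [bcs_bccPic_eq]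
  exact bcs_main K₀ L N hdeg₀ p hfin c hc

/-- **BC-SURJ** for `bccPic`, torsion form. -/
theorem bcs_torsion_bcc
    (hinj : Function.Injective (bccPic K₀ L (modularFunctionFieldFull N) hdeg₀)) (p : ℕ)
    (hfin : (Pic0.torsion L ↥(laurentBaseChange L (modularFunctionFieldFull N)) p :
      Set (Pic0 L ↥(laurentBaseChange L (modularFunctionFieldFull N)))).Finite)
    (c : Pic0 L ↥(laurentBaseChange L (modularFunctionFieldFull N)))
    (hc : c ∈ Pic0.torsion L ↥(laurentBaseChange L (modularFunctionFieldFull N)) p) :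
    ∃ c0 : Pic0 K₀ ↥(laurentBaseChange K₀ (modularFunctionFieldFull N)),
      c0 ∈ Pic0.torsion K₀ ↥(laurentBaseChange K₀ (modularFunctionFieldFull N)) p ∧
      bccPic K₀ L (modularFunctionFieldFull N) hdeg₀ c0 = c := by
  rw [bcs_bccPic_eq] at hinj ⊢
  exact bcs_main_torsion K₀ L N hdeg₀ hinj p hfin c hc

/-- `bccPic` is a bijection between the `p`-torsion subgroups. -/
theorem bcs_bijOn_bcc
    (hinj : Function.Injective (bccPic K₀ L (modularFunctionFieldFull N) hdeg₀)) (p : ℕ)
    (hfin : (Pic0.torsion L ↥(laurentBaseChange L (modularFunctionFieldFull N)) p :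
      Set (Pic0 L ↥(laurentBaseChange L (modularFunctionFieldFull N)))).Finite) :
    Set.BijOn (bccPic K₀ L (modularFunctionFieldFull N) hdeg₀)
      (Pic0.torsion K₀ ↥(laurentBaseChange K₀ (modularFunctionFieldFull N)) p :
        Set (Pic0 K₀ ↥(laurentBaseChange K₀ (modularFunctionFieldFull N))))
      (Pic0.torsion L ↥(laurentBaseChange L (modularFunctionFieldFull N)) p :
        Set (Pic0 L ↥(laurentBaseChange L (modularFunctionFieldFull N)))) := by
  rw [bcs_bccPic_eq] at hinj ⊢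
  exact bcs_bijOn K₀ L N hdeg₀ hinj p hfin

end Main

end Fermat.Agent.S29
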