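import Mathlib
import Fermat.Agent.S29.BcSurjBcc
import Fermat.Agent.S29.BcInj

/-!
# S29 / BC-SURJ + BC-INJ: base change is an isomorphism on torsion

For algebraically closed fields `K₀ ⊆ L` of characteristic zero, the base change
`bccPic : Pic⁰(F_K₀) → Pic⁰(F_L)` of the function field of `X₀(N)` restricts to an additive
isomorphism `bcsTorsEquiv` between the `p`-torsion subgroups, as soon as the `p`-torsion over
`L` is finite.  Everything is unconditional (`hdeg₀ := pdg_deg_eq_one K₀ N`, injectivity from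
`bci_modular_injective`).
-/

set_option autoImplicit false

namespace Fermat.Agent.S29

open AlgebraicCurve ModularCurve Fermat.Agent.S18

section Equiv

variable (K₀ L : Type) [Field K₀] [Field L] [Algebra ℚ K₀] [Algebra ℚ L] [Algebra K₀ L]
  [IsAlgClosed K₀] [IsAlgClosed L] [CharZero K₀] [CharZero L] (N : ℕ) [NeZero N]

/-- the base change of divisor classes of `X₀(N)` (a short name for `bccPic` at
`pdg_deg_eq_one`) -/
noncomputable def bcsPic : Pic0 K₀ ↥(laurentBaseChange K₀ (modularFunctionFieldFull N)) →+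
    Pic0 L ↥(laurentBaseChange L (modularFunctionFieldFull N)) :=
  bccPic K₀ L (modularFunctionFieldFull N) (pdg_deg_eq_one K₀ N)

theorem bcsPic_def : bcsPic K₀ L N =
    bccPic K₀ L (modularFunctionFieldFull N) (pdg_deg_eq_one K₀ N) := rfl

theorem bcsPic_eq_bcpPicL : bcsPic K₀ L N =
    bcpPicL K₀ L (modularFunctionFieldFull N) (pdg_deg_eq_one K₀ N) :=
  bcs_bccPic_eq K₀ L (modularFunctionFieldFull N) (pdg_deg_eq_one K₀ N)

theorem bcsPic_injective : Function.Injective (bcsPic K₀ L N) :=
  bci_modular_injective K₀ L N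

/-- `bcsPic` preserves and reflects `p`-torsion -/
theorem bcsPic_mem_torsion_iff (p : ℕ)
    (c0 : Pic0 K₀ ↥(laurentBaseChange K₀ (modularFunctionFieldFull N))) :
    bcsPic K₀ L N c0 ∈ Pic0.torsion L ↥(laurentBaseChange L (modularFunctionFieldFull N)) p ↔
      c0 ∈ Pic0.torsion K₀ ↥(laurentBaseChange K₀ (modularFunctionFieldFull N)) p := by
  rw [Pic0.mem_torsion, Pic0.mem_torsion, ← map_zsmul]
  constructor
  · intro h
    exact bcsPic_injective K₀ L N (by rw [h, map_zero])
  · intro h
    rw [h, map_zero]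

/-- **BC-SURJ**, unconditional: every `p`-torsion class over `L` is the base change of a
`p`-torsion class over `K₀`, if the `p`-torsion over `L` is finite. -/
theorem bcsPic_surj_torsion (p : ℕ)
    (hfin : (Pic0.torsion L ↥(laurentBaseChange L (modularFunctionFieldFull N)) p :
      Set (Pic0 L ↥(laurentBaseChange L (modularFunctionFieldFull N)))).Finite)
    (c : Pic0 L ↥(laurentBaseChange L (modularFunctionFieldFull N)))
    (hc : c ∈ Pic0.torsion L ↥(laurentBaseChange L (modularFunctionFieldFull N)) p) :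
    ∃ c0 : Pic0 K₀ ↥(laurentBaseChange K₀ (modularFunctionFieldFull N)),
      c0 ∈ Pic0.torsion K₀ ↥(laurentBaseChange K₀ (modularFunctionFieldFull N)) p ∧
      bcsPic K₀ L N c0 = c :=
  bcs_torsion_bcc K₀ L N (pdg_deg_eq_one K₀ N) (bci_modular_injective K₀ L N) p hfin c hc

/-- the base change restricted to the `p`-torsion subgroups -/
noncomputable def bcsTorsHom (p : ℕ) :
    ↥(Pic0.torsion K₀ ↥(laurentBaseChange K₀ (modularFunctionFieldFull N)) p) →+
      ↥(Pic0.torsion L ↥(laurentBaseChange L (modularFunctionFieldFull N)) p) :=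
  ((bcsPic K₀ L N).comp
    (Pic0.torsion K₀ ↥(laurentBaseChange K₀ (modularFunctionFieldFull N)) p).subtype).codRestrict
    (Pic0.torsion L ↥(laurentBaseChange L (modularFunctionFieldFull N)) p)
    (fun c => (bcsPic_mem_torsion_iff K₀ L N p c.1).mpr c.2)

@[simp]
theorem bcsTorsHom_coe (p : ℕ)
    (c : ↥(Pic0.torsion K₀ ↥(laurentBaseChange K₀ (modularFunctionFieldFull N)) p)) :
    ((bcsTorsHom K₀ L N p c :
        ↥(Pic0.torsion L ↥(laurentBaseChange L (modularFunctionFieldFull N)) p)) :
      Pic0 L ↥(laurentBaseChange L (modularFunctionFieldFull N))) =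
      bcsPic K₀ L N (c : Pic0 K₀ ↥(laurentBaseChange K₀ (modularFunctionFieldFull N))) := rfl

theorem bcsTorsHom_injective (p : ℕ) : Function.Injective (bcsTorsHom K₀ L N p) := by
  intro c c' h
  exact Subtype.ext (bcsPic_injective K₀ L N (congrArg Subtype.val h))

theorem bcsTorsHom_surjective (p : ℕ)
    (hfin : (Pic0.torsion L ↥(laurentBaseChange L (modularFunctionFieldFull N)) p :
      Set (Pic0 L ↥(laurentBaseChange L (modularFunctionFieldFull N)))).Finite) :
    Function.Surjective (bcsTorsHom K₀ L N p) := by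
  intro c
  obtain ⟨c0, hc0, h⟩ := bcsPic_surj_torsion K₀ L N p hfin c.1 c.2
  exact ⟨⟨c0, hc0⟩, Subtype.ext h⟩

/-- **base change is an isomorphism on `p`-torsion** (given finiteness over `L`) -/
noncomputable def bcsTorsEquiv (p : ℕ)
    (hfin : (Pic0.torsion L ↥(laurentBaseChange L (modularFunctionFieldFull N)) p :
      Set (Pic0 L ↥(laurentBaseChange L (modularFunctionFieldFull N)))).Finite) :
    ↥(Pic0.torsion K₀ ↥(laurentBaseChange K₀ (modularFunctionFieldFull N)) p) ≃+
      ↥(Pic0.torsion L ↥(laurentBaseChange L (modularFunctionFieldFull N)) p) :=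
  AddEquiv.ofBijective (bcsTorsHom K₀ L N p)
    ⟨bcsTorsHom_injective K₀ L N p, bcsTorsHom_surjective K₀ L N p hfin⟩

@[simp]
theorem bcsTorsEquiv_coe (p : ℕ)
    (hfin : (Pic0.torsion L ↥(laurentBaseChange L (modularFunctionFieldFull N)) p :
      Set (Pic0 L ↥(laurentBaseChange L (modularFunctionFieldFull N)))).Finite)
    (c : ↥(Pic0.torsion K₀ ↥(laurentBaseChange K₀ (modularFunctionFieldFull N)) p)) :
    ((bcsTorsEquiv K₀ L N p hfin c :
        ↥(Pic0.torsion L ↥(laurentBaseChange L (modularFunctionFieldFull N)) p)) :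
      Pic0 L ↥(laurentBaseChange L (modularFunctionFieldFull N))) =
      bcsPic K₀ L N (c : Pic0 K₀ ↥(laurentBaseChange K₀ (modularFunctionFieldFull N))) := rfl

/-- the `p`-torsion over `K₀` is finite as soon as the `p`-torsion over `L` is -/
theorem bcs_torsion_finite (p : ℕ)
    (hfin : (Pic0.torsion L ↥(laurentBaseChange L (modularFunctionFieldFull N)) p :
      Set (Pic0 L ↥(laurentBaseChange L (modularFunctionFieldFull N)))).Finite) :
    Finite ↥(Pic0.torsion K₀ ↥(laurentBaseChange K₀ (modularFunctionFieldFull N)) p) := by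
  haveI : Finite ↥(Pic0.torsion L ↥(laurentBaseChange L (modularFunctionFieldFull N)) p) :=
    hfin.to_subtype
  exact Finite.of_injective _ (bcsTorsHom_injective K₀ L N p)

end Equiv

end Fermat.Agent.S29
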