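import Mathlib

/-!
# Holomorphic `p`-th roots on the upper half plane  (package [ROOT] of the S29 blueprint)

If `H` is holomorphic on the upper half plane and the order of vanishing of `H` at every point is
(finite and) divisible by `p`, then `H = G ^ p` for a holomorphic `G` (`hroot_main`); two
holomorphic `p`-th roots of the same function differ by a `p`-th root of unity (`hroot_unique`).

Proof: on a closed ball inside the domain there are finitely many zeros; dividing them out one at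
a time leaves a nowhere vanishing function, which is `exp F` (primitive of the logarithmic
derivative on a ball).  The half plane is the increasing union of the balls `B(i t, t - 1/t)` and
the normalised roots on these balls agree by the identity theorem.
-/

set_option autoImplicit false

namespace Fermat.Agent.S29

open Complex Metric Set Filter Topology

/-- A nowhere vanishing holomorphic function on a ball is the exponential of a holomorphic
function. -/
theorem hroot_exp_ball {c : ℂ} {r : ℝ} {H : ℂ → ℂ}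
    (hH : DifferentiableOn ℂ H (ball c r)) (hne : ∀ z ∈ ball c r, H z ≠ 0) :
    ∃ F : ℂ → ℂ, DifferentiableOn ℂ F (ball c r) ∧ ∀ z ∈ ball c r, Complex.exp (F z) = H z := by
  by_cases hr : 0 < r
  swap
  · refine ⟨0, differentiableOn_const _, fun z hz => ?_⟩
    rw [ball_eq_empty.2 (not_lt.1 hr)] at hz
    exact absurd hz (notMem_empty z)
  have hc : c ∈ ball c r := mem_ball_self hr
  have hD : DifferentiableOn ℂ (fun z => deriv H z / H z) (ball c r) :=
    (hH.deriv isOpen_ball).div hH hne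
  obtain ⟨F, hFc, hF⟩ := (hD.isExactOn_ball).with_val_at c (Complex.log (H c))
  have hFd : DifferentiableOn ℂ F (ball c r) :=
    fun z hz => (hF z hz).differentiableAt.differentiableWithinAt
  refine ⟨F, hFd, ?_⟩
  have hK : DifferentiableOn ℂ (fun z => H z * Complex.exp (-F z)) (ball c r) :=
    hH.mul hFd.neg.cexp
  have hK' : (ball c r).EqOn (deriv fun z => H z * Complex.exp (-F z)) 0 := by
    intro z hz
    have h1 : HasDerivAt H (deriv H z) z :=
      (hH.differentiableAt (isOpen_ball.mem_nhds hz)).hasDerivAt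
    have h2 : HasDerivAt (fun z => Complex.exp (-F z))
        (Complex.exp (-F z) * -(deriv H z / H z)) z := ((hF z hz).neg).cexp
    have h3 : HasDerivAt (fun z => H z * Complex.exp (-F z))
        (deriv H z * Complex.exp (-F z) + H z * (Complex.exp (-F z) * -(deriv H z / H z))) z :=
      h1.mul h2
    rw [h3.deriv]
    have := hne z hz
    simp only [Pi.zero_apply]
    field_simp
    ring
  intro z hz
  have h4 := isOpen_ball.is_const_of_deriv_eq_zero (convex_ball c r).isPreconnected hK hK' hz hc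
  rw [hFc, Complex.exp_neg (Complex.log (H c)), Complex.exp_log (hne c hc),
    mul_inv_cancel₀ (hne c hc), Complex.exp_neg] at h4
  have h5 : Complex.exp (F z) ≠ 0 := Complex.exp_ne_zero _
  field_simp at h4
  exact h4.symm

/-- A nowhere vanishing holomorphic function on a ball has a holomorphic `p`-th root. -/
theorem hroot_ball_nonvanishing {p : ℕ} (hp : 0 < p) {c : ℂ} {r : ℝ} {H : ℂ → ℂ}
    (hH : DifferentiableOn ℂ H (ball c r)) (hne : ∀ z ∈ ball c r, H z ≠ 0) :
    ∃ G : ℂ → ℂ, DifferentiableOn ℂ G (ball c r) ∧ ∀ z ∈ ball c r, G z ^ p = H z := by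
  obtain ⟨F, hF, hFe⟩ := hroot_exp_ball hH hne
  refine ⟨fun z => Complex.exp (F z / p), (hF.div_const _).cexp, fun z hz => ?_⟩
  rw [← Complex.exp_nat_mul, mul_div_cancel₀ _ (Nat.cast_ne_zero.2 hp.ne'), hFe z hz]

/-- Factor a zero of order `n` out of a holomorphic function on an open set. -/
theorem hroot_factor {U : Set ℂ} (hU : IsOpen U) {H : ℂ → ℂ} (hH : DifferentiableOn ℂ H U)
    {a : ℂ} (ha : a ∈ U) {n : ℕ} (hn : analyticOrderAt H a = n) :
    ∃ H1 : ℂ → ℂ, DifferentiableOn ℂ H1 U ∧ H1 a ≠ 0 ∧ ∀ z, H z = (z - a) ^ n * H1 z := by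
  classical
  have hHa : AnalyticAt ℂ H a := (hH.analyticOnNhd hU) a ha
  obtain ⟨g, hg, hga, hgH⟩ := hHa.analyticOrderAt_eq_natCast.1 hn
  refine ⟨fun z => if z = a then g a else H z / (z - a) ^ n, ?_, by simpa using hga, ?_⟩
  · intro z hz
    by_cases hza : z = a
    · subst hza
      have : (fun w => if w = z then g z else H w / (w - z) ^ n) =ᶠ[𝓝 z] g := by
        filter_upwards [hgH] with w hw
        by_cases hwa : w = z
        · simp [hwa]
        · simp only [hwa, if_false]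
          rw [hw, smul_eq_mul, mul_div_cancel_left₀ _ (pow_ne_zero _ (sub_ne_zero.2 hwa))]
      exact (hg.differentiableAt.congr_of_eventuallyEq this).differentiableWithinAt
    · have : (fun w => if w = a then g a else H w / (w - a) ^ n) =ᶠ[𝓝 z]
          fun w => H w / (w - a) ^ n := by
        filter_upwards [isOpen_ne.mem_nhds hza] with w hw
        have hw' : w ≠ a := hw
        simp [hw']
      have hd : DifferentiableAt ℂ (fun w => H w / (w - a) ^ n) z :=
        (hH.differentiableAt (hU.mem_nhds hz)).div (by fun_prop)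
          (pow_ne_zero _ (sub_ne_zero.2 hza))
      exact (hd.congr_of_eventuallyEq this).differentiableWithinAt
  · intro z
    by_cases hza : z = a
    · subst hza
      have := hgH.self_of_nhds
      simpa using this
    · simp only [hza, if_false]
      rw [mul_div_cancel₀ _ (pow_ne_zero _ (sub_ne_zero.2 hza))]

/-- The orders of the cofactor away from the removed zero. -/
theorem hroot_factor_order {U : Set ℂ} (hU : IsOpen U) {H H1 : ℂ → ℂ}
    (hH1 : DifferentiableOn ℂ H1 U) {a : ℂ} {n : ℕ} (hfac : ∀ z, H z = (z - a) ^ n * H1 z)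
    {z : ℂ} (hz : z ∈ U) (hza : z ≠ a) :
    analyticOrderAt H1 z = analyticOrderAt H z := by
  have h1 : AnalyticAt ℂ H1 z := (hH1.analyticOnNhd hU) z hz
  have h2 : AnalyticAt ℂ (fun z : ℂ => (z - a) ^ n) z := by fun_prop
  have : H = (fun z : ℂ => (z - a) ^ n) * H1 := funext hfac
  rw [this, analyticOrderAt_mul h2 h1,
    h2.analyticOrderAt_eq_zero.2 (pow_ne_zero _ (sub_ne_zero.2 hza)), zero_add]

/-- Induction on a finite set containing the zeros in the closed ball. -/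
theorem hroot_ball_aux {p : ℕ} (hp : 0 < p) {c : ℂ} {r r' : ℝ} (hr : r' < r) :
    ∀ (S : Finset ℂ) (H : ℂ → ℂ), DifferentiableOn ℂ H (ball c r) →
      (∀ z ∈ closedBall c r', H z = 0 → z ∈ S) →
      (∀ z ∈ ball c r, ∃ m : ℕ, analyticOrderAt H z = ((p * m : ℕ) : ℕ∞)) →
      ∃ G : ℂ → ℂ, DifferentiableOn ℂ G (ball c r') ∧ ∀ z ∈ ball c r', G z ^ p = H z := by
  classical
  intro S
  induction S using Finset.induction_on with
  | empty =>
    intro H hH hS _
    exact hroot_ball_nonvanishing hp (hH.mono (ball_subset_ball hr.le))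
      (fun z hz h0 => by simpa using hS z (ball_subset_closedBall hz) h0)
  | insert a S haS ih =>
    intro H hH hS hord
    by_cases hcase : a ∈ closedBall c r' ∧ H a = 0
    · obtain ⟨hac, hHa⟩ := hcase
      have haU : a ∈ ball c r := closedBall_subset_ball hr hac
      obtain ⟨m, hm⟩ := hord a haU
      obtain ⟨H1, hH1, hH1a, hfac⟩ := hroot_factor isOpen_ball hH haU hm
      have hord1 : ∀ z ∈ ball c r, ∃ m : ℕ, analyticOrderAt H1 z = ((p * m : ℕ) : ℕ∞) := by
        intro z hz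
        by_cases hza : z = a
        · refine ⟨0, ?_⟩
          subst hza
          rw [((hH1.analyticOnNhd isOpen_ball) z hz).analyticOrderAt_eq_zero.2 hH1a]
          simp
        · rw [hroot_factor_order isOpen_ball hH1 hfac hz hza]
          exact hord z hz
      have hS1 : ∀ z ∈ closedBall c r', H1 z = 0 → z ∈ S := by
        intro z hz h0
        have hza : z ≠ a := by
          rintro rfl
          exact hH1a h0
        have := hS z hz (by rw [hfac, h0, mul_zero])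
        exact (Finset.mem_insert.1 this).resolve_left hza
      obtain ⟨G1, hG1, hG1p⟩ := ih H1 hH1 hS1 hord1
      refine ⟨fun z => (z - a) ^ m * G1 z,
        (by fun_prop : DifferentiableOn ℂ (fun z : ℂ => (z - a) ^ m) (ball c r')).mul hG1,
        fun z hz => ?_⟩
      rw [mul_pow, hG1p z hz, hfac, ← pow_mul, mul_comm m p]
    · refine ih H hH (fun z hz h0 => ?_) hord
      have := hS z hz h0
      rcases Finset.mem_insert.1 this with rfl | h
      · exact absurd ⟨hz, h0⟩ hcase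
      · exact h

/-- **`p`-th roots on balls.**  If `H` is holomorphic on `B(c, r)` with all orders of vanishing
finite and divisible by `p`, then `H` has a holomorphic `p`-th root on every smaller ball. -/
theorem hroot_ball {p : ℕ} (hp : 0 < p) {c : ℂ} {r r' : ℝ} (hr : r' < r) {H : ℂ → ℂ}
    (hH : DifferentiableOn ℂ H (ball c r))
    (hord : ∀ z ∈ ball c r, ∃ m : ℕ, analyticOrderAt H z = ((p * m : ℕ) : ℕ∞)) :
    ∃ G : ℂ → ℂ, DifferentiableOn ℂ G (ball c r') ∧ ∀ z ∈ ball c r', G z ^ p = H z := by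
  have hA : AnalyticOnNhd ℂ H (closedBall c r') :=
    fun z hz => (hH.analyticOnNhd isOpen_ball) z (closedBall_subset_ball hr hz)
  have hfin := (isCompact_closedBall c r').finite_sdiff_of_mem_codiscreteWithin
    hA.codiscreteWithin_setOfPred_analyticOrderAt_eq_zero_or_top
  refine hroot_ball_aux hp hr hfin.toFinset H hH (fun z hz h0 => ?_) hord
  rw [Set.Finite.mem_toFinset]
  refine ⟨hz, ?_⟩
  rintro (h | h)
  · exact ((hA z hz).analyticOrderAt_eq_zero.1 h) h0
  · obtain ⟨m, hm⟩ := hord z (closedBall_subset_ball hr hz)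
    rw [hm] at h
    exact ENat.natCast_ne_top _ h

/-- Two holomorphic functions with the same `p`-th power on a preconnected open set, which agree
at a point where they do not vanish, are equal. -/
theorem hroot_eqOn {p : ℕ} (hp : 0 < p) {U : Set ℂ} (hU : IsOpen U) (hUc : IsPreconnected U)
    {G₁ G₂ : ℂ → ℂ} (h1 : DifferentiableOn ℂ G₁ U) (h2 : DifferentiableOn ℂ G₂ U)
    {z₀ : ℂ} (hz₀ : z₀ ∈ U) (heq : G₁ z₀ = G₂ z₀) (hne : G₂ z₀ ≠ 0)
    (hpow : ∀ z ∈ U, G₁ z ^ p = G₂ z ^ p) : EqOn G₁ G₂ U := by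
  refine (h1.analyticOnNhd hU).eqOn_of_preconnected_of_eventuallyEq (h2.analyticOnNhd hU) hUc
    hz₀ ?_
  have hc1 : ContinuousAt G₁ z₀ := (h1.differentiableAt (hU.mem_nhds hz₀)).continuousAt
  have hc2 : ContinuousAt G₂ z₀ := (h2.differentiableAt (hU.mem_nhds hz₀)).continuousAt
  have hS : ContinuousAt
      (fun z => ∑ i ∈ Finset.range p, G₁ z ^ i * G₂ z ^ (p - 1 - i)) z₀ := by
    refine tendsto_finsetSum _ (fun i _ => ?_)
    exact ((hc1.pow i).mul (hc2.pow (p - 1 - i)))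
  have hS0 : (∑ i ∈ Finset.range p, G₁ z₀ ^ i * G₂ z₀ ^ (p - 1 - i)) ≠ 0 := by
    rw [heq]
    have : ∀ i ∈ Finset.range p, G₂ z₀ ^ i * G₂ z₀ ^ (p - 1 - i) = G₂ z₀ ^ (p - 1) := by
      intro i hi
      rw [← pow_add]
      congr 1
      have := Finset.mem_range.1 hi
      omega
    rw [Finset.sum_congr rfl this, Finset.sum_const, Finset.card_range, nsmul_eq_mul]
    exact mul_ne_zero (Nat.cast_ne_zero.2 hp.ne') (pow_ne_zero _ hne)
  filter_upwards [hS.eventually_ne hS0, hU.mem_nhds hz₀] with z hz hzU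
  have := geom_sum₂_mul (G₁ z) (G₂ z) p
  rw [hpow z hzU, sub_self] at this
  exact sub_eq_zero.1 ((mul_eq_zero.1 this).resolve_left hz)

/-- Two holomorphic `p`-th roots of the same function on a preconnected open set differ by a
`p`-th root of unity. -/
theorem hroot_unique_on {p : ℕ} (hp : 0 < p) {U : Set ℂ} (hU : IsOpen U)
    (hUc : IsPreconnected U) {G₁ G₂ : ℂ → ℂ} (h1 : DifferentiableOn ℂ G₁ U)
    (h2 : DifferentiableOn ℂ G₂ U) (hne : ∃ z ∈ U, G₂ z ≠ 0)
    (hpow : ∀ z ∈ U, G₁ z ^ p = G₂ z ^ p) :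
    ∃ ζ : ℂ, ζ ^ p = 1 ∧ ∀ z ∈ U, G₁ z = ζ * G₂ z := by
  obtain ⟨z₀, hz₀, hne⟩ := hne
  have hζ : (G₁ z₀ / G₂ z₀) ^ p = 1 := by
    rw [div_pow, hpow z₀ hz₀, div_self (pow_ne_zero _ hne)]
  have hG1 : G₁ z₀ ≠ 0 := fun h => by
    rw [h, zero_div, zero_pow hp.ne'] at hζ
    exact zero_ne_one hζ
  refine ⟨G₁ z₀ / G₂ z₀, hζ, ?_⟩
  have key := hroot_eqOn hp hU hUc h1 (h2.const_mul (G₁ z₀ / G₂ z₀)) hz₀
    (by rw [div_mul_cancel₀ _ hne]) (by rw [div_mul_cancel₀ _ hne]; exact hG1)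
    (fun z hz => by rw [mul_pow, hζ, one_mul, hpow z hz])
  exact fun z hz => key hz

/-- Gluing `p`-th roots along an increasing sequence of preconnected open sets. -/
theorem hroot_glue {p : ℕ} (hp : 0 < p) {H : ℂ → ℂ} (B : ℕ → Set ℂ) (hBo : ∀ n, IsOpen (B n))
    (hBc : ∀ n, IsPreconnected (B n)) (hBm : Monotone B)
    {z₀ : ℂ} (hz₀ : z₀ ∈ B 0) (hH0 : H z₀ ≠ 0)
    (hex : ∀ n, ∃ G : ℂ → ℂ, DifferentiableOn ℂ G (B n) ∧ ∀ z ∈ B n, G z ^ p = H z) :
    ∃ G : ℂ → ℂ, DifferentiableOn ℂ G (⋃ n, B n) ∧ ∀ z ∈ ⋃ n, B n, G z ^ p = H z := by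
  classical
  choose G0 hG0d hG0p using hex
  obtain ⟨w₀, hw₀⟩ : ∃ w : ℂ, w ^ p = H z₀ := IsAlgClosed.exists_pow_nat_eq (H z₀) hp
  have hz₀n : ∀ n, z₀ ∈ B n := fun n => hBm (Nat.zero_le n) hz₀
  have hG0ne : ∀ n, G0 n z₀ ≠ 0 := fun n h =>
    hH0 (by rw [← hG0p n z₀ (hz₀n n), h, zero_pow hp.ne'])
  have hw₀ne : w₀ ≠ 0 := fun h => hH0 (by rw [← hw₀, h, zero_pow hp.ne'])
  let G1 : ℕ → ℂ → ℂ := fun n z => (w₀ / G0 n z₀) * G0 n z
  have hG1d : ∀ n, DifferentiableOn ℂ (G1 n) (B n) := fun n => (hG0d n).const_mul _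
  have hG1p : ∀ n, ∀ z ∈ B n, G1 n z ^ p = H z := by
    intro n z hz
    simp only [G1]
    rw [mul_pow, div_pow, hw₀, hG0p n z₀ (hz₀n n), div_self hH0, one_mul, hG0p n z hz]
  have hG1z : ∀ n, G1 n z₀ = w₀ := fun n => by
    simp only [G1]
    rw [div_mul_cancel₀ _ (hG0ne n)]
  have hagree : ∀ n m, n ≤ m → EqOn (G1 n) (G1 m) (B n) := by
    intro n m hnm
    exact hroot_eqOn hp (hBo n) (hBc n) (hG1d n) ((hG1d m).mono (hBm hnm)) (hz₀n n)
      (by rw [hG1z, hG1z]) (by rw [hG1z]; exact hw₀ne)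
      (fun z hz => by rw [hG1p n z hz, hG1p m z (hBm hnm hz)])
  let G : ℂ → ℂ := fun z => if h : ∃ n, z ∈ B n then G1 (Nat.find h) z else 0
  have hGeq : ∀ n, EqOn G (G1 n) (B n) := by
    intro n z hz
    have h : ∃ n, z ∈ B n := ⟨n, hz⟩
    simp only [G, dif_pos h]
    exact hagree _ _ (Nat.find_min' h hz) (Nat.find_spec h)
  refine ⟨G, ?_, ?_⟩
  · intro z hz
    obtain ⟨n, hn⟩ := mem_iUnion.1 hz
    have h1 : DifferentiableAt ℂ (G1 n) z := (hG1d n).differentiableAt ((hBo n).mem_nhds hn)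
    exact (h1.congr_of_eventuallyEq
      ((hGeq n).eventuallyEq_of_mem ((hBo n).mem_nhds hn))).differentiableWithinAt
  · intro z hz
    obtain ⟨n, hn⟩ := mem_iUnion.1 hz
    rw [hGeq n hn, hG1p n z hn]

/-! ### The upper half plane -/

/-- The exhausting balls `B(i t, t - 1/t)` increase with `t`. -/
theorem hroot_disc_mono {t s : ℝ} (ht : 0 < t) (hts : t ≤ s) :
    ball (I * (t : ℂ)) (t - 1 / t) ⊆ ball (I * (s : ℂ)) (s - 1 / s) := by
  intro z hz
  rw [mem_ball] at hz ⊢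
  have h1 : dist z (I * (s : ℂ)) ≤ dist z (I * (t : ℂ)) + dist (I * (t : ℂ)) (I * (s : ℂ)) :=
    dist_triangle _ _ _
  have h2 : dist (I * (t : ℂ)) (I * (s : ℂ)) = s - t := by
    rw [dist_eq_norm, ← mul_sub, norm_mul, norm_I, one_mul, ← ofReal_sub, norm_real,
      Real.norm_eq_abs, abs_of_nonpos (by linarith)]
    ring
  have h3 : 1 / s ≤ 1 / t := one_div_le_one_div_of_le ht hts
  linarith

/-- The ball `B(i t, t)` lies in the upper half plane. -/
theorem hroot_disc_subset (t : ℝ) : ball (I * (t : ℂ)) t ⊆ {z : ℂ | 0 < z.im} := by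
  intro z hz
  rw [mem_ball, dist_eq_norm] at hz
  have h1 : |(z - I * (t : ℂ)).im| ≤ ‖z - I * (t : ℂ)‖ := Complex.abs_im_le_norm _
  have h2 : (z - I * (t : ℂ)).im = z.im - t := by simp
  rw [h2] at h1
  have h3 := neg_abs_le (z.im - t)
  change 0 < z.im
  linarith

/-- Every point of the upper half plane lies in `B(i t, t - 1/t)` for all large `t`. -/
theorem hroot_disc_mem {z : ℂ} (hz : 0 < z.im) :
    ∃ T : ℝ, ∀ t : ℝ, T ≤ t → z ∈ ball (I * (t : ℂ)) (t - 1 / t) := by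
  refine ⟨max 2 ((z.re ^ 2 + z.im ^ 2 + 2) / (2 * z.im)), fun t ht => ?_⟩
  have ht2 : (2 : ℝ) ≤ t := le_trans (le_max_left _ _) ht
  have ht3 : (z.re ^ 2 + z.im ^ 2 + 2) / (2 * z.im) ≤ t := le_trans (le_max_right _ _) ht
  have ht4 : z.re ^ 2 + z.im ^ 2 + 2 ≤ t * (2 * z.im) := (div_le_iff₀ (by positivity)).1 ht3
  have ht0 : 0 < t := by linarith
  have hinv : 1 / t ≤ 1 / 2 := one_div_le_one_div_of_le (by norm_num) ht2
  have hinv0 : 0 < 1 / t := by positivity
  have hpos : 0 < t - 1 / t := by linarith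
  rw [mem_ball, dist_eq_norm]
  have hsq : ‖z - I * (t : ℂ)‖ ^ 2 < (t - 1 / t) ^ 2 := by
    rw [Complex.sq_norm, Complex.normSq_apply]
    have h1 : (z - I * (t : ℂ)).re = z.re := by simp
    have h2 : (z - I * (t : ℂ)).im = z.im - t := by simp
    rw [h1, h2]
    have h3 : (t - 1 / t) ^ 2 = t ^ 2 - 2 + (1 / t) ^ 2 := by
      field_simp
      ring
    rw [h3]
    nlinarith [sq_pos_of_pos hinv0]
  exact lt_of_pow_lt_pow_left₀ 2 hpos.le hsq

/-- Finite orders at every point force a point of non-vanishing. -/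
theorem hroot_exists_ne {p : ℕ} {H : ℂ → ℂ}
    (hord : ∀ z : ℂ, 0 < z.im → ∃ m : ℕ, analyticOrderAt H z = ((p * m : ℕ) : ℕ∞)) :
    ∃ z : ℂ, 0 < z.im ∧ H z ≠ 0 := by
  obtain ⟨m, hm⟩ := hord I (by simp)
  have h1 : ¬ ∀ᶠ z in 𝓝 I, H z = 0 := by
    rw [← analyticOrderAt_eq_top, hm]
    exact ENat.natCast_ne_top _
  have h2 : ∀ᶠ z in 𝓝 I, 0 < z.im :=
    (isOpen_lt continuous_const Complex.continuous_im).mem_nhds (by simp)
  obtain ⟨z, hz, hz'⟩ := ((Filter.not_eventually.1 h1).and_eventually h2).exists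
  exact ⟨z, hz', hz⟩

/-- **Holomorphic `p`-th roots on the upper half plane.**  If `H` is holomorphic on the upper half
plane and its order of vanishing at every point is finite and divisible by `p`, then `H = G ^ p`
with `G` holomorphic on the upper half plane. -/
theorem hroot_main {p : ℕ} (hp : 0 < p) {H : ℂ → ℂ}
    (hH : DifferentiableOn ℂ H {z : ℂ | 0 < z.im})
    (hord : ∀ z : ℂ, 0 < z.im → ∃ m : ℕ, analyticOrderAt H z = ((p * m : ℕ) : ℕ∞)) :
    ∃ G : ℂ → ℂ, DifferentiableOn ℂ G {z : ℂ | 0 < z.im} ∧ ∀ z : ℂ, 0 < z.im → G z ^ p = H z := by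
  obtain ⟨z₀, hz₀, hH0⟩ := hroot_exists_ne hord
  obtain ⟨T₀, hT₀⟩ := hroot_disc_mem hz₀
  set t₀ : ℝ := max T₀ 1 with ht₀
  have ht₀1 : (1 : ℝ) ≤ t₀ := le_max_right _ _
  let B : ℕ → Set ℂ := fun n => ball (I * ((t₀ + n : ℝ) : ℂ)) ((t₀ + n) - 1 / (t₀ + n))
  have hpos : ∀ n : ℕ, 0 < t₀ + n := fun n => by
    have : (0 : ℝ) ≤ n := Nat.cast_nonneg n
    linarith
  have hBm : Monotone B := by
    intro n m hnm
    exact hroot_disc_mono (hpos n) (by
      have : (n : ℝ) ≤ m := Nat.cast_le.2 hnm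
      linarith)
  have hBsub : ∀ n, B n ⊆ ball (I * ((t₀ + n : ℝ) : ℂ)) (t₀ + n) := fun n =>
    ball_subset_ball (by
      have : 0 < 1 / (t₀ + n) := one_div_pos.2 (hpos n)
      linarith)
  have hBH : ∀ n, B n ⊆ {z : ℂ | 0 < z.im} := fun n => (hBsub n).trans (hroot_disc_subset _)
  have hz₀B : z₀ ∈ B 0 := by
    have := hT₀ (t₀ + (0 : ℕ)) (by
      simp only [Nat.cast_zero, add_zero]
      exact le_max_left _ _)
    exact this
  have hex : ∀ n, ∃ G : ℂ → ℂ, DifferentiableOn ℂ G (B n) ∧ ∀ z ∈ B n, G z ^ p = H z := by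
    intro n
    refine hroot_ball hp (r := t₀ + n) (by
      have : 0 < 1 / (t₀ + n) := one_div_pos.2 (hpos n)
      linarith) (hH.mono (hroot_disc_subset _)) (fun z hz => hord z (hroot_disc_subset _ hz))
  obtain ⟨G, hGd, hGp⟩ := hroot_glue hp B (fun n => isOpen_ball)
    (fun n => (convex_ball _ _).isPreconnected) hBm hz₀B hH0 hex
  have hU : (⋃ n, B n) = {z : ℂ | 0 < z.im} := by
    apply Subset.antisymm
    · exact iUnion_subset hBH
    · intro z hz
      obtain ⟨T, hT⟩ := hroot_disc_mem (z := z) hz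
      obtain ⟨n, hn⟩ := exists_nat_ge (T - t₀)
      exact mem_iUnion.2 ⟨n, hT (t₀ + n) (by linarith)⟩
  rw [hU] at hGd hGp
  exact ⟨G, hGd, hGp⟩

/-- **Uniqueness of holomorphic `p`-th roots on the upper half plane** up to a `p`-th root of
unity. -/
theorem hroot_unique {p : ℕ} (hp : 0 < p) {G₁ G₂ : ℂ → ℂ}
    (h1 : DifferentiableOn ℂ G₁ {z : ℂ | 0 < z.im})
    (h2 : DifferentiableOn ℂ G₂ {z : ℂ | 0 < z.im}) (hne : ∃ z : ℂ, 0 < z.im ∧ G₂ z ≠ 0)
    (hpow : ∀ z : ℂ, 0 < z.im → G₁ z ^ p = G₂ z ^ p) :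
    ∃ ζ : ℂ, ζ ^ p = 1 ∧ ∀ z : ℂ, 0 < z.im → G₁ z = ζ * G₂ z :=
  hroot_unique_on hp (isOpen_lt continuous_const Complex.continuous_im)
    (convex_halfSpace_im_gt 0).isPreconnected h1 h2 hne hpow

open scoped Manifold in
/-- `hroot_main` for functions on `UpperHalfPlane`. -/
theorem hroot_uhp {p : ℕ} (hp : 0 < p) {f : UpperHalfPlane → ℂ}
    (hf : MDifferentiable 𝓘(ℂ) 𝓘(ℂ) f)
    (hord : ∀ τ : UpperHalfPlane, ∃ m : ℕ,
      analyticOrderAt (f ∘ UpperHalfPlane.ofComplex) (τ : ℂ) = ((p * m : ℕ) : ℕ∞)) :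
    ∃ g : UpperHalfPlane → ℂ, MDifferentiable 𝓘(ℂ) 𝓘(ℂ) g ∧ ∀ τ, g τ ^ p = f τ := by
  rw [UpperHalfPlane.mdifferentiable_iff] at hf
  obtain ⟨G, hGd, hGp⟩ := hroot_main hp hf (fun z hz => hord ⟨z, hz⟩)
  refine ⟨fun τ => G τ, ?_, fun τ => ?_⟩
  · rw [UpperHalfPlane.mdifferentiable_iff]
    refine hGd.congr (fun z hz => ?_)
    simp only [Function.comp_apply, UpperHalfPlane.ofComplex_apply_of_im_pos hz]
  · have := hGp τ τ.im_pos
    rw [this]
    simp only [Function.comp_apply, UpperHalfPlane.ofComplex_apply]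

open scoped Manifold in
/-- `hroot_unique` for functions on `UpperHalfPlane`. -/
theorem hroot_uhp_unique {p : ℕ} (hp : 0 < p) {g₁ g₂ : UpperHalfPlane → ℂ}
    (h1 : MDifferentiable 𝓘(ℂ) 𝓘(ℂ) g₁) (h2 : MDifferentiable 𝓘(ℂ) 𝓘(ℂ) g₂)
    (hne : ∃ τ, g₂ τ ≠ 0) (hpow : ∀ τ, g₁ τ ^ p = g₂ τ ^ p) :
    ∃ ζ : ℂ, ζ ^ p = 1 ∧ ∀ τ, g₁ τ = ζ * g₂ τ := by
  rw [UpperHalfPlane.mdifferentiable_iff] at h1 h2
  obtain ⟨τ₀, hτ₀⟩ := hne
  obtain ⟨ζ, hζ, h⟩ := hroot_unique hp h1 h2
    ⟨τ₀, τ₀.im_pos, by simpa [Function.comp_apply, UpperHalfPlane.ofComplex_apply] using hτ₀⟩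
    (fun z hz => by
      simp only [Function.comp_apply]
      exact hpow _)
  refine ⟨ζ, hζ, fun τ => ?_⟩
  have := h τ τ.im_pos
  simpa [Function.comp_apply, UpperHalfPlane.ofComplex_apply] using this

end Fermat.Agent.S29
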