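/-
Stage 3, package KUM: Kummer characters of holomorphic functions on the upper half plane.

For a subgroup `Γ` of `SL(2, ℤ)` and a holomorphic, `Γ`-invariant function `H ≠ 0` on the upper
half plane all of whose vanishing orders are divisible by `p`, a holomorphic `p`-th root `G`
satisfies `G (γ • τ) = ζ_p ^ (χ γ) * G τ` for a homomorphism `χ : Γ → ℤ/p`, independent of `G`.
-/
import Mathlib
import Fermat.Agent.S29.HolRoot

set_option autoImplicit false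

open UpperHalfPlane
open scoped MatrixGroups Manifold Real

namespace Fermat.Agent.S29

/-! ### roots of unity -/

/-- The standard primitive `p`-th root of unity. -/
noncomputable def kumZeta (p : ℕ) : ℂ := Complex.exp (2 * π * Complex.I / p)

theorem kumZeta_isPrimitiveRoot (p : ℕ) [NeZero p] : IsPrimitiveRoot (kumZeta p) p :=
  Complex.isPrimitiveRoot_exp p (NeZero.ne p)

theorem kumZeta_pow (p : ℕ) [NeZero p] : kumZeta p ^ p = 1 :=
  (kumZeta_isPrimitiveRoot p).pow_eq_one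

theorem kumZeta_ne_zero (p : ℕ) : kumZeta p ≠ 0 := Complex.exp_ne_zero _

/-- `ζ_p ^ a` for `a : ℤ/p`. -/
noncomputable def kumExp (p : ℕ) (a : ZMod p) : ℂ := kumZeta p ^ a.val

theorem kumExp_ne_zero (p : ℕ) (a : ZMod p) : kumExp p a ≠ 0 :=
  pow_ne_zero _ (kumZeta_ne_zero p)

theorem kumExp_zero (p : ℕ) [NeZero p] : kumExp p 0 = 1 := by
  simp [kumExp]

theorem kumExp_natCast (p : ℕ) [NeZero p] (n : ℕ) : kumExp p (n : ZMod p) = kumZeta p ^ n := by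
  rw [kumExp, ZMod.val_natCast]
  exact (pow_eq_pow_mod n (kumZeta_pow p)).symm

theorem kumExp_add (p : ℕ) [NeZero p] (a b : ZMod p) :
    kumExp p (a + b) = kumExp p a * kumExp p b := by
  conv_lhs => rw [← ZMod.natCast_zmod_val a, ← ZMod.natCast_zmod_val b, ← Nat.cast_add,
    kumExp_natCast, pow_add]
  rfl

theorem kumExp_pow (p : ℕ) [NeZero p] (a : ZMod p) : kumExp p a ^ p = 1 := by
  rw [kumExp, ← pow_mul, mul_comm, pow_mul, kumZeta_pow, one_pow]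

theorem kumExp_injective (p : ℕ) [NeZero p] : Function.Injective (kumExp p) := by
  intro a b h
  exact ZMod.val_injective p
    ((kumZeta_isPrimitiveRoot p).pow_inj (ZMod.val_lt a) (ZMod.val_lt b) h)

theorem kumExp_surj (p : ℕ) [NeZero p] {ζ : ℂ} (h : ζ ^ p = 1) : ∃ a : ZMod p, kumExp p a = ζ := by
  obtain ⟨i, -, rfl⟩ := (kumZeta_isPrimitiveRoot p).eq_pow_of_pow_eq_one h
  exact ⟨(i : ZMod p), kumExp_natCast p i⟩

theorem kumExp_sum (p : ℕ) [NeZero p] {ι : Type*} (s : Finset ι) (a : ι → ZMod p) :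
    kumExp p (∑ i ∈ s, a i) = ∏ i ∈ s, kumExp p (a i) := by
  classical
  induction s using Finset.induction_on with
  | empty => simp [kumExp_zero]
  | insert i s his ih => rw [Finset.sum_insert his, Finset.prod_insert his, kumExp_add, ih]

/-! ### holomorphic functions on the upper half plane -/

theorem kum_analyticAt {F : ℍ → ℂ} (hF : MDiff F) (τ : ℍ) :
    AnalyticAt ℂ (F ∘ ofComplex) (τ : ℂ) :=
  (UpperHalfPlane.mdifferentiable_iff.mp hF).analyticOnNhd isOpen_upperHalfPlaneSet τ τ.im_pos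

theorem kum_mul_eq_zero {F₁ F₂ : ℍ → ℂ} (h1 : MDiff F₁) (h2 : MDiff F₂)
    (h : ∀ τ, F₁ τ * F₂ τ = 0) : F₁ = 0 ∨ F₂ = 0 := by
  have a1 := (UpperHalfPlane.mdifferentiable_iff.mp h1).analyticOnNhd isOpen_upperHalfPlaneSet
  have a2 := (UpperHalfPlane.mdifferentiable_iff.mp h2).analyticOnNhd isOpen_upperHalfPlaneSet
  have hU : IsPreconnected {z : ℂ | 0 < z.im} := (convex_halfSpace_im_gt 0).isPreconnected
  rcases AnalyticOnNhd.eq_zero_or_eq_zero_of_mul_eq_zero a1 a2 (fun z _ => h (ofComplex z)) hU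
    with h0 | h0
  · left
    funext τ
    have := h0 τ τ.im_pos
    simpa [Function.comp, ofComplex_apply] using this
  · right
    funext τ
    have := h0 τ τ.im_pos
    simpa [Function.comp, ofComplex_apply] using this

theorem kum_mdiff_gl {g : GL (Fin 2) ℝ} (hg : 0 < g.det.val) {F : ℍ → ℂ} (hF : MDiff F) :
    MDiff (fun τ : ℍ => F (g • τ)) :=
  hF.comp (UpperHalfPlane.mdifferentiable_smul hg)

theorem kum_mdiff_smul (γ : SL(2, ℤ)) {F : ℍ → ℂ} (hF : MDiff F) :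
    MDiff (fun τ : ℍ => F (γ • τ)) :=
  kum_mdiff_gl (g := (γ : GL (Fin 2) ℝ)) (by simp) hF

theorem kum_comp_gl_ne_zero (g : GL (Fin 2) ℝ) {F : ℍ → ℂ} (hF : F ≠ 0) :
    (fun τ : ℍ => F (g • τ)) ≠ 0 := by
  intro h
  apply hF
  funext τ
  have := congrFun h (g⁻¹ • τ)
  simpa using this

theorem kum_comp_smul_ne_zero (γ : SL(2, ℤ)) {F : ℍ → ℂ} (hF : F ≠ 0) :
    (fun τ : ℍ => F (γ • τ)) ≠ 0 := by
  intro h
  apply hF
  funext τ
  have := congrFun h (γ⁻¹ • τ)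
  simpa using this

theorem kum_exists_ne {F : ℍ → ℂ} (hF : F ≠ 0) : ∃ τ, F τ ≠ 0 := by
  by_contra hcon
  push Not at hcon
  exact hF (funext hcon)

theorem kum_mdiff_pow {F : ℍ → ℂ} (hF : MDiff F) (n : ℕ) : MDiff (fun τ => F τ ^ n) := by
  rw [UpperHalfPlane.mdifferentiable_iff] at hF ⊢
  exact hF.pow n

theorem kum_mdiff_mul {F₁ F₂ : ℍ → ℂ} (h1 : MDiff F₁) (h2 : MDiff F₂) :
    MDiff (fun τ => F₁ τ * F₂ τ) := by
  rw [UpperHalfPlane.mdifferentiable_iff] at h1 h2 ⊢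
  exact h1.mul h2

theorem kum_mdiff_prod {ι : Type*} (s : Finset ι) (F : ι → ℍ → ℂ) (hF : ∀ i ∈ s, MDiff (F i)) :
    MDiff (fun τ => ∏ i ∈ s, F i τ) := by
  classical
  induction s using Finset.induction_on with
  | empty =>
    simp only [Finset.prod_empty]
    exact mdifferentiable_const
  | insert i s his ih =>
    simp only [Finset.prod_insert his]
    exact kum_mdiff_mul (hF i (Finset.mem_insert_self i s))
      (ih fun j hj => hF j (Finset.mem_insert_of_mem hj))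

theorem kum_prod_ne_zero {ι : Type*} (s : Finset ι) (F : ι → ℍ → ℂ) (hF : ∀ i ∈ s, MDiff (F i))
    (h0 : ∀ i ∈ s, F i ≠ 0) : (fun τ => ∏ i ∈ s, F i τ) ≠ 0 := by
  classical
  induction s using Finset.induction_on with
  | empty =>
    intro h
    have := congrFun h UpperHalfPlane.I
    simp at this
  | insert i s his ih =>
    intro h
    have h1 : ∀ τ, F i τ * (fun τ => ∏ j ∈ s, F j τ) τ = 0 := by
      intro τ
      have := congrFun h τ
      simpa [Finset.prod_insert his] using this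
    rcases kum_mul_eq_zero (hF i (Finset.mem_insert_self i s))
      (kum_mdiff_prod s F fun j hj => hF j (Finset.mem_insert_of_mem hj)) h1 with h2 | h2
    · exact h0 i (Finset.mem_insert_self i s) h2
    · exact ih (fun j hj => hF j (Finset.mem_insert_of_mem hj))
        (fun j hj => h0 j (Finset.mem_insert_of_mem hj)) h2

theorem kum_order_ne_top {F : ℍ → ℂ} (hF : MDiff F) (h0 : F ≠ 0) (τ : ℍ) :
    analyticOrderAt (F ∘ ofComplex) (τ : ℂ) ≠ ⊤ := by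
  intro htop
  rw [analyticOrderAt_eq_top] at htop
  have a1 := (UpperHalfPlane.mdifferentiable_iff.mp hF).analyticOnNhd isOpen_upperHalfPlaneSet
  have hU : IsPreconnected {z : ℂ | 0 < z.im} := (convex_halfSpace_im_gt 0).isPreconnected
  have h1 := a1.eqOn_zero_of_preconnected_of_eventuallyEq_zero hU τ.im_pos htop
  apply h0
  funext σ
  have := h1 σ.im_pos
  simpa [Function.comp, ofComplex_apply] using this

/-! ### the hypothesis -/

/-- `H` is holomorphic, nonzero, `Γ`-invariant, and all its orders are divisible by `p`. -/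
structure KumOK (Γ : Subgroup SL(2, ℤ)) (p : ℕ) (H : ℍ → ℂ) : Prop where
  mdiff : MDiff H
  ne_zero : H ≠ 0
  inv : ∀ γ ∈ Γ, ∀ τ : ℍ, H (γ • τ) = H τ
  ord : ∀ τ : ℍ, ∃ m : ℕ, analyticOrderAt (H ∘ ofComplex) (τ : ℂ) = ((p * m : ℕ) : ℕ∞)

section

variable {Γ : Subgroup SL(2, ℤ)} {p : ℕ} [NeZero p] {H : ℍ → ℂ}

theorem KumOK.exists_root (hH : KumOK Γ p H) : ∃ G : ℍ → ℂ, MDiff G ∧ ∀ τ, G τ ^ p = H τ :=
  hroot_uhp (Nat.pos_of_ne_zero (NeZero.ne p)) hH.mdiff hH.ord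

theorem kum_root_ne_zero (hH0 : H ≠ 0) {G : ℍ → ℂ} (hGp : ∀ τ, G τ ^ p = H τ) : G ≠ 0 := by
  intro hG
  obtain ⟨τ, hτ⟩ := kum_exists_ne hH0
  apply hτ
  rw [← hGp, hG, Pi.zero_apply, zero_pow (NeZero.ne p)]

/-- The multiplier of one root at one group element. -/
theorem kum_exists_mult (hH : KumOK Γ p H) {G : ℍ → ℂ} (hG : MDiff G)
    (hGp : ∀ τ, G τ ^ p = H τ) (γ : Γ) :
    ∃ a : ZMod p, ∀ τ : ℍ, G ((γ : SL(2, ℤ)) • τ) = kumExp p a * G τ := by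
  have h1 : MDiff (fun τ : ℍ => G ((γ : SL(2, ℤ)) • τ)) := kum_mdiff_smul _ hG
  obtain ⟨ζ, hζ, h⟩ := hroot_uhp_unique (Nat.pos_of_ne_zero (NeZero.ne p)) h1 hG
    (kum_exists_ne (kum_root_ne_zero hH.ne_zero hGp))
    (fun τ => by rw [hGp, hGp, hH.inv _ γ.2])
  obtain ⟨a, rfl⟩ := kumExp_surj p hζ
  exact ⟨a, h⟩

/-- Two multipliers of a nonzero function agree. -/
theorem kum_mult_unique {G : ℍ → ℂ} (hG0 : G ≠ 0) {f : ℍ → ℍ} {a b : ZMod p}
    (ha : ∀ τ : ℍ, G (f τ) = kumExp p a * G τ) (hb : ∀ τ : ℍ, G (f τ) = kumExp p b * G τ) :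
    a = b := by
  obtain ⟨τ, hτ⟩ := kum_exists_ne hG0
  apply kumExp_injective p
  have := (ha τ).symm.trans (hb τ)
  exact mul_right_cancel₀ hτ this

/-- The Kummer character exists. -/
theorem kum_exists_char (hH : KumOK Γ p H) :
    ∃ χ : Additive Γ →+ ZMod p, ∀ G : ℍ → ℂ, MDiff G → (∀ τ, G τ ^ p = H τ) →
      ∀ (γ : Γ) (τ : ℍ), G ((γ : SL(2, ℤ)) • τ) = kumExp p (χ (Additive.ofMul γ)) * G τ := by
  obtain ⟨G₀, hG₀, hG₀p⟩ := hH.exists_root
  have hG₀0 : G₀ ≠ 0 := kum_root_ne_zero hH.ne_zero hG₀p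
  choose a ha using fun γ : Γ => kum_exists_mult hH hG₀ hG₀p γ
  have hadd : ∀ γ₁ γ₂ : Γ, a (γ₁ * γ₂) = a γ₁ + a γ₂ := by
    intro γ₁ γ₂
    obtain ⟨τ, hτ⟩ := kum_exists_ne hG₀0
    apply kumExp_injective p
    have h1 := ha (γ₁ * γ₂) τ
    have h2 : G₀ (((γ₁ * γ₂ : Γ) : SL(2, ℤ)) • τ) = kumExp p (a γ₁) * (kumExp p (a γ₂) * G₀ τ) := by
      rw [Subgroup.coe_mul, mul_smul, ha γ₁, ha γ₂]
    rw [h1, ← mul_assoc, ← kumExp_add] at h2
    exact mul_right_cancel₀ hτ h2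
  refine ⟨AddMonoidHom.mk' (fun x : Additive Γ => a (Additive.toMul x)) (fun x y => hadd _ _), ?_⟩
  intro G hG hGp γ τ
  obtain ⟨ξ, -, hξ⟩ := hroot_uhp_unique (Nat.pos_of_ne_zero (NeZero.ne p)) hG hG₀
    (kum_exists_ne hG₀0) (fun τ => by rw [hGp, hG₀p])
  show G ((γ : SL(2, ℤ)) • τ) = kumExp p (a γ) * G τ
  rw [hξ, hξ, ha γ τ]
  ring

end

/-- The Kummer character of `H` (zero if `H` does not satisfy `KumOK`). -/
noncomputable def kumChar (Γ : Subgroup SL(2, ℤ)) (p : ℕ) [NeZero p] (H : ℍ → ℂ) :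
    Additive Γ →+ ZMod p :=
  open Classical in
  if h : KumOK Γ p H then (kum_exists_char h).choose else 0

section

variable {Γ : Subgroup SL(2, ℤ)} {p : ℕ} [NeZero p] {H : ℍ → ℂ}

/-- Every holomorphic `p`-th root of `H` transforms by the Kummer character. -/
theorem kumChar_spec (hH : KumOK Γ p H) {G : ℍ → ℂ} (hG : MDiff G) (hGp : ∀ τ, G τ ^ p = H τ)
    (γ : Γ) (τ : ℍ) :
    G ((γ : SL(2, ℤ)) • τ) = kumExp p (kumChar Γ p H (Additive.ofMul γ)) * G τ := by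
  rw [kumChar, dif_pos hH]
  exact (kum_exists_char hH).choose_spec G hG hGp γ τ

/-- The Kummer character is determined by the transformation of one root. -/
theorem kumChar_eq_of_root (hH : KumOK Γ p H) {G : ℍ → ℂ} (hG : MDiff G)
    (hGp : ∀ τ, G τ ^ p = H τ) (γ : Γ) (a : ZMod p)
    (ha : ∀ τ : ℍ, G ((γ : SL(2, ℤ)) • τ) = kumExp p a * G τ) :
    kumChar Γ p H (Additive.ofMul γ) = a :=
  kum_mult_unique (kum_root_ne_zero hH.ne_zero hGp) (f := fun τ => (γ : SL(2, ℤ)) • τ)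
    (kumChar_spec hH hG hGp γ) ha

/-- The Kummer character computed from a "meromorphic root" `U / V`. -/
theorem kumChar_of_ratio (hH : KumOK Γ p H) {U V : ℍ → ℂ} (hU : MDiff U) (hV : MDiff V)
    (hV0 : V ≠ 0) (hUV : ∀ τ, U τ ^ p = H τ * V τ ^ p) (a : Γ → ZMod p)
    (ha : ∀ (γ : Γ) (τ : ℍ), U ((γ : SL(2, ℤ)) • τ) * V τ =
      kumExp p (a γ) * U τ * V ((γ : SL(2, ℤ)) • τ)) (γ : Γ) :
    kumChar Γ p H (Additive.ofMul γ) = a γ := by
  obtain ⟨G, hG, hGp⟩ := hH.exists_root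
  have hG0 : G ≠ 0 := kum_root_ne_zero hH.ne_zero hGp
  have hGV : MDiff (fun τ => G τ * V τ) := kum_mdiff_mul hG hV
  have hGV0 : ∃ τ, (fun τ => G τ * V τ) τ ≠ 0 := by
    by_contra hcon
    push Not at hcon
    rcases kum_mul_eq_zero hG hV hcon with h | h
    · exact hG0 h
    · exact hV0 h
  obtain ⟨ξ, hξ, hUξ⟩ := hroot_uhp_unique (Nat.pos_of_ne_zero (NeZero.ne p)) hU hGV hGV0
    (fun τ => by rw [hUV, mul_pow, hGp])
  have hξ0 : ξ ≠ 0 := by
    rintro rfl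
    rw [zero_pow (NeZero.ne p)] at hξ
    exact zero_ne_one hξ
  apply kumChar_eq_of_root hH hG hGp γ (a γ)
  -- the product of `V ∘ γ * V` and `G ∘ γ - ζ^a G` vanishes
  have hF1 : MDiff (fun τ : ℍ => V ((γ : SL(2, ℤ)) • τ) * V τ) :=
    kum_mdiff_mul (kum_mdiff_smul _ hV) hV
  have hF2 : MDiff (fun τ : ℍ => G ((γ : SL(2, ℤ)) • τ) - kumExp p (a γ) * G τ) := by
    have h1 := kum_mdiff_smul (γ : SL(2, ℤ)) hG
    rw [UpperHalfPlane.mdifferentiable_iff] at h1 hG ⊢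
    exact h1.sub (hG.const_mul _)
  have hprod : ∀ τ : ℍ, (fun τ : ℍ => V ((γ : SL(2, ℤ)) • τ) * V τ) τ *
      (fun τ : ℍ => G ((γ : SL(2, ℤ)) • τ) - kumExp p (a γ) * G τ) τ = 0 := by
    intro τ
    have h1 := ha γ τ
    rw [hUξ, hUξ] at h1
    have h2 : ξ * (V ((γ : SL(2, ℤ)) • τ) * V τ *
        (G ((γ : SL(2, ℤ)) • τ) - kumExp p (a γ) * G τ)) = 0 := by
      linear_combination h1
    exact (mul_eq_zero.mp h2).resolve_left hξ0
  rcases kum_mul_eq_zero hF1 hF2 hprod with h | h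
  · exfalso
    rcases kum_mul_eq_zero (kum_mdiff_smul _ hV) hV (fun τ => congrFun h τ) with h' | h'
    · exact kum_comp_smul_ne_zero _ hV0 h'
    · exact hV0 h'
  · intro τ
    have := congrFun h τ
    exact sub_eq_zero.mp this

omit [NeZero p] in
/-- Products. -/
theorem kumOK_mul {H₁ H₂ : ℍ → ℂ} (h1 : KumOK Γ p H₁) (h2 : KumOK Γ p H₂) :
    KumOK Γ p (fun τ => H₁ τ * H₂ τ) where
  mdiff := kum_mdiff_mul h1.mdiff h2.mdiff
  ne_zero := by
    intro h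
    rcases kum_mul_eq_zero h1.mdiff h2.mdiff (fun τ => congrFun h τ) with h' | h'
    · exact h1.ne_zero h'
    · exact h2.ne_zero h'
  inv := fun γ hγ τ => by rw [h1.inv γ hγ, h2.inv γ hγ]
  ord := fun τ => by
    obtain ⟨m₁, hm₁⟩ := h1.ord τ
    obtain ⟨m₂, hm₂⟩ := h2.ord τ
    refine ⟨m₁ + m₂, ?_⟩
    have : (fun τ => H₁ τ * H₂ τ) ∘ ofComplex = (H₁ ∘ ofComplex) * (H₂ ∘ ofComplex) := rfl
    rw [this, analyticOrderAt_mul (kum_analyticAt h1.mdiff τ) (kum_analyticAt h2.mdiff τ),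
      hm₁, hm₂]
    push_cast
    ring

theorem kumChar_mul {H₁ H₂ : ℍ → ℂ} (h1 : KumOK Γ p H₁) (h2 : KumOK Γ p H₂) :
    kumChar Γ p (fun τ => H₁ τ * H₂ τ) = kumChar Γ p H₁ + kumChar Γ p H₂ := by
  obtain ⟨G₁, hG₁, hG₁p⟩ := h1.exists_root
  obtain ⟨G₂, hG₂, hG₂p⟩ := h2.exists_root
  refine DFunLike.ext _ _ fun x => ?_
  obtain ⟨γ, rfl⟩ : ∃ γ : Γ, Additive.ofMul γ = x := ⟨Additive.toMul x, rfl⟩
  rw [AddMonoidHom.add_apply]
  apply kumChar_eq_of_root (kumOK_mul h1 h2) (kum_mdiff_mul hG₁ hG₂)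
    (fun τ => by rw [mul_pow, hG₁p, hG₂p]) γ
  intro τ
  rw [kumChar_spec h1 hG₁ hG₁p γ τ, kumChar_spec h2 hG₂ hG₂p γ τ, kumExp_add]
  ring

/-- `p`-th powers of functions transforming by a character. -/
theorem kumOK_pow {K : ℍ → ℂ} (hK : MDiff K) (hK0 : K ≠ 0) (a : Γ → ZMod p)
    (ha : ∀ (γ : Γ) (τ : ℍ), K ((γ : SL(2, ℤ)) • τ) = kumExp p (a γ) * K τ) :
    KumOK Γ p (fun τ => K τ ^ p) where
  mdiff := kum_mdiff_pow hK p
  ne_zero := by
    intro h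
    apply hK0
    funext τ
    have := congrFun h τ
    exact pow_eq_zero_iff (NeZero.ne p) |>.mp this
  inv := fun γ hγ τ => by
    have := ha ⟨γ, hγ⟩ τ
    show K (γ • τ) ^ p = K τ ^ p
    rw [this, mul_pow, kumExp_pow, one_mul]
  ord := fun τ => by
    obtain ⟨m, hm⟩ := ENat.ne_top_iff_exists.mp (kum_order_ne_top hK hK0 τ)
    refine ⟨m, ?_⟩
    have : (fun τ => K τ ^ p) ∘ ofComplex = (K ∘ ofComplex) ^ p := rfl
    rw [this, analyticOrderAt_pow (kum_analyticAt hK τ), ← hm]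
    simp

theorem kumChar_pow {K : ℍ → ℂ} (hK : MDiff K) (hK0 : K ≠ 0) (a : Γ → ZMod p)
    (ha : ∀ (γ : Γ) (τ : ℍ), K ((γ : SL(2, ℤ)) • τ) = kumExp p (a γ) * K τ) (γ : Γ) :
    kumChar Γ p (fun τ => K τ ^ p) (Additive.ofMul γ) = a γ :=
  kumChar_eq_of_root (kumOK_pow hK hK0 a ha) hK (fun _ => rfl) γ (a γ) (ha γ)

/-- `p`-th powers of invariant functions have trivial Kummer character. -/
theorem kumChar_pow_invariant {K : ℍ → ℂ} (hK : MDiff K) (hK0 : K ≠ 0)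
    (hinv : ∀ γ ∈ Γ, ∀ τ : ℍ, K (γ • τ) = K τ) :
    KumOK Γ p (fun τ => K τ ^ p) ∧ kumChar Γ p (fun τ => K τ ^ p) = 0 := by
  have ha : ∀ (γ : Γ) (τ : ℍ), K ((γ : SL(2, ℤ)) • τ) = kumExp p ((fun _ => 0) γ) * K τ := by
    intro γ τ
    rw [kumExp_zero, one_mul]
    exact hinv γ γ.2 τ
  refine ⟨kumOK_pow hK hK0 _ ha, ?_⟩
  refine DFunLike.ext _ _ fun x => ?_
  obtain ⟨γ, rfl⟩ : ∃ γ : Γ, Additive.ofMul γ = x := ⟨Additive.toMul x, rfl⟩
  exact kumChar_pow hK hK0 _ ha γ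

/-- A trivial Kummer character gives an invariant root. -/
theorem kumChar_eq_zero (hH : KumOK Γ p H) (h0 : kumChar Γ p H = 0) :
    ∃ G : ℍ → ℂ, MDiff G ∧ (∀ τ, G τ ^ p = H τ) ∧ ∀ γ ∈ Γ, ∀ τ : ℍ, G (γ • τ) = G τ := by
  obtain ⟨G, hG, hGp⟩ := hH.exists_root
  refine ⟨G, hG, hGp, fun γ hγ τ => ?_⟩
  have := kumChar_spec hH hG hGp ⟨γ, hγ⟩ τ
  rw [h0, AddMonoidHom.zero_apply, kumExp_zero, one_mul] at this
  exact this

/-- Two functions differing by `p`-th powers of invariant functions have the same character. -/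
theorem kumChar_congr {H' : ℍ → ℂ} (hH : KumOK Γ p H) (hH' : KumOK Γ p H') {V V' : ℍ → ℂ}
    (hV : MDiff V) (hV' : MDiff V') (hV0 : V ≠ 0)
    (hVinv : ∀ γ ∈ Γ, ∀ τ : ℍ, V (γ • τ) = V τ) (hVinv' : ∀ γ ∈ Γ, ∀ τ : ℍ, V' (γ • τ) = V' τ)
    (h : ∀ τ, H τ * V τ ^ p = H' τ * V' τ ^ p) : kumChar Γ p H = kumChar Γ p H' := by
  obtain ⟨G', hG', hG'p⟩ := hH'.exists_root
  refine DFunLike.ext _ _ fun x => ?_
  obtain ⟨γ, rfl⟩ : ∃ γ : Γ, Additive.ofMul γ = x := ⟨Additive.toMul x, rfl⟩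
  refine kumChar_of_ratio hH (U := fun τ => G' τ * V' τ) (V := V) (kum_mdiff_mul hG' hV') hV hV0
    (fun τ => by rw [mul_pow, hG'p, h]) (fun γ => kumChar Γ p H' (Additive.ofMul γ)) ?_ γ
  intro γ τ
  show G' ((γ : SL(2, ℤ)) • τ) * V' ((γ : SL(2, ℤ)) • τ) * V τ = _
  rw [kumChar_spec hH' hG' hG'p γ τ, hVinv' γ γ.2, hVinv γ γ.2]
  ring

/-- Nonzero constants. -/
theorem kumOK_const (Γ : Subgroup SL(2, ℤ)) (p : ℕ) [NeZero p] {c : ℂ} (hc : c ≠ 0) :
    KumOK Γ p (fun _ : ℍ => c) ∧ kumChar Γ p (fun _ : ℍ => c) = 0 := by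
  obtain ⟨d, hd⟩ : ∃ d : ℂ, d ^ p = c := IsAlgClosed.exists_pow_nat_eq c (NeZero.pos p)
  have hd0 : d ≠ 0 := by
    rintro rfl
    rw [zero_pow (NeZero.ne p)] at hd
    exact hc hd.symm
  have hd0' : (fun _ : ℍ => d) ≠ 0 := fun h => hd0 (congrFun h UpperHalfPlane.I)
  have key := kumChar_pow_invariant (Γ := Γ) (p := p) (K := fun _ : ℍ => d) mdifferentiable_const
    hd0' (fun _ _ _ => rfl)
  have heq : (fun τ : ℍ => (fun _ : ℍ => d) τ ^ p) = fun _ : ℍ => c := by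
    funext τ
    exact hd
  rw [heq] at key
  exact key

/-- Multiplying by a nonzero constant does not change the Kummer character. -/
theorem kumChar_const_mul (hH : KumOK Γ p H) {c : ℂ} (hc : c ≠ 0) :
    KumOK Γ p (fun τ => c * H τ) ∧ kumChar Γ p (fun τ => c * H τ) = kumChar Γ p H := by
  obtain ⟨h1, h2⟩ := kumOK_const Γ p hc
  refine ⟨kumOK_mul h1 hH, ?_⟩
  rw [kumChar_mul h1 hH, h2, zero_add]

/-- Multiplying by the `p`-th power of an invariant function does not change the Kummer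
character. -/
theorem kumChar_mul_pow_invariant (hH : KumOK Γ p H) {K : ℍ → ℂ} (hK : MDiff K) (hK0 : K ≠ 0)
    (hinv : ∀ γ ∈ Γ, ∀ τ : ℍ, K (γ • τ) = K τ) :
    KumOK Γ p (fun τ => H τ * K τ ^ p) ∧
      kumChar Γ p (fun τ => H τ * K τ ^ p) = kumChar Γ p H := by
  obtain ⟨h1, h2⟩ := kumChar_pow_invariant (Γ := Γ) (p := p) hK hK0 hinv
  refine ⟨kumOK_mul hH h1, ?_⟩
  rw [kumChar_mul hH h1, h2, add_zero]

end

/-! ### the transfer formula -/

section hecke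

variable {Γ : Subgroup SL(2, ℤ)} {p : ℕ} [NeZero p] {H : ℍ → ℂ}

/-- The Kummer character of `∏ i, H ∘ g i` for coset representatives `g i` is the transfer of
the Kummer character of `H` (hypothesis on the level of the action on the upper half plane). -/
theorem kumChar_hecke_smul (hH : KumOK Γ p H) {ι : Type*} [Fintype ι] (g : ι → GL (Fin 2) ℝ)
    (hdet : ∀ i, 0 < (g i).det.val) (perm : Γ → ι → ι)
    (hperm : ∀ γ, Function.Bijective (perm γ)) (coc : Γ → ι → Γ)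
    (hrel : ∀ (γ : Γ) (i : ι) (τ : ℍ), g i • ((γ : SL(2, ℤ)) • τ) =
      ((coc γ i : Γ) : SL(2, ℤ)) • (g (perm γ i) • τ)) :
    KumOK Γ p (fun τ => ∏ i, H (g i • τ)) ∧
      ∀ γ : Γ, kumChar Γ p (fun τ => ∏ i, H (g i • τ)) (Additive.ofMul γ) =
        ∑ i, kumChar Γ p H (Additive.ofMul (coc γ i)) := by
  obtain ⟨G, hG, hGp⟩ := hH.exists_root
  have hG0 := kum_root_ne_zero hH.ne_zero hGp
  set K : ℍ → ℂ := fun τ => ∏ i, G (g i • τ) with hK
  have hKmd : MDiff K := kum_mdiff_prod Finset.univ (fun i τ => G (g i • τ))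
    (fun i _ => kum_mdiff_gl (hdet i) hG)
  have hK0 : K ≠ 0 := kum_prod_ne_zero Finset.univ (fun i τ => G (g i • τ))
    (fun i _ => kum_mdiff_gl (hdet i) hG) (fun i _ => kum_comp_gl_ne_zero (g i) hG0)
  have hKpow : (fun τ => K τ ^ p) = fun τ => ∏ i, H (g i • τ) := by
    funext τ
    simp only [hK, ← Finset.prod_pow, hGp]
  have ha : ∀ (γ : Γ) (τ : ℍ), K ((γ : SL(2, ℤ)) • τ) =
      kumExp p (∑ i, kumChar Γ p H (Additive.ofMul (coc γ i))) * K τ := by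
    intro γ τ
    rw [kumExp_sum]
    show ∏ i, G (g i • ((γ : SL(2, ℤ)) • τ)) = _ * ∏ i, G (g i • τ)
    have h1 : ∀ i, G (g i • ((γ : SL(2, ℤ)) • τ)) =
        kumExp p (kumChar Γ p H (Additive.ofMul (coc γ i))) * G (g (perm γ i) • τ) := by
      intro i
      rw [hrel γ i τ, kumChar_spec hH hG hGp]
    rw [Finset.prod_congr rfl (fun i _ => h1 i), Finset.prod_mul_distrib]
    congr 1
    exact Fintype.prod_bijective (perm γ) (hperm γ) _ _ (fun i => rfl)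
  rw [← hKpow]
  exact ⟨kumOK_pow hKmd hK0 _ ha, fun γ => kumChar_pow hKmd hK0 _ ha γ⟩

/-- The transfer formula, with the coset relation stated for matrices in `GL (Fin 2) ℝ`. -/
theorem kumChar_hecke (hH : KumOK Γ p H) {ι : Type*} [Fintype ι] (g : ι → GL (Fin 2) ℝ)
    (hdet : ∀ i, 0 < (g i).det.val) (perm : Γ → ι → ι)
    (hperm : ∀ γ, Function.Bijective (perm γ)) (coc : Γ → ι → Γ)
    (hrel : ∀ (γ : Γ) (i : ι), g i * ((γ : SL(2, ℤ)) : GL (Fin 2) ℝ) =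
      (((coc γ i : Γ) : SL(2, ℤ)) : GL (Fin 2) ℝ) * g (perm γ i)) :
    KumOK Γ p (fun τ => ∏ i, H (g i • τ)) ∧
      ∀ γ : Γ, kumChar Γ p (fun τ => ∏ i, H (g i • τ)) (Additive.ofMul γ) =
        ∑ i, kumChar Γ p H (Additive.ofMul (coc γ i)) := by
  refine kumChar_hecke_smul hH g hdet perm hperm coc fun γ i τ => ?_
  show g i • (((γ : SL(2, ℤ)) : GL (Fin 2) ℝ) • τ) =
    (((coc γ i : Γ) : SL(2, ℤ)) : GL (Fin 2) ℝ) • (g (perm γ i) • τ)
  rw [← mul_smul, ← mul_smul, hrel]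

/-- The transfer formula, with the coset relation stated through `SpecialLinearGroup.mapGL`. -/
theorem kumChar_hecke_mapGL (hH : KumOK Γ p H) {ι : Type*} [Fintype ι] (g : ι → GL (Fin 2) ℝ)
    (hdet : ∀ i, 0 < (g i).det.val) (perm : Γ → ι → ι)
    (hperm : ∀ γ, Function.Bijective (perm γ)) (coc : Γ → ι → Γ)
    (hrel : ∀ (γ : Γ) (i : ι), g i * Matrix.SpecialLinearGroup.mapGL ℝ (γ : SL(2, ℤ)) =
      Matrix.SpecialLinearGroup.mapGL ℝ ((coc γ i : Γ) : SL(2, ℤ)) * g (perm γ i)) :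
    KumOK Γ p (fun τ => ∏ i, H (g i • τ)) ∧
      ∀ γ : Γ, kumChar Γ p (fun τ => ∏ i, H (g i • τ)) (Additive.ofMul γ) =
        ∑ i, kumChar Γ p H (Additive.ofMul (coc γ i)) := by
  refine kumChar_hecke_smul hH g hdet perm hperm coc fun γ i τ => ?_
  show g i • (Matrix.SpecialLinearGroup.mapGL ℝ (γ : SL(2, ℤ)) • τ) =
    Matrix.SpecialLinearGroup.mapGL ℝ ((coc γ i : Γ) : SL(2, ℤ)) • (g (perm γ i) • τ)
  rw [← mul_smul, ← mul_smul, hrel]

end hecke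

end Fermat.Agent.S29
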