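/-
Stage 3, package KUM (third file): change of modulus for Kummer characters.
If the orders of `H` are divisible by `m * n`, the Kummer character modulo `n` is the reduction
of the Kummer character modulo `m * n`.
-/
import Fermat.Agent.S29.Kum

set_option autoImplicit false

open UpperHalfPlane
open scoped MatrixGroups Manifold Real

namespace Fermat.Agent.S29

theorem kumZeta_mul_pow (m n : ℕ) [NeZero m] [NeZero n] : kumZeta (m * n) ^ m = kumZeta n := by
  rw [kumZeta, kumZeta, ← Complex.exp_nat_mul]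
  congr 1
  have hm : (m : ℂ) ≠ 0 := Nat.cast_ne_zero.mpr (NeZero.ne m)
  have hn : (n : ℂ) ≠ 0 := Nat.cast_ne_zero.mpr (NeZero.ne n)
  push_cast
  field_simp

theorem kumExp_castHom (m n : ℕ) [NeZero m] [NeZero n] (a : ZMod (m * n)) :
    kumExp n (ZMod.castHom (dvd_mul_left n m) (ZMod n) a) = kumExp (m * n) a ^ m := by
  have h1 : ZMod.castHom (dvd_mul_left n m) (ZMod n) a = ((a.val : ℕ) : ZMod n) := by
    rw [ZMod.castHom_apply, ZMod.cast_eq_val]
  rw [h1, kumExp_natCast, kumExp, ← kumZeta_mul_pow m n, ← pow_mul, ← pow_mul,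
    Nat.mul_comm m a.val]

theorem kumOK_of_mul {Γ : Subgroup SL(2, ℤ)} {m n : ℕ} {H : ℍ → ℂ} (hH : KumOK Γ (m * n) H) :
    KumOK Γ n H where
  mdiff := hH.mdiff
  ne_zero := hH.ne_zero
  inv := hH.inv
  ord := fun τ => by
    obtain ⟨k, hk⟩ := hH.ord τ
    exact ⟨m * k, by rw [hk]; congr 1; ring⟩

/-- Change of modulus: the character modulo `n` is the reduction of the character modulo
`m * n`. -/
theorem kumChar_level {Γ : Subgroup SL(2, ℤ)} {m n : ℕ} [NeZero m] [NeZero n] {H : ℍ → ℂ}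
    (hH : KumOK Γ (m * n) H) (γ : Γ) :
    kumChar Γ n H (Additive.ofMul γ) =
      ZMod.castHom (dvd_mul_left n m) (ZMod n) (kumChar Γ (m * n) H (Additive.ofMul γ)) := by
  obtain ⟨G, hG, hGp⟩ := hH.exists_root
  refine kumChar_eq_of_root (kumOK_of_mul hH) (G := fun τ => G τ ^ m) (kum_mdiff_pow hG m)
    (fun τ => by rw [← pow_mul, hGp]) γ _ (fun τ => ?_)
  show G ((γ : SL(2, ℤ)) • τ) ^ m = _
  rw [kumChar_spec hH hG hGp γ τ, mul_pow, kumExp_castHom]

/-- Change of modulus as an identity of homomorphisms. -/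
theorem kumChar_level_comp {Γ : Subgroup SL(2, ℤ)} {m n : ℕ} [NeZero m] [NeZero n] {H : ℍ → ℂ}
    (hH : KumOK Γ (m * n) H) :
    kumChar Γ n H =
      (ZMod.castHom (dvd_mul_left n m) (ZMod n)).toAddMonoidHom.comp (kumChar Γ (m * n) H) := by
  refine DFunLike.ext _ _ fun x => ?_
  obtain ⟨γ, rfl⟩ : ∃ γ : Γ, Additive.ofMul γ = x := ⟨Additive.toMul x, rfl⟩
  exact kumChar_level hH γ

/-- A `p`-th power root version: if `H` is `KumOK` modulo `m * n` then `H * K ^ n` (with `K`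
invariant) has, modulo `n`, the reduction of the character of `H` modulo `m * n`. -/
theorem kumChar_level_mul_pow {Γ : Subgroup SL(2, ℤ)} {m n : ℕ} [NeZero m] [NeZero n]
    {H K : ℍ → ℂ} (hH : KumOK Γ (m * n) H) (hK : MDiff K) (hK0 : K ≠ 0)
    (hinv : ∀ γ ∈ Γ, ∀ τ : ℍ, K (γ • τ) = K τ) :
    KumOK Γ n (fun τ => H τ * K τ ^ n) ∧
      kumChar Γ n (fun τ => H τ * K τ ^ n) =
        (ZMod.castHom (dvd_mul_left n m) (ZMod n)).toAddMonoidHom.comp
          (kumChar Γ (m * n) H) := by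
  obtain ⟨h1, h2⟩ := kumChar_mul_pow_invariant (kumOK_of_mul hH) hK hK0 hinv
  exact ⟨h1, h2.trans (kumChar_level_comp hH)⟩

end Fermat.Agent.S29
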