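import Fermat.Agent.S29.PhiKum
import Fermat.Agent.S29.KumLevel

/-!
# S29/S30, package [PHI], part 6: compatibility of `phiHom` with the level

For `c ∈ Pic⁰(F)[m n]` the class `m • c` is `n`-torsion and
`phiHom M n (m • c) = (phiHom M (m n) c mod n)`.
-/

set_option autoImplicit false

open AlgebraicCurve UpperHalfPlane
open scoped MatrixGroups Manifold

namespace Fermat.Agent.S29

open Fermat.Agent.S24

section Level

variable {F : Type*} [Field F] [Algebra ℂ F] {Γ : Subgroup SL(2, ℤ)} (M : PhiModel F Γ)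
variable (m n : ℕ) [NeZero m] [NeZero n]

omit [NeZero m] [NeZero n] in
theorem phi_smul_mem_torsion (c : ↥(Pic0.torsion ℂ F (m * n))) :
    (m • c.1 : Pic0 ℂ F) ∈ Pic0.torsion ℂ F n := by
  have h := Pic0.mem_torsion.mp c.2
  rw [Pic0.mem_torsion]
  rw [← natCast_zsmul, smul_smul]
  have : (n : ℤ) * (m : ℤ) = ((m * n : ℕ) : ℤ) := by push_cast; ring
  rw [this, h]

/-- **Level compatibility of `phiHom`.** -/
theorem phi_level (c : ↥(Pic0.torsion ℂ F (m * n))) :
    phiHom M n ⟨m • c.1, phi_smul_mem_torsion m n c⟩ =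
      (ZMod.castHom (dvd_mul_left n m) (ZMod n)).toAddMonoidHom.comp (phiHom M (m * n) c) := by
  haveI := M.isDomain
  obtain ⟨D, h, a, b, hD, hh, hdiv, hb, hab, hOK, hphi⟩ := phi_exists_kum M (m * n) c
  have hD' : Pic0.mk (m • D) = m • c.1 := by
    rw [← hD]
    rfl
  have hdiv' : ∀ v : Place ℂ F, (n : ℤ) * ((m • D : Divisor.degZero (K := ℂ) (F := F)) :
      Divisor ℂ F) v = v.ord h := by
    intro v
    rw [← hdiv v, AddSubgroup.coe_nsmul, Finsupp.smul_apply, nsmul_eq_mul]
    push_cast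
    ring
  have hab' : h * M.ι (b ^ m) ^ n = M.ι a := by
    rw [map_pow, ← pow_mul, hab]
  rw [phiHom_eq_kumChar' M n ⟨m • c.1, phi_smul_mem_torsion m n c⟩ (m • D) hD' h hh hdiv' a
    (b ^ m) (pow_ne_zero m hb) hab', hphi]
  exact kumChar_level_comp hOK

end Level

end Fermat.Agent.S29
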