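import Fermat.Agent.S29.PhiCMain
import Fermat.Agent.S29.PhiLevel
import Fermat.Agent.S29.BcSurjEquiv

/-!
# S29 / S30 / S31, package CMP-GEN: the comparison at a general modulus

For every level `N` and every modulus `m ≠ 0`:

* `cmgPhi N m : J₀(N)[m] →+ Hom(Γ₀(N), ℤ/m)`: the base change `ℚ̄ → ℂ` of divisor classes
  followed by the Kummer homomorphism of the analytic model of `X₀(N)` over `ℂ`;
* `cmg_injective`: it is injective;
* `cmg_finite`: `J₀(N)[m]` is finite;
* `cmg_level`: compatibility between the moduli `d * m` and `m`.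
-/

set_option autoImplicit false

open AlgebraicCurve ModularCurve

namespace Fermat.Agent.S29

local notation "Qb" => AlgebraicClosure ℚ

/-- the embedding `ℚ̄ → ℂ` used for the comparison, as an algebra structure -/
@[reducible] noncomputable def cmgAlg : Algebra Qb ℂ := Fermat.Agent.S24.ιc.toAlgebra

attribute [local instance] cmgAlg

section

variable (N : ℕ) [NeZero N] (m : ℕ) [NeZero m]

/-- **The comparison homomorphism at the modulus `m`.** -/
noncomputable def cmgPhi :
    ↥(Pic0.torsion Qb (modularFunctionFieldBar N) m) →+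
      (Additive ↥(CongruenceSubgroup.Gamma0 N) →+ ZMod m) :=
  (phiHom (phiModelC N) m).comp (bcsTorsHom Qb ℂ N m)

theorem cmgPhi_apply (c : ↥(Pic0.torsion Qb (modularFunctionFieldBar N) m)) :
    cmgPhi N m c = phiHom (phiModelC N) m (bcsTorsHom Qb ℂ N m c) := rfl

/-- The comparison homomorphism is injective. -/
theorem cmg_injective : Function.Injective (cmgPhi N m) :=
  (phiC_main N m).comp (bcsTorsHom_injective Qb ℂ N m)

/-- **`J₀(N)[m]` is finite.** -/
theorem cmg_finite : Finite ↥(Pic0.torsion Qb (modularFunctionFieldBar N) m) :=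
  bcs_torsion_finite Qb ℂ N m (phiC_torsion_finite N m)

/-- The base change `ℚ̄ → ℂ` is bijective on `m`-torsion. -/
theorem cmg_bcs_surjective : Function.Surjective (bcsTorsHom Qb ℂ N m) :=
  bcsTorsHom_surjective Qb ℂ N m (phiC_torsion_finite N m)

end

section Level

variable (N : ℕ) [NeZero N] (d m : ℕ) [NeZero d] [NeZero m]

/-- **Level compatibility**: for `c ∈ J₀(N)[d * m]` and `c' = d • c ∈ J₀(N)[m]`,
`Φ_m(c') = Φ_(d m)(c) mod m`. -/
theorem cmg_level [NeZero (d * m)] (c : ↥(Pic0.torsion Qb (modularFunctionFieldBar N) (d * m)))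
    (c' : ↥(Pic0.torsion Qb (modularFunctionFieldBar N) m))
    (h : (c' : JZero N) = d • (c : JZero N)) :
    cmgPhi N m c' =
      (ZMod.castHom (dvd_mul_left m d) (ZMod m)).toAddMonoidHom.comp (cmgPhi N (d * m) c) := by
  rw [cmgPhi_apply, cmgPhi_apply, ← phi_level (phiModelC N) d m (bcsTorsHom Qb ℂ N (d * m) c)]
  congr 1
  apply Subtype.ext
  rw [bcsTorsHom_coe]
  show bcsPic Qb ℂ N (c' : JZero N) = d • bcsPic Qb ℂ N (c : JZero N)
  rw [h, map_nsmul]

/-- Level compatibility, for a modulus `k = d * m` (pointwise form). -/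
theorem cmg_level_of_eq (k : ℕ) [NeZero k] (hk : k = d * m) (hmk : m ∣ k)
    (c : ↥(Pic0.torsion Qb (modularFunctionFieldBar N) k))
    (c' : ↥(Pic0.torsion Qb (modularFunctionFieldBar N) m))
    (h : (c' : JZero N) = d • (c : JZero N)) (x : Additive ↥(CongruenceSubgroup.Gamma0 N)) :
    cmgPhi N m c' x = ZMod.castHom hmk (ZMod m) (cmgPhi N k c x) := by
  subst hk
  rw [cmg_level N d m c c' h]
  rfl

/-- Level compatibility, for the moduli `m * d` and `m`. -/
theorem cmg_level_mul [NeZero (m * d)]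
    (c : ↥(Pic0.torsion Qb (modularFunctionFieldBar N) (m * d)))
    (c' : ↥(Pic0.torsion Qb (modularFunctionFieldBar N) m))
    (h : (c' : JZero N) = d • (c : JZero N)) :
    cmgPhi N m c' =
      (ZMod.castHom (dvd_mul_right m d) (ZMod m)).toAddMonoidHom.comp (cmgPhi N (m * d) c) :=
  AddMonoidHom.ext fun x =>
    cmg_level_of_eq N d m (m * d) (mul_comm m d) (dvd_mul_right m d) c c' h x

end Level

section Pow

variable (N : ℕ) [NeZero N] (p : ℕ) [NeZero p]

/-- **Level compatibility along the tower `p ^ n`**: for `c ∈ J₀(N)[p ^ (n + 1)]` and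
`c' = p • c ∈ J₀(N)[p ^ n]`, `Φ_(p^n)(c') = Φ_(p^(n+1))(c) mod p ^ n`. -/
theorem cmg_level_pow (n : ℕ)
    (c : ↥(Pic0.torsion Qb (modularFunctionFieldBar N) (p ^ (n + 1))))
    (c' : ↥(Pic0.torsion Qb (modularFunctionFieldBar N) (p ^ n)))
    (h : (c' : JZero N) = p • (c : JZero N)) (x : Additive ↥(CongruenceSubgroup.Gamma0 N)) :
    cmgPhi N (p ^ n) c' x =
      ZMod.castHom (pow_dvd_pow p n.le_succ) (ZMod (p ^ n)) (cmgPhi N (p ^ (n + 1)) c x) :=
  cmg_level_of_eq N p (p ^ n) (p ^ (n + 1)) (pow_succ' p n) (pow_dvd_pow p n.le_succ) c c' h x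

end Pow

end Fermat.Agent.S29
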