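import Mathlib
import Fermat.Agent.S28.SturmDegree
import Fermat.Agent.S28.BoundedDegree
import Fermat.Agent.S24.Degree

/-!
# S29, package [MFRAT]: ratios of modular forms on `Γ₀(N)` and the function field over `ℂ`

`mfrForms N k` is the set of `q`-expansions (in `ℂ((q))`) of the modular forms of weight `k` on
`Γ₀(N)`; `mfrField N` is the field of ratios of two such expansions of equal weight.

* `mfr_FC_le`: `laurentBaseChange ℂ (modularFunctionFieldFull N) ≤ mfrField N`;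
* `mfr_exists_poly`: every ratio satisfies a nonzero polynomial of degree `≤ [SL₂(ℤ) : Γ₀(N)]`
  over `ℂ(j)` (the Sturm count of `S28/SturmDegree.lean`, with complex coefficients);
* `mfr_relrank_le`: hence `[mfrField N : ℂ(j)] ≤ [SL₂(ℤ) : Γ₀(N)]`.
-/

set_option autoImplicit false

open ModularCurve UpperHalfPlane ModularForm
open scoped MatrixGroups Manifold

noncomputable section

namespace Fermat.Agent.S29

/-- The `q`-expansions (in `ℂ((q))`) of the modular forms of weight `k` on `Γ₀(N)`. -/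
def mfrForms (N : ℕ) (k : ℤ) : Set (LaurentSeries ℂ) :=
  {g | ∃ G : ModularForm (CongruenceSubgroup.Gamma0 N) k,
      g = HahnSeries.ofPowerSeries ℤ ℂ (UpperHalfPlane.qExpansion 1 G)}

theorem mfr_forms_congr {N : ℕ} {k k' : ℤ} (h : k = k') {g : LaurentSeries ℂ}
    (hg : g ∈ mfrForms N k) : g ∈ mfrForms N k' := h ▸ hg

theorem mfr_forms_zero (N : ℕ) (k : ℤ) : (0 : LaurentSeries ℂ) ∈ mfrForms N k := by
  refine ⟨0, ?_⟩
  rw [FunLike.coe_zero, UpperHalfPlane.qExpansion_zero]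
  simp

theorem mfr_forms_add {N : ℕ} [NeZero N] {k : ℤ} {g g' : LaurentSeries ℂ}
    (hg : g ∈ mfrForms N k) (hg' : g' ∈ mfrForms N k) : g + g' ∈ mfrForms N k := by
  obtain ⟨G, rfl⟩ := hg
  obtain ⟨G', rfl⟩ := hg'
  refine ⟨G + G', ?_⟩
  rw [FunLike.coe_add, ModularForm.qExpansion_add one_pos
    (Fermat.Agent.S28.forms_one_mem_strictPeriods N) G G', map_add]

theorem mfr_forms_const_mul {N : ℕ} [NeZero N] {k : ℤ} (c : ℂ) {g : LaurentSeries ℂ}
    (hg : g ∈ mfrForms N k) : HahnSeries.C c * g ∈ mfrForms N k := by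
  obtain ⟨G, rfl⟩ := hg
  refine ⟨c • G, ?_⟩
  rw [FunLike.coe_smul, ModularForm.qExpansion_smul one_pos
    (Fermat.Agent.S28.forms_one_mem_strictPeriods N) c G, PowerSeries.smul_eq_C_mul, map_mul,
    HahnSeries.ofPowerSeries_C]

theorem mfr_forms_mul {N : ℕ} [NeZero N] {k k' : ℤ} {g g' : LaurentSeries ℂ}
    (hg : g ∈ mfrForms N k) (hg' : g' ∈ mfrForms N k') : g * g' ∈ mfrForms N (k + k') := by
  obtain ⟨G, rfl⟩ := hg
  obtain ⟨G', rfl⟩ := hg'
  refine ⟨G.mul G', ?_⟩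
  rw [ModularForm.qExpansion_mul one_pos (Fermat.Agent.S28.forms_one_mem_strictPeriods N) G G',
    map_mul]

theorem mfr_forms_one (N : ℕ) [NeZero N] : (1 : LaurentSeries ℂ) ∈ mfrForms N 0 := by
  refine ⟨1, ?_⟩
  rw [ModularForm.qExpansion_one, map_one]

theorem mfr_forms_pow {N : ℕ} [NeZero N] {k : ℤ} {g : LaurentSeries ℂ} (hg : g ∈ mfrForms N k)
    (n : ℕ) : g ^ n ∈ mfrForms N (n * k) := by
  induction n with
  | zero => simpa using mfr_forms_one N
  | succ n ih =>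
    rw [pow_succ]
    exact mfr_forms_congr (by push_cast; ring) (mfr_forms_mul ih hg)

theorem mfr_forms_sum {N : ℕ} [NeZero N] {k : ℤ} {ι : Type*} (s : Finset ι)
    (g : ι → LaurentSeries ℂ) (hg : ∀ i ∈ s, g i ∈ mfrForms N k) :
    ∑ i ∈ s, g i ∈ mfrForms N k := by
  classical
  induction s using Finset.induction_on with
  | empty => simpa using mfr_forms_zero N k
  | insert a s ha ih =>
    rw [Finset.sum_insert ha]
    exact mfr_forms_add (hg _ (Finset.mem_insert_self _ _))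
      (ih fun i hi => hg i (Finset.mem_insert_of_mem hi))

/-- Sturm bound (Prelude `ModularForm.sturm_bound_Gamma0`) in terms of `mfrForms`. -/
theorem mfr_forms_sturm {N : ℕ} [NeZero N] {k : ℤ} {g : LaurentSeries ℂ}
    (hg : g ∈ mfrForms N k)
    (h : ∀ n : ℕ, n ≤ (k * (CongruenceSubgroup.Gamma0 N).index).toNat / 12 →
      g.coeff (n : ℤ) = 0) : g = 0 := by
  obtain ⟨G, rfl⟩ := hg
  have hG0 : G = 0 := by
    refine ModularForm.sturm_bound_Gamma0 N G fun n hn => ?_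
    have hn' := h n hn
    rwa [HahnSeries.ofPowerSeries_apply_coeff] at hn'
  rw [hG0, FunLike.coe_zero, UpperHalfPlane.qExpansion_zero, map_zero]

/-- The rational `q`-expansions of `S28` are complex `q`-expansions. -/
theorem mfr_of_qForms {N : ℕ} {k : ℤ} {g : LaurentSeries ℚ}
    (hg : g ∈ Fermat.Agent.S28.qForms N k) : coeffEmb ℂ g ∈ mfrForms N k := by
  obtain ⟨G, g0, rfl, hG⟩ := hg
  refine ⟨G, ?_⟩
  rw [coeffEmb, coeffMap_ofPowerSeries, hG]

/-! ### constants, `j`, `Δ`, `E₄` in `ℂ((q))` -/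

theorem mfr_algebraMap_eq_C (c : ℂ) : algebraMap ℂ (LaurentSeries ℂ) c = HahnSeries.C c := by
  rw [algebraMap_laurentSeries_eq_single]
  rfl

theorem mfr_coeff_C_mul (c : ℂ) (x : LaurentSeries ℂ) (n : ℤ) :
    (HahnSeries.C c * x).coeff n = c * x.coeff n := by
  rw [HahnSeries.C_mul_eq_smul, HahnSeries.coeff_smul, smul_eq_mul]

theorem mfr_coeffEmb_injective : Function.Injective (coeffEmb ℂ) :=
  (coeffEmb ℂ).injective

/-- `j(q^d)` in `ℂ((q))`. -/
def mfrJd (d : ℕ) : LaurentSeries ℂ := coeffEmb ℂ (Fermat.Agent.S28.jd ℚ d)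

/-- `Δ(q^d)` in `ℂ((q))`. -/
def mfrDd (d : ℕ) : LaurentSeries ℂ := coeffEmb ℂ (Fermat.Agent.S28.Dd ℚ d)

/-- `E₄(q^d)` in `ℂ((q))`. -/
def mfrEd (d : ℕ) : LaurentSeries ℂ :=
  coeffEmb ℂ (Fermat.Agent.S28.V ℚ d (Fermat.Agent.S28.E4q ℚ))

theorem mfr_Jd_mul_Dd (d : ℕ) : mfrJd d * mfrDd d = mfrEd d ^ 3 := by
  rw [mfrJd, mfrDd, mfrEd, ← map_mul, Fermat.Agent.S28.sd_jd_mul_Dd, map_pow]

theorem mfr_Dd_ne_zero {d : ℕ} (hd : d ≠ 0) : mfrDd d ≠ 0 := by
  intro h
  apply Fermat.Agent.S28.sd_Dd_ne_zero hd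
  apply mfr_coeffEmb_injective
  rw [map_zero]
  exact h

theorem mfr_Ed_mem {N d : ℕ} [NeZero N] (hd : d ∣ N) : mfrEd d ∈ mfrForms N 4 :=
  mfr_of_qForms (Fermat.Agent.S28.E4_mem_qForms hd)

theorem mfr_Dd_mem {N d : ℕ} [NeZero N] (hd : d ∣ N) : mfrDd d ∈ mfrForms N 12 :=
  mfr_of_qForms (Fermat.Agent.S28.Delta_mem_qForms hd)

theorem mfr_Jd_one : mfrJd 1 = jqModC ℂ := by
  rw [mfrJd, Fermat.Agent.S28.jd_one, coeffEmb, coeffMap_jqModC]

/-- `ℂ(j)` as a subfield of `ℂ((q))`. -/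
def mfrCJ : Subfield (LaurentSeries ℂ) :=
  Subfield.closure (Set.range (algebraMap ℂ (LaurentSeries ℂ)) ∪ {jqModC ℂ})

theorem mfr_aeval_mem_CJ (P : Polynomial ℂ) : Polynomial.aeval (jqModC ℂ) P ∈ mfrCJ := by
  rw [Polynomial.aeval_eq_sum_range]
  refine Subfield.sum_mem _ fun i _ => ?_
  rw [Algebra.smul_def]
  have h1 : algebraMap ℂ (LaurentSeries ℂ) (P.coeff i) ∈ mfrCJ :=
    Subfield.subset_closure (Or.inl ⟨_, rfl⟩)
  have h2 : jqModC ℂ ∈ mfrCJ := Subfield.subset_closure (Or.inr rfl)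
  exact mul_mem h1 (pow_mem h2 i)

theorem mfr_aeval_ne_zero (P : Polynomial ℂ) (hP : P ≠ 0) :
    Polynomial.aeval (jqModC ℂ) P ≠ 0 := fun h =>
  Fermat.Agent.S24.dg_transcendental_jqModC ℂ ⟨P, hP, h⟩

/-! ### The field of ratios -/

/-- `x = g / h` with `g, h` q-expansions of forms on `Γ₀(N)` of the same weight. -/
def mfrRatio (N : ℕ) : Set (LaurentSeries ℂ) :=
  {x | ∃ (w : ℕ) (g h : LaurentSeries ℂ), g ∈ mfrForms N (w : ℤ) ∧ h ∈ mfrForms N (w : ℤ) ∧
    h ≠ 0 ∧ x * h = g}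

theorem mfr_ratio_zero (N : ℕ) [NeZero N] : (0 : LaurentSeries ℂ) ∈ mfrRatio N :=
  ⟨0, 0, 1, mfr_forms_zero N _, by simpa using mfr_forms_one N, one_ne_zero, by simp⟩

theorem mfr_ratio_one (N : ℕ) [NeZero N] : (1 : LaurentSeries ℂ) ∈ mfrRatio N :=
  ⟨0, 1, 1, by simpa using mfr_forms_one N, by simpa using mfr_forms_one N, one_ne_zero,
    by simp⟩

theorem mfr_ratio_algebraMap (N : ℕ) [NeZero N] (c : ℂ) :
    algebraMap ℂ (LaurentSeries ℂ) c ∈ mfrRatio N := by
  refine ⟨0, HahnSeries.C c * 1, 1, ?_, by simpa using mfr_forms_one N, one_ne_zero, ?_⟩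
  · simpa using mfr_forms_const_mul c (mfr_forms_one N)
  · rw [mfr_algebraMap_eq_C]

theorem mfr_ratio_add {N : ℕ} [NeZero N] {x y : LaurentSeries ℂ} (hx : x ∈ mfrRatio N)
    (hy : y ∈ mfrRatio N) : x + y ∈ mfrRatio N := by
  obtain ⟨w, g, h, hg, hh, hh0, hxh⟩ := hx
  obtain ⟨w', g', h', hg', hh', hh0', hyh⟩ := hy
  refine ⟨w + w', g * h' + g' * h, h * h', ?_, ?_, mul_ne_zero hh0 hh0', ?_⟩
  · exact mfr_forms_add (mfr_forms_congr (by push_cast; ring) (mfr_forms_mul hg hh'))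
      (mfr_forms_congr (by push_cast; ring) (mfr_forms_mul hg' hh))
  · exact mfr_forms_congr (by push_cast; ring) (mfr_forms_mul hh hh')
  · rw [← hxh, ← hyh]; ring

theorem mfr_ratio_mul {N : ℕ} [NeZero N] {x y : LaurentSeries ℂ} (hx : x ∈ mfrRatio N)
    (hy : y ∈ mfrRatio N) : x * y ∈ mfrRatio N := by
  obtain ⟨w, g, h, hg, hh, hh0, hxh⟩ := hx
  obtain ⟨w', g', h', hg', hh', hh0', hyh⟩ := hy
  refine ⟨w + w', g * g', h * h', ?_, ?_, mul_ne_zero hh0 hh0', ?_⟩
  · exact mfr_forms_congr (by push_cast; ring) (mfr_forms_mul hg hg')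
  · exact mfr_forms_congr (by push_cast; ring) (mfr_forms_mul hh hh')
  · rw [← hxh, ← hyh]; ring

theorem mfr_ratio_inv {N : ℕ} [NeZero N] {x : LaurentSeries ℂ} (hx : x ∈ mfrRatio N) :
    x⁻¹ ∈ mfrRatio N := by
  obtain ⟨w, g, h, hg, hh, hh0, hxh⟩ := hx
  by_cases hx0 : x = 0
  · rw [hx0, inv_zero]
    exact mfr_ratio_zero N
  · refine ⟨w, h, g, hh, hg, ?_, ?_⟩
    · rw [← hxh]
      exact mul_ne_zero hx0 hh0
    · rw [← hxh, ← mul_assoc, inv_mul_cancel₀ hx0, one_mul]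

/-- The field of ratios of modular forms of equal weight on `Γ₀(N)`, inside `ℂ((q))`. -/
def mfrField (N : ℕ) [NeZero N] : IntermediateField ℂ (LaurentSeries ℂ) where
  carrier := mfrRatio N
  mul_mem' := mfr_ratio_mul
  one_mem' := mfr_ratio_one N
  add_mem' := mfr_ratio_add
  zero_mem' := mfr_ratio_zero N
  algebraMap_mem' := mfr_ratio_algebraMap N
  inv_mem' := fun _ hx => mfr_ratio_inv hx

theorem mem_mfrField {N : ℕ} [NeZero N] {x : LaurentSeries ℂ} :
    x ∈ mfrField N ↔ ∃ (w : ℕ) (g h : LaurentSeries ℂ), g ∈ mfrForms N (w : ℤ) ∧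
      h ∈ mfrForms N (w : ℤ) ∧ h ≠ 0 ∧ x * h = g := Iff.rfl

/-- `j(q^d)`, `d ∣ N`, is a ratio of forms on `Γ₀(N)`. -/
theorem mfr_Jd_mem {N d : ℕ} [NeZero N] (hd : d ∣ N) : mfrJd d ∈ mfrField N := by
  have hd0 : d ≠ 0 := fun h0 => NeZero.ne N (by rw [h0] at hd; exact zero_dvd_iff.mp hd)
  refine ⟨12, mfrEd d ^ 3, mfrDd d, ?_, mfr_Dd_mem hd, mfr_Dd_ne_zero hd0, mfr_Jd_mul_Dd d⟩
  exact mfr_forms_congr (by norm_num) (mfr_forms_pow (mfr_Ed_mem hd) 3)

/-- **MFRAT, easy inclusion.**  Every element of the function field `F_ℂ` of `X₀(N)` is a ratio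
of two modular forms of equal weight on `Γ₀(N)`. -/
theorem mfr_FC_le (N : ℕ) [NeZero N] :
    laurentBaseChange ℂ (modularFunctionFieldFull N) ≤ mfrField N := by
  rw [laurentBaseChange, IntermediateField.adjoin_le_iff]
  rintro y ⟨x, hx, rfl⟩
  have key : (modularFunctionFieldFull N).toSubfield ≤
      Subfield.comap (coeffEmb ℂ) (mfrField N).toSubfield := by
    rw [modularFunctionFieldFull, IntermediateField.adjoin_toSubfield, Subfield.closure_le]
    rintro z (⟨c, rfl⟩ | ⟨d, hne, hdvd, rfl⟩)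
    · show coeffEmb ℂ (algebraMap ℚ (LaurentSeries ℚ) c) ∈ mfrField N
      have : coeffEmb ℂ (algebraMap ℚ (LaurentSeries ℚ) c) =
          algebraMap ℂ (LaurentSeries ℂ) (c : ℂ) := by
        rw [algebraMap_laurentSeries_eq_single, algebraMap_laurentSeries_eq_single, coeffEmb,
          coeffMap_single]
        simp
      rw [this]
      exact (mfrField N).algebraMap_mem _
    · show coeffEmb ℂ (qExpand ℚ d jq) ∈ mfrField N
      have := hne
      rw [← Fermat.Agent.S28.jd_rat_eq_qExpand]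
      exact mfr_Jd_mem hdvd
  exact key hx

theorem mfr_CJ_le_FC (N : ℕ) [NeZero N] :
    mfrCJ ≤ (laurentBaseChange ℂ (modularFunctionFieldFull N)).toSubfield := by
  rw [mfrCJ, Subfield.closure_le]
  rintro z (⟨c, rfl⟩ | rfl)
  · exact (laurentBaseChange ℂ (modularFunctionFieldFull N)).algebraMap_mem c
  · show jqModC ℂ ∈ laurentBaseChange ℂ (modularFunctionFieldFull N)
    have h := jqd_mem_full N (one_dvd N)
    rw [qExpand_one_apply] at h
    have h2 := coeffEmb_mem_laurentBaseChange ℂ h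
    rwa [← jqModC_rat, coeffEmb, coeffMap_jqModC] at h2

theorem mfr_CJ_le (N : ℕ) [NeZero N] : mfrCJ ≤ (mfrField N).toSubfield :=
  (mfr_CJ_le_FC N).trans (fun _ hx => mfr_FC_le N hx)

/-! ### The Sturm count -/

/-- **The Sturm count.**  A ratio `x = g / h` of two forms of weight `w` on `Γ₀(N)` is a root of
a nonzero polynomial of degree at most `[SL₂(ℤ) : Γ₀(N)]` with coefficients in `ℂ(j)`. -/
theorem mfr_exists_poly {N : ℕ} [NeZero N] (w : ℕ) (g h x : LaurentSeries ℂ)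
    (hg : g ∈ mfrForms N (w : ℤ)) (hh : h ∈ mfrForms N (w : ℤ)) (hh0 : h ≠ 0) (hx : x * h = g) :
    ∃ f : Polynomial (LaurentSeries ℂ), f ≠ 0 ∧ (∀ i, f.coeff i ∈ mfrCJ) ∧
      f.natDegree ≤ (CongruenceSubgroup.Gamma0 N).index ∧ f.eval x = 0 := by
  classical
  set μ := (CongruenceSubgroup.Gamma0 N).index with hμdef
  have hμ : 0 < μ := Nat.pos_of_ne_zero Subgroup.FiniteIndex.index_ne_zero
  set D : ℕ := w * μ ^ 2 with hD
  set E : LaurentSeries ℂ := mfrEd 1 with hE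
  set Δ : LaurentSeries ℂ := mfrDd 1 with hΔ
  set J : LaurentSeries ℂ := jqModC ℂ with hJ
  have hJΔ : J * Δ = E ^ 3 := by
    rw [hJ, ← mfr_Jd_one]
    exact mfr_Jd_mul_Dd 1
  have hΔ0 : Δ ≠ 0 := mfr_Dd_ne_zero one_ne_zero
  have hEq : E ∈ mfrForms N 4 := mfr_Ed_mem (one_dvd N)
  have hΔq : Δ ∈ mfrForms N 12 := mfr_Dd_mem (one_dvd N)
  -- the spanning family of forms of weight `12 D + w μ`
  let T : Fin (μ + 1) × Fin (D + 1) → LaurentSeries ℂ := fun p =>
    E ^ (3 * (p.2 : ℕ)) * Δ ^ (D - (p.2 : ℕ)) * (g ^ (p.1 : ℕ) * h ^ (μ - (p.1 : ℕ)))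
  set K : ℤ := ((12 * D + w * μ : ℕ) : ℤ) with hK
  have hT : ∀ p, T p ∈ mfrForms N K := by
    intro p
    have hs : (p.2 : ℕ) ≤ D := Nat.lt_succ_iff.mp p.2.2
    have hi : (p.1 : ℕ) ≤ μ := Nat.lt_succ_iff.mp p.1.2
    have h1 := mfr_forms_pow hEq (3 * (p.2 : ℕ))
    have h2 := mfr_forms_pow hΔq (D - (p.2 : ℕ))
    have h3 := mfr_forms_pow hg (p.1 : ℕ)
    have h4 := mfr_forms_pow hh (μ - (p.1 : ℕ))
    refine mfr_forms_congr ?_ (mfr_forms_mul (mfr_forms_mul h1 h2) (mfr_forms_mul h3 h4))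
    rw [hK]
    push_cast [Nat.cast_sub hs, Nat.cast_sub hi]
    ring
  -- the Sturm bound and the dimension count
  set B : ℕ := (K * (μ : ℤ)).toNat / 12 with hB
  have hBlt : B + 1 < (μ + 1) * (D + 1) := by
    have h1 : (K * (μ : ℤ)).toNat = (12 * D + w * μ) * μ := by
      rw [hK, ← Nat.cast_mul, Int.toNat_natCast]
    have h2 : B ≤ D * μ + D := by
      rw [hB, h1]
      apply Nat.div_le_of_le_mul
      have h3 : (12 * D + w * μ) * μ = 12 * (D * μ) + D := by rw [hD]; ring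
      rw [h3]
      omega
    have h4 : (μ + 1) * (D + 1) = D * μ + D + μ + 1 := by ring
    omega
  let A : Matrix (Fin (B + 1)) (Fin (μ + 1) × Fin (D + 1)) ℂ :=
    Matrix.of fun n p => (T p).coeff ((n : ℕ) : ℤ)
  have hker : LinearMap.ker A.mulVecLin ≠ ⊥ := by
    apply LinearMap.ker_ne_bot_of_finrank_lt
    rw [Module.finrank_fintype_fun_eq_card, Module.finrank_fintype_fun_eq_card, Fintype.card_prod,
      Fintype.card_fin, Fintype.card_fin, Fintype.card_fin]
    exact hBlt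
  obtain ⟨c, hc, hc0⟩ := (Submodule.ne_bot_iff _).mp hker
  rw [LinearMap.mem_ker, Matrix.mulVecLin_apply] at hc
  set H : LaurentSeries ℂ := ∑ p, HahnSeries.C (c p) * T p with hH
  have hHq : H ∈ mfrForms N K := mfr_forms_sum _ _ fun p _ => mfr_forms_const_mul (c p) (hT p)
  have hH0 : H = 0 := by
    apply mfr_forms_sturm hHq
    intro n hn
    have hn' : n < B + 1 := Nat.lt_succ_of_le hn
    have hcn := congrFun hc ⟨n, hn'⟩
    rw [hH, ← HahnSeries.coeff.addMonoidHom_apply, map_sum]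
    simp only [HahnSeries.coeff.addMonoidHom_apply, mfr_coeff_C_mul]
    simpa [Matrix.mulVec, dotProduct, A, mul_comm] using hcn
  -- the polynomial
  let P : Fin (μ + 1) → Polynomial ℂ := fun i =>
    ∑ s : Fin (D + 1), Polynomial.monomial (s : ℕ) (c (i, s))
  let f : Polynomial (LaurentSeries ℂ) :=
    ∑ i : Fin (μ + 1), Polynomial.monomial (i : ℕ) (Polynomial.aeval J (P i))
  have hcoeff : ∀ n, f.coeff n =
      ∑ i : Fin (μ + 1), if (i : ℕ) = n then Polynomial.aeval J (P i) else 0 := by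
    intro n
    simp only [f, Polynomial.finsetSum_coeff, Polynomial.coeff_monomial]
  refine ⟨f, ?_, ?_, ?_, ?_⟩
  · obtain ⟨⟨i0, s0⟩, hne⟩ := Function.ne_iff.mp hc0
    have hP : P i0 ≠ 0 := by
      intro hP0
      have h1 : (P i0).coeff (s0 : ℕ) = c (i0, s0) := by
        simp only [P, Polynomial.finsetSum_coeff, Polynomial.coeff_monomial]
        rw [Finset.sum_eq_single s0]
        · simp
        · intro b _ hb
          rw [if_neg]
          exact fun h => hb (Fin.ext h)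
        · intro h
          exact absurd (Finset.mem_univ _) h
      rw [hP0, Polynomial.coeff_zero] at h1
      exact hne (by simpa using h1.symm)
    intro hf
    have h1 : f.coeff (i0 : ℕ) = Polynomial.aeval J (P i0) := by
      rw [hcoeff, Finset.sum_eq_single i0]
      · simp
      · intro b _ hb
        rw [if_neg]
        exact fun h => hb (Fin.ext h)
      · intro h
        exact absurd (Finset.mem_univ _) h
    rw [hf, Polynomial.coeff_zero] at h1
    exact mfr_aeval_ne_zero (P i0) hP h1.symm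
  · intro n
    rw [hcoeff]
    refine Subfield.sum_mem _ fun i _ => ?_
    split_ifs
    · exact mfr_aeval_mem_CJ (P i)
    · exact Subfield.zero_mem _
  · refine Polynomial.natDegree_sum_le_of_forall_le _ _ fun i _ => ?_
    exact (Polynomial.natDegree_monomial_le _).trans (Nat.lt_succ_iff.mp i.2)
  · have hmain : Δ ^ D * h ^ μ * f.eval x = H := by
      simp only [f, Polynomial.eval_finsetSum, Polynomial.eval_monomial, P, map_sum,
        Polynomial.aeval_monomial, Finset.mul_sum]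
      rw [hH, Fintype.sum_prod_type]
      refine Finset.sum_congr rfl fun i _ => Finset.sum_congr rfl fun s _ => ?_
      have hs : (s : ℕ) ≤ D := Nat.lt_succ_iff.mp s.2
      have hi : (i : ℕ) ≤ μ := Nat.lt_succ_iff.mp i.2
      have e1 : J ^ (s : ℕ) * Δ ^ D = E ^ (3 * (s : ℕ)) * Δ ^ (D - (s : ℕ)) := by
        rw [pow_mul E 3 (s : ℕ), ← hJΔ, mul_pow, mul_assoc, ← pow_add, Nat.add_sub_cancel' hs]
      have e2 : x ^ (i : ℕ) * h ^ μ = g ^ (i : ℕ) * h ^ (μ - (i : ℕ)) := by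
        rw [← hx, mul_pow, mul_assoc, ← pow_add, Nat.add_sub_cancel' hi]
      rw [mfr_algebraMap_eq_C]
      calc Δ ^ D * h ^ μ * (HahnSeries.C (c (i, s)) * J ^ (s : ℕ) * x ^ (i : ℕ))
          = HahnSeries.C (c (i, s)) * ((J ^ (s : ℕ) * Δ ^ D) * (x ^ (i : ℕ) * h ^ μ)) := by ring
        _ = HahnSeries.C (c (i, s)) * T (i, s) := by rw [e1, e2]
    have hne : Δ ^ D * h ^ μ ≠ 0 := mul_ne_zero (pow_ne_zero _ hΔ0) (pow_ne_zero _ hh0)
    rw [hH0] at hmain
    exact (mul_eq_zero.mp hmain).resolve_left hne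

/-- `[mfrField N : ℂ(j)] ≤ [SL₂(ℤ) : Γ₀(N)]`. -/
theorem mfr_relrank_le (N : ℕ) [NeZero N] :
    Subfield.relrank mfrCJ (mfrField N).toSubfield ≤
      ((CongruenceSubgroup.Gamma0 N).index : Cardinal) := by
  refine @Fermat.Agent.S28.relrank_le_of_forall_degree_le (LaurentSeries ℂ) _
    (charZero_of_injective_ringHom (HahnSeries.C : ℂ →+* LaurentSeries ℂ).injective)
    mfrCJ _ (mfr_CJ_le N) _ ?_
  intro x hx
  obtain ⟨w, g, h, hg, hh, hh0, hxh⟩ := hx
  exact mfr_exists_poly w g h x hg hh hh0 hxh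

/-! ### Equality with the function field of `X₀(N)` over `ℂ` -/

theorem mfr_relrank_ne_zero {L : Type*} [Field L] (A B : Subfield L) (h : A ≤ B) :
    Subfield.relrank A B ≠ 0 := by
  rw [Subfield.relrank_eq_rank_of_le h]
  exact (rank_pos (R := A) (M := Subfield.extendScalars h)).ne'

/-- **MFRAT, hard inclusion (relative-rank form).**  If `[F_ℂ : ℂ(j)] ≥ [SL₂(ℤ) : Γ₀(N)]`, then
the field of ratios of modular forms of equal weight on `Γ₀(N)` IS the function field `F_ℂ`. -/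
theorem mfr_eq_of_relrank (N : ℕ) [NeZero N]
    (hdeg : ((CongruenceSubgroup.Gamma0 N).index : Cardinal) ≤
      Subfield.relrank mfrCJ (laurentBaseChange ℂ (modularFunctionFieldFull N)).toSubfield) :
    mfrField N = laurentBaseChange ℂ (modularFunctionFieldFull N) := by
  refine le_antisymm ?_ (mfr_FC_le N)
  have hAB := mfr_CJ_le_FC N
  have hBC : (laurentBaseChange ℂ (modularFunctionFieldFull N)).toSubfield ≤
      (mfrField N).toSubfield := fun _ hx => mfr_FC_le N hx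
  have hmul := Subfield.relrank_mul_relrank hAB hBC
  have hC := mfr_relrank_le N
  have hμ : (CongruenceSubgroup.Gamma0 N).index ≠ 0 := Subgroup.FiniteIndex.index_ne_zero
  have hb0 := mfr_relrank_ne_zero _ _ hBC
  have h1 : Subfield.relrank (laurentBaseChange ℂ (modularFunctionFieldFull N)).toSubfield
      (mfrField N).toSubfield = 1 := by
    set a := Subfield.relrank mfrCJ
      (laurentBaseChange ℂ (modularFunctionFieldFull N)).toSubfield with ha
    set b := Subfield.relrank (laurentBaseChange ℂ (modularFunctionFieldFull N)).toSubfield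
      (mfrField N).toSubfield with hb
    set μ := (CongruenceSubgroup.Gamma0 N).index with hμdef
    have h2 : a ≤ a * b := Cardinal.le_mul_right hb0
    have h3 : a = (μ : Cardinal) := le_antisymm (h2.trans (hmul ▸ hC)) hdeg
    have h4 : (μ : Cardinal) * b = μ := by
      rw [← h3]
      exact le_antisymm (by rw [hmul, h3]; exact hC) h2
    have hμ0 : (μ : Cardinal) ≠ 0 := by exact_mod_cast hμ
    have h5 : b ≤ (μ : Cardinal) * b := Cardinal.le_mul_left hμ0
    have h6 : b < Cardinal.aleph0 := lt_of_le_of_lt (h4 ▸ h5) (Cardinal.natCast_lt_aleph0 (n := μ))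
    obtain ⟨m, hm⟩ := Cardinal.lt_aleph0.1 h6
    rw [hm] at h4 ⊢
    have h7 : μ * m = μ := by exact_mod_cast h4
    have h8 : m = 1 :=
      Nat.eq_of_mul_eq_mul_left (Nat.pos_of_ne_zero hμ) (h7.trans (mul_one μ).symm)
    rw [h8]
    simp
  intro x hx
  exact Subfield.relrank_eq_one_iff.1 h1 hx

theorem mfr_natCast_finrank_le_rank (K V : Type*) [Semiring K] [AddCommMonoid V] [Module K V] :
    (Module.finrank K V : Cardinal) ≤ Module.rank K V := by
  unfold Module.finrank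
  rcases lt_or_ge (Module.rank K V) Cardinal.aleph0 with h | h
  · rw [Cardinal.cast_toNat_of_lt_aleph0 h]
  · rw [Cardinal.cast_toNat_of_aleph0_le h]
    exact zero_le

theorem mfr_coeffEmb_jq : coeffEmb ℂ jq = jqModC ℂ := by
  rw [← jqModC_rat, coeffEmb, coeffMap_jqModC]

open IntermediateField in
/-- `ℂ(j)` in the two spellings. -/
theorem mfr_CJ_eq : mfrCJ = (ℂ⟮coeffEmb ℂ jq⟯).toSubfield := by
  rw [IntermediateField.adjoin_toSubfield, mfrCJ, mfr_coeffEmb_jq]

open IntermediateField in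
/-- The relative rank of `F_ℂ` over `ℂ(j)` inside `ℂ((q))` is the rank of `F_ℂ` over its
intermediate field `ℂ⟮x⟯`, for `x` the element `j` of `F_ℂ`. -/
theorem mfr_relrank_eq_rank (N : ℕ) [NeZero N]
    (x : ↥(laurentBaseChange ℂ (modularFunctionFieldFull N)))
    (hx : (x : LaurentSeries ℂ) = jqModC ℂ) :
    Subfield.relrank mfrCJ (laurentBaseChange ℂ (modularFunctionFieldFull N)).toSubfield =
      Module.rank ↥(ℂ⟮x⟯) ↥(laurentBaseChange ℂ (modularFunctionFieldFull N)) := by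
  rw [← IntermediateField.relrank_top_right (ℂ⟮x⟯)]
  show _ = Subfield.relrank (ℂ⟮x⟯).toSubfield
    (⊤ : IntermediateField ℂ ↥(laurentBaseChange ℂ (modularFunctionFieldFull N))).toSubfield
  set val : ↥(laurentBaseChange ℂ (modularFunctionFieldFull N)) →+* LaurentSeries ℂ :=
    (laurentBaseChange ℂ (modularFunctionFieldFull N)).val.toRingHom with hval
  rw [← Subfield.relrank_map_map _ _ val]
  congr 1
  · rw [IntermediateField.adjoin_toSubfield, RingHom.map_field_closure, mfrCJ]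
    congr 1
    ext z
    constructor
    · rintro (⟨c, rfl⟩ | rfl)
      · exact ⟨algebraMap ℂ _ c, Or.inl ⟨c, rfl⟩, rfl⟩
      · exact ⟨x, Or.inr rfl, hx⟩
    · rintro ⟨y, (⟨c, rfl⟩ | rfl), rfl⟩
      · exact Or.inl ⟨c, rfl⟩
      · exact Or.inr hx
  · ext z
    constructor
    · intro hz
      exact ⟨⟨z, hz⟩, trivial, rfl⟩
    · rintro ⟨y, -, rfl⟩
      exact y.2

open IntermediateField in
/-- **MFRAT, hard inclusion (finrank form).**  With `x` the element `j` of `F_ℂ`: if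
`[F_ℂ : ℂ(j)] ≥ card (SL₂(ℤ) / Γ₀(N))`, the field of ratios of modular forms on `Γ₀(N)` is
`F_ℂ`. -/
theorem mfr_eq (N : ℕ) [NeZero N]
    (x : ↥(laurentBaseChange ℂ (modularFunctionFieldFull N)))
    (hx : (x : LaurentSeries ℂ) = jqModC ℂ)
    (hdeg : Nat.card (SL(2, ℤ) ⧸ CongruenceSubgroup.Gamma0 N) ≤
      Module.finrank ↥(ℂ⟮x⟯) ↥(laurentBaseChange ℂ (modularFunctionFieldFull N))) :
    mfrField N = laurentBaseChange ℂ (modularFunctionFieldFull N) := by
  apply mfr_eq_of_relrank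
  rw [mfr_relrank_eq_rank N x hx, Subgroup.index_eq_card]
  refine le_trans ?_ (mfr_natCast_finrank_le_rank _ _)
  exact_mod_cast hdeg

/-- The element `j` of `F_ℂ` (the `ℂ`-analogue of `S24.jBar`). -/
def mfrJ (N : ℕ) [NeZero N] : ↥(laurentBaseChange ℂ (modularFunctionFieldFull N)) :=
  ⟨jqModC ℂ, mfr_CJ_le_FC N (Subfield.subset_closure (Or.inr rfl))⟩

theorem mfrJ_coe (N : ℕ) [NeZero N] : ((mfrJ N : ↥(laurentBaseChange ℂ
    (modularFunctionFieldFull N))) : LaurentSeries ℂ) = jqModC ℂ := rfl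

open IntermediateField in
/-- `mfr_eq` with the element `j` given through `coeffEmb ℂ jq`. -/
theorem mfr_eq' (N : ℕ) [NeZero N]
    (J : ↥(laurentBaseChange ℂ (modularFunctionFieldFull N)))
    (hJ : (J : LaurentSeries ℂ) = coeffEmb ℂ jq)
    (hdeg : Nat.card (SL(2, ℤ) ⧸ CongruenceSubgroup.Gamma0 N) ≤
      Module.finrank ↥(ℂ⟮J⟯) ↥(laurentBaseChange ℂ (modularFunctionFieldFull N))) :
    mfrField N = laurentBaseChange ℂ (modularFunctionFieldFull N) :=
  mfr_eq N J (hJ.trans mfr_coeffEmb_jq) hdeg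

/-- the `q`-expansion of a modular form on `Γ₀(N)` vanishes only for the zero form -/
theorem mfr_qExpansion_ne_zero {N : ℕ} [NeZero N] {k : ℤ}
    {B : ModularForm (CongruenceSubgroup.Gamma0 N) k} (hB : B ≠ 0) :
    HahnSeries.ofPowerSeries ℤ ℂ (UpperHalfPlane.qExpansion 1 B) ≠ 0 := by
  intro h
  apply hB
  refine ModularForm.sturm_bound_Gamma0 N B fun n _ => ?_
  have h1 : UpperHalfPlane.qExpansion 1 B = 0 :=
    HahnSeries.ofPowerSeries_injective (by rw [h, map_zero])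
  rw [h1, map_zero]

/-- **MFRAT (M1).**  The ratio of the `q`-expansions of two modular forms of the same weight
`k ≥ 0` on `Γ₀(N)` lies in the function field `F_ℂ` of `X₀(N)` (given the identification
`mfrField N = F_ℂ`, i.e. the degree bound of `mfr_eq`). -/
theorem mfr_ratio_mem (N : ℕ) [NeZero N]
    (hF : mfrField N = laurentBaseChange ℂ (modularFunctionFieldFull N)) {k : ℤ} (hk : 0 ≤ k)
    (A B : ModularForm (CongruenceSubgroup.Gamma0 N) k) (hB : B ≠ 0) :
    HahnSeries.ofPowerSeries ℤ ℂ (UpperHalfPlane.qExpansion 1 A) /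
      HahnSeries.ofPowerSeries ℤ ℂ (UpperHalfPlane.qExpansion 1 B) ∈
      laurentBaseChange ℂ (modularFunctionFieldFull N) := by
  obtain ⟨w, rfl⟩ := Int.eq_ofNat_of_zero_le hk
  rw [← hF]
  exact ⟨w, _, _, ⟨A, rfl⟩, ⟨B, rfl⟩, mfr_qExpansion_ne_zero hB,
    div_mul_cancel₀ _ (mfr_qExpansion_ne_zero hB)⟩

/-- **MFRAT (M2).**  Every element of `F_ℂ` is the ratio of the `q`-expansions of two modular
forms of the same weight on `Γ₀(N)` (unconditional). -/
theorem mfr_exists_ratio (N : ℕ) [NeZero N] (x : LaurentSeries ℂ)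
    (hx : x ∈ laurentBaseChange ℂ (modularFunctionFieldFull N)) :
    ∃ (w : ℕ) (A B : ModularForm (CongruenceSubgroup.Gamma0 N) (w : ℤ)), B ≠ 0 ∧
      x * HahnSeries.ofPowerSeries ℤ ℂ (UpperHalfPlane.qExpansion 1 B) =
        HahnSeries.ofPowerSeries ℤ ℂ (UpperHalfPlane.qExpansion 1 A) := by
  obtain ⟨w, g, h, ⟨A, rfl⟩, ⟨B, rfl⟩, hh0, hxh⟩ := mfr_FC_le N hx
  refine ⟨w, A, B, ?_, hxh⟩
  rintro rfl
  apply hh0
  rw [FunLike.coe_zero, UpperHalfPlane.qExpansion_zero, map_zero]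

end Fermat.Agent.S29
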