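import Fermat.Agent.S29.PlCSysCusp
import Fermat.Agent.S29.MfRat

/-!
# Stage 3 (S29): exact degree of `F_ℂ` over `ℂ(j)` and MFRAT (M1), unconditionally

* `plc_finrank_J`: `[F_ℂ : ℂ(j)] = [SL(2, ℤ) : Γ₀(N)]` (from the full Laurent system at the cusps).
* `plc_mfrField_eq`: the field of ratios of modular forms of equal weight on `Γ₀(N)` is `F_ℂ`.
* `plc_ratio_mem`: the ratio of the `q`-expansions of two modular forms of the same weight on
  `Γ₀(N)` lies in `F_ℂ`.
-/

set_option autoImplicit false
set_option linter.style.haveILetI false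

open AlgebraicCurve IntermediateField UpperHalfPlane ModularForm EisensteinSeries
open scoped MatrixGroups Manifold
open Fermat.Agent.S24

namespace Fermat.Agent.S29

section PlcMfr

variable (N : ℕ) [NeZero N]

/-- `[F_ℂ : ℂ(j)] = [SL(2, ℤ) : Γ₀(N)]`. -/
theorem plc_finrank_J :
    Module.finrank ℂ⟮plcJ N⟯
      ↥(ModularCurve.laurentBaseChange ℂ (ModularCurve.modularFunctionFieldFull N)) =
      Nat.card (SL(2, ℤ) ⧸ CongruenceSubgroup.Gamma0 N) := by
  have h := plc_cusp_card_eq N
  rw [sysfin_adjoin_inv] at h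
  exact h.symm

/-- **MFRAT**: the field of ratios of modular forms of equal weight on `Γ₀(N)` is the function
field `F_ℂ` of `X₀(N)` over `ℂ`. -/
theorem plc_mfrField_eq :
    mfrField N = ModularCurve.laurentBaseChange ℂ (ModularCurve.modularFunctionFieldFull N) :=
  mfr_eq' N (plcJ N) rfl (plc_finrank_J N).ge

/-- **MFRAT (M1)**, unconditional: the ratio of the `q`-expansions of two modular forms of the
same weight `k ≥ 0` on `Γ₀(N)` lies in `F_ℂ`. -/
theorem plc_ratio_mem {k : ℤ} (hk : 0 ≤ k)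
    (A B : ModularForm (CongruenceSubgroup.Gamma0 N) k) (hB : B ≠ 0) :
    HahnSeries.ofPowerSeries ℤ ℂ (UpperHalfPlane.qExpansion 1 A) /
      HahnSeries.ofPowerSeries ℤ ℂ (UpperHalfPlane.qExpansion 1 B) ∈
      ModularCurve.laurentBaseChange ℂ (ModularCurve.modularFunctionFieldFull N) :=
  mfr_ratio_mem N (plc_mfrField_eq N) hk A B hB

end PlcMfr

end Fermat.Agent.S29
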