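import Fermat.Agent.S29.PhiInst
import Fermat.Agent.S29.PlCMfr

/-!
# S29, package [PHI-INST]: the comparison hom over `ℂ`, unconditionally

With `FC = F_ℂ` the function field of `X₀(N)` over `ℂ` and `phiModelC N` its analytic model:

* `phiC_rootIn_main` : `PhiRootIn (phiModelC N) p` ([ROOT-IN-FIELD]);
* `phiC_main` : `phiHom (phiModelC N) p : Pic⁰(F_ℂ)[p] → Hom(Γ₀(N), ℤ/p)` is injective;
* `phiC_torsion_finite` : `Pic⁰(F_ℂ)[p]` is finite.
-/

set_option autoImplicit false

open AlgebraicCurve UpperHalfPlane ModularForm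
open scoped MatrixGroups Manifold

namespace Fermat.Agent.S29

section PhiCMain

variable (N : ℕ) [NeZero N] (p : ℕ) [NeZero p]

set_option quotPrecheck false in
local notation "FC" =>
  ↥(ModularCurve.laurentBaseChange ℂ (ModularCurve.modularFunctionFieldFull N))

/-- **[ROOT-IN-FIELD]**: holomorphic `Γ₀(N)`-invariant `p`-th roots of elements of `anaRingC N`
are quotients of elements of `anaRingC N`. -/
theorem phiC_rootIn_main : PhiRootIn (phiModelC N) p :=
  phiC_rootIn N (plc_mfrField_eq N) p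

/-- **[PHI-INST]**: the comparison hom `Pic⁰(F_ℂ)[p] → Hom(Γ₀(N), ℤ/p)` is injective. -/
theorem phiC_main : Function.Injective (phiHom (phiModelC N) p) :=
  phiC_injective N (plc_mfrField_eq N) p

/-- `Pic⁰(F_ℂ)[p]` is finite. -/
theorem phiC_finite_main : Finite ↥(Pic0.torsion ℂ FC p) :=
  phiC_finite N (plc_mfrField_eq N) p

/-- `Pic⁰(F_ℂ)[p]` is finite (set form). -/
theorem phiC_torsion_finite : (Pic0.torsion ℂ FC p : Set (Pic0 ℂ FC)).Finite := by
  haveI := phiC_finite_main N p
  exact Set.toFinite _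

/-- The comparison hom, packaged: an injective hom `Φ` equal to `phiHom (phiModelC N) p` (so that
`phi_spec`, `phi_spec'`, `phi_exists_data`, `phiHom_eq_kumChar`, `phiHom_eq_kumChar'` apply). -/
theorem phiC_exists :
    ∃ Φ : ↥(Pic0.torsion ℂ FC p) →+ (Additive ↥(CongruenceSubgroup.Gamma0 N) →+ ZMod p),
      Function.Injective Φ ∧ Φ = phiHom (phiModelC N) p :=
  ⟨phiHom (phiModelC N) p, phiC_main N p, rfl⟩

end PhiCMain

end Fermat.Agent.S29
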