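import Mathlib
import Fermat.Agent.S20.Forms
import Fermat.Agent.S23.TNForm
import Fermat.Agent.S24.QLaurent

/-!
# Roots in the function field  (package [ROOT-IN-FIELD] of the S29 blueprint)

Let `G` be a holomorphic `Γ₀(N)`-invariant function on the upper half plane whose `p`-th power is
(the function attached to) an element of the function field `F_ℂ` of `X₀(N)`.  Then `G` itself is
(the function attached to) an element of `F_ℂ` (`rif_core`).

The two facts about modular forms that are used (every element of `F_ℂ` is a ratio of two modular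
forms of the same weight on `Γ₀(N)`, and every such ratio lies in `F_ℂ`) enter as hypotheses.
-/

set_option autoImplicit false

open UpperHalfPlane ModularForm Filter
open scoped MatrixGroups Manifold

namespace Fermat.Agent.S29

open Fermat.Agent.S20 Fermat.Agent.S23 Fermat.Agent.S24

/-- The ring of holomorphic functions on the upper half plane has no zero divisors. -/
theorem rif_mul_eq_zero {f g : ℍ → ℂ} (hf : MDiff f) (hg : MDiff g)
    (h : ∀ τ, f τ * g τ = 0) : f = 0 ∨ g = 0 := by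
  rw [UpperHalfPlane.mdifferentiable_iff] at hf hg
  have hU : IsOpen {z : ℂ | 0 < z.im} := isOpen_lt continuous_const Complex.continuous_im
  have hc : IsPreconnected {z : ℂ | 0 < z.im} := (convex_halfSpace_im_gt 0).isPreconnected
  have key := (hf.analyticOnNhd hU).eq_zero_or_eq_zero_of_mul_eq_zero (hg.analyticOnNhd hU)
    (fun z _ => by simpa [Function.comp_apply] using h (ofComplex z)) hc
  rcases key with h1 | h1
  · left
    funext τ
    simpa [Function.comp_apply, ofComplex_apply] using h1 τ τ.im_pos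
  · right
    funext τ
    simpa [Function.comp_apply, ofComplex_apply] using h1 τ τ.im_pos

/-- Modular forms on `Γ₀(N)` are weakly holomorphic. -/
theorem rif_isWH {N : ℕ} [NeZero N] {k : ℤ} {A : ℍ → ℂ} (hA : IsForm N k A) : IsWH A := by
  obtain ⟨g, rfl⟩ := hA
  have hn := nice_of_modularForm_Gamma0 g
  refine ⟨hn.holo, fun τ => ql_vadd_of_periodic hn.per τ, 0, ?_⟩
  simpa using hn.bdd

/-- The Laurent expansion of a modular form is its `q`-expansion. -/
theorem rif_qLaurent {N : ℕ} [NeZero N] {k : ℤ} {A : ℍ → ℂ} (hA : IsForm N k A) :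
    qLaurent ⟨A, rif_isWH hA⟩ = HahnSeries.ofPowerSeries ℤ ℂ (qExpansion 1 A) :=
  qLaurent_of_bounded A (rif_isWH hA) hA.bdd

theorem rif_qLaurent_ne_zero {g : ℍ → ℂ} (hg : IsWH g) (h0 : g ≠ 0) :
    qLaurent ⟨g, hg⟩ ≠ 0 := fun h => h0 (by
  have := qLaurent_injective (h.trans (map_zero qLaurent).symm)
  exact congrArg Subtype.val this)

/-- A bound for a number from a bound for its `p`-th power. -/
theorem rif_norm_le_of_pow {p : ℕ} (hp : 0 < p) {x : ℂ} {C : ℝ} (h : ‖x‖ ^ p ≤ C) :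
    ‖x‖ ≤ max 1 C := by
  rcases le_total ‖x‖ 1 with h1 | h1
  · exact h1.trans (le_max_left _ _)
  · exact (le_self_pow₀ h1 hp.ne').trans (h.trans (le_max_right _ _))

/-- A holomorphic function whose `p`-th power is a product of functions bounded at `i∞` is bounded
at `i∞`. -/
theorem rif_bdd_of_pow {p : ℕ} (hp : 0 < p) {K A B : ℍ → ℂ}
    (hA : IsBoundedAtImInfty A) (hB : IsBoundedAtImInfty B)
    (h : ∀ τ, K τ ^ p = A τ * B τ ^ (p - 1)) : IsBoundedAtImInfty K := by
  rw [UpperHalfPlane.isBoundedAtImInfty_iff] at hA hB ⊢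
  obtain ⟨M₁, Y₁, h₁⟩ := hA
  obtain ⟨M₂, Y₂, h₂⟩ := hB
  refine ⟨max 1 (M₁ * M₂ ^ (p - 1)), max Y₁ Y₂, fun z hz => ?_⟩
  apply rif_norm_le_of_pow hp
  rw [← norm_pow, h z, norm_mul, norm_pow]
  have e1 := h₁ z ((le_max_left _ _).trans hz)
  have e2 := h₂ z ((le_max_right _ _).trans hz)
  exact mul_le_mul e1 (pow_le_pow_left₀ (norm_nonneg _) e2 _) (by positivity)
    ((norm_nonneg _).trans e1)

local notation "FCset" N =>
  ModularCurve.laurentBaseChange ℂ (ModularCurve.modularFunctionFieldFull N)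

local notation "qL" A => HahnSeries.ofPowerSeries ℤ ℂ (qExpansion 1 A)

/-- **Roots in the function field.**  If `G` is holomorphic and `Γ₀(N)`-invariant and
`G ^ p = a / b` with `a / b` (a quotient of weakly holomorphic functions) in the function field
`F_ℂ` of `X₀(N)`, then `G` is represented by an element `x` of `F_ℂ`: whenever `x = a' / b'` as
Laurent series (`a'`, `b'` weakly holomorphic), `G * b' = a'` on the upper half plane. -/
theorem rif_core (N : ℕ) [NeZero N] {p : ℕ} (hp : 0 < p)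
    (hM2 : ∀ x ∈ FCset N, ∃ (w : ℤ) (A B : ℍ → ℂ), IsForm N w A ∧ IsForm N w B ∧ B ≠ 0 ∧
      x * (qL B) = qL A)
    (hM1 : ∀ (w : ℤ) (A B : ℍ → ℂ), IsForm N w A → IsForm N w B → B ≠ 0 →
      (qL A) / (qL B) ∈ FCset N)
    {G a b : ℍ → ℂ} (hG : MDiff G)
    (hGinv : ∀ γ ∈ CongruenceSubgroup.Gamma0 N, ∀ τ : ℍ, G (γ • τ) = G τ)
    (ha : IsWH a) (hb : IsWH b) (hb0 : b ≠ 0)
    (hab : qLaurent ⟨a, ha⟩ / qLaurent ⟨b, hb⟩ ∈ FCset N)
    (hGp : ∀ τ, G τ ^ p * b τ = a τ) :
    ∃ x ∈ FCset N, ∀ (a' b' : ℍ → ℂ) (ha' : IsWH a') (hb' : IsWH b'),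
      x * qLaurent ⟨b', hb'⟩ = qLaurent ⟨a', ha'⟩ → ∀ τ, G τ * b' τ = a' τ := by
  obtain ⟨w, A, B, hA, hB, hB0, hx⟩ := hM2 _ hab
  have hAw := rif_isWH hA
  have hBw := rif_isWH hB
  have hqb := rif_qLaurent_ne_zero hb hb0
  have hqB := rif_qLaurent_ne_zero hBw hB0
  -- `a * B = b * A`
  have h1 : a * B = b * A := by
    have e : qLaurent (⟨a, ha⟩ * ⟨B, hBw⟩) = qLaurent (⟨b, hb⟩ * ⟨A, hAw⟩) := by
      rw [map_mul, map_mul, rif_qLaurent hB, rif_qLaurent hA, ← hx]
      field_simp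
    exact congrArg Subtype.val (qLaurent_injective e)
  -- the form `K := G * B`
  have hKp : ∀ τ, (G τ * B τ) ^ p = A τ * B τ ^ (p - 1) := by
    have hmd1 : MDiff (fun τ => (G τ * B τ) ^ p - A τ * B τ ^ (p - 1)) :=
      ((hG.mul hB.mdiff).pow p).sub (hA.mdiff.mul (hB.mdiff.pow (p - 1)))
    have h2 : ∀ τ, b τ * ((G τ * B τ) ^ p - A τ * B τ ^ (p - 1)) = 0 := by
      intro τ
      have e1 := hGp τ
      have e2 := congrFun h1 τ
      simp only [Pi.mul_apply] at e2
      obtain ⟨n, rfl⟩ : ∃ n, p = n + 1 := ⟨p - 1, by omega⟩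
      simp only [Nat.add_sub_cancel]
      linear_combination (B τ) ^ (n + 1) * e1 + (B τ) ^ n * e2
    rcases rif_mul_eq_zero hb.1 hmd1 h2 with h3 | h3
    · exact absurd h3 hb0
    · intro τ
      exact sub_eq_zero.1 (congrFun h3 τ)
  have hKform : IsForm N w (G * B) := by
    refine isForm_of (hG.mul hB.mdiff) (fun γ hγ => ?_) (fun σ => ?_)
    · funext τ
      have e := congrFun (hB.slash_eq hγ) τ
      rw [SL_slash_apply] at e ⊢
      rw [Pi.mul_apply, Pi.mul_apply, hGinv γ hγ τ, mul_assoc, e]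
    · refine rif_bdd_of_pow hp (hA.bdd_slash σ) (hB.bdd_slash σ) (fun τ => ?_)
      rw [SL_slash_apply, SL_slash_apply, SL_slash_apply, Pi.mul_apply, mul_pow, hKp, mul_pow,
        ← zpow_natCast (denom σ τ ^ (-w)) p, ← zpow_natCast (denom σ τ ^ (-w)) (p - 1),
        ← zpow_mul, ← zpow_mul]
      have hd : denom σ τ ≠ 0 := denom_ne_zero σ τ
      have hpp : ((p : ℤ)) = ((p - 1 : ℕ) : ℤ) + 1 := by
        have : p - 1 + 1 = p := by omega
        exact_mod_cast this.symm
      rw [hpp, mul_add, zpow_add₀ hd, mul_one]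
      ring
  have hKw := rif_isWH hKform
  refine ⟨(qL (G * B)) / (qL B), hM1 w _ _ hKform hB hB0, ?_⟩
  intro a' b' ha' hb' hx' τ
  have h4 : (G * B) * b' = a' * B := by
    have e : qLaurent (⟨G * B, hKw⟩ * ⟨b', hb'⟩) = qLaurent (⟨a', ha'⟩ * ⟨B, hBw⟩) := by
      rw [map_mul, map_mul, ← hx', rif_qLaurent hKform, rif_qLaurent hB]
      rw [rif_qLaurent hB] at hqB
      field_simp
    exact congrArg Subtype.val (qLaurent_injective e)
  have hmd2 : MDiff (fun τ => G τ * b' τ - a' τ) := (hG.mul hb'.1).sub ha'.1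
  have h5 : ∀ τ, B τ * (G τ * b' τ - a' τ) = 0 := by
    intro τ
    have e := congrFun h4 τ
    simp only [Pi.mul_apply] at e
    linear_combination e
  rcases rif_mul_eq_zero hB.mdiff hmd2 h5 with h6 | h6
  · exact absurd h6 hB0
  · exact sub_eq_zero.1 (congrFun h6 τ)

end Fermat.Agent.S29
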