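import Fermat.Agent.S29.PhiHom
import Fermat.Agent.S29.RootInField
import Fermat.Agent.S24.SysCusp

/-!
# S29/S30, package [PHI], part 8: `phiHom` kills the stabilisers of cusps

Abstract form.  Let `γ₀ = δ T^w δ⁻¹ ∈ Γ`, and suppose that the elements `a` of the model ring have
`q`-expansions `qLaurent (τ ↦ a (δ • (N' τ)))` at the cusp `δ ∞` (in the parameter `q^(1/N')`,
`w ∣ N'`) whose orders are `N' / w` times the orders at a place `P` of the function field.  Then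
`phiHom M p c γ₀ = 0` for every `p`-torsion class `c` (any modulus `p`).

Proof: for a `p`-th root `G` of `a = h b^p`, the function `g(τ) = G (δ • (N' p τ))` is weakly
holomorphic, its expansion `Q` satisfies `Q^p = (expansion of a)(q^p)`, so `ord Q = ord a = k₀`
with `w k₀ = N' p d`; and `g (τ + w / (N' p)) = χ(γ₀) g(τ)` gives
`χ(γ₀) = exp(2πi w k₀ / (N' p)) = 1`.
-/

set_option autoImplicit false

open AlgebraicCurve UpperHalfPlane Filter ModularForm
open scoped MatrixGroups Manifold Topology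

namespace Fermat.Agent.S29

open Fermat.Agent.S24

/-- The order of `f(q^k)`. -/
theorem phi_qExpand_order (k : ℕ) [NeZero k] (X : LaurentSeries ℂ) (hX : X ≠ 0) :
    (ModularCurve.qExpand ℂ k X).order = (k : ℤ) * X.order := by
  have hcoeff : (ModularCurve.qExpand ℂ k X).coeff ((k : ℤ) * X.order) ≠ 0 := by
    rw [ModularCurve.qExpand_coeff_mul]
    exact fun h => hX (HahnSeries.coeff_order_eq_zero.mp h)
  have hne : ModularCurve.qExpand ℂ k X ≠ 0 := HahnSeries.ne_zero_of_coeff_ne_zero hcoeff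
  have hbelow : ∀ i : ℤ, i < (k : ℤ) * X.order → (ModularCurve.qExpand ℂ k X).coeff i = 0 := by
    intro i hi
    by_cases hdvd : (k : ℤ) ∣ i
    · obtain ⟨j, rfl⟩ := hdvd
      rw [ModularCurve.qExpand_coeff_mul]
      refine HahnSeries.coeff_eq_zero_of_lt_order ?_
      have hk : (0 : ℤ) < (k : ℤ) := by exact_mod_cast Nat.pos_of_ne_zero (NeZero.ne k)
      exact lt_of_mul_lt_mul_left hi hk.le
    · exact ModularCurve.qExpand_coeff_of_not_dvd k X hdvd
  refine le_antisymm (HahnSeries.order_le_of_coeff_ne_zero hcoeff) ?_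
  by_contra hlt
  rw [not_le] at hlt
  exact hne (HahnSeries.coeff_order_eq_zero.mp (hbelow _ hlt))

/-- Iterating a transformation rule. -/
theorem phi_pow_smul {G : ℍ → ℂ} (γ : SL(2, ℤ)) (χ : ℂ) (h : ∀ τ : ℍ, G (γ • τ) = χ * G τ)
    (j : ℕ) (τ : ℍ) : G ((γ ^ j) • τ) = χ ^ j * G τ := by
  induction j generalizing τ with
  | zero => simp
  | succ j ih =>
    rw [pow_succ, mul_smul, ih, h, pow_succ]
    ring

/-- A translation by an integer, seen from the cusp `δ ∞`. -/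
theorem phi_conj_T (δ : SL(2, ℤ)) (n : ℕ) (z : ℍ) :
    δ • (((n : ℕ) : ℝ) +ᵥ z) = (δ * ModularGroup.T ^ n * δ⁻¹) • (δ • z) := by
  have h1 := UpperHalfPlane.modular_T_zpow_smul z (n : ℤ)
  rw [zpow_natCast] at h1
  have h2 : (((n : ℤ) : ℝ)) = ((n : ℕ) : ℝ) := by push_cast; rfl
  rw [h2] at h1
  rw [← h1, ← mul_smul, ← mul_smul]
  congr 1
  group

/-- Scaling and translating. -/
theorem phi_scale_vadd (k : ℕ) (hk : 0 < k) (r : ℝ) (τ : ℍ) :
    ofComplex ((k : ℂ) * ((r +ᵥ τ : ℍ) : ℂ)) = ((k : ℝ) * r) +ᵥ ofComplex ((k : ℂ) * (τ : ℂ)) := by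
  apply UpperHalfPlane.ext
  rw [ql_coe_scale hk, UpperHalfPlane.coe_vadd, UpperHalfPlane.coe_vadd, ql_coe_scale hk]
  push_cast
  ring

section Cusp

variable {F : Type*} [Field F] [Algebra ℂ F] {Γ : Subgroup SL(2, ℤ)} (M : PhiModel F Γ)
variable (p : ℕ) [NeZero p]

/-- **`phiHom` kills the stabiliser of a cusp** (abstract form). -/
theorem phi_cusp (c : ↥(Pic0.torsion ℂ F p)) (δ : SL(2, ℤ)) (w N' : ℕ) (hw : 0 < w)
    (hN' : 0 < N') (hwN : w ∣ N') (γ₀ : Γ)
    (hγ₀ : (γ₀ : SL(2, ℤ)) = δ * ModularGroup.T ^ w * δ⁻¹)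
    (hWH : ∀ a : M.R, IsWH (fun τ : ℍ => (a : ℍ → ℂ) (δ • ofComplex ((N' : ℂ) * (τ : ℂ)))))
    (P : Place ℂ F)
    (hmult : ∀ a : M.R, a ≠ 0 →
      (w : ℤ) * (qLaurent ⟨_, hWH a⟩).order = (N' : ℤ) * P.ord (M.ι a)) :
    phiHom M p c (Additive.ofMul γ₀) = 0 := by
  have hp : 0 < p := NeZero.pos p
  haveI : NeZero N' := ⟨hN'.ne'⟩
  obtain ⟨D, h, a, b, G, hD, hh, hdiv, hb, hab, hG, hGp, hGγ⟩ := phi_exists_data M p c
  have ha : a ≠ 0 := phi_a_ne_zero hh hb hab
  have hG0 : G ≠ 0 := phi_root_ne_zero ha hGp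
  set χ : ℂ := phiE p (phiHom M p c (Additive.ofMul γ₀)) with hχ
  have hχp : χ ^ p = 1 := phiE_pow p _
  have hGγ' : ∀ τ : ℍ, G ((δ * ModularGroup.T ^ w * δ⁻¹) • τ) = χ * G τ := by
    intro τ
    rw [← hγ₀]
    exact hGγ γ₀ τ
  -- the function seen from the cusp
  have hGδ : MDiff (fun τ : ℍ => G (δ • τ)) := sysfin_mdiff_smul δ hG
  have htr : ∀ (j : ℕ) (z : ℍ), G (δ • (((w * j : ℕ) : ℝ) +ᵥ z)) = χ ^ j * G (δ • z) := by
    intro j z
    rw [phi_conj_T, pow_mul, ← conj_pow, phi_pow_smul _ χ hGγ']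
  set k : ℕ := N' * p with hk
  have hk0 : 0 < k := Nat.mul_pos hN' hp
  haveI : NeZero k := ⟨hk0.ne'⟩
  set g : ℍ → ℂ := fun τ => G (δ • ofComplex ((k : ℂ) * (τ : ℂ))) with hg
  have hgm : MDiff g := ql_mdiff_scale hGδ hk0
  have hgper : ∀ τ : ℍ, g ((1 : ℝ) +ᵥ τ) = g τ := by
    intro τ
    obtain ⟨e, he⟩ := hwN
    have h1 : (k : ℝ) * 1 = ((w * (e * p) : ℕ) : ℝ) := by
      rw [hk, he]
      push_cast
      ring
    simp only [hg]
    rw [phi_scale_vadd k hk0, h1, htr, pow_mul', hχp, one_pow, one_mul]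
  set A : ℍ → ℂ := fun τ => (a : ℍ → ℂ) (δ • ofComplex ((N' : ℂ) * (τ : ℂ))) with hA
  have hAwh : IsWH A := hWH a
  have hAp : IsWH (fun τ : ℍ => A (ofComplex ((p : ℂ) * (τ : ℂ)))) := isWH_scale p hp hAwh
  have hgp : ∀ τ : ℍ, g τ ^ p = A (ofComplex ((p : ℂ) * (τ : ℂ))) := by
    intro τ
    simp only [hg, hA]
    rw [hGp, ql_coe_scale hp, hk]
    congr 3
    push_cast
    ring
  -- growth of `g`
  obtain ⟨m, hb'⟩ := hAp.2.2
  have hΔ : IsBoundedAtImInfty (fun τ : ℍ => ModularForm.discriminant τ ^ m) :=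
    (ql_delta_nice.pow m).bdd
  have hgb : IsBoundedAtImInfty (fun τ : ℍ => ModularForm.discriminant τ ^ m * g τ) := by
    refine rif_bdd_of_pow hp hb' hΔ fun τ => ?_
    rw [mul_pow, hgp]
    have e : (ModularForm.discriminant τ ^ m) ^ p
        = ModularForm.discriminant τ ^ m * (ModularForm.discriminant τ ^ m) ^ (p - 1) := by
      rw [← pow_succ', Nat.sub_add_cancel hp]
    rw [e]
    ring
  have hgwh : IsWH g := ⟨hgm, hgper, m, hgb⟩
  -- the expansions
  set X : LaurentSeries ℂ := qLaurent ⟨A, hAwh⟩ with hX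
  set Q : LaurentSeries ℂ := qLaurent ⟨g, hgwh⟩ with hQ
  have hA0 : A ≠ 0 := by
    obtain ⟨y, hy⟩ := phi_exists_ne_zero (phi_coe_ne_zero ha)
    obtain ⟨τ, hτ⟩ := sc_scale_surjective N' (δ⁻¹ • y)
    intro h0
    apply hy
    have := congrFun h0 τ
    simp only [hA, hτ, smul_inv_smul, Pi.zero_apply] at this
    exact this
  have hX0 : X ≠ 0 := rif_qLaurent_ne_zero hAwh hA0
  have hQp : Q ^ p = ModularCurve.qExpand ℂ p X := by
    rw [hQ, hX, ← qLaurent_scale p A hAwh, ← map_pow]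
    congr 1
    apply Subtype.ext
    funext τ
    exact hgp τ
  have hQ0 : Q ≠ 0 := by
    intro h0
    rw [h0, zero_pow hp.ne'] at hQp
    exact hX0 ((map_eq_zero _).mp hQp.symm)
  have hord : Q.order = X.order := by
    have h1 := congrArg HahnSeries.order hQp
    rw [HahnSeries.order_pow, phi_qExpand_order p X hX0, nsmul_eq_mul] at h1
    have hp' : (p : ℤ) ≠ 0 := by exact_mod_cast hp.ne'
    exact mul_left_cancel₀ hp' h1
  -- the multiplicity
  have hmul := hmult a ha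
  have hιb : M.ι b ≠ 0 := M.ι_ne_zero hb
  have hPa : P.ord (M.ι a) = (p : ℤ) * ((D : Divisor ℂ F) P + P.ord (M.ι b)) := by
    rw [← hab, P.ord_mul hh (pow_ne_zero p hιb), ← hdiv P, ← zpow_natCast, Place.ord_zpow]
    ring
  -- the translation
  set r : ℝ := (w : ℝ) / (k : ℝ) with hr
  have hkr : (k : ℝ) * r = ((w * 1 : ℕ) : ℝ) := by
    rw [hr]
    have : (k : ℝ) ≠ 0 := by exact_mod_cast hk0.ne'
    field_simp
    push_cast
    ring
  have hgr : ∀ τ : ℍ, g (r +ᵥ τ) = χ * g τ := by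
    intro τ
    simp only [hg]
    rw [phi_scale_vadd k hk0, hkr, htr, pow_one]
  have hconst : IsWH (fun _ : ℍ => χ) := ql_isWH_const χ
  have htw : twist (Complex.exp (2 * Real.pi * Complex.I * r)) (Complex.exp_ne_zero _) Q
      = HahnSeries.C χ * Q := by
    rw [hQ, ← qLaurent_vadd r g hgwh, ← qLaurent_const χ hconst, ← map_mul]
    congr 1
    apply Subtype.ext
    funext τ
    exact hgr τ
  have hcoef := congrArg (fun f : LaurentSeries ℂ => f.coeff Q.order) htw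
  simp only [twist_coeff, HahnSeries.C_mul_eq_smul, HahnSeries.coeff_smul, smul_eq_mul] at hcoef
  have hc0 : Q.coeff Q.order ≠ 0 := fun h => hQ0 (HahnSeries.coeff_order_eq_zero.mp h)
  have hχ1 : χ = Complex.exp (2 * Real.pi * Complex.I * r) ^ Q.order :=
    (mul_right_cancel₀ hc0 hcoef).symm
  have hχ2 : χ = 1 := by
    rw [hχ1, ← Complex.exp_int_mul, hord]
    have e : ((X.order : ℤ) : ℂ) * (2 * Real.pi * Complex.I * r)
        = (((D : Divisor ℂ F) P + P.ord (M.ι b) : ℤ) : ℂ) * (2 * Real.pi * Complex.I) := by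
      have h3 : (w : ℤ) * X.order = (k : ℤ) * ((D : Divisor ℂ F) P + P.ord (M.ι b)) := by
        rw [hmul, hPa, hk]
        push_cast
        ring
      have h4 : ((w : ℂ)) * ((X.order : ℤ) : ℂ)
          = (k : ℂ) * (((D : Divisor ℂ F) P + P.ord (M.ι b) : ℤ) : ℂ) := by
        exact_mod_cast h3
      have hkC : (k : ℂ) ≠ 0 := by exact_mod_cast hk0.ne'
      have h5 : ((X.order : ℤ) : ℂ) * ((w : ℂ) / (k : ℂ))
          = (((D : Divisor ℂ F) P + P.ord (M.ι b) : ℤ) : ℂ) := by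
        rw [mul_div_assoc', div_eq_iff hkC]
        linear_combination h4
      have h6 : ((r : ℝ) : ℂ) = (w : ℂ) / (k : ℂ) := by
        rw [hr]
        push_cast
        rfl
      rw [h6, ← h5]
      ring
    rw [e, Complex.exp_int_mul_two_pi_mul_I]
  rw [hχ, ← phiE_zero p] at hχ2
  exact phiE_injective p hχ2

end Cusp

end Fermat.Agent.S29
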