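import Fermat.Agent.S29.PhiEll
import Fermat.Agent.S29.PhiCusp
import Fermat.Agent.S29.PhiCMain
import Fermat.Agent.S29.PlCEll
import Fermat.Agent.S20.Period
import Fermat.Agent.S29.Reduce

/-!
# S29/S30, package [PHI], part 9: the range of the comparison hom

`phiC_trace_le_two`: for every `p`-torsion class `c` of `F_ℂ` (any modulus `p`) the homomorphism
`phiHom (phiModelC N) p c : Γ₀(N) → ℤ/p` kills all elements `γ` with `|trace γ| ≤ 2`
(elliptic elements, `±1`, parabolic elements).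
-/

set_option autoImplicit false

open AlgebraicCurve UpperHalfPlane Filter ModularForm
open scoped MatrixGroups Manifold Topology

namespace Fermat.Agent.S29

open Fermat.Agent.S24

/-- An elliptic element of `SL(2, ℤ)` has a fixed point in the upper half plane. -/
theorem phi_exists_fixed (γ : SL(2, ℤ))
    (ht : |(γ : Matrix (Fin 2) (Fin 2) ℤ).trace| < 2) : ∃ τ₀ : ℍ, γ • τ₀ = τ₀ := by
  rw [Matrix.trace_fin_two] at ht
  have hdet : γ 0 0 * γ 1 1 - γ 0 1 * γ 1 0 = 1 := det_rel γ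
  have hc : γ 1 0 ≠ 0 := by
    intro hc0
    rw [hc0, mul_zero, sub_zero] at hdet
    rcases Int.eq_one_or_neg_one_of_mul_eq_one' hdet with ⟨h1, h2⟩ | ⟨h1, h2⟩
    · rw [h1, h2] at ht
      norm_num at ht
    · rw [h1, h2] at ht
      norm_num at ht
  have ht' := abs_lt.mp ht
  have ht2 : ((γ 0 0 + γ 1 1 : ℤ) : ℝ) ^ 2 < 4 := by
    have h1 : (-2 : ℝ) < ((γ 0 0 + γ 1 1 : ℤ) : ℝ) := by exact_mod_cast ht'.1
    have h2 : ((γ 0 0 + γ 1 1 : ℤ) : ℝ) < 2 := by exact_mod_cast ht'.2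
    nlinarith
  set s : ℝ := Real.sqrt (4 - ((γ 0 0 + γ 1 1 : ℤ) : ℝ) ^ 2) with hs
  have hs0 : 0 < s := Real.sqrt_pos.mpr (by linarith)
  have hs2 : s ^ 2 = 4 - ((γ 0 0 + γ 1 1 : ℤ) : ℝ) ^ 2 := Real.sq_sqrt (by linarith)
  have hcR : ((γ 1 0 : ℤ) : ℝ) ≠ 0 := by exact_mod_cast hc
  obtain ⟨ε, hε, hεc⟩ : ∃ ε : ℝ, ε ^ 2 = 1 ∧ 0 < ε / ((γ 1 0 : ℤ) : ℝ) := by
    rcases lt_or_gt_of_ne hc with h | h
    · have h' : ((γ 1 0 : ℤ) : ℝ) < 0 := by exact_mod_cast h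
      exact ⟨-1, by norm_num, div_pos_of_neg_of_neg (by norm_num) h'⟩
    · have h' : (0 : ℝ) < ((γ 1 0 : ℤ) : ℝ) := by exact_mod_cast h
      exact ⟨1, by norm_num, div_pos one_pos h'⟩
  set u : ℝ := ((γ 0 0 : ℤ) - (γ 1 1 : ℤ) : ℝ) / (2 * ((γ 1 0 : ℤ) : ℝ)) with hu
  set v : ℝ := ε * s / (2 * ((γ 1 0 : ℤ) : ℝ)) with hv
  have hv0 : 0 < v := by
    have : v = (ε / ((γ 1 0 : ℤ) : ℝ)) * (s / 2) := by
      rw [hv]
      field_simp
    rw [this]
    exact mul_pos hεc (by linarith)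
  have hdetR : ((γ 0 0 : ℤ) : ℝ) * ((γ 1 1 : ℤ) : ℝ) - ((γ 0 1 : ℤ) : ℝ) * ((γ 1 0 : ℤ) : ℝ) = 1 := by
    exact_mod_cast hdet
  have hs2' : s ^ 2 = 4 - (((γ 0 0 : ℤ) : ℝ) + ((γ 1 1 : ℤ) : ℝ)) ^ 2 := by
    rw [hs2]
    push_cast
    ring
  -- the two real equations
  have e1 : 2 * ((γ 1 0 : ℤ) : ℝ) * u = ((γ 0 0 : ℤ) : ℝ) - ((γ 1 1 : ℤ) : ℝ) := by
    rw [hu]
    field_simp
  have e2 : (2 * ((γ 1 0 : ℤ) : ℝ) * v) ^ 2 = s ^ 2 := by
    have : 2 * ((γ 1 0 : ℤ) : ℝ) * v = ε * s := by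
      rw [hv]
      field_simp
    rw [this, mul_pow, hε, one_mul]
  clear_value u v s
  refine ⟨⟨⟨u, v⟩, hv0⟩, ?_⟩
  apply UpperHalfPlane.ext
  rw [ty_coe_smul]
  have hden := ty_denom_ne_zero γ ⟨⟨u, v⟩, hv0⟩
  show tyMob γ (⟨u, v⟩ : ℂ) = (⟨u, v⟩ : ℂ)
  unfold tyMob
  rw [div_eq_iff hden]
  apply Complex.ext
  · simp only [Complex.add_re, Complex.mul_re, Complex.intCast_re, Complex.intCast_im,
      Complex.add_im, Complex.mul_im, zero_mul, sub_zero, add_zero]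
    have h4c : (4 * ((γ 1 0 : ℤ) : ℝ)) ≠ 0 := mul_ne_zero (by norm_num) hcR
    have key : (4 * ((γ 1 0 : ℤ) : ℝ)) * (((γ 0 0 : ℤ) : ℝ) * u + ((γ 0 1 : ℤ) : ℝ)
        - (u * (((γ 1 0 : ℤ) : ℝ) * u + ((γ 1 1 : ℤ) : ℝ)) - v * (((γ 1 0 : ℤ) : ℝ) * v))) = 0 := by
      linear_combination (-(2 * ((γ 1 0 : ℤ) : ℝ) * u - (((γ 0 0 : ℤ) : ℝ) - ((γ 1 1 : ℤ) : ℝ))))
        * e1 + e2 + hs2' - 4 * hdetR
    have := (mul_eq_zero.mp key).resolve_left h4c
    linarith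
  · simp only [Complex.add_re, Complex.mul_re, Complex.intCast_re, Complex.intCast_im,
      Complex.add_im, Complex.mul_im, zero_mul, sub_zero, add_zero]
    linear_combination (-v) * e1

/-- An element of `SL(2, ℤ)` with lower left entry `0` is `± T ^ n`. -/
theorem phi_upper (M : SL(2, ℤ)) (h : M 1 0 = 0) :
    ∃ n : ℤ, M = ModularGroup.T ^ n ∨ M = -ModularGroup.T ^ n := by
  have hdet : M 0 0 * M 1 1 - M 0 1 * M 1 0 = 1 := det_rel M
  rw [h, mul_zero, sub_zero] at hdet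
  rcases Int.eq_one_or_neg_one_of_mul_eq_one' hdet with ⟨h1, h2⟩ | ⟨h1, h2⟩
  · refine ⟨M 0 1, Or.inl ?_⟩
    ext i j
    rw [ModularGroup.coe_T_zpow]
    fin_cases i <;> fin_cases j <;> simp [h, h1, h2]
  · refine ⟨-M 0 1, Or.inr ?_⟩
    ext i j
    rw [Matrix.SpecialLinearGroup.coe_neg, ModularGroup.coe_T_zpow]
    fin_cases i <;> fin_cases j <;> simp [h, h1, h2]

section PhiRange

variable (N : ℕ) [NeZero N] (p : ℕ) [NeZero p]

set_option quotPrecheck false in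
local notation "FC" =>
  ↥(ModularCurve.laurentBaseChange ℂ (ModularCurve.modularFunctionFieldFull N))
local notation "Xc" => SL(2, ℤ) ⧸ CongruenceSubgroup.Gamma0 N

/-- `phiHom` kills the generator of the stabiliser of the cusp attached to a coset. -/
theorem phiC_cusp_gen (c : ↥(Pic0.torsion ℂ FC p)) (q : Xc)
    (γ₀ : ↥(CongruenceSubgroup.Gamma0 N))
    (hγ₀ : (γ₀ : SL(2, ℤ)) = q.out⁻¹ * ModularGroup.T ^
      (Function.minimalPeriod (MulAction.toPerm ModularGroup.T : Equiv.Perm Xc) q) * q.out) :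
    phiHom (phiModelC N) p c (Additive.ofMul γ₀) = 0 := by
  obtain ⟨P, -, -, hmult⟩ := plc_cusp_point N q
  have hwN := plc_minimalPeriod_T_dvd N q
  have hw0 : 0 < Function.minimalPeriod (MulAction.toPerm ModularGroup.T : Equiv.Perm Xc) q :=
    Nat.pos_of_dvd_of_pos hwN (NeZero.pos N)
  refine phi_cusp (phiModelC N) p c q.out⁻¹ _ N hw0 (NeZero.pos N) hwN γ₀
    (by rw [hγ₀, inv_inv]) (fun a => plc_cusp_isWH N q.out a.2) P ?_
  intro a ha
  have hι : (phiModelC N).ι a ≠ 0 := by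
    intro h0
    exact ha ((phiModelC N).ι_injective (by rw [h0, map_zero]))
  have h1 := hmult _ hι
  have h2 : plcCusp N q ((phiModelC N).ι a) = plcCuspTheta N q.out a := by
    have hf : ((((phiModelC N).ι a : FC)) : LaurentSeries ℂ) = plcκA N a / plcκA N 1 := by
      rw [map_one, div_one]
      rfl
    have h3 := plcLift_eq_of_q N (plcCuspTheta N q.out) (plcCuspTheta_injective N q.out)
      ((phiModelC N).ι a) a 1 one_ne_zero hf
    rw [map_one, div_one] at h3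
    exact h3
  rw [h2] at h1
  exact h1

/-- `phiHom` kills the whole stabiliser of the cusp attached to a coset. -/
theorem phiC_cusp_zpow (c : ↥(Pic0.torsion ℂ FC p)) (q : Xc)
    (x : ↥(CongruenceSubgroup.Gamma0 N)) (n : ℤ)
    (hx : (x : SL(2, ℤ)) = q.out⁻¹ * ModularGroup.T ^ n * q.out) :
    phiHom (phiModelC N) p c (Additive.ofMul x) = 0 := by
  set w := Function.minimalPeriod (MulAction.toPerm ModularGroup.T : Equiv.Perm Xc) q with hw
  -- `T ^ n` fixes `q`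
  have hq : (ModularGroup.T ^ n) • q = q := by
    conv_lhs => rw [← QuotientGroup.out_eq' q]
    conv_rhs => rw [← QuotientGroup.out_eq' q]
    show ((ModularGroup.T ^ n * q.out : SL(2, ℤ)) : Xc) = ((q.out : SL(2, ℤ)) : Xc)
    rw [eq_comm, QuotientGroup.eq, ← mul_assoc, ← hx]
    exact x.2
  have hdvd : (w : ℤ) ∣ n := by
    have := (MulAction.zpow_smul_eq_iff_minimalPeriod_dvd (a := ModularGroup.T) (b := q)
      (n := n)).mp hq
    exact this
  obtain ⟨e, rfl⟩ := hdvd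
  -- the generator
  have hmem : q.out⁻¹ * ModularGroup.T ^ w * q.out ∈ CongruenceSubgroup.Gamma0 N := by
    have h1 := plc_T_pow_minimalPeriod_smul N q
    rw [← hw] at h1
    have h2 : ((ModularGroup.T ^ w * q.out : SL(2, ℤ)) : Xc) = ((q.out : SL(2, ℤ)) : Xc) := by
      have h3 : ((ModularGroup.T ^ w * q.out : SL(2, ℤ)) : Xc)
          = (ModularGroup.T ^ w) • ((q.out : SL(2, ℤ)) : Xc) := rfl
      rw [h3, QuotientGroup.out_eq', h1]
    rw [eq_comm, QuotientGroup.eq, ← mul_assoc] at h2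
    exact h2
  have hgen := phiC_cusp_gen N p c q ⟨_, hmem⟩ rfl
  have hxe : x = (⟨_, hmem⟩ : ↥(CongruenceSubgroup.Gamma0 N)) ^ e := by
    apply Subtype.ext
    rw [hx, Subgroup.coe_zpow]
    show q.out⁻¹ * ModularGroup.T ^ ((w : ℤ) * e) * q.out
      = (q.out⁻¹ * ModularGroup.T ^ w * q.out) ^ e
    rw [zpow_mul, zpow_natCast]
    have := conj_zpow (a := q.out⁻¹) (b := ModularGroup.T ^ w) (i := e)
    rw [inv_inv] at this
    exact this.symm
  rw [hxe, ofMul_zpow, map_zsmul, hgen, smul_zero]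

/-- `-1` is killed by `phiHom`. -/
theorem phiC_neg_one (c : ↥(Pic0.torsion ℂ FC p)) (x : ↥(CongruenceSubgroup.Gamma0 N))
    (hx : (x : SL(2, ℤ)) = -1) :
    phiHom (phiModelC N) p c (Additive.ofMul x) = 0 := by
  refine phi_fixed (phiModelC N) p c x UpperHalfPlane.I ?_
  rw [hx, ModularGroup.SL_neg_smul, one_smul]

/-- **S30 export (i)**: the comparison homomorphism of a torsion class of `F_ℂ` kills all
elements of `Γ₀(N)` with `|trace| ≤ 2` (elliptic elements, `± 1`, parabolic elements). -/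
theorem phiC_trace_le_two (c : ↥(Pic0.torsion ℂ FC p)) (γ : ↥(CongruenceSubgroup.Gamma0 N))
    (ht : |((γ : SL(2, ℤ)) : Matrix (Fin 2) (Fin 2) ℤ).trace| ≤ 2) :
    phiHom (phiModelC N) p c (Additive.ofMul γ) = 0 := by
  rcases lt_or_eq_of_le ht with h | h
  · obtain ⟨τ₀, hτ₀⟩ := phi_exists_fixed (γ : SL(2, ℤ)) h
    exact phi_fixed (phiModelC N) p c γ τ₀ hτ₀
  · have h2 : ((γ : SL(2, ℤ)) : Matrix (Fin 2) (Fin 2) ℤ).trace ^ 2 = 4 := by
      rw [← sq_abs, h]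
      norm_num
    obtain ⟨δ', hδ'⟩ := Fermat.Agent.S20.period_exists_conj (γ : SL(2, ℤ)) h2
    obtain ⟨n, hn⟩ := phi_upper _ hδ'
    obtain ⟨g0, hg0⟩ := QuotientGroup.mk_out_eq_mul (CongruenceSubgroup.Gamma0 N) δ'⁻¹
    set q : Xc := ((δ'⁻¹ : SL(2, ℤ)) : Xc) with hq
    -- the conjugate of `γ` by `g0`
    have hconj : ((g0⁻¹ * γ * g0 : ↥(CongruenceSubgroup.Gamma0 N)) : SL(2, ℤ))
        = q.out⁻¹ * (δ'⁻¹ * (γ : SL(2, ℤ)) * δ') * q.out := by
      rw [hg0]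
      push_cast
      group
    have hΦ : phiHom (phiModelC N) p c (Additive.ofMul (g0⁻¹ * γ * g0))
        = phiHom (phiModelC N) p c (Additive.ofMul γ) := by
      rw [ofMul_mul, ofMul_mul, ofMul_inv, map_add, map_add, map_neg]
      abel
    rw [← hΦ]
    rcases hn with hn | hn
    · exact phiC_cusp_zpow N p c q _ n (by rw [hconj, hn])
    · -- multiply by `-1`
      have hm1 : (-1 : SL(2, ℤ)) ∈ CongruenceSubgroup.Gamma0 N := by
        rw [CongruenceSubgroup.Gamma0_mem]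
        simp
      have h1 := phiC_neg_one N p c ⟨-1, hm1⟩ rfl
      have h3 : phiHom (phiModelC N) p c
          (Additive.ofMul ((⟨-1, hm1⟩ : ↥(CongruenceSubgroup.Gamma0 N)) * (g0⁻¹ * γ * g0))) = 0 := by
        refine phiC_cusp_zpow N p c q _ n ?_
        rw [Subgroup.coe_mul, hconj, hn]
        show (-1 : SL(2, ℤ)) * (q.out⁻¹ * -ModularGroup.T ^ n * q.out)
          = q.out⁻¹ * ModularGroup.T ^ n * q.out
        rw [neg_mul, one_mul, mul_neg, neg_mul, neg_neg]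
      rw [ofMul_mul, map_add, h1, zero_add] at h3
      exact h3

/-- The same statement for the set `redS N`. -/
theorem phiC_redS (c : ↥(Pic0.torsion ℂ FC p)) :
    ∀ s ∈ redS N, phiHom (phiModelC N) p c s = 0 := by
  intro s hs
  exact phiC_trace_le_two N p c (Additive.toMul s) hs

end PhiRange

end Fermat.Agent.S29
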