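import Fermat.Agent.S29.CompareGenMain
import Fermat.Agent.S29.PhiRange

/-!
# S29 / S30 / S31, package CMP-GEN: the exact range of the comparison homomorphism

`cmg_redS`: every `cmgPhi N m c` kills the elements of `Γ₀(N)` with `|trace| ≤ 2`;
`cmg_range`: the range of `cmgPhi N m` is exactly the set of these homomorphisms;
`cmg_mem_range_iff`: membership form.
-/

set_option autoImplicit false

open AlgebraicCurve ModularCurve

namespace Fermat.Agent.S29

local notation "Qb" => AlgebraicClosure ℚ

attribute [local instance] cmgAlg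

variable (N : ℕ) [NeZero N] (m : ℕ) [NeZero m]

/-- The comparison homomorphisms kill the elements of `Γ₀(N)` with `|trace| ≤ 2`. -/
theorem cmg_redS (c : ↥(Pic0.torsion Qb (modularFunctionFieldBar N) m)) :
    ∀ s ∈ redS N, cmgPhi N m c s = 0 :=
  phiC_redS N m (bcsTorsHom Qb ℂ N m c)

/-- **The range of the comparison homomorphism**, membership form. -/
theorem cmg_mem_range_iff (ψ : Additive ↥(CongruenceSubgroup.Gamma0 N) →+ ZMod m) :
    ψ ∈ Set.range (cmgPhi N m) ↔ ∀ s ∈ redS N, ψ s = 0 := by
  constructor
  · rintro ⟨c, rfl⟩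
    exact cmg_redS N m c
  · exact cmg_surj N m ψ

/-- **The range of the comparison homomorphism** is the set of the homomorphisms killing the
elements with `|trace| ≤ 2`. -/
theorem cmg_range :
    Set.range (cmgPhi N m) =
      {ψ : Additive ↥(CongruenceSubgroup.Gamma0 N) →+ ZMod m | ∀ s ∈ redS N, ψ s = 0} :=
  Set.ext fun ψ => cmg_mem_range_iff N m ψ

end Fermat.Agent.S29
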