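import Mathlib

/-!
# S29, package E2 [REDUCTION]: reduction of complex Hecke eigenvectors modulo a prime

Everything here is pure algebra over Mathlib.  `ℤ̄ := integralClosure ℤ ℂ`.

* `egr_core`: Nakayama core.  A finitely generated torsion-free nontrivial module over a domain
  has a nonzero `φ`-semilinear functional, for `φ` a ring hom to a field with maximal kernel.
* `egr_ker_isMaximal`: the kernel of `ℤ̄ →+* k` is maximal when `k` has characteristic `p`.
* `egr_isIntegral`: eigenvalues on a finitely generated group of periods are algebraic integers.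
* `egr_hom`: a nonzero `ψ : G →+ ℂ` (`G` finitely generated) reduces to a nonzero `ψ' : G →+ k`
  satisfying (the `φ`-images of) all `ℤ̄`-linear relations between the values of `ψ`.
* `egr_eigen`, `egr_eigen_charP`: the eigenvector form consumed by the period package.
* `egr_gamma0_fg`: `Γ₀(N)` is finitely generated (Schreier), in the additive form needed above.
-/

set_option autoImplicit false

namespace Fermat.Agent.S29

/-- Nakayama core of the reduction step: a finitely generated, torsion-free, nontrivial module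
`S` over a domain `R` has a NONZERO `φ`-semilinear functional to `k`, for every ring
homomorphism `φ : R →+* k` to a field with maximal kernel. -/
theorem egr_core {R : Type*} [CommRing R] [IsDomain R] {S : Type*} [AddCommGroup S] [Module R S]
    [Module.Finite R S] [Nontrivial S] [Module.IsTorsionFree R S]
    {k : Type*} [Field k] (φ : R →+* k) (hφ : (RingHom.ker φ).IsMaximal) :
    ∃ Φ : S →ₛₗ[φ] k, Φ ≠ 0 := by
  classical
  set 𝔮 : Ideal R := RingHom.ker φ with h𝔮
  -- Nakayama: `𝔮 • ⊤ ≠ ⊤`.
  have hne : (𝔮 • (⊤ : Submodule R S)) ≠ ⊤ := by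
    intro htop
    obtain ⟨r, hr, hr0⟩ := Submodule.exists_sub_one_mem_and_smul_eq_zero_of_fg_of_le_smul 𝔮
      (⊤ : Submodule R S) (Module.finite_def.mp inferInstance) (by rw [htop])
    obtain ⟨s, hs⟩ := exists_ne (0 : S)
    have h0 : r = 0 := by
      rcases smul_eq_zero.mp (hr0 s Submodule.mem_top) with h | h
      · exact h
      · exact absurd h hs
    rw [h0, zero_sub] at hr
    have h1 : (1 : R) ∈ 𝔮 := by simpa using 𝔮.neg_mem hr
    exact hφ.ne_top ((Ideal.eq_top_iff_one 𝔮).mpr h1)
  let _ : Field (R ⧸ 𝔮) := Ideal.Quotient.field 𝔮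
  have : Nontrivial (S ⧸ 𝔮 • (⊤ : Submodule R S)) := Submodule.Quotient.nontrivial_iff.mpr hne
  -- a nonzero functional on the nonzero `R ⧸ 𝔮`-vector space `S ⧸ 𝔮 S`
  obtain ⟨x, hx⟩ := exists_ne (0 : S ⧸ 𝔮 • (⊤ : Submodule R S))
  have hex : ∃ f : Module.Dual (R ⧸ 𝔮) (S ⧸ 𝔮 • (⊤ : Submodule R S)), f x ≠ 0 := by
    by_contra hcon
    refine hx ((Module.forall_dual_apply_eq_zero_iff (R ⧸ 𝔮) x).mp fun f => ?_)
    by_contra hfx
    exact hcon ⟨f, hfx⟩
  obtain ⟨f, hf⟩ := hex
  let ι : R ⧸ 𝔮 →+* k := Ideal.Quotient.lift 𝔮 φ (fun a ha => by simpa [h𝔮] using ha)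
  have hι : Function.Injective ι := ι.injective
  refine ⟨{ toFun := fun s => ι (f (Submodule.Quotient.mk s))
            map_add' := fun s t => by simp
            map_smul' := fun r s => ?_ }, ?_⟩
  · have h1 : (Submodule.Quotient.mk (r • s) : S ⧸ 𝔮 • (⊤ : Submodule R S))
        = (Ideal.Quotient.mk 𝔮 r) • (Submodule.Quotient.mk s : S ⧸ 𝔮 • (⊤ : Submodule R S)) := rfl
    simp only [h1, map_smul, smul_eq_mul, map_mul]
    rfl
  · intro h0
    obtain ⟨s, rfl⟩ := Submodule.Quotient.mk_surjective _ x
    have : ι (f (Submodule.Quotient.mk s)) = 0 := by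
      have := congrArg (fun Φ : S →ₛₗ[φ] k => Φ s) h0
      simpa using this
    exact hf (hι (by simpa using this))

/-- A ring homomorphism from the ring of all algebraic integers to a field of positive
characteristic has maximal kernel. -/
theorem egr_ker_isMaximal {k : Type*} [Field k] (p : ℕ) [Fact p.Prime] [CharP k p]
    (φ : integralClosure ℤ ℂ →+* k) : (RingHom.ker φ).IsMaximal := by
  have hprime : (RingHom.ker φ).IsPrime := RingHom.ker_isPrime φ
  have hint : Algebra.IsIntegral ℤ (integralClosure ℤ ℂ) := inferInstance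
  apply Ideal.isMaximal_of_isIntegral_of_isMaximal_comap (R := ℤ) (RingHom.ker φ)
  have hcp : ((RingHom.ker φ).comap (algebraMap ℤ (integralClosure ℤ ℂ))).IsPrime :=
    Ideal.comap_isPrime _ _
  refine hcp.isMaximal ?_
  intro hbot
  have hmem : (p : ℤ) ∈ (RingHom.ker φ).comap (algebraMap ℤ (integralClosure ℤ ℂ)) := by
    rw [Ideal.mem_comap]; simp
  rw [hbot, Ideal.mem_bot] at hmem
  exact (Fact.out : p.Prime).ne_zero (by exact_mod_cast hmem)

/-- The `ℤ̄`-span of the values of an additive character of a finitely generated group is a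
finitely generated `ℤ̄`-module. -/
theorem egr_span_fg {G : Type*} [AddGroup G] [AddGroup.FG G] (ψ : G →+ ℂ) :
    (Submodule.span (integralClosure ℤ ℂ) (Set.range ψ)).FG := by
  obtain ⟨T, hT, hTfin⟩ := AddGroup.fg_iff.mp (inferInstance : AddGroup.FG G)
  have hle : Submodule.span (integralClosure ℤ ℂ) (Set.range ψ)
      = Submodule.span (integralClosure ℤ ℂ) (ψ '' T) := by
    apply le_antisymm
    · rw [Submodule.span_le]
      rintro _ ⟨g, rfl⟩
      have hg : g ∈ AddSubgroup.closure T := by rw [hT]; trivial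
      induction hg using AddSubgroup.closure_induction with
      | mem x hx => exact Submodule.subset_span ⟨x, hx, rfl⟩
      | zero => rw [map_zero]; exact Submodule.zero_mem _
      | add x y _ _ hx hy => rw [map_add]; exact Submodule.add_mem _ hx hy
      | neg x _ hx => rw [map_neg]; exact Submodule.neg_mem _ hx
    · exact Submodule.span_mono (Set.image_subset_range _ _)
  rw [hle]
  exact Submodule.fg_span (hTfin.image _)

/-- Integrality of eigenvalues: if multiplication by `a` preserves the (finitely generated,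
nonzero) group of values of an additive character `ψ`, then `a` is an algebraic integer. -/
theorem egr_isIntegral {G : Type*} [AddGroup G] [AddGroup.FG G] (ψ : G →+ ℂ) (hψ : ψ ≠ 0)
    (a : ℂ) (ha : ∀ g, a * ψ g ∈ Set.range ψ) : IsIntegral ℤ a := by
  obtain ⟨T, hT, hTfin⟩ := AddGroup.fg_iff.mp (inferInstance : AddGroup.FG G)
  have hmem : ∀ g, ψ g ∈ Submodule.span ℤ (ψ '' T) := by
    intro g
    have hg : g ∈ AddSubgroup.closure T := by rw [hT]; trivial
    induction hg using AddSubgroup.closure_induction with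
    | mem x hx => exact Submodule.subset_span ⟨x, hx, rfl⟩
    | zero => rw [map_zero]; exact Submodule.zero_mem _
    | add x y _ _ hx hy => rw [map_add]; exact Submodule.add_mem _ hx hy
    | neg x _ hx => rw [map_neg]; exact Submodule.neg_mem _ hx
  refine isIntegral_of_smul_mem_submodule (R := ℤ) (A := ℂ) (M := ℂ) (Submodule.span ℤ (ψ '' T))
    ?_ (Submodule.fg_span (hTfin.image _)) a ?_
  · intro hbot
    apply hψ
    ext g
    have := hmem g
    rw [hbot, Submodule.mem_bot] at this
    simpa using this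
  · intro n hn
    induction hn using Submodule.span_induction with
    | mem x hx =>
      obtain ⟨g, _, rfl⟩ := hx
      obtain ⟨g', hg'⟩ := ha g
      rw [smul_eq_mul, ← hg']
      exact hmem g'
    | zero => rw [smul_zero]; exact Submodule.zero_mem _
    | add x y _ _ hx hy => rw [smul_add]; exact Submodule.add_mem _ hx hy
    | smul c x _ hx => rw [smul_comm]; exact Submodule.smul_mem _ c hx

/-- **Reduction of additive characters.**  Let `ψ : G →+ ℂ` be a nonzero additive character of
a finitely generated group and `φ : ℤ̄ →+* k` a ring homomorphism to a field with maximal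
kernel.  Then there is a NONZERO additive character `ψ' : G →+ k` such that every `ℤ̄`-linear
relation between the values of `ψ` holds, after applying `φ` to the coefficients, between the
corresponding values of `ψ'`. -/
theorem egr_hom.{u, v, w} {G : Type u} [AddGroup G] [AddGroup.FG G] (ψ : G →+ ℂ) (hψ : ψ ≠ 0)
    {k : Type v} [Field k] (φ : integralClosure ℤ ℂ →+* k) (hφ : (RingHom.ker φ).IsMaximal) :
    ∃ ψ' : G →+ k, ψ' ≠ 0 ∧
      ∀ (I : Type w) (s : Finset I) (b : I → integralClosure ℤ ℂ) (γ : I → G),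
        ∑ i ∈ s, (b i : ℂ) * ψ (γ i) = 0 → ∑ i ∈ s, φ (b i) * ψ' (γ i) = 0 := by
  classical
  set S : Submodule (integralClosure ℤ ℂ) ℂ :=
    Submodule.span (integralClosure ℤ ℂ) (Set.range ψ) with hS
  have hfg : S.FG := egr_span_fg ψ
  have hin : ∀ g, ψ g ∈ S := fun g => Submodule.subset_span ⟨g, rfl⟩
  have : Module.Finite (integralClosure ℤ ℂ) S := Module.Finite.iff_fg.mpr hfg
  have : Nontrivial S := by
    obtain ⟨g, hg⟩ : ∃ g, ψ g ≠ 0 := by
      by_contra hcon
      apply hψ
      ext g
      by_contra hg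
      exact hcon ⟨g, hg⟩
    exact ⟨⟨⟨ψ g, hin g⟩, 0, fun h => hg (congrArg Subtype.val h)⟩⟩
  obtain ⟨Φ, hΦ⟩ := egr_core (S := S) φ hφ
  let ψ' : G →+ k :=
    { toFun := fun g => Φ ⟨ψ g, hin g⟩
      map_zero' := by
        have : (⟨ψ 0, hin 0⟩ : S) = 0 := Subtype.ext (map_zero ψ)
        rw [this, map_zero]
      map_add' := fun g h => by
        have : (⟨ψ (g + h), hin (g + h)⟩ : S) = ⟨ψ g, hin g⟩ + ⟨ψ h, hin h⟩ :=
          Subtype.ext (map_add ψ g h)
        rw [this, map_add] }
  have hψ' : ∀ g, ψ' g = Φ ⟨ψ g, hin g⟩ := fun g => rfl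
  refine ⟨ψ', ?_, ?_⟩
  · intro h0
    apply hΦ
    ext ⟨x, hx⟩
    induction hx using Submodule.span_induction with
    | mem x hx =>
      obtain ⟨g, rfl⟩ := hx
      have := congrArg (fun f : G →+ k => f g) h0
      simpa [hψ'] using this
    | zero =>
      have : (⟨0, S.zero_mem⟩ : S) = 0 := rfl
      rw [this, map_zero, map_zero]
    | add x y hx hy ihx ihy =>
      have : (⟨x + y, S.add_mem hx hy⟩ : S) = ⟨x, hx⟩ + ⟨y, hy⟩ := rfl
      rw [this, map_add, ihx, ihy]; simp
    | smul c x hx ihx =>
      have : (⟨c • x, S.smul_mem c hx⟩ : S) = c • ⟨x, hx⟩ := rfl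
      rw [this, map_smulₛₗ, ihx]; simp
  · intro I s b γ hrel
    have h1 : ∑ i ∈ s, φ (b i) * ψ' (γ i) = Φ (∑ i ∈ s, b i • (⟨ψ (γ i), hin (γ i)⟩ : S)) := by
      rw [map_sum]
      refine Finset.sum_congr rfl fun i _ => ?_
      rw [map_smulₛₗ, hψ', smul_eq_mul]
    have h2 : (∑ i ∈ s, b i • (⟨ψ (γ i), hin (γ i)⟩ : S)) = 0 := by
      apply Subtype.ext
      rw [Submodule.coe_sum]
      simpa [Algebra.smul_def] using hrel
    rw [h1, h2, map_zero]

/-- **E2 [REDUCTION], eigenvector form.**  `G` a finitely generated group (written additively,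
not necessarily commutative: e.g. `Additive Γ`), `ψ : G →+ ℂ` a nonzero additive character
which is a simultaneous eigenvector, with eigenvalues `a l`, of operators of "transfer" shape
`(T_l ψ) g = ∑ j, ψ (s l j g)` (`s l j : G → G` arbitrary functions, `j` in a finite type).
Then every `a l` is an algebraic integer, and for every ring homomorphism `φ : ℤ̄ →+* k` to a
field with maximal kernel there is a NONZERO `ψ' : G →+ k` which is an eigenvector of the same
operators with eigenvalues `φ (a l)`, and which vanishes wherever `ψ` vanishes (so parabolic,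
elliptic, ... vanishing conditions are inherited). -/
theorem egr_eigen.{u, v, w, x} {G : Type u} [AddGroup G] [AddGroup.FG G] (ψ : G →+ ℂ)
    (hψ : ψ ≠ 0) {ι : Type x} {J : ι → Type w} [∀ l, Fintype (J l)] (s : ∀ l, J l → G → G)
    (a : ι → ℂ) (hT : ∀ l g, ∑ j, ψ (s l j g) = a l * ψ g)
    {k : Type v} [Field k] (φ : integralClosure ℤ ℂ →+* k) (hφ : (RingHom.ker φ).IsMaximal) :
    (∀ l, IsIntegral ℤ (a l)) ∧
      ∃ ψ' : G →+ k, ψ' ≠ 0 ∧ (∀ g, ψ g = 0 → ψ' g = 0) ∧
        ∀ l (ā : integralClosure ℤ ℂ), (ā : ℂ) = a l →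
          ∀ g, ∑ j, ψ' (s l j g) = φ ā * ψ' g := by
  classical
  refine ⟨fun l => egr_isIntegral ψ hψ (a l) fun g => ?_, ?_⟩
  · have : a l * ψ g ∈ ψ.range := by
      rw [← hT]
      exact sum_mem fun j _ => ⟨_, rfl⟩
    exact AddMonoidHom.mem_range.mp this
  · obtain ⟨ψ', hψ', hrel⟩ := egr_hom.{u, v, w} ψ hψ φ hφ
    refine ⟨ψ', hψ', fun g hg => ?_, fun l ā hā g => ?_⟩
    · have := hrel PUnit {PUnit.unit} (fun _ => 1) (fun _ => g) (by simpa using hg)
      simpa using this
    · have := hrel (Option (J l)) Finset.univ (fun o => o.elim (-ā) fun _ => 1)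
        (fun o => o.elim g fun j => s l j g)
        (by
          rw [Fintype.sum_option]
          simp only [Option.elim_none, Option.elim_some, OneMemClass.coe_one, one_mul]
          rw [hT l g]
          push_cast
          rw [hā]; ring)
      rw [Fintype.sum_option] at this
      simp only [Option.elim_none, Option.elim_some, map_one, one_mul, map_neg] at this
      linear_combination this

/-- `egr_eigen` for a field `k` of characteristic `p` (the kernel of `φ` is then automatically
maximal). -/
theorem egr_eigen_charP.{u, v, w, x} {G : Type u} [AddGroup G] [AddGroup.FG G] (ψ : G →+ ℂ)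
    (hψ : ψ ≠ 0) {ι : Type x} {J : ι → Type w} [∀ l, Fintype (J l)] (s : ∀ l, J l → G → G)
    (a : ι → ℂ) (hT : ∀ l g, ∑ j, ψ (s l j g) = a l * ψ g)
    {k : Type v} [Field k] (p : ℕ) [Fact p.Prime] [CharP k p]
    (φ : integralClosure ℤ ℂ →+* k) :
    (∀ l, IsIntegral ℤ (a l)) ∧
      ∃ ψ' : G →+ k, ψ' ≠ 0 ∧ (∀ g, ψ g = 0 → ψ' g = 0) ∧
        ∀ l (ā : integralClosure ℤ ℂ), (ā : ℂ) = a l →
          ∀ g, ∑ j, ψ' (s l j g) = φ ā * ψ' g :=
  egr_eigen ψ hψ s a hT φ (egr_ker_isMaximal p φ)

open scoped MatrixGroups in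
/-- `Γ₀(N)` is finitely generated (Schreier's lemma), in the additive form needed to apply
`egr_eigen` with `G := Additive (Gamma0 N)`. -/
theorem egr_gamma0_fg (N : ℕ) [NeZero N] :
    AddGroup.FG (Additive (CongruenceSubgroup.Gamma0 N)) := by
  have h1 : Group.FG SL(2, ℤ) := by
    rw [Group.fg_iff]
    exact ⟨{ModularGroup.S, ModularGroup.T}, SpecialLinearGroup.SL2Z_generators,
      by simp⟩
  have h2 : Group.FG (CongruenceSubgroup.Gamma0 N) := inferInstance
  exact inferInstance

end Fermat.Agent.S29
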