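import Fermat.Agent.S29.PlCPlaces

/-!
# Stage 3 (S29), package PLACES-C, part 6: consumer interface

The places of `F_ℂ = ℂ(j(q^d), d ∣ N) ⊆ ℂ((q))` in terms of orders of vanishing of holomorphic
functions on the upper half plane:

* `plcLift_eq_of_q`: the lift of `Θ` at `f` is `Θ g / Θ h` for EVERY representation of the
  `q`-expansion of `f` as a quotient `plcκA g / plcκA h` of `q`-expansions of elements of the
  analytic ring `anaRingC N`.
* `plcTheta_order`: the order of the Taylor point is the analytic order of vanishing.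
* `plc_place_at`: every `τ ∈ ℍ` has a place `P` and a multiplicity `m > 0` with
  `ord_τ g - ord_τ h = m * ord_P f` whenever `f = g / h`.
* `plc_classify_an`: every place is of this form with `m ∈ {1, 2, 3}`, or a cusp place.
-/

set_option autoImplicit false
set_option linter.style.haveILetI false

open AlgebraicCurve IntermediateField UpperHalfPlane ModularForm EisensteinSeries
open scoped MatrixGroups Manifold
open Fermat.Agent.S24

namespace Fermat.Agent.S29

section PlcApi

variable (N : ℕ) [NeZero N]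

set_option quotPrecheck false in
local notation "FC" => ↥(ModularCurve.laurentBaseChange ℂ (ModularCurve.modularFunctionFieldFull N))
local notation "Xc" => SL(2, ℤ) ⧸ CongruenceSubgroup.Gamma0 N

/-- the lift at `f` can be computed from any representation of the `q`-expansion of `f` as a
quotient of `q`-expansions of elements of the analytic ring. -/
theorem plcLift_eq_of_q {E : Type} [Field E] (Θ : anaRingC N →+* E) (hΘ : Function.Injective Θ)
    (f : FC) (g h : anaRingC N) (hh : h ≠ 0)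
    (hf : (f : LaurentSeries ℂ) = plcκA N g / plcκA N h) :
    plcLift N Θ hΘ f = Θ g / Θ h := by
  obtain ⟨P, rfl⟩ := plc_evA_surjective N g
  obtain ⟨Q, rfl⟩ := plc_evA_surjective N h
  have h1 : ∀ P : MvPolynomial (plcIdx N) ℂ, plcκF N (plcEvF N P) = plcκA N (plcEvA N P) :=
    fun P => congrArg (fun φ => φ P) (plc_comp_eq N)
  have hQ : plcEvF N Q ≠ 0 := fun h0 => hh ((plc_evF_eq_zero_iff N Q).mp h0)
  have hfe : f = plcEvF N P / plcEvF N Q := by
    apply plcκF_injective N
    rw [map_div₀, h1, h1]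
    exact hf
  rw [plcLift_apply]
  exact plc_lift_eq N Θ hΘ f P Q hQ hfe

/-- precomposition with an element of `SL(2, ℤ)` moves the order of vanishing. -/
theorem plc_order_taylorAt_smul (τ₀ : ℍ) (γ : SL(2, ℤ)) {g : ℍ → ℂ} (hg : MDiff g) :
    (taylorAt τ₀ (fun τ => g (γ • τ))).order = (taylorAt (γ • τ₀) g).order := by
  have h0 := ty_denom_ne_zero γ τ₀
  have hder : deriv (tyMob γ) (τ₀ : ℂ) ≠ 0 := by
    rw [(ty_mob_hasDerivAt γ τ₀).deriv]
    exact inv_ne_zero (pow_ne_zero 2 h0)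
  rw [ty_order_taylorAt τ₀ (sysfin_mdiff_smul γ hg), ty_order_taylorAt (γ • τ₀) hg,
    analyticOrderAt_congr (ty_comp_eventuallyEq γ τ₀ g),
    analyticOrderAt_comp_of_deriv_ne_zero (ty_mob_analyticAt γ τ₀) hder, ty_coe_smul]

/-- the order of the Taylor point is the analytic order of vanishing. -/
theorem plcTheta_order (τ₀ : ℍ) (γ : SL(2, ℤ)) (g : anaRingC N) (hg : g ≠ 0) :
    (plcTheta N τ₀ γ g).order =
      (analyticOrderNatAt ((g : ℍ → ℂ) ∘ ofComplex) ((γ⁻¹ • τ₀ : ℍ) : ℂ) : ℤ) := by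
  obtain ⟨n, hn, hn'⟩ := plc_theta_order N τ₀ γ g hg
  have hmd : MDiff (g : ℍ → ℂ) := plc_mdiff_of_mem N g.2
  rw [plc_order_taylorAt_smul τ₀ γ⁻¹ hmd, ty_order_taylorAt _ hmd] at hn
  rw [hn', analyticOrderNatAt, hn]
  rfl

/-- the order of the Laurent point at `τ₀`, `q` in terms of orders of vanishing. -/
theorem plcPhi_order (τ₀ : ℍ) (q : Xc) (f : FC) (g h : anaRingC N) (hg : g ≠ 0) (hh : h ≠ 0)
    (hf : (f : LaurentSeries ℂ) = plcκA N g / plcκA N h) :
    (plcPhi N τ₀ q f).order =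
      (analyticOrderNatAt ((g : ℍ → ℂ) ∘ ofComplex) ((q.out⁻¹ • τ₀ : ℍ) : ℂ) : ℤ) -
        (analyticOrderNatAt ((h : ℍ → ℂ) ∘ ofComplex) ((q.out⁻¹ • τ₀ : ℍ) : ℂ) : ℤ) := by
  rw [plcPhi_def, plcLift_eq_of_q N _ _ f g h hh hf]
  have hg1 := (plcTheta_injective N τ₀ q.out).ne hg
  have hh1 := (plcTheta_injective N τ₀ q.out).ne hh
  rw [map_zero] at hg1 hh1
  rw [sysfin_order_div _ _ hg1 hh1, plcTheta_order N τ₀ q.out g hg,
    plcTheta_order N τ₀ q.out h hh]

/-- the Laurent point at the cusp attached to `q` in terms of `q`-expansions. -/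
theorem plcCusp_order (q : Xc) (f : FC) (g h : anaRingC N) (hg : g ≠ 0) (hh : h ≠ 0)
    (hf : (f : LaurentSeries ℂ) = plcκA N g / plcκA N h) :
    (plcCusp N q f).order = (plcCuspTheta N q.out g).order - (plcCuspTheta N q.out h).order := by
  rw [plcCusp, plcLift_eq_of_q N _ _ f g h hh hf]
  have hg1 := (plcCuspTheta_injective N q.out).ne hg
  have hh1 := (plcCuspTheta_injective N q.out).ne hh
  rw [map_zero] at hg1 hh1
  rw [sysfin_order_div _ _ hg1 hh1]

/-- Every point `τ` of the upper half plane has a place of `F_ℂ`: the order of vanishing at `τ`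
of (a numerator minus a denominator of) `f` is a positive multiple `m * ord_P f`. -/
theorem plc_place_at (τ : ℍ) :
    ∃ (P : Place ℂ FC) (m : ℤ), 0 < m ∧
      ∀ (f : FC) (g h : anaRingC N), g ≠ 0 → h ≠ 0 →
        (f : LaurentSeries ℂ) = plcκA N g / plcκA N h →
        (analyticOrderNatAt ((g : ℍ → ℂ) ∘ ofComplex) (τ : ℂ) : ℤ) -
          (analyticOrderNatAt ((h : ℍ → ℂ) ∘ ofComplex) (τ : ℂ) : ℤ) = m * P.ord f := by
  obtain ⟨q⟩ : Nonempty Xc := ⟨((1 : SL(2, ℤ)) : Xc)⟩
  obtain ⟨P, m, hm0, -, hm⟩ := plc_point N (q.out • τ) q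
  refine ⟨P, m, hm0, fun f g h hg hh hf => ?_⟩
  have hf0 : f ≠ 0 := by
    intro h0
    rw [h0] at hf
    have hg1 := (plcκA_injective N).ne hg
    have hh1 := (plcκA_injective N).ne hh
    rw [map_zero] at hg1 hh1
    have : plcκA N g / plcκA N h ≠ 0 := div_ne_zero hg1 hh1
    exact this hf.symm
  have h1 := plcPhi_order N (q.out • τ) q f g h hg hh hf
  rw [inv_smul_smul] at h1
  rw [← h1, hm f hf0]

/-- Every place of `F_ℂ` is analytic: a point `τ` of the upper half plane with multiplicity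
`m ∈ {1, 2, 3}`, or a cusp `γ⁻¹ ∞` of width `w`, seen through the `q`-expansions of
`τ ↦ g (γ⁻¹ • (N τ))`. -/
theorem plc_classify_an (P : Place ℂ FC) :
    (∃ (τ : ℍ) (m : ℤ), (m = 1 ∨ m = 2 ∨ m = 3) ∧
      ∀ (f : FC) (g h : anaRingC N), g ≠ 0 → h ≠ 0 →
        (f : LaurentSeries ℂ) = plcκA N g / plcκA N h →
        (analyticOrderNatAt ((g : ℍ → ℂ) ∘ ofComplex) (τ : ℂ) : ℤ) -
          (analyticOrderNatAt ((h : ℍ → ℂ) ∘ ofComplex) (τ : ℂ) : ℤ) = m * P.ord f) ∨
    (∃ (γ : SL(2, ℤ)) (w : ℕ), 0 < w ∧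
      γ⁻¹ * (ModularGroup.T ^ w * γ) ∈ CongruenceSubgroup.Gamma0 N ∧
      ∀ (f : FC) (g h : anaRingC N), g ≠ 0 → h ≠ 0 →
        (f : LaurentSeries ℂ) = plcκA N g / plcκA N h →
        (w : ℤ) * ((plcCuspTheta N γ g).order - (plcCuspTheta N γ h).order) = (N : ℤ) * P.ord f) := by
  have hf0 : ∀ (f : FC) (g h : anaRingC N), g ≠ 0 → h ≠ 0 →
      (f : LaurentSeries ℂ) = plcκA N g / plcκA N h → f ≠ 0 := by
    intro f g h hg hh hf h0
    rw [h0] at hf
    have hg1 := (plcκA_injective N).ne hg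
    have hh1 := (plcκA_injective N).ne hh
    rw [map_zero] at hg1 hh1
    have : plcκA N g / plcκA N h ≠ 0 := div_ne_zero hg1 hh1
    exact this hf.symm
  rcases plc_classify N P with ⟨τ₀, q, m, hm3, -, hm⟩ | ⟨q, -, hq⟩
  · left
    refine ⟨q.out⁻¹ • τ₀, m, hm3, fun f g h hg hh hf => ?_⟩
    rw [← plcPhi_order N τ₀ q f g h hg hh hf, hm f (hf0 f g h hg hh hf)]
  · right
    obtain ⟨w, hw⟩ : ∃ w : ℕ,
        w = Function.minimalPeriod (MulAction.toPerm ModularGroup.T : Equiv.Perm Xc) q := ⟨_, rfl⟩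
    have hper : Function.IsPeriodicPt (MulAction.toPerm ModularGroup.T : Equiv.Perm Xc) w q := by
      rw [hw]
      exact Function.isPeriodicPt_minimalPeriod _ _
    have hw0 : 0 < w := by
      rw [hw]
      refine Function.IsPeriodicPt.minimalPeriod_pos
        (orderOf_pos (MulAction.toPerm ModularGroup.T : Equiv.Perm Xc)) ?_
      show (MulAction.toPerm ModularGroup.T : Equiv.Perm Xc)^[orderOf _] q = q
      rw [Equiv.Perm.iterate_eq_pow, pow_orderOf_eq_one]
      rfl
    have hfix : (ModularGroup.T ^ w) • q = q := by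
      have h1 : (fun x : Xc => ModularGroup.T • x)^[w] q = q := hper
      rwa [smul_iterate] at h1
    refine ⟨q.out, w, hw0, sysfin_mem_of_smul_eq N _ q hfix, fun f g h hg hh hf => ?_⟩
    rw [← plcCusp_order N q f g h hg hh hf, hw]
    exact hq f (hf0 f g h hg hh hf)

end PlcApi

end Fermat.Agent.S29
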