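import Fermat.Agent.S29.EisCusp
import Fermat.Agent.S29.PlCApi

/-!
# S29, package EIS (part 4): the Eisenstein quotient at the cusp places of `F_ℂ`

`eisc_plc` is `eisc_main` in the literal shape of the cusp branch of `plc_classify_an`: if
`g, h ∈ anaRingC N` represent `(E_χ / E_1) ^ p` (i.e. `g * E_1 ^ p = h * E_χ ^ p` on `ℍ`), then
`w * (ord (plcCuspTheta N γ g) - ord (plcCuspTheta N γ h)) = N * (p * n)` for an integer `n`
depending only on `χ`, `γ`, `w`.  Hence `P.ord f = p * n` at the cusp place `P`.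
-/

set_option autoImplicit false

noncomputable section

open Complex UpperHalfPlane Set Filter Topology ModularForm EisensteinSeries
  CongruenceSubgroup

open scoped UpperHalfPlane MatrixGroups Manifold Matrix

namespace Fermat.Agent.S29

open Fermat.Agent.S24

/-- **Cusp places**: the Eisenstein quotient `(E_χ / E_1) ^ p` has order divisible by `p` at
every cusp, in the shape of `plc_classify_an`. -/
theorem eisc_plc (N : ℕ) [NeZero N] {k : ℤ} (hk : 3 ≤ k) (hk2 : Even k)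
    (χ : ↥(Gamma0 N) →* ℂˣ) (h1 : ∀ γ, ‖((χ γ : ℂˣ) : ℂ)‖ = 1)
    (hT : ∀ γ : ↥(Gamma0 N), (γ : SL(2, ℤ)) 1 0 = 0 → χ γ = 1)
    (hpar : ∀ δ : ↥(Gamma0 N),
      Matrix.trace ((δ : SL(2, ℤ)) : Matrix (Fin 2) (Fin 2) ℤ) = 2 → χ δ = 1)
    (γ : SL(2, ℤ)) (w : ℕ) (hw : γ⁻¹ * (ModularGroup.T ^ w * γ) ∈ Gamma0 N) (p : ℕ) :
    ∃ n : ℤ, ∀ g h : anaRingC N, h ≠ 0 →
      (∀ τ : ℍ, (g : ℍ → ℂ) τ * eisxChi N k (1 : ↥(Gamma0 N) →* ℂˣ) τ ^ p
          = (h : ℍ → ℂ) τ * eisxChi N k χ τ ^ p) →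
      (w : ℤ) * ((plcCuspTheta N γ g).order - (plcCuspTheta N γ h).order)
        = (N : ℤ) * ((p : ℤ) * n) := by
  have hw' : γ⁻¹ * ModularGroup.T ^ w * γ ∈ Gamma0 N := by
    rwa [mul_assoc]
  obtain ⟨n, hn⟩ := eisc_main N hk hk2 χ h1 hT hpar γ w hw' p
  refine ⟨n, fun g h hh hgh => ?_⟩
  have hE1 : eisxChi N k (1 : ↥(Gamma0 N) →* ℂˣ) ≠ 0 :=
    eisxChi_ne_zero hk hk2 (eisc_one_norm N) (fun _ _ => rfl)
  have hEχ : eisxChi N k χ ≠ 0 := eisxChi_ne_zero hk hk2 h1 hT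
  have hgW := plc_cusp_isWH N γ g.2
  have hhW := plc_cusp_isWH N γ h.2
  have hh0 : scComp N γ h.1 ≠ 0 := by
    intro h0
    apply hh
    apply Subtype.ext
    funext z
    obtain ⟨τ, rfl⟩ := sc_sub_surjective N γ z
    exact congrFun h0 τ
  have key := hn (scComp N γ g.1) (scComp N γ h.1) hgW hhW hh0
    (fun τ => hgh (γ⁻¹ • ofComplex ((N : ℂ) * τ)))
  have hYh : plcCuspTheta N γ h ≠ 0 := by
    have := (plcCuspTheta_injective N γ).ne hh
    rwa [map_zero] at this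
  rw [plcCuspTheta_apply, plcCuspTheta_apply]
  rw [plcCuspTheta_apply] at hYh
  by_cases hg0 : g = 0
  · -- impossible: then `h * E_χ ^ p = 0`
    exfalso
    have hmd : MDiff (h : ℍ → ℂ) := plc_mdiff_of_mem N h.2
    have hmE : MDiff (eisxChi N k χ) := eisxChi_mdiff hk h1
    have hprod : (⟨(h : ℍ → ℂ), hmd⟩ : holSubring) * ⟨eisxChi N k χ, hmE⟩ ^ p = 0 := by
      apply Subtype.ext
      funext τ
      have := hgh τ
      rw [hg0] at this
      show (h : ℍ → ℂ) τ * eisxChi N k χ τ ^ p = 0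
      rw [← this]
      show (0 : ℍ → ℂ) τ * _ = 0
      simp
    have h5 := congrArg (taylorHom UpperHalfPlane.I) hprod
    rw [map_mul, map_pow, map_zero] at h5
    rcases mul_eq_zero.mp h5 with h6 | h6
    · have h7 : (⟨(h : ℍ → ℂ), hmd⟩ : holSubring) = 0 :=
        taylorHom_injective UpperHalfPlane.I (by rw [h6, map_zero])
      exact hh (Subtype.ext (show (h : ℍ → ℂ) = 0 from congrArg Subtype.val h7))
    · have h8 := eq_zero_of_pow_eq_zero h6
      have h7 : (⟨eisxChi N k χ, hmE⟩ : holSubring) = 0 :=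
        taylorHom_injective UpperHalfPlane.I (by rw [h8, map_zero])
      exact hEχ (congrArg Subtype.val h7)
  · have hYg : qLaurent ⟨scComp N γ g.1, hgW⟩ ≠ 0 := by
      have := (plcCuspTheta_injective N γ).ne hg0
      rwa [map_zero, plcCuspTheta_apply] at this
    have hdiv : (qLaurent ⟨scComp N γ g.1, hgW⟩ / qLaurent ⟨scComp N γ h.1, hhW⟩).order
        = (qLaurent ⟨scComp N γ g.1, hgW⟩).order - (qLaurent ⟨scComp N γ h.1, hhW⟩).order := by
      have h3 := HahnSeries.order_mul (div_ne_zero hYg hYh) hYh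
      rw [div_mul_cancel₀ _ hYh] at h3
      omega
    rw [← hdiv]
    exact key

end Fermat.Agent.S29
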