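import Mathlib
import Fermat.Agent.S24.Taylor
import Fermat.Agent.S24.JFun
import Fermat.Agent.S29.EisChi

/-!
# S29, package EIS (part 5): the Eisenstein quotient at interior points

* `eise_rotation`: two holomorphic functions with the same automorphy factor `denom ε z ^ k` under
  an element `ε` fixing `τ₀` have orders `a`, `b` at `τ₀` with
  `(denom ε τ₀ ^ 2) ^ a = (denom ε τ₀ ^ 2) ^ b`.
* `eise_interior`: if `g * B ^ p = h * A ^ p` then `ord g - ord h = p * (ord A - ord B)` at every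
  point.
* `eise_S`, `eise_ST`: at the fixed point of an elliptic element `σ⁻¹ S σ` (resp. `σ⁻¹ S T σ`) of
  `Γ₀(N)` killed by `χ`, any quotient `g / h` representing `(E_χ / E_1) ^ p` has order
  `2 * (p * n)` (resp. `3 * (p * n)`).
-/

set_option autoImplicit false

noncomputable section

open Complex UpperHalfPlane Set Filter Topology ModularForm EisensteinSeries
  CongruenceSubgroup

open scoped UpperHalfPlane MatrixGroups Manifold Matrix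

namespace Fermat.Agent.S29

open Fermat.Agent.S24

local notation "Δ" => ModularForm.discriminant

theorem eise_order_disc (τ₀ : ℍ) : (taylorAt τ₀ Δ).order = 0 := by
  rw [ty_order_taylorAt τ₀ jf_disc_mdiff]
  refine (ty_analyticAt jf_disc_mdiff τ₀).analyticOrderAt_eq_zero.mpr ?_
  simp only [Function.comp_apply]
  exact discriminant_ne_zero _

/-- The cocycle relation of `denom` on `SL(2, ℤ)`. -/
theorem eise_denom_mul (x y : SL(2, ℤ)) (z : ℍ) :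
    denom ((x * y : SL(2, ℤ)) : GL (Fin 2) ℝ) z = denom x ((y • z : ℍ) : ℂ) * denom y z := by
  have h := denom_cocycle_σ (x : GL (Fin 2) ℝ) (y : GL (Fin 2) ℝ) z
  simpa [σ] using h

/-- `denom` at a fixed point is invariant under conjugation. -/
theorem eise_denom_conj (σ δ : SL(2, ℤ)) (τ₀ : ℍ) (hfix : δ • τ₀ = τ₀) :
    denom ((σ⁻¹ * (δ * σ) : SL(2, ℤ)) : GL (Fin 2) ℝ) ((σ⁻¹ • τ₀ : ℍ) : ℂ) = denom δ τ₀ := by
  have h1 := eise_denom_mul σ⁻¹ (δ * σ) (σ⁻¹ • τ₀)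
  have h2 := eise_denom_mul δ σ (σ⁻¹ • τ₀)
  have h3 := eise_denom_mul σ σ⁻¹ τ₀
  rw [mul_inv_cancel] at h3
  have h4 : denom ((1 : SL(2, ℤ)) : GL (Fin 2) ℝ) τ₀ = 1 := by
    simp
  rw [h4] at h3
  rw [h1, h2, mul_smul, smul_inv_smul, hfix]
  rw [mul_comm, mul_assoc, ← h3, mul_one]

/-- **Rotation lemma for a pair**: two holomorphic functions with the same automorphy factor
`denom ε z ^ k` under an element `ε` fixing `τ₀` have orders `a`, `b` at `τ₀` with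
`(denom ε τ₀ ^ 2) ^ a = (denom ε τ₀ ^ 2) ^ b`. -/
theorem eise_rotation (k : ℕ) {F G : ℍ → ℂ} (hF : MDiff F) (hG : MDiff G)
    (ε : SL(2, ℤ)) (τ₀ : ℍ) (hfix : ε • τ₀ = τ₀)
    (hFε : ∀ z : ℍ, F (ε • z) = denom ε z ^ k * F z)
    (hGε : ∀ z : ℍ, G (ε • z) = denom ε z ^ k * G z)
    (a b : ℕ) (ha : (taylorAt τ₀ F).order = (a : ℕ∞)) (hb : (taylorAt τ₀ G).order = (b : ℕ∞)) :
    (denom ε τ₀ ^ 2) ^ a = (denom ε τ₀ ^ 2) ^ b := by
  have hΔk : MDiff (fun τ : ℍ => Δ τ ^ k) := jf_disc_mdiff.pow k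
  have hΔk0 : ∀ τ : ℍ, Δ τ ^ k ≠ 0 := fun τ => pow_ne_zero k (discriminant_ne_zero τ)
  have hFG : MDiff (fun τ : ℍ => F τ * G τ ^ 11) := hF.mul (hG.pow 11)
  have hGG : MDiff (fun τ : ℍ => G τ ^ 12) := hG.pow 12
  have hH1 : MDiff ((fun τ : ℍ => F τ * G τ ^ 11) / (fun τ : ℍ => Δ τ ^ k)) := hFG.div hΔk hΔk0
  have hH2 : MDiff ((fun τ : ℍ => G τ ^ 12) / (fun τ : ℍ => Δ τ ^ k)) := hGG.div hΔk hΔk0
  -- invariance
  have hinv1 : ∀ z : ℍ, ((fun τ : ℍ => F τ * G τ ^ 11) / (fun τ : ℍ => Δ τ ^ k)) (ε • z)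
      = ((fun τ : ℍ => F τ * G τ ^ 11) / (fun τ : ℍ => Δ τ ^ k)) z := by
    intro z
    have hd : denom ε z ≠ 0 := denom_ne_zero ε z
    have hΔ := discriminant_ne_zero z
    simp only [Pi.div_apply]
    rw [hFε, hGε, jf_disc_smul, zpow_ofNat]
    field_simp
    ring
  have hinv2 : ∀ z : ℍ, ((fun τ : ℍ => G τ ^ 12) / (fun τ : ℍ => Δ τ ^ k)) (ε • z)
      = ((fun τ : ℍ => G τ ^ 12) / (fun τ : ℍ => Δ τ ^ k)) z := by
    intro z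
    have hd : denom ε z ≠ 0 := denom_ne_zero ε z
    have hΔ := discriminant_ne_zero z
    simp only [Pi.div_apply]
    rw [hGε, jf_disc_smul, zpow_ofNat]
    field_simp
    ring
  -- orders
  have hmul1 : (⟨_, hH1⟩ : holSubring) * ⟨Δ, jf_disc_mdiff⟩ ^ k = ⟨F, hF⟩ * ⟨G, hG⟩ ^ 11 := by
    apply Subtype.ext
    funext τ
    show (F τ * G τ ^ 11) / (Δ τ ^ k) * Δ τ ^ k = F τ * G τ ^ 11
    exact div_mul_cancel₀ _ (hΔk0 τ)
  have hmul2 : (⟨_, hH2⟩ : holSubring) * ⟨Δ, jf_disc_mdiff⟩ ^ k = ⟨G, hG⟩ ^ 12 := by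
    apply Subtype.ext
    funext τ
    show (G τ ^ 12) / (Δ τ ^ k) * Δ τ ^ k = G τ ^ 12
    exact div_mul_cancel₀ _ (hΔk0 τ)
  have ho1 := congrArg PowerSeries.order (congrArg (taylorHom τ₀) hmul1)
  have ho2 := congrArg PowerSeries.order (congrArg (taylorHom τ₀) hmul2)
  simp only [map_mul, map_pow, PowerSeries.order_mul, PowerSeries.order_pow, taylorHom_apply,
    eise_order_disc, ha, hb, smul_zero, add_zero] at ho1 ho2
  have ho1' : (taylorAt τ₀ ((fun τ : ℍ => F τ * G τ ^ 11) / (fun τ : ℍ => Δ τ ^ k))).order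
      = ((a + 11 * b : ℕ) : ℕ∞) := by
    rw [ho1]
    push_cast
    simp [nsmul_eq_mul]
  have ho2' : (taylorAt τ₀ ((fun τ : ℍ => G τ ^ 12) / (fun τ : ℍ => Δ τ ^ k))).order
      = ((12 * b : ℕ) : ℕ∞) := by
    rw [ho2]
    push_cast
    simp [nsmul_eq_mul]
  have r1 := ty_rotation τ₀ ε hfix hH1 hinv1 (a + 11 * b) ho1'
  have r2 := ty_rotation τ₀ ε hfix hH2 hinv2 (12 * b) ho2'
  have hden : denom ε τ₀ = ((ε 1 0 : ℤ) : ℂ) * (τ₀ : ℂ) + ((ε 1 1 : ℤ) : ℂ) := by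
    rw [ModularGroup.denom_apply]
  rw [← hden] at r1 r2
  have hd0 : denom ε τ₀ ≠ 0 := denom_ne_zero ε τ₀
  have hX : (denom ε τ₀ ^ 2) ^ (11 * b) ≠ 0 := pow_ne_zero _ (pow_ne_zero _ hd0)
  apply mul_right_cancel₀ hX
  rw [← pow_add, ← pow_add, ← pow_mul, ← pow_mul, r1]
  have e : 2 * (b + 11 * b) = 2 * (12 * b) := by ring
  rw [e, r2]

/-- The Taylor order of a nonzero holomorphic function as a natural number. -/
theorem eise_order_nat (τ : ℍ) {g : ℍ → ℂ} (hg : MDiff g) (hg0 : g ≠ 0) :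
    (taylorAt τ g).order = ((analyticOrderNatAt (g ∘ ofComplex) (τ : ℂ) : ℕ) : ℕ∞) := by
  have h := ty_order_ne_top τ hg hg0
  rw [ty_order_taylorAt τ hg] at h ⊢
  exact (Nat.cast_analyticOrderNatAt h).symm

/-- **Interior points**: if `g * B ^ p = h * A ^ p` then `ord g - ord h = p * (ord A - ord B)`. -/
theorem eise_interior {p : ℕ} {g h A B : ℍ → ℂ} (hg : MDiff g) (hh : MDiff h) (hA : MDiff A)
    (hB : MDiff B) (hg0 : g ≠ 0) (hh0 : h ≠ 0) (hA0 : A ≠ 0) (hB0 : B ≠ 0)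
    (hrel : ∀ z : ℍ, g z * B z ^ p = h z * A z ^ p) (τ : ℍ) :
    (analyticOrderNatAt (g ∘ ofComplex) (τ : ℂ) : ℤ) - (analyticOrderNatAt (h ∘ ofComplex) (τ : ℂ) : ℤ)
      = (p : ℤ) * ((analyticOrderNatAt (A ∘ ofComplex) (τ : ℂ) : ℤ)
          - (analyticOrderNatAt (B ∘ ofComplex) (τ : ℂ) : ℤ)) := by
  have hmul : (⟨g, hg⟩ : holSubring) * ⟨B, hB⟩ ^ p = ⟨h, hh⟩ * ⟨A, hA⟩ ^ p := by
    apply Subtype.ext
    funext z
    exact hrel z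
  have ho := congrArg PowerSeries.order (congrArg (taylorHom τ) hmul)
  simp only [map_mul, map_pow, PowerSeries.order_mul, PowerSeries.order_pow, taylorHom_apply,
    eise_order_nat τ hg hg0, eise_order_nat τ hh hh0, eise_order_nat τ hA hA0,
    eise_order_nat τ hB hB0, nsmul_eq_mul] at ho
  have ho' : analyticOrderNatAt (g ∘ ofComplex) (τ : ℂ) + p * analyticOrderNatAt (B ∘ ofComplex) (τ : ℂ)
      = analyticOrderNatAt (h ∘ ofComplex) (τ : ℂ) + p * analyticOrderNatAt (A ∘ ofComplex) (τ : ℂ) := by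
    exact_mod_cast ho
  have ho'' : (analyticOrderNatAt (g ∘ ofComplex) (τ : ℂ) : ℤ)
      + p * analyticOrderNatAt (B ∘ ofComplex) (τ : ℂ)
      = analyticOrderNatAt (h ∘ ofComplex) (τ : ℂ) + p * analyticOrderNatAt (A ∘ ofComplex) (τ : ℂ) := by
    exact_mod_cast ho'
  linear_combination ho''

/-- Exponents of equal powers of an element of finite order. -/
theorem eise_pow_eq {x : ℂ} (hx : x ≠ 0) {e : ℕ} (he : orderOf x = e) (a b : ℕ)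
    (h : x ^ a = x ^ b) : ∃ n : ℤ, (a : ℤ) - b = (e : ℤ) * n := by
  have key : ∀ a b : ℕ, a ≤ b → x ^ a = x ^ b → ∃ m : ℕ, b - a = e * m := by
    intro a b hab h
    have h1 : x ^ b = x ^ a * x ^ (b - a) := by
      rw [← pow_add, Nat.add_sub_cancel' hab]
    rw [h1] at h
    have h2 : x ^ (b - a) = 1 := by
      have h3 : x ^ a * 1 = x ^ a * x ^ (b - a) := by rw [mul_one]; exact h
      exact (mul_left_cancel₀ (pow_ne_zero a hx) h3).symm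
    have h4 := orderOf_dvd_of_pow_eq_one h2
    rw [he] at h4
    exact h4
  rcases le_total a b with hab | hab
  · obtain ⟨m, hm⟩ := key a b hab h
    refine ⟨-(m : ℤ), ?_⟩
    have : ((b - a : ℕ) : ℤ) = (e : ℤ) * m := by exact_mod_cast hm
    rw [Nat.cast_sub hab] at this
    linear_combination -this
  · obtain ⟨m, hm⟩ := key b a hab h.symm
    refine ⟨(m : ℤ), ?_⟩
    have : ((a - b : ℕ) : ℤ) = (e : ℤ) * m := by exact_mod_cast hm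
    rw [Nat.cast_sub hab] at this
    exact this

variable {N : ℕ}

/-- Pointwise automorphy of `E_χ` under an element of `Γ₀(N)` killed by `χ`. -/
theorem eise_eisxChi_smul (k : ℕ) {χ : ↥(Gamma0 N) →* ℂˣ}
    (hT : ∀ γ : ↥(Gamma0 N), (γ : SL(2, ℤ)) 1 0 = 0 → χ γ = 1) (ε : SL(2, ℤ))
    (hε : ε ∈ Gamma0 N) (hχ : χ ⟨ε, hε⟩ = 1) (z : ℍ) :
    eisxChi N (k : ℤ) χ (ε • z) = denom ε z ^ k * eisxChi N (k : ℤ) χ z := by
  have h := eisxChi_slash (k : ℤ) hT ⟨ε, hε⟩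
  rw [hχ, Units.val_one, one_smul] at h
  have h2 := congrFun h z
  rw [ModularForm.SL_slash_apply] at h2
  have hd : denom ε z ≠ 0 := denom_ne_zero ε z
  rw [← h2, zpow_neg, zpow_natCast]
  field_simp

/-- **Elliptic points**: at the fixed point `σ⁻¹ • τ₀` of the element `σ⁻¹ δ σ` of `Γ₀(N)`
killed by `χ`, where `denom δ τ₀ ^ 2` has order `e`, any quotient `g / h` representing
`(E_χ / E_1) ^ p` has order `e * (p * n)`. -/
theorem eise_ell (N : ℕ) [NeZero N] {k : ℤ} (hk : 3 ≤ k) (hk2 : Even k)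
    (χ : ↥(Gamma0 N) →* ℂˣ) (h1 : ∀ γ, ‖((χ γ : ℂˣ) : ℂ)‖ = 1)
    (hT : ∀ γ : ↥(Gamma0 N), (γ : SL(2, ℤ)) 1 0 = 0 → χ γ = 1)
    (δ σ : SL(2, ℤ)) (τ₀ : ℍ) (hfix : δ • τ₀ = τ₀)
    (hσ : σ⁻¹ * (δ * σ) ∈ Gamma0 N) (hχ : χ ⟨σ⁻¹ * (δ * σ), hσ⟩ = 1)
    (e : ℕ) (he : orderOf (denom δ τ₀ ^ 2) = e) (p : ℕ) :
    ∃ n : ℤ, ∀ g h : ℍ → ℂ, MDiff g → MDiff h → g ≠ 0 → h ≠ 0 →
      (∀ z : ℍ, g z * eisxChi N k (1 : ↥(Gamma0 N) →* ℂˣ) z ^ p = h z * eisxChi N k χ z ^ p) →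
      (analyticOrderNatAt (g ∘ ofComplex) ((σ⁻¹ • τ₀ : ℍ) : ℂ) : ℤ)
        - (analyticOrderNatAt (h ∘ ofComplex) ((σ⁻¹ • τ₀ : ℍ) : ℂ) : ℤ)
        = (e : ℤ) * ((p : ℤ) * n) := by
  obtain ⟨k, rfl⟩ := Int.eq_ofNat_of_zero_le (by omega : 0 ≤ k)
  have hT1 : ∀ γ : ↥(Gamma0 N), (γ : SL(2, ℤ)) 1 0 = 0 → (1 : ↥(Gamma0 N) →* ℂˣ) γ = 1 :=
    fun _ _ => rfl
  have h11 : ∀ γ : ↥(Gamma0 N), ‖((((1 : ↥(Gamma0 N) →* ℂˣ) γ : ℂˣ)) : ℂ)‖ = 1 := by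
    intro γ
    simp
  have hA : MDiff (eisxChi N (k : ℤ) χ) := eisxChi_mdiff hk h1
  have hB : MDiff (eisxChi N (k : ℤ) (1 : ↥(Gamma0 N) →* ℂˣ)) := eisxChi_mdiff hk h11
  have hA0 : eisxChi N (k : ℤ) χ ≠ 0 := eisxChi_ne_zero hk hk2 h1 hT
  have hB0 : eisxChi N (k : ℤ) (1 : ↥(Gamma0 N) →* ℂˣ) ≠ 0 := eisxChi_ne_zero hk hk2 h11 hT1
  have hfix' : (σ⁻¹ * (δ * σ)) • (σ⁻¹ • τ₀) = σ⁻¹ • τ₀ := by
    rw [mul_smul, mul_smul, smul_inv_smul, hfix]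
  have hrot := eise_rotation k hA hB (σ⁻¹ * (δ * σ)) (σ⁻¹ • τ₀) hfix'
    (eise_eisxChi_smul k hT _ hσ hχ) (eise_eisxChi_smul k hT1 _ hσ rfl) _ _
    (eise_order_nat _ hA hA0) (eise_order_nat _ hB hB0)
  rw [eise_denom_conj σ δ τ₀ hfix] at hrot
  have hd0 : denom δ τ₀ ^ 2 ≠ 0 := pow_ne_zero 2 (denom_ne_zero δ τ₀)
  obtain ⟨n, hn⟩ := eise_pow_eq hd0 he _ _ hrot
  refine ⟨n, fun g h hg hh hg0 hh0 hrel => ?_⟩
  rw [eise_interior hg hh hA hB hg0 hh0 hA0 hB0 hrel (σ⁻¹ • τ₀), hn]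
  ring

theorem eise_orderOf_S : orderOf (denom ModularGroup.S UpperHalfPlane.I ^ 2) = 2 := by
  have h : denom ModularGroup.S UpperHalfPlane.I ^ 2 = -1 := by
    rw [ModularGroup.denom_S, UpperHalfPlane.coe_I, Complex.I_sq]
  rw [h]
  exact orderOf_eq_prime (by norm_num) (by norm_num)

theorem eise_orderOf_ST :
    orderOf (denom (ModularGroup.S * ModularGroup.T : SL(2, ℤ)) rho ^ 2) = 3 := by
  have hq := ty_rho_sq
  have hd : denom (ModularGroup.S * ModularGroup.T : SL(2, ℤ)) rho = (rho : ℂ) + 1 := by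
    rw [ModularGroup.denom_apply]
    have h10 : (((ModularGroup.S * ModularGroup.T : SL(2, ℤ)) 1 0 : ℤ) : ℂ) = 1 := by
      rw [ty_ST_entries.2.2.1]; simp
    have h11 : (((ModularGroup.S * ModularGroup.T : SL(2, ℤ)) 1 1 : ℤ) : ℂ) = 1 := by
      rw [ty_ST_entries.2.2.2]; simp
    rw [h10, h11, one_mul]
  have h : denom (ModularGroup.S * ModularGroup.T : SL(2, ℤ)) rho ^ 2 = (rho : ℂ) := by
    rw [hd]
    linear_combination hq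
  rw [h]
  have h3 : (rho : ℂ) ^ 3 = 1 := by linear_combination ((rho : ℂ) - 1) * hq
  have hne1 : (rho : ℂ) ≠ 1 := by
    intro h1
    rw [h1] at hq
    norm_num at hq
  exact orderOf_eq_prime h3 hne1

/-- **The elliptic point of order 2**: at the fixed point `σ⁻¹ • i` of `σ⁻¹ S σ ∈ Γ₀(N)`. -/
theorem eise_S (N : ℕ) [NeZero N] {k : ℤ} (hk : 3 ≤ k) (hk2 : Even k)
    (χ : ↥(Gamma0 N) →* ℂˣ) (h1 : ∀ γ, ‖((χ γ : ℂˣ) : ℂ)‖ = 1)
    (hT : ∀ γ : ↥(Gamma0 N), (γ : SL(2, ℤ)) 1 0 = 0 → χ γ = 1)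
    (σ : SL(2, ℤ)) (hσ : σ⁻¹ * (ModularGroup.S * σ) ∈ Gamma0 N)
    (hχ : χ ⟨σ⁻¹ * (ModularGroup.S * σ), hσ⟩ = 1) (p : ℕ) :
    ∃ n : ℤ, ∀ g h : ℍ → ℂ, MDiff g → MDiff h → g ≠ 0 → h ≠ 0 →
      (∀ z : ℍ, g z * eisxChi N k (1 : ↥(Gamma0 N) →* ℂˣ) z ^ p = h z * eisxChi N k χ z ^ p) →
      (analyticOrderNatAt (g ∘ ofComplex) ((σ⁻¹ • UpperHalfPlane.I : ℍ) : ℂ) : ℤ)
        - (analyticOrderNatAt (h ∘ ofComplex) ((σ⁻¹ • UpperHalfPlane.I : ℍ) : ℂ) : ℤ)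
        = 2 * ((p : ℤ) * n) := by
  have h := eise_ell N hk hk2 χ h1 hT ModularGroup.S σ UpperHalfPlane.I S_smul_I hσ hχ 2
    eise_orderOf_S p
  exact_mod_cast h

/-- **The elliptic point of order 3**: at the fixed point `σ⁻¹ • ρ` of `σ⁻¹ S T σ ∈ Γ₀(N)`. -/
theorem eise_ST (N : ℕ) [NeZero N] {k : ℤ} (hk : 3 ≤ k) (hk2 : Even k)
    (χ : ↥(Gamma0 N) →* ℂˣ) (h1 : ∀ γ, ‖((χ γ : ℂˣ) : ℂ)‖ = 1)
    (hT : ∀ γ : ↥(Gamma0 N), (γ : SL(2, ℤ)) 1 0 = 0 → χ γ = 1)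
    (σ : SL(2, ℤ)) (hσ : σ⁻¹ * (ModularGroup.S * ModularGroup.T * σ) ∈ Gamma0 N)
    (hχ : χ ⟨σ⁻¹ * (ModularGroup.S * ModularGroup.T * σ), hσ⟩ = 1) (p : ℕ) :
    ∃ n : ℤ, ∀ g h : ℍ → ℂ, MDiff g → MDiff h → g ≠ 0 → h ≠ 0 →
      (∀ z : ℍ, g z * eisxChi N k (1 : ↥(Gamma0 N) →* ℂˣ) z ^ p = h z * eisxChi N k χ z ^ p) →
      (analyticOrderNatAt (g ∘ ofComplex) ((σ⁻¹ • rho : ℍ) : ℂ) : ℤ)
        - (analyticOrderNatAt (h ∘ ofComplex) ((σ⁻¹ • rho : ℍ) : ℂ) : ℤ)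
        = 3 * ((p : ℤ) * n) := by
  have h := eise_ell N hk hk2 χ h1 hT (ModularGroup.S * ModularGroup.T) σ rho ST_smul_rho hσ hχ 3
    eise_orderOf_ST p
  exact_mod_cast h

end Fermat.Agent.S29
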