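import Fermat.Agent.S18.PlaceDict
import Fermat.Agent.S37.HeckeIn
import Fermat.Prelude.Def_ModularCurve_ArithmeticGalois

/-!
# S29, package FINLEVEL: the Galois action on `J₀(N)` has open stabilisers

Every divisor class of the function field of `X₀(N)` over `ℚ̄` is fixed by the absolute Galois
group of a number field:

* `FlOpen S`: the set `S` of Galois elements contains the pointwise stabiliser of a finite
  set of algebraic numbers (`FlOpen.exists_field`: of a finite extension of `ℚ`);
* `FlOpen.finite_range`: functions invariant under such a set have finite range;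
* `fl_elt`: elements of the function field have open stabilisers;
* `fl_place`: places have open stabilisers (a place is the only zero of a uniformiser among
  finitely many places, and is separated from the others by finitely many functions);
* `fl_divisor`, `fl_pic0`, `fl_point`: divisors and divisor classes have open stabilisers.
-/

set_option autoImplicit false

open ModularCurve AlgebraicCurve

namespace Fermat.Agent.S29

section Abs

variable {K : Type*} [Field K] [Algebra ℚ K]

/-- The set `S` contains all the automorphisms fixing finitely many algebraic elements. -/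
def FlOpen (S : Set (K ≃ₐ[ℚ] K)) : Prop :=
  ∃ s : Finset K, (∀ c ∈ s, IsIntegral ℚ c) ∧
    ∀ σ : K ≃ₐ[ℚ] K, (∀ c ∈ s, σ c = c) → σ ∈ S

theorem flOpen_univ : FlOpen (Set.univ : Set (K ≃ₐ[ℚ] K)) :=
  ⟨∅, fun _ hc => absurd hc (Finset.notMem_empty _), fun _ _ => trivial⟩

theorem FlOpen.mono {S T : Set (K ≃ₐ[ℚ] K)} (h : FlOpen S) (hST : S ⊆ T) : FlOpen T := by
  obtain ⟨s, hs, h1⟩ := h
  exact ⟨s, hs, fun σ hσ => hST (h1 σ hσ)⟩

theorem FlOpen.inter {S T : Set (K ≃ₐ[ℚ] K)} (hS : FlOpen S) (hT : FlOpen T) :
    FlOpen (S ∩ T) := by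
  classical
  obtain ⟨s1, hs1, h1⟩ := hS
  obtain ⟨s2, hs2, h2⟩ := hT
  refine ⟨s1 ∪ s2, fun c hc => ?_, fun σ hσ =>
    ⟨h1 σ fun c hc => hσ c (Finset.mem_union_left _ hc),
      h2 σ fun c hc => hσ c (Finset.mem_union_right _ hc)⟩⟩
  rcases Finset.mem_union.mp hc with hc | hc
  · exact hs1 c hc
  · exact hs2 c hc

theorem flOpen_forall_mem {ι : Type*} (s : Finset ι) (p : ι → (K ≃ₐ[ℚ] K) → Prop)
    (h : ∀ i ∈ s, FlOpen {σ | p i σ}) : FlOpen {σ | ∀ i ∈ s, p i σ} := by
  classical
  induction s using Finset.induction_on with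
  | empty => exact flOpen_univ.mono (fun σ _ i hi => absurd hi (Finset.notMem_empty i))
  | insert a s ha ih =>
    have h1 := h a (Finset.mem_insert_self a s)
    have h2 := ih (fun i hi => h i (Finset.mem_insert_of_mem hi))
    refine (h1.inter h2).mono ?_
    rintro σ ⟨hσ1, hσ2⟩ i hi
    rcases Finset.mem_insert.mp hi with rfl | hi
    · exact hσ1
    · exact hσ2 i hi

theorem flOpen_fix (c : K) (hc : IsIntegral ℚ c) : FlOpen {σ : K ≃ₐ[ℚ] K | σ c = c} :=
  ⟨{c}, fun d hd => by rw [Finset.mem_singleton.mp hd]; exact hc,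
    fun σ hσ => hσ c (Finset.mem_singleton_self c)⟩

/-- The intermediate field form of `FlOpen`. -/
theorem FlOpen.exists_field {S : Set (K ≃ₐ[ℚ] K)} (h : FlOpen S) :
    ∃ L : IntermediateField ℚ K, FiniteDimensional ℚ L ∧
      ∀ σ : K ≃ₐ[ℚ] K, (∀ y ∈ L, σ y = y) → σ ∈ S := by
  obtain ⟨s, hs, h1⟩ := h
  exact ⟨IntermediateField.adjoin ℚ (s : Set K),
    IntermediateField.finiteDimensional_adjoin (fun c hc => hs c hc),
    fun σ hσ => h1 σ fun c hc => hσ c (IntermediateField.subset_adjoin ℚ _ hc)⟩

/-- A function on the Galois group which is right invariant under a set containing an open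
subgroup has finite range. -/
theorem FlOpen.finite_range {X : Type*} {S : Set (K ≃ₐ[ℚ] K)} (hS : FlOpen S)
    (f : (K ≃ₐ[ℚ] K) → X) (hf : ∀ g σ, σ ∈ S → f (g * σ) = f g) : (Set.range f).Finite := by
  classical
  obtain ⟨s, hs, h⟩ := hS
  let R : (K ≃ₐ[ℚ] K) → (∀ _ : s, K) := fun g c => g c
  have hR : (Set.range R).Finite := by
    refine Set.Finite.subset (Set.Finite.pi' (t := fun c : s => (minpoly ℚ (c : K)).rootSet K)
      (fun c => Polynomial.rootSet_finite _ _)) ?_
    rintro _ ⟨g, rfl⟩ c
    show g (c : K) ∈ (minpoly ℚ (c : K)).rootSet K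
    rw [Polynomial.mem_rootSet]
    refine ⟨minpoly.ne_zero (hs c c.2), ?_⟩
    have h1 := Polynomial.aeval_algHom_apply (g : K →ₐ[ℚ] K) (c : K) (minpoly ℚ (c : K))
    rw [minpoly.aeval, map_zero] at h1
    exact h1
  have hfac : ∀ g g', R g = R g' → f g = f g' := by
    intro g g' e
    have h1 : g'⁻¹ * g ∈ S := h _ (fun c hc => by
      have h2 : g c = g' c := congrFun e ⟨c, hc⟩
      show g'⁻¹ (g c) = c
      rw [h2]
      exact g'.symm_apply_apply c)
    have h3 := hf g' _ h1
    rw [mul_inv_cancel_left] at h3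
    exact h3
  refine Set.Finite.subset
    (hR.image (fun r => if hr : ∃ g, R g = r then f hr.choose else f 1)) ?_
  rintro _ ⟨g, rfl⟩
  refine ⟨R g, ⟨g, rfl⟩, ?_⟩
  have hr : ∃ g', R g' = R g := ⟨g, rfl⟩
  simp only [dif_pos hr]
  exact hfac _ _ hr.choose_spec

end Abs

section AbsPlace

variable {K F : Type*} [Field K] [Field F] [Algebra K F]

/-- A place is separated from every other place by a function. -/
theorem fl_sep (P : Place K F) :
    ∃ y : Place K F → F, ∀ Q : Place K F, Q ≠ P →
      y Q ∈ P.toValuationSubring ∧ y Q ∉ Q.toValuationSubring := by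
  have hsep : ∀ Q : Place K F, Q ≠ P →
      ∃ y, y ∈ P.toValuationSubring ∧ y ∉ Q.toValuationSubring := by
    intro Q hQ
    by_contra hcon
    push Not at hcon
    exact hQ (Fermat.Agent.S18.pld_eq_of_le hcon).symm
  choose! y hy using hsep
  exact ⟨y, hy⟩

/-- A semilinear automorphism fixing a uniformiser at `P` and the functions separating `P` from
the other zeros of the uniformiser fixes `P`. -/
theorem fl_place_fix (g : SemilinearAut K F) (P : Place K F) (π : F) (hπ : P.ord π = 1)
    (D : Divisor K F) (hD : ∀ v : Place K F, D v = v.ord π) (y : Place K F → F)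
    (hy : ∀ Q : Place K F, Q ≠ P → y Q ∈ P.toValuationSubring ∧ y Q ∉ Q.toValuationSubring)
    (h1 : g • π = π) (h2 : ∀ Q ∈ D.support, g • y Q = y Q) : g • P = P := by
  have hord : (g • P).ord π = 1 := by
    have h := SemilinearAut.ord_smul g P π
    rw [h1] at h
    rw [h, hπ]
  have hmem : g • P ∈ D.support := by
    rw [Finsupp.mem_support_iff, hD, hord]
    exact one_ne_zero
  by_contra hne
  have h3 : g • y (g • P) = y (g • P) := h2 _ hmem
  have h4 : y (g • P) ∈ P.toValuationSubring := (hy _ hne).1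
  have h5 : g • y (g • P) ∈ (g • P).toValuationSubring := by
    rw [SemilinearAut.smul_toValuationSubring]
    exact ValuationSubring.smul_mem_pointwise_smul _ _ _ h4
  rw [h3] at h5
  exact (hy _ hne).2 h5

/-- A semilinear automorphism fixing the support of a divisor fixes the divisor. -/
theorem fl_divisor_fix (g : SemilinearAut K F) (D : Divisor K F)
    (h : ∀ P ∈ D.support, g • P = P) : g • D = D := by
  rw [SemilinearAut.divisor_smul_def]
  conv_rhs => rw [← Finsupp.mapDomain_id (v := D)]
  exact Finsupp.mapDomain_congr (fun P hP => h P hP)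

/-- A semilinear automorphism fixing a divisor fixes its class. -/
theorem fl_pic0_fix (g : SemilinearAut K F) (D : Divisor.degZero (K := K) (F := F))
    (h : g • (D : Divisor K F) = D) : g • Pic0.mk D = Pic0.mk D := by
  rw [SemilinearAut.pic0_smul_mk]
  exact congrArg Pic0.mk (Subtype.ext h)

end AbsPlace

section Places

variable {K : Type*} [Field K] [Algebra ℚ K] [Algebra.IsAlgebraic ℚ K]
variable (F₀ : IntermediateField ℚ (LaurentSeries ℚ))

/-- Series in the base-changed field have open stabilisers. -/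
theorem fl_series {x : LaurentSeries K} (hx : x ∈ laurentBaseChange K F₀) :
    FlOpen {σ : K ≃ₐ[ℚ] K | coeffMap (σ : K →+* K) x = x} := by
  rw [mem_laurentBaseChange_iff] at hx
  induction hx using Subfield.closure_induction with
  | mem y hy =>
      rcases hy with ⟨a, rfl⟩ | ⟨z, hz, rfl⟩
      · refine (flOpen_fix a (Algebra.IsIntegral.isIntegral a)).mono ?_
        intro σ hσ
        have hσ' : σ a = a := hσ
        show coeffMap (σ : K →+* K) (algebraMap K (LaurentSeries K) a) = _
        rw [coeffMap_algebraMap]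
        exact congrArg _ hσ'
      · exact flOpen_univ.mono (fun σ _ => coeffMap_coeffEmb σ z)
  | one => exact flOpen_univ.mono (fun σ _ => map_one _)
  | add x y _ _ hx hy =>
      refine (hx.inter hy).mono ?_
      rintro σ ⟨h1, h2⟩
      have h1' : coeffMap (σ : K →+* K) x = x := h1
      have h2' : coeffMap (σ : K →+* K) y = y := h2
      show coeffMap (σ : K →+* K) (x + y) = x + y
      rw [map_add, h1', h2']
  | neg x _ hx =>
      refine hx.mono ?_
      intro σ h1
      have h1' : coeffMap (σ : K →+* K) x = x := h1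
      show coeffMap (σ : K →+* K) (-x) = -x
      rw [map_neg, h1']
  | inv x _ hx =>
      refine hx.mono ?_
      intro σ h1
      have h1' : coeffMap (σ : K →+* K) x = x := h1
      show coeffMap (σ : K →+* K) x⁻¹ = x⁻¹
      rw [map_inv₀, h1']
  | mul x y _ _ hx hy =>
      refine (hx.inter hy).mono ?_
      rintro σ ⟨h1, h2⟩
      have h1' : coeffMap (σ : K →+* K) x = x := h1
      have h2' : coeffMap (σ : K →+* K) y = y := h2
      show coeffMap (σ : K →+* K) (x * y) = x * y
      rw [map_mul, h1', h2']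

/-- Elements of the function field have open stabilisers. -/
theorem fl_elt (x : laurentBaseChange K F₀) :
    FlOpen {σ : K ≃ₐ[ℚ] K | arithmeticGalois F₀ σ • x = x} :=
  (fl_series F₀ x.2).mono fun _ h => Subtype.ext h

variable [HasPrincipalDivisors K (laurentBaseChange K F₀)]

/-- Places have open stabilisers. -/
theorem fl_place (P : Place K (laurentBaseChange K F₀)) :
    FlOpen {σ : K ≃ₐ[ℚ] K | arithmeticGalois F₀ σ • P = P} := by
  classical
  obtain ⟨π, hπ⟩ := IsDiscreteValuationRing.exists_irreducible P.toValuationSubring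
  have hπ0 : (π : laurentBaseChange K F₀) ≠ 0 := by
    simpa [ne_eq, ZeroMemClass.coe_eq_zero] using hπ.ne_zero
  obtain ⟨D, hD, -⟩ := HasPrincipalDivisors.exists_divisor (K := K)
    (π : laurentBaseChange K F₀) hπ0
  obtain ⟨y, hy⟩ := fl_sep P
  have h1 := fl_elt F₀ (π : laurentBaseChange K F₀)
  have h2 := flOpen_forall_mem D.support (fun Q σ => arithmeticGalois F₀ σ • y Q = y Q)
      (fun Q _ => fl_elt F₀ (y Q))
  refine (h1.inter h2).mono ?_
  rintro σ ⟨hσ1, hσ2⟩
  exact fl_place_fix _ P π (P.ord_coe_irreducible hπ) D hD y hy hσ1 hσ2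

/-- Divisors have open stabilisers. -/
theorem fl_divisor (D : Divisor K (laurentBaseChange K F₀)) :
    FlOpen {σ : K ≃ₐ[ℚ] K | arithmeticGalois F₀ σ • D = D} :=
  (flOpen_forall_mem D.support (fun P σ => arithmeticGalois F₀ σ • P = P)
    (fun P _ => fl_place F₀ P)).mono fun _ hσ => fl_divisor_fix _ D hσ

/-- Divisor classes of degree zero have open stabilisers. -/
theorem fl_pic0 (x : Pic0 K (laurentBaseChange K F₀)) :
    FlOpen {σ : K ≃ₐ[ℚ] K | σ • x = x} := by
  obtain ⟨D, rfl⟩ := Pic0.mk_surjective x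
  exact (fl_divisor F₀ (D : Divisor K (laurentBaseChange K F₀))).mono
    fun _ hσ => fl_pic0_fix _ D hσ

end Places

/-- **Finite level**: every point of `J₀(N)` is fixed by the absolute Galois group of a
number field. -/
theorem fl_point_open (N : ℕ) [NeZero N] (x : JZero N) :
    FlOpen {σ : AlgebraicClosure ℚ ≃ₐ[ℚ] AlgebraicClosure ℚ | σ • x = x} :=
  haveI := Fermat.Agent.S37.hki_hasPrincipalDivisors N
  haveI : Algebra.IsAlgebraic ℚ (AlgebraicClosure ℚ) := AlgebraicClosure.isAlgebraic ℚ
  fl_pic0 (modularFunctionFieldFull N) x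

/-- **Finite level**, intermediate field form. -/
theorem fl_point (N : ℕ) [NeZero N] (x : JZero N) :
    ∃ L : IntermediateField ℚ (AlgebraicClosure ℚ), FiniteDimensional ℚ L ∧
      ∀ σ : AlgebraicClosure ℚ ≃ₐ[ℚ] AlgebraicClosure ℚ, (∀ y ∈ L, σ y = y) → σ • x = x :=
  (fl_point_open N x).exists_field

end Fermat.Agent.S29
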