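import Fermat.Agent.S37.HeckeDeg
import Fermat.Agent.S24.QLaurent

/-!
# S29, package HECKE-ANA, part 1: the `q`-expansion of the Hecke norm

`T_ℓ = α_* β^*` on divisors of `X₀(M)`, so `T_ℓ (div f) = div (N_α (β f))` where `N_α` is the
norm of the function field of `X₀(M ℓ)` over the one of `X₀(M)` (embedded by `α`, the
inclusion), and `β f (q) = f (q^ℓ)`.

The `ℓ + 1` embeddings of the upper field over the lower one, into `ℂ((q))` (the lower field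
embedded by `x(q) ↦ x(q^ℓ)`), are `y ↦ y(q^ℓ)` and `y ↦ (w y)(ζ^i q)`, `i < ℓ`, with `w` the
Atkin-Lehner swap.  Hence

`N_α (β f) (q^ℓ) = f (q^(ℓ^2)) * ∏_{i < ℓ} f (ζ^i q)`.

Analytically: if `f = g / h` and `N_α (β f) = a / b` as `q`-expansions of weakly holomorphic
functions, then `a / b = ∏_i (g / h) ∘ α_i`, the product over the `ℓ + 1` Hecke
representatives.
-/

set_option autoImplicit false

open AlgebraicCurve IntermediateField UpperHalfPlane ModularForm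
open scoped MatrixGroups

namespace Fermat.Agent.S29

open Fermat.Agent.S24 Fermat.Agent.S37 ModularCurve

/-! ### The abstract norm formula -/

/-- For a finite separable extension `L / K` and a family of `[L : K]` distinct embeddings of
`L` into a field `Ω`, all restricting to the same embedding `b` of `K`: the norm is the product
of the conjugates. -/
theorem hka_norm_prod {K L Ω : Type*} [Field K] [Field L] [Field Ω] [Algebra K L]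
    [FiniteDimensional K L] [Algebra.IsSeparable K L] (b : K →+* Ω)
    {I : Type*} [Fintype I] (s : I → (L →+* Ω))
    (hs : ∀ i x, s i (algebraMap K L x) = b x) (hinj : Function.Injective s)
    (hcard : Fintype.card I = Module.finrank K L) (y : L) :
    b (Algebra.norm K y) = ∏ i, s i y := by
  classical
  let E := AlgebraicClosure Ω
  let _ : Algebra K E := ((algebraMap Ω E).comp b).toAlgebra
  let σ : I → (L →ₐ[K] E) := fun i =>
    { (algebraMap Ω E).comp (s i) with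
      commutes' := fun x => by
        show algebraMap Ω E (s i (algebraMap K L x)) = algebraMap Ω E (b x)
        rw [hs] }
  have hσinj : Function.Injective σ := by
    intro i j hij
    apply hinj
    refine RingHom.ext fun x => ?_
    have h := congrArg (fun τ : L →ₐ[K] E => τ x) hij
    exact (algebraMap Ω E).injective h
  have hσbij : Function.Bijective σ := by
    rw [Fintype.bijective_iff_injective_and_card]
    refine ⟨hσinj, ?_⟩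
    rw [hcard, AlgHom.card]
  have h1 := Algebra.norm_eq_prod_embeddings K E y
  rw [← hσbij.prod_comp (fun τ : L →ₐ[K] E => τ y)] at h1
  have h2 : algebraMap Ω E (b (Algebra.norm K y)) = algebraMap Ω E (∏ i, s i y) := by
    rw [map_prod]
    exact h1
  exact (algebraMap Ω E).injective h2

/-! ### Twists and dilations of Laurent series -/

theorem hka_twist_one (z : LaurentSeries ℂ) : twist 1 one_ne_zero z = z := by
  ext n
  rw [twist_coeff, one_zpow, one_mul]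

theorem hka_twist_qExpand (ζ : ℂ) (hζ : ζ ≠ 0) (k : ℕ) [NeZero k] (z : LaurentSeries ℂ) :
    twist ζ hζ (qExpand ℂ k z) = qExpand ℂ k (twist (ζ ^ k) (pow_ne_zero k hζ) z) := by
  ext n
  by_cases hn : (k : ℤ) ∣ n
  · obtain ⟨m, rfl⟩ := hn
    rw [twist_coeff, qExpand_coeff_mul, qExpand_coeff_mul, twist_coeff, zpow_mul, zpow_natCast]
  · rw [twist_coeff, qExpand_coeff_of_not_dvd k _ hn, qExpand_coeff_of_not_dvd k _ hn, mul_zero]

theorem hka_twist_qExpand_of_pow (ζ : ℂ) (hζ : ζ ≠ 0) (k : ℕ) [NeZero k] (hk : ζ ^ k = 1)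
    (z : LaurentSeries ℂ) : twist ζ hζ (qExpand ℂ k z) = qExpand ℂ k z := by
  rw [hka_twist_qExpand]
  congr 1
  ext n
  rw [twist_coeff, hk, one_zpow, one_mul]

/-- the root of unity `exp (2 π i r)` -/
noncomputable def hkaZ (r : ℝ) : ℂ := Complex.exp (2 * Real.pi * Complex.I * r)

theorem hkaZ_ne_zero (r : ℝ) : hkaZ r ≠ 0 := Complex.exp_ne_zero _

theorem hkaZ_pow (ℓ : ℕ) (hℓ : ℓ ≠ 0) (i : ℕ) : hkaZ ((i : ℝ) / ℓ) ^ ℓ = 1 := by
  rw [hkaZ, ← Complex.exp_nat_mul]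
  have hℓ' : (ℓ : ℂ) ≠ 0 := Nat.cast_ne_zero.mpr hℓ
  have : (ℓ : ℂ) * (2 * Real.pi * Complex.I * ((i : ℝ) / ℓ : ℝ)) = (i : ℂ) * (2 * Real.pi * Complex.I) := by
    push_cast
    field_simp
  rw [this, Complex.exp_nat_mul, Complex.exp_two_pi_mul_I, one_pow]

theorem hkaZ_eq_pow (ℓ : ℕ) (i : ℕ) : hkaZ ((i : ℝ) / ℓ) = hkaZ (1 / ℓ) ^ i := by
  rw [hkaZ, hkaZ, ← Complex.exp_nat_mul]
  congr 1
  push_cast
  ring

theorem hkaZ_primitive (ℓ : ℕ) (hℓ : ℓ ≠ 0) : IsPrimitiveRoot (hkaZ (1 / ℓ)) ℓ := by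
  have h := Complex.isPrimitiveRoot_exp ℓ hℓ
  have e : hkaZ (1 / ℓ) = Complex.exp (2 * Real.pi * Complex.I / ℓ) := by
    rw [hkaZ]
    congr 1
    push_cast
    ring
  rw [e]
  exact h

theorem hkaZ_injOn (ℓ : ℕ) (hℓ : ℓ ≠ 0) (i j : Fin ℓ)
    (h : hkaZ (((i : ℕ) : ℝ) / ℓ) = hkaZ (((j : ℕ) : ℝ) / ℓ)) : i = j := by
  rw [hkaZ_eq_pow, hkaZ_eq_pow] at h
  exact Fin.ext ((hkaZ_primitive ℓ hℓ).pow_inj i.2 j.2 h)

/-! ### The embeddings -/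

section emb

variable (ι : AlgebraicClosure ℚ →+* ℂ)

/-- the function field of `X₀(N)` over `ℚ̄` inside `ℂ((q))`, along `ι : ℚ̄ → ℂ` -/
noncomputable def hkaK (N : ℕ) : ↥(modularFunctionFieldBar N) →+* LaurentSeries ℂ :=
  (coeffMap ι).comp (modularFunctionFieldBar N).val.toRingHom

theorem hkaK_apply (N : ℕ) (x : ↥(modularFunctionFieldBar N)) :
    hkaK ι N x = coeffMap ι (x : LaurentSeries (AlgebraicClosure ℚ)) := rfl

variable (M ℓ : ℕ) [NeZero M] [NeZero ℓ]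

theorem hkaK_alpha (x : ↥(modularFunctionFieldBar M)) :
    hkaK ι (M * ℓ) (heckeAlphaBar (AlgebraicClosure ℚ) M ℓ x) = hkaK ι M x := by
  rw [hkaK_apply, hkaK_apply, coe_heckeAlphaBar]

omit [NeZero M] in
theorem hkaK_beta (x : ↥(modularFunctionFieldBar M)) :
    hkaK ι (M * ℓ) (heckeBetaBar (AlgebraicClosure ℚ) M ℓ x) = qExpand ℂ ℓ (hkaK ι M x) := by
  rw [hkaK_apply, hkaK_apply, coe_heckeBetaBar, coeffMap_qExpand]

variable (hℓ : ℓ.Prime) (hM : ¬ ℓ ∣ M)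

/-- the `ℓ + 1` embeddings of the function field of `X₀(M ℓ)` into `ℂ((q))` -/
noncomputable def hkaS : Option (Fin ℓ) →
    (↥(modularFunctionFieldBar (M * ℓ)) →+* LaurentSeries ℂ)
  | none => (qExpand ℂ ℓ).comp (hkaK ι (M * ℓ))
  | some i => (twist (hkaZ (((i : ℕ) : ℝ) / ℓ)) (hkaZ_ne_zero _)).comp
      ((hkaK ι (M * ℓ)).comp (swp M ℓ hℓ hM))

theorem hkaS_none (y : ↥(modularFunctionFieldBar (M * ℓ))) :
    hkaS ι M ℓ hℓ hM none y = qExpand ℂ ℓ (hkaK ι (M * ℓ) y) := rfl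

theorem hkaS_some (i : Fin ℓ) (y : ↥(modularFunctionFieldBar (M * ℓ))) :
    hkaS ι M ℓ hℓ hM (some i) y = twist (hkaZ (((i : ℕ) : ℝ) / ℓ)) (hkaZ_ne_zero _)
      (hkaK ι (M * ℓ) (swp M ℓ hℓ hM y)) := rfl

theorem hkaS_alpha (o : Option (Fin ℓ)) (x : ↥(modularFunctionFieldBar M)) :
    hkaS ι M ℓ hℓ hM o (heckeAlphaBar (AlgebraicClosure ℚ) M ℓ x)
      = qExpand ℂ ℓ (hkaK ι M x) := by
  cases o with
  | none => rw [hkaS_none, hkaK_alpha]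
  | some i =>
    rw [hkaS_some, swp_alpha, hkaK_beta,
      hka_twist_qExpand_of_pow _ _ ℓ (hkaZ_pow ℓ (NeZero.ne ℓ) i)]

theorem hkaS_none_beta (x : ↥(modularFunctionFieldBar M)) :
    hkaS ι M ℓ hℓ hM none (heckeBetaBar (AlgebraicClosure ℚ) M ℓ x)
      = qExpand ℂ (ℓ * ℓ) (hkaK ι M x) := by
  rw [hkaS_none, hkaK_beta, qExpand_qExpand]

theorem hkaS_some_beta (i : Fin ℓ) (x : ↥(modularFunctionFieldBar M)) :
    hkaS ι M ℓ hℓ hM (some i) (heckeBetaBar (AlgebraicClosure ℚ) M ℓ x)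
      = twist (hkaZ (((i : ℕ) : ℝ) / ℓ)) (hkaZ_ne_zero _) (hkaK ι M x) := by
  rw [hkaS_some, swp_beta, hkaK_alpha]

theorem hkaK_jBar_coeff : (hkaK ι M (jBar M)).coeff (-1) = 1 := by
  rw [hkaK_apply]
  show ι (algebraMap ℚ (AlgebraicClosure ℚ) (jq.coeff (-1))) = 1
  rw [coeff_jq_neg_one, map_one, map_one]

theorem hkaS_injective : Function.Injective (hkaS ι M ℓ hℓ hM) := by
  have hℓ2 : 2 ≤ ℓ := hℓ.two_le
  have key : ∀ i : Fin ℓ, (hkaS ι M ℓ hℓ hM (some i)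
      (heckeBetaBar (AlgebraicClosure ℚ) M ℓ (jBar M))).coeff (-1)
        = (hkaZ (((i : ℕ) : ℝ) / ℓ))⁻¹ := by
    intro i
    rw [hkaS_some_beta, twist_coeff, hkaK_jBar_coeff, mul_one, zpow_neg_one]
  have key0 : (hkaS ι M ℓ hℓ hM none
      (heckeBetaBar (AlgebraicClosure ℚ) M ℓ (jBar M))).coeff (-1) = 0 := by
    rw [hkaS_none_beta]
    apply qExpand_coeff_of_not_dvd
    rintro ⟨c, hc⟩
    have h1 : ((ℓ * ℓ : ℕ) : ℤ) ∣ 1 := ⟨-c, by rw [mul_neg, ← hc]; rfl⟩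
    have h2 : (ℓ * ℓ : ℕ) ∣ 1 := Int.natCast_dvd_natCast.mp (by exact_mod_cast h1)
    have h3 := Nat.le_of_dvd one_pos h2
    nlinarith
  intro o o' h
  cases o with
  | none =>
    cases o' with
    | none => rfl
    | some j =>
      exfalso
      have h' := congrArg (fun φ : ↥(modularFunctionFieldBar (M * ℓ)) →+* LaurentSeries ℂ =>
        (φ (heckeBetaBar (AlgebraicClosure ℚ) M ℓ (jBar M))).coeff (-1)) h
      rw [key0, key j] at h'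
      exact inv_ne_zero (hkaZ_ne_zero _) h'.symm
  | some i =>
    cases o' with
    | none =>
      exfalso
      have h' := congrArg (fun φ : ↥(modularFunctionFieldBar (M * ℓ)) →+* LaurentSeries ℂ =>
        (φ (heckeBetaBar (AlgebraicClosure ℚ) M ℓ (jBar M))).coeff (-1)) h
      rw [key0, key i] at h'
      exact inv_ne_zero (hkaZ_ne_zero _) h'
    | some j =>
      have h' := congrArg (fun φ : ↥(modularFunctionFieldBar (M * ℓ)) →+* LaurentSeries ℂ =>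
        (φ (heckeBetaBar (AlgebraicClosure ℚ) M ℓ (jBar M))).coeff (-1)) h
      rw [key i, key j] at h'
      rw [hkaZ_injOn ℓ (NeZero.ne ℓ) i j (inv_injective h')]

/-- **The `q`-expansion of the Hecke norm.**
`N_α (β f) (q^ℓ) = f (q^(ℓ²)) * ∏_{i < ℓ} f (ζ^i q)`. -/
theorem hka_norm_qexp (hℓ : ℓ.Prime) (hM : ¬ ℓ ∣ M) (f : ↥(modularFunctionFieldBar M)) :
    qExpand ℂ ℓ (hkaK ι M (hkdNorm M ℓ (heckeBetaBar (AlgebraicClosure ℚ) M ℓ f)))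
      = qExpand ℂ (ℓ * ℓ) (hkaK ι M f)
        * ∏ i : Fin ℓ, twist (hkaZ (((i : ℕ) : ℝ) / ℓ)) (hkaZ_ne_zero _) (hkaK ι M f) := by
  let _ := algebraAlong (heckeAlphaBar (AlgebraicClosure ℚ) M ℓ)
  have : Module.Finite ↥(modularFunctionFieldBar M) ↥(modularFunctionFieldBar (M * ℓ)) :=
    hki_finiteAlong M (M * ℓ) _
  have hcard : Fintype.card (Option (Fin ℓ))
      = Module.finrank ↥(modularFunctionFieldBar M) ↥(modularFunctionFieldBar (M * ℓ)) := by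
    rw [Fintype.card_option, Fintype.card_fin]
    exact (hkd_finrankAlong_alpha M hℓ hM).symm
  have h := hka_norm_prod ((qExpand ℂ ℓ).comp (hkaK ι M)) (hkaS ι M ℓ hℓ hM)
    (fun o x => hkaS_alpha ι M ℓ hℓ hM o x) (hkaS_injective ι M ℓ hℓ hM) hcard
    (heckeBetaBar (AlgebraicClosure ℚ) M ℓ f)
  rw [Fintype.prod_option, hkaS_none_beta] at h
  simp only [hkaS_some_beta] at h
  exact h

end emb

/-! ### The analytic side -/

/-- the function `τ ↦ g (ℓ² τ) ∏_{i<ℓ} g (τ + i/ℓ)` -/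
noncomputable def hkaU (ℓ : ℕ) (g : ℍ → ℂ) : ℍ → ℂ := fun τ =>
  g (ofComplex (((ℓ * ℓ : ℕ) : ℂ) * τ)) * ∏ i : Fin ℓ, g ((((i : ℕ) : ℝ) / ℓ : ℝ) +ᵥ τ)

/-- the product of `g` over the `ℓ + 1` Hecke representatives:
`τ ↦ g (ℓ τ) ∏_{i<ℓ} g ((τ + i)/ℓ)` -/
noncomputable def hkaProd (ℓ : ℕ) (g : ℍ → ℂ) : ℍ → ℂ := fun τ =>
  g (heckeDiagMatrix ℓ • τ) * ∏ i : Fin ℓ, g (heckeMatrix ℓ i • τ)

/-- the `ℓ + 1` Hecke representatives, indexed by `Option (Fin ℓ)` -/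
noncomputable def hkaRep (ℓ : ℕ) : Option (Fin ℓ) → GL (Fin 2) ℝ
  | none => heckeDiagMatrix ℓ
  | some i => heckeMatrix ℓ i

theorem hkaProd_eq (ℓ : ℕ) (g : ℍ → ℂ) (τ : ℍ) :
    hkaProd ℓ g τ = ∏ o : Option (Fin ℓ), g (hkaRep ℓ o • τ) := by
  rw [Fintype.prod_option]
  rfl

theorem hkaProd_mul (ℓ : ℕ) (g h : ℍ → ℂ) : hkaProd ℓ (g * h) = hkaProd ℓ g * hkaProd ℓ h := by
  funext τ
  simp only [hkaProd, Pi.mul_apply, Finset.prod_mul_distrib]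
  ring

theorem hkaProd_pow (ℓ : ℕ) (g : ℍ → ℂ) (n : ℕ) : hkaProd ℓ (g ^ n) = hkaProd ℓ g ^ n := by
  funext τ
  simp only [hkaProd, Pi.pow_apply, Finset.prod_pow, mul_pow]

theorem hkaProd_one (ℓ : ℕ) : hkaProd ℓ (1 : ℍ → ℂ) = 1 := by
  funext τ
  simp [hkaProd]

section ana

variable (ℓ : ℕ) [NeZero ℓ]

/-- `hkaU ℓ g` as an element of the ring of weakly holomorphic functions -/
noncomputable def hkaUelt {g : ℍ → ℂ} (hg : IsWH g) : whSubring :=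
  (⟨fun τ : ℍ => g (ofComplex (((ℓ * ℓ : ℕ) : ℂ) * τ)),
      isWH_scale (ℓ * ℓ) (NeZero.pos (ℓ * ℓ)) hg⟩ : whSubring)
    * ∏ i : Fin ℓ, (⟨fun τ : ℍ => g ((((i : ℕ) : ℝ) / ℓ : ℝ) +ᵥ τ), isWH_vadd _ hg⟩ : whSubring)

theorem hkaUelt_coe {g : ℍ → ℂ} (hg : IsWH g) : (hkaUelt ℓ hg : ℍ → ℂ) = hkaU ℓ g := by
  show whSubring.subtype (hkaUelt ℓ hg) = hkaU ℓ g
  rw [hkaUelt, map_mul, map_prod]
  funext τ
  simp only [Pi.mul_apply, Finset.prod_apply, Subring.coe_subtype]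
  rfl

theorem hkaU_isWH {g : ℍ → ℂ} (hg : IsWH g) : IsWH (hkaU ℓ g) := by
  rw [← hkaUelt_coe ℓ hg]
  exact (hkaUelt ℓ hg).2

theorem hkaU_qLaurent {g : ℍ → ℂ} (hg : IsWH g) :
    qLaurent ⟨hkaU ℓ g, hkaU_isWH ℓ hg⟩ = qExpand ℂ (ℓ * ℓ) (qLaurent ⟨g, hg⟩)
      * ∏ i : Fin ℓ, twist (hkaZ (((i : ℕ) : ℝ) / ℓ)) (hkaZ_ne_zero _) (qLaurent ⟨g, hg⟩) := by
  have e : (⟨hkaU ℓ g, hkaU_isWH ℓ hg⟩ : whSubring) = hkaUelt ℓ hg :=
    Subtype.ext (hkaUelt_coe ℓ hg).symm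
  rw [e, hkaUelt, map_mul, map_prod, qLaurent_scale (ℓ * ℓ) g hg]
  congr 1
  refine Finset.prod_congr rfl fun i _ => ?_
  exact qLaurent_vadd _ g hg

theorem hka_smul_zero (τ : ℍ) :
    ofComplex ((ℓ : ℂ) * ((heckeMatrix ℓ 0 • τ : ℍ) : ℂ)) = τ := by
  have hℓ : (ℓ : ℂ) ≠ 0 := Nat.cast_ne_zero.mpr (NeZero.ne ℓ)
  have h : (ℓ : ℂ) * ((heckeMatrix ℓ 0 • τ : ℍ) : ℂ) = (τ : ℂ) := by
    rw [coe_heckeMatrix_smul (NeZero.ne ℓ)]
    push_cast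
    field_simp
    ring
  rw [h, ofComplex_apply]

theorem hkaU_smul_zero (g : ℍ → ℂ) (τ : ℍ) :
    hkaU ℓ g (heckeMatrix ℓ 0 • τ) = hkaProd ℓ g τ := by
  have hℓ : (ℓ : ℂ) ≠ 0 := Nat.cast_ne_zero.mpr (NeZero.ne ℓ)
  have hℓr : (ℓ : ℝ) ≠ 0 := Nat.cast_ne_zero.mpr (NeZero.ne ℓ)
  have h1 : ofComplex (((ℓ * ℓ : ℕ) : ℂ) * ((heckeMatrix ℓ 0 • τ : ℍ) : ℂ))
      = heckeDiagMatrix ℓ • τ := by
    have h : ((ℓ * ℓ : ℕ) : ℂ) * ((heckeMatrix ℓ 0 • τ : ℍ) : ℂ)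
        = ((heckeDiagMatrix ℓ • τ : ℍ) : ℂ) := by
      rw [coe_heckeMatrix_smul (NeZero.ne ℓ), coe_heckeDiagMatrix_smul (NeZero.ne ℓ)]
      push_cast
      field_simp
      ring
    rw [h, ofComplex_apply]
  have h2 : ∀ i : Fin ℓ, ((((i : ℕ) : ℝ) / ℓ : ℝ) +ᵥ (heckeMatrix ℓ 0 • τ : ℍ))
      = heckeMatrix ℓ i • τ := by
    intro i
    apply UpperHalfPlane.ext
    rw [UpperHalfPlane.coe_vadd, coe_heckeMatrix_smul (NeZero.ne ℓ),
      coe_heckeMatrix_smul (NeZero.ne ℓ)]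
    push_cast
    field_simp
    ring
  rw [hkaU, hkaProd, h1]
  congr 1
  exact Finset.prod_congr rfl fun i _ => by rw [h2 i]

end ana

/-! ### The main statement -/

/-- **HECKE-ANA, function level.**  Let `f` be in the function field of `X₀(M)` over `ℚ̄`, with
`f = g / h` and `T^* f := N_α (β f) = a / b` as `q`-expansions of weakly holomorphic functions
on the upper half plane.  Then `a / b = ∏_i (g / h) ∘ α_i` on the upper half plane, the product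
over the `ℓ + 1` Hecke representatives. -/
theorem hka_main (ι : AlgebraicClosure ℚ →+* ℂ) (M ℓ : ℕ) [NeZero M] [NeZero ℓ]
    (hℓ : ℓ.Prime) (hM : ¬ ℓ ∣ M) (f : ↥(modularFunctionFieldBar M))
    {g h a b : ℍ → ℂ} (hg : IsWH g) (hh : IsWH h) (ha : IsWH a) (hb : IsWH b)
    (hf : hkaK ι M f * qLaurent ⟨h, hh⟩ = qLaurent ⟨g, hg⟩)
    (hx : hkaK ι M (hkdNorm M ℓ (heckeBetaBar (AlgebraicClosure ℚ) M ℓ f)) * qLaurent ⟨b, hb⟩
      = qLaurent ⟨a, ha⟩) (τ : ℍ) :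
    a τ * hkaProd ℓ h τ = b τ * hkaProd ℓ g τ := by
  have e1 : qExpand ℂ ℓ (hkaK ι M (hkdNorm M ℓ (heckeBetaBar (AlgebraicClosure ℚ) M ℓ f)))
      * qLaurent ⟨hkaU ℓ h, hkaU_isWH ℓ hh⟩ = qLaurent ⟨hkaU ℓ g, hkaU_isWH ℓ hg⟩ := by
    rw [hka_norm_qexp ι M ℓ hℓ hM, hkaU_qLaurent ℓ hg, hkaU_qLaurent ℓ hh, ← hf]
    simp only [map_mul]
    rw [Finset.prod_mul_distrib]
    ring
  have e2 : qExpand ℂ ℓ (hkaK ι M (hkdNorm M ℓ (heckeBetaBar (AlgebraicClosure ℚ) M ℓ f)))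
      * qLaurent ⟨fun τ : ℍ => b (ofComplex ((ℓ : ℂ) * τ)), isWH_scale ℓ (NeZero.pos ℓ) hb⟩
      = qLaurent ⟨fun τ : ℍ => a (ofComplex ((ℓ : ℂ) * τ)), isWH_scale ℓ (NeZero.pos ℓ) ha⟩ := by
    rw [qLaurent_scale ℓ a ha, qLaurent_scale ℓ b hb, ← hx, map_mul]
  have e3 : qLaurent ((⟨fun τ : ℍ => a (ofComplex ((ℓ : ℂ) * τ)),
        isWH_scale ℓ (NeZero.pos ℓ) ha⟩ : whSubring) * ⟨hkaU ℓ h, hkaU_isWH ℓ hh⟩)
      = qLaurent ((⟨fun τ : ℍ => b (ofComplex ((ℓ : ℂ) * τ)),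
        isWH_scale ℓ (NeZero.pos ℓ) hb⟩ : whSubring) * ⟨hkaU ℓ g, hkaU_isWH ℓ hg⟩) := by
    rw [map_mul, map_mul, ← e2, ← e1]
    ring
  have e4 := congrFun (congrArg Subtype.val (qLaurent_injective e3)) (heckeMatrix ℓ 0 • τ)
  have e5 : a (ofComplex ((ℓ : ℂ) * ((heckeMatrix ℓ 0 • τ : ℍ) : ℂ)))
        * hkaU ℓ h (heckeMatrix ℓ 0 • τ)
      = b (ofComplex ((ℓ : ℂ) * ((heckeMatrix ℓ 0 • τ : ℍ) : ℂ)))
        * hkaU ℓ g (heckeMatrix ℓ 0 • τ) := e4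
  rw [hka_smul_zero, hkaU_smul_zero, hkaU_smul_zero] at e5
  exact e5

/-- the same with the embedding `ιc : ℚ̄ → ℂ` of S24 and its `rzκF`. -/
theorem hka_main_rz (M ℓ : ℕ) [NeZero M] [NeZero ℓ]
    (hℓ : ℓ.Prime) (hM : ¬ ℓ ∣ M) (f : ↥(modularFunctionFieldBar M))
    {g h a b : ℍ → ℂ} (hg : IsWH g) (hh : IsWH h) (ha : IsWH a) (hb : IsWH b)
    (hf : rzκF M f * qLaurent ⟨h, hh⟩ = qLaurent ⟨g, hg⟩)
    (hx : rzκF M (hkdNorm M ℓ (heckeBetaBar (AlgebraicClosure ℚ) M ℓ f)) * qLaurent ⟨b, hb⟩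
      = qLaurent ⟨a, ha⟩) (τ : ℍ) :
    a τ * hkaProd ℓ h τ = b τ * hkaProd ℓ g τ :=
  hka_main ιc M ℓ hℓ hM f hg hh ha hb hf hx τ

end Fermat.Agent.S29
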