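import Fermat.Agent.S29.HeckeAnaMain
import Fermat.Agent.S29.PhiCMain
import Fermat.Agent.S29.BcSurjEquiv
import Fermat.Agent.S29.PsiMain

/-!
# S29, the comparison homomorphism `J₀(N)[p] → Hom(Γ₀(N), ℤ/p)` (general modulus)

`hkacmpPhi N p := phiHom (phiModelC N) p ∘ (base change ℚ̄ → ℂ on p-torsion)`.

* `hkacmp_injective` : it is injective;
* `hkacmp_range` : its range contains every homomorphism killing the elements of `Γ₀(N)` with
  `|trace| ≤ 2`;
* `hkacmp_hecke` : it intertwines `T_ℓ` with the transfer operator `heckeTr N ℓ`;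
* `hkacmp_main` : the three statements packaged, without any choice of embedding in the statement.

The modulus `p` is an arbitrary nonzero natural number.
-/

set_option autoImplicit false

open AlgebraicCurve UpperHalfPlane ModularForm CongruenceSubgroup ModularCurve
open scoped MatrixGroups Manifold

namespace Fermat.Agent.S29

open Fermat.Agent.S24 Fermat.Agent.S18 Fermat.Agent.S37

/-- the comparison homomorphism at the modulus `p`, for a chosen embedding `ℚ̄ → ℂ` -/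
noncomputable def hkacmpPhi [Algebra (AlgebraicClosure ℚ) ℂ] (N : ℕ) [NeZero N] (p : ℕ)
    [NeZero p] :
    ↥(Pic0.torsion (AlgebraicClosure ℚ) ↥(modularFunctionFieldBar N) p) →+
      (Additive ↥(Gamma0 N) →+ ZMod p) :=
  (phiHom (phiModelC N) p).comp (bcsTorsHom (AlgebraicClosure ℚ) ℂ N p)

theorem hkacmpPhi_apply [Algebra (AlgebraicClosure ℚ) ℂ] (N : ℕ) [NeZero N] (p : ℕ) [NeZero p]
    (c : ↥(Pic0.torsion (AlgebraicClosure ℚ) ↥(modularFunctionFieldBar N) p)) :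
    hkacmpPhi N p c = phiHom (phiModelC N) p (bcsTorsHom (AlgebraicClosure ℚ) ℂ N p c) := rfl

/-- **Hecke equivariance** of the comparison homomorphism. -/
theorem hkacmp_hecke [Algebra (AlgebraicClosure ℚ) ℂ] (N : ℕ) [NeZero N] (p : ℕ) [NeZero p]
    {ℓ : ℕ} (hℓ : ℓ.Prime) (hℓN : ¬ ℓ ∣ N)
    (c c' : ↥(Pic0.torsion (AlgebraicClosure ℚ) ↥(modularFunctionFieldBar N) p))
    (h : (c' : JZero N) = heckeOperatorBar N ⟨ℓ, hℓ⟩ (c : JZero N)) :
    hkacmpPhi N p c' = heckeTr N ℓ (ZMod p) (hkacmpPhi N p c) := by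
  rw [hkacmpPhi_apply, hkacmpPhi_apply]
  refine hkac_main N p (phiModelC N) (plc_anaRingC_le N) (fun a => rfl)
    (pdg_deg_eq_one (AlgebraicClosure ℚ) N) hℓ hℓN (c : JZero N) (Pic0.mem_torsion.mp c.2)
    _ _ ?_ ?_
  · rw [bcsTorsHom_coe, bcsPic_eq_bcpPicL]
  · rw [bcsTorsHom_coe, bcsPic_eq_bcpPicL, h]

/-- the comparison homomorphism is **injective** -/
theorem hkacmp_injective [Algebra (AlgebraicClosure ℚ) ℂ] (N : ℕ) [NeZero N] (p : ℕ)
    [NeZero p] : Function.Injective (hkacmpPhi N p) :=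
  (phiC_main N p).comp (bcsTorsHom_injective (AlgebraicClosure ℚ) ℂ N p)

/-- the **range** of the comparison homomorphism contains every homomorphism killing the
elements with `|trace| ≤ 2` -/
theorem hkacmp_range [Algebra (AlgebraicClosure ℚ) ℂ] (N : ℕ) [NeZero N] (p : ℕ) [NeZero p]
    (ψ : Additive ↥(Gamma0 N) →+ ZMod p) (hψ : ∀ s ∈ redS N, ψ s = 0) :
    ψ ∈ Set.range (hkacmpPhi N p) := by
  obtain ⟨c, hc⟩ := psg_main_redS N p ψ hψ
  obtain ⟨c0, rfl⟩ := bcsTorsHom_surjective (AlgebraicClosure ℚ) ℂ N p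
    (phiC_torsion_finite N p) c
  exact ⟨c0, hc⟩

theorem hkacmp_range_trace [Algebra (AlgebraicClosure ℚ) ℂ] (N : ℕ) [NeZero N] (p : ℕ)
    [NeZero p] (ψ : Additive ↥(Gamma0 N) →+ ZMod p)
    (hψ : ∀ γ : ↥(Gamma0 N),
      |((γ : SL(2, ℤ)) : Matrix (Fin 2) (Fin 2) ℤ).trace| ≤ 2 → ψ (Additive.ofMul γ) = 0) :
    ψ ∈ Set.range (hkacmpPhi N p) :=
  hkacmp_range N p ψ fun s hs => hψ (Additive.toMul s) hs

/-- the `p`-torsion of `J₀(N)` is finite -/
theorem hkacmp_finite (N : ℕ) [NeZero N] (p : ℕ) [NeZero p] :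
    Finite ↥(Pic0.torsion (AlgebraicClosure ℚ) ↥(modularFunctionFieldBar N) p) := by
  letI : Algebra (AlgebraicClosure ℚ) ℂ := ιc.toAlgebra
  exact bcs_torsion_finite (AlgebraicClosure ℚ) ℂ N p (phiC_torsion_finite N p)

/-- **The comparison theorem** (general modulus): an injective homomorphism
`J₀(N)[p] → Hom(Γ₀(N), ℤ/p)` whose range contains the homomorphisms killing the elements with
`|trace| ≤ 2` and which intertwines `T_ℓ` with the transfer operator, for every prime `ℓ ∤ N`. -/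
theorem hkacmp_main (N : ℕ) [NeZero N] (p : ℕ) [NeZero p] :
    ∃ Φ : ↥(Pic0.torsion (AlgebraicClosure ℚ) ↥(modularFunctionFieldBar N) p) →+
        (Additive ↥(Gamma0 N) →+ ZMod p),
      Function.Injective Φ ∧
      (∀ ψ : Additive ↥(Gamma0 N) →+ ZMod p, (∀ s ∈ redS N, ψ s = 0) → ψ ∈ Set.range Φ) ∧
      ∀ (ℓ : ℕ) (hℓ : ℓ.Prime), ¬ ℓ ∣ N →
        ∀ c c' : ↥(Pic0.torsion (AlgebraicClosure ℚ) ↥(modularFunctionFieldBar N) p),
          (c' : JZero N) = heckeOperatorBar N ⟨ℓ, hℓ⟩ (c : JZero N) →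
            Φ c' = heckeTr N ℓ (ZMod p) (Φ c) := by
  letI : Algebra (AlgebraicClosure ℚ) ℂ := ιc.toAlgebra
  exact ⟨hkacmpPhi N p, hkacmp_injective N p, hkacmp_range N p,
    fun ℓ hℓ hℓN c c' h => hkacmp_hecke N p hℓ hℓN c c' h⟩

end Fermat.Agent.S29
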