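import Fermat.Agent.S29.PhiKummer

/-!
# S29, package [PHI], part 4: the homomorphism `Pic⁰(F)[p] → Hom(Γ, ℤ/p)`

For an analytic model `M : PhiModel F Γ` of a function field over `ℂ`:
`phiHom M p : Pic⁰(F)[p] →+ (Additive Γ →+ ZMod p)` sends the class of `D` with `p D = div h` to
the character of a holomorphic `p`-th root of `h` (`phi_spec`, `phi_spec'`).  It is injective as
soon as invariant holomorphic `p`-th roots of elements of the model ring lie in its field of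
fractions (`PhiRootIn`), and then `Pic⁰(F)[p]` is finite if `Γ` is finitely generated.
-/

set_option autoImplicit false

open AlgebraicCurve UpperHalfPlane
open scoped MatrixGroups Manifold

namespace Fermat.Agent.S29

open Fermat.Agent.S24

section Hom

variable {F : Type*} [Field F] [Algebra ℂ F] {Γ : Subgroup SL(2, ℤ)} (M : PhiModel F Γ)
variable (p : ℕ) [NeZero p]

/-- `l` is the character attached to the divisor class `c`. -/
def PhiRel (c : Pic0 ℂ F) (l : Additive Γ →+ ZMod p) : Prop :=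
  ∃ (D : Divisor.degZero (K := ℂ) (F := F)) (h : F), Pic0.mk D = c ∧ h ≠ 0 ∧
    (∀ v : Place ℂ F, (p : ℤ) * (D : Divisor ℂ F) v = v.ord h) ∧ PhiK M p h l

omit [NeZero p] in
theorem phi_mk_eq_zero_iff (D : Divisor.degZero (K := ℂ) (F := F)) :
    Pic0.mk D = 0 ↔ ∃ f : F, f ≠ 0 ∧ ∀ v : Place ℂ F, (D : Divisor ℂ F) v = v.ord f := by
  unfold Pic0.mk
  rw [QuotientAddGroup.eq_zero_iff, AddSubgroup.mem_addSubgroupOf, Divisor.mem_principal]
  rfl

omit [NeZero p] in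
theorem phi_ord_pow (v : Place ℂ F) (u : F) (n : ℕ) : v.ord (u ^ n) = (n : ℤ) * v.ord u := by
  rw [← zpow_natCast, Place.ord_zpow]

theorem phiRel_exists (c : Pic0 ℂ F) (hc : c ∈ Pic0.torsion ℂ F p) :
    ∃ l : Additive Γ →+ ZMod p, PhiRel M p c l := by
  obtain ⟨D, rfl⟩ := Pic0.mk_surjective c
  rw [Pic0.mem_torsion] at hc
  have h1 : Pic0.mk ((p : ℤ) • D) = 0 := hc
  obtain ⟨f, hf, hdiv⟩ := (phi_mk_eq_zero_iff _).mp h1
  have hdiv' : ∀ v : Place ℂ F, (p : ℤ) * (D : Divisor ℂ F) v = v.ord f := by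
    intro v
    rw [← hdiv v, AddSubgroup.coe_zsmul, Finsupp.smul_apply, smul_eq_mul]
  obtain ⟨l, hl⟩ := phiK_exists (M := M) (D : Divisor ℂ F) hf hdiv'
  exact ⟨l, D, f, rfl, hf, hdiv', hl⟩

theorem phiRel_unique {c : Pic0 ℂ F} {l l' : Additive Γ →+ ZMod p}
    (h1 : PhiRel M p c l) (h2 : PhiRel M p c l') : l = l' := by
  obtain ⟨D, h, hD, hh, hdiv, hl⟩ := h1
  obtain ⟨D', h', hD', hh', hdiv', hl'⟩ := h2
  have hp0 : (p : ℤ) ≠ 0 := by exact_mod_cast (NeZero.ne p)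
  have h3 : Pic0.mk (D' - D) = 0 := by
    have : Pic0.mk (D' - D) = Pic0.mk D' - Pic0.mk D := rfl
    rw [this, hD, hD', sub_self]
  obtain ⟨u, hu, hdu⟩ := (phi_mk_eq_zero_iff _).mp h3
  have hup : u ^ p ≠ 0 := pow_ne_zero p hu
  -- `κ = h' / (h u^p)` has no zeros or poles
  have hκ0 : h' * (h * u ^ p)⁻¹ ≠ 0 := mul_ne_zero hh' (inv_ne_zero (mul_ne_zero hh hup))
  have hκ : ∀ v : Place ℂ F, v.ord (h' * (h * u ^ p)⁻¹) = 0 := by
    intro v
    rw [v.ord_mul hh' (inv_ne_zero (mul_ne_zero hh hup)), v.ord_inv, v.ord_mul hh hup,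
      phi_ord_pow, ← hdiv v, ← hdiv' v, ← hdu v, AddSubgroup.coe_sub, Finsupp.sub_apply]
    ring
  obtain ⟨c₀, hc₀⟩ := M.unit_const _ hκ0 hκ
  have h4 : h' = algebraMap ℂ F c₀ * h * u ^ p := by
    rw [← hc₀]
    field_simp
  have h5 : PhiK M p h' (0 + l + 0) := by
    rw [h4]
    exact phiK_mul (phiK_mul (phiK_const c₀) hl) phiK_pow
  rw [zero_add, add_zero] at h5
  exact phiK_unique hh' h5 hl'

theorem phiRel_add {c c' : Pic0 ℂ F} {l l' : Additive Γ →+ ZMod p}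
    (h1 : PhiRel M p c l) (h2 : PhiRel M p c' l') : PhiRel M p (c + c') (l + l') := by
  obtain ⟨D, h, hD, hh, hdiv, hl⟩ := h1
  obtain ⟨D', h', hD', hh', hdiv', hl'⟩ := h2
  refine ⟨D + D', h * h', ?_, mul_ne_zero hh hh', fun v => ?_, phiK_mul hl hl'⟩
  · rw [Pic0.mk_add, hD, hD']
  · rw [v.ord_mul hh hh', ← hdiv v, ← hdiv' v, AddSubgroup.coe_add, Finsupp.add_apply]
    ring

/-- **[PHI]** The homomorphism `Pic⁰(F)[p] → Hom(Γ, ℤ/p)`: the class of `D` with `p D = div h`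
goes to the character of a holomorphic `p`-th root of `h`. -/
noncomputable def phiHom : ↥(Pic0.torsion ℂ F p) →+ (Additive Γ →+ ZMod p) :=
  AddMonoidHom.mk' (fun c => (phiRel_exists M p c.1 c.2).choose) (fun c c' =>
    phiRel_unique M p (phiRel_exists M p (c + c').1 (c + c').2).choose_spec
      (phiRel_add M p (phiRel_exists M p c.1 c.2).choose_spec
        (phiRel_exists M p c'.1 c'.2).choose_spec))

theorem phiHom_rel (c : ↥(Pic0.torsion ℂ F p)) : PhiRel M p c.1 (phiHom M p c) :=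
  (phiRel_exists M p c.1 c.2).choose_spec

theorem phiHom_eq_of_rel (c : ↥(Pic0.torsion ℂ F p)) {l : Additive Γ →+ ZMod p}
    (h : PhiRel M p c.1 l) : phiHom M p c = l :=
  phiRel_unique M p (phiHom_rel M p c) h

/-- The Kummer relation of `phiHom` for any function `h` with `div h = p D`. -/
theorem phiHom_phiK (c : ↥(Pic0.torsion ℂ F p)) (D : Divisor.degZero (K := ℂ) (F := F))
    (hD : Pic0.mk D = c.1) (h : F) (hh : h ≠ 0)
    (hdiv : ∀ v : Place ℂ F, (p : ℤ) * (D : Divisor ℂ F) v = v.ord h) :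
    PhiK M p h (phiHom M p c) := by
  obtain ⟨l, hl⟩ := phiK_exists (M := M) (D : Divisor ℂ F) hh hdiv
  have h1 : PhiRel M p c.1 l := ⟨D, h, hD, hh, hdiv, hl⟩
  rw [phiHom_eq_of_rel M p c h1]
  exact hl

/-- **Characterisation of `phiHom`.** If `p D = div h`, `h = a / b` with `a, b` in the model ring
and `G` is holomorphic with `G ^ p * b = a`, then `G (γ τ) = exp(2πi (phiHom c γ) / p) G (τ)`. -/
theorem phi_spec (c : ↥(Pic0.torsion ℂ F p)) (D : Divisor.degZero (K := ℂ) (F := F))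
    (hD : Pic0.mk D = c.1) (h : F) (hh : h ≠ 0)
    (hdiv : ∀ v : Place ℂ F, (p : ℤ) * (D : Divisor ℂ F) v = v.ord h)
    (a b : M.R) (hb : b ≠ 0) (hab : h * M.ι b = M.ι a) (G : ℍ → ℂ) (hG : MDiff G)
    (hGp : ∀ τ, G τ ^ p * (b : ℍ → ℂ) τ = (a : ℍ → ℂ) τ) (γ : Γ) (τ : ℍ) :
    G ((γ : SL(2, ℤ)) • τ) = phiE p (phiHom M p c (Additive.ofMul γ)) * G τ :=
  phiK_spec hh (phiHom_phiK M p c D hD h hh hdiv) a b hb hab G hG hGp γ τ

/-- **Characterisation of `phiHom`, second form.** If `p D = div h`, `h * b ^ p = a` with `a, b`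
in the model ring and `G` is holomorphic with `G ^ p = a`, then
`G (γ τ) = exp(2πi (phiHom c γ) / p) G (τ)`. -/
theorem phi_spec' (c : ↥(Pic0.torsion ℂ F p)) (D : Divisor.degZero (K := ℂ) (F := F))
    (hD : Pic0.mk D = c.1) (h : F) (hh : h ≠ 0)
    (hdiv : ∀ v : Place ℂ F, (p : ℤ) * (D : Divisor ℂ F) v = v.ord h)
    (a b : M.R) (hb : b ≠ 0) (hab : h * M.ι b ^ p = M.ι a) (G : ℍ → ℂ) (hG : MDiff G)
    (hGp : ∀ τ, G τ ^ p = (a : ℍ → ℂ) τ) (γ : Γ) (τ : ℍ) :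
    G ((γ : SL(2, ℤ)) • τ) = phiE p (phiHom M p c (Additive.ofMul γ)) * G τ :=
  phiK_spec' hh (phiHom_phiK M p c D hD h hh hdiv) a b hb hab G hG hGp γ τ

/-- Every `p`-torsion class has Kummer data. -/
theorem phi_exists_data (c : ↥(Pic0.torsion ℂ F p)) :
    ∃ (D : Divisor.degZero (K := ℂ) (F := F)) (h : F) (a b : M.R) (G : ℍ → ℂ),
      Pic0.mk D = c.1 ∧ h ≠ 0 ∧ (∀ v : Place ℂ F, (p : ℤ) * (D : Divisor ℂ F) v = v.ord h) ∧
      b ≠ 0 ∧ h * M.ι b ^ p = M.ι a ∧ MDiff G ∧ (∀ τ, G τ ^ p = (a : ℍ → ℂ) τ) ∧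
      ∀ (γ : Γ) (τ : ℍ),
        G ((γ : SL(2, ℤ)) • τ) = phiE p (phiHom M p c (Additive.ofMul γ)) * G τ := by
  obtain ⟨D, h, hD, hh, hdiv, a, b, G, hb, hab, hG, hGp, hl⟩ := phiHom_rel M p c
  exact ⟨D, h, a, b, G, hD, hh, hdiv, hb, hab, hG, hGp, hl⟩

/-- [ROOT-IN-FIELD]: invariant holomorphic `p`-th roots of elements of the model ring lie in its
field of fractions. -/
def PhiRootIn : Prop :=
  ∀ G : ℍ → ℂ, MDiff G → (∀ (γ : Γ) (τ : ℍ), G ((γ : SL(2, ℤ)) • τ) = G τ) →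
    (∃ a : M.R, ∀ τ, G τ ^ p = (a : ℍ → ℂ) τ) →
    ∃ a' b' : M.R, b' ≠ 0 ∧ ∀ τ, G τ * (b' : ℍ → ℂ) τ = (a' : ℍ → ℂ) τ

/-- **[PHI] is injective.** -/
theorem phi_injective (hroot : PhiRootIn M p) : Function.Injective (phiHom M p) := by
  rw [injective_iff_map_eq_zero]
  intro c hc
  have hp0 : (p : ℤ) ≠ 0 := by exact_mod_cast (NeZero.ne p)
  obtain ⟨D, h, hD, hh, hdiv, a, b, G, hb, hab, hG, hGp, hl⟩ := phiHom_rel M p c
  rw [hc] at hl
  obtain ⟨a', b', hb', hGb⟩ := hroot G hG (phiHas_zero_inv hl) ⟨a, hGp⟩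
  have hR : a' ^ p = a * b' ^ p := by
    apply Subtype.ext
    funext τ
    show (a' : ℍ → ℂ) τ ^ p = (a : ℍ → ℂ) τ * (b' : ℍ → ℂ) τ ^ p
    rw [← hGb τ, mul_pow, hGp]
  have e1 : M.ι a' ^ p = M.ι a * M.ι b' ^ p := by
    rw [← map_pow, hR, map_mul, map_pow]
  have hιb : M.ι b ≠ 0 := M.ι_ne_zero hb
  have hιb' : M.ι b' ≠ 0 := M.ι_ne_zero hb'
  have hu : (M.ι a' / (M.ι b' * M.ι b)) ^ p = h := by
    rw [div_pow, mul_pow, e1, ← hab]
    field_simp
  have hu0 : M.ι a' / (M.ι b' * M.ι b) ≠ 0 := by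
    intro h0
    rw [h0, zero_pow (NeZero.ne p)] at hu
    exact hh hu.symm
  have h1 : Pic0.mk D = 0 := by
    refine (phi_mk_eq_zero_iff D).mpr ⟨_, hu0, fun v => ?_⟩
    have h2 := hdiv v
    rw [← hu, phi_ord_pow] at h2
    exact mul_left_cancel₀ hp0 h2
  apply Subtype.ext
  rw [← hD, h1]
  rfl

theorem phi_finite_hom [Group.FG Γ] : Finite (Additive Γ →+ ZMod p) := by
  obtain ⟨S, hS, hSfin⟩ := Group.fg_iff.mp (inferInstance : Group.FG Γ)
  haveI : Finite S := hSfin.to_subtype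
  refine Finite.of_injective
    (fun (l : Additive Γ →+ ZMod p) (s : S) => l (Additive.ofMul (s : Γ))) ?_
  intro l l' hll
  refine AddMonoidHom.ext fun γ => ?_
  have hmem : Additive.toMul γ ∈ Subgroup.closure S := by
    rw [hS]
    exact Subgroup.mem_top _
  have key : ∀ g : Γ, g ∈ Subgroup.closure S → l (Additive.ofMul g) = l' (Additive.ofMul g) := by
    intro g hg
    induction hg using Subgroup.closure_induction with
    | mem x hx => exact congrFun hll ⟨x, hx⟩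
    | one => rw [ofMul_one, map_zero, map_zero]
    | mul x y _ _ hx hy => rw [ofMul_mul, map_add, map_add, hx, hy]
    | inv x _ hx => rw [ofMul_inv, map_neg, map_neg, hx]
  exact key _ hmem

/-- **Finiteness of `Pic⁰(F)[p]`.** -/
theorem phi_finite (hroot : PhiRootIn M p) [Group.FG Γ] : Finite ↥(Pic0.torsion ℂ F p) := by
  haveI : Finite (Additive Γ →+ ZMod p) := phi_finite_hom p
  exact Finite.of_injective _ (phi_injective M p hroot)

end Hom

end Fermat.Agent.S29
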