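import Fermat.Agent.S29.HeckeAna
import Fermat.Agent.S29.PhiHom
import Fermat.Agent.S29.HeckeTr
import Fermat.Agent.S29.Kum

/-!
# S29, package HECKE-ANA, part 2: Hecke equivariance of the Kummer homomorphism

For an analytic model `M` of a function field `F` over `ℂ` with group `Γ₀(N)`: if `c`, `c'` are
`p`-torsion classes with `p D = div h`, `p D' = div h'`, and the function `h'` is the product of
`h` over the `ℓ + 1` Hecke representatives (in the sense of `hka_main`: for all representations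
`h = a / b`, `h' = a₁ / b₁` in the model ring, `a₁ ∏ b ∘ α_i = b₁ ∏ a ∘ α_i`), then
`phiHom c' = heckeTr N ℓ (phiHom c)`.
-/

set_option autoImplicit false

open AlgebraicCurve UpperHalfPlane ModularForm CongruenceSubgroup
open scoped MatrixGroups Manifold

namespace Fermat.Agent.S29

open Fermat.Agent.S24

/-! ### The product over the Hecke representatives -/

theorem hkap_prod_eq (ℓ : ℕ) (g : ℍ → ℂ) (τ : ℍ) :
    hkaProd ℓ g τ = ∏ i : Option (Fin ℓ), g (heckeTrRep ℓ i • τ) := by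
  rw [Fintype.prod_option]
  rfl

theorem hkap_det_pos (ℓ : ℕ) (i : Option (Fin ℓ)) : 0 < (heckeTrRep ℓ i).det.val := by
  cases i with
  | none => exact det_heckeDiagMatrix_pos ℓ
  | some j => exact det_heckeMatrix_pos ℓ j

theorem hkap_fun_eq (ℓ : ℕ) (g : ℍ → ℂ) :
    hkaProd ℓ g = fun τ => ∏ i ∈ (Finset.univ : Finset (Option (Fin ℓ))),
      (fun (i : Option (Fin ℓ)) (τ : ℍ) => g (heckeTrRep ℓ i • τ)) i τ :=
  funext (hkap_prod_eq ℓ g)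

theorem hkap_mdiff (ℓ : ℕ) {g : ℍ → ℂ} (hg : MDiff g) : MDiff (hkaProd ℓ g) := by
  rw [hkap_fun_eq]
  exact kum_mdiff_prod Finset.univ _ (fun i _ => kum_mdiff_gl (hkap_det_pos ℓ i) hg)

theorem hkap_ne_zero (ℓ : ℕ) {g : ℍ → ℂ} (hg : MDiff g) (hg0 : g ≠ 0) : hkaProd ℓ g ≠ 0 := by
  rw [hkap_fun_eq]
  exact kum_prod_ne_zero Finset.univ _ (fun i _ => kum_mdiff_gl (hkap_det_pos ℓ i) hg)
    (fun i _ => kum_comp_gl_ne_zero (heckeTrRep ℓ i) hg0)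

section transfer

variable {N ℓ : ℕ} (hℓ : ℓ.Prime) (hℓN : ¬ ℓ ∣ N)

include hℓ hℓN in
/-- the product over the Hecke representatives of a `Γ₀(N)`-invariant function is invariant -/
theorem hkap_inv {g : ℍ → ℂ}
    (hg : ∀ (γ : Gamma0 N) (τ : ℍ), g ((γ : SL(2, ℤ)) • τ) = g τ) (γ : Gamma0 N) (τ : ℍ) :
    hkaProd ℓ g ((γ : SL(2, ℤ)) • τ) = hkaProd ℓ g τ := by
  rw [hkap_prod_eq, hkap_prod_eq]
  have h1 : ∀ i, g (heckeTrRep ℓ i • ((γ : SL(2, ℤ)) • τ))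
      = g (heckeTrRep ℓ (heckeTrPerm hℓ γ i) • τ) := by
    intro i
    rw [heckeTr_smul hℓ hℓN γ i τ, hg]
  rw [Finset.prod_congr rfl (fun i _ => h1 i)]
  exact Equiv.prod_comp (heckeTrPerm hℓ γ) (fun i => g (heckeTrRep ℓ i • τ))

theorem hkap_phiE_sum (p : ℕ) [NeZero p] {I : Type*} (s : Finset I) (x : I → ZMod p) :
    phiE p (∑ i ∈ s, x i) = ∏ i ∈ s, phiE p (x i) := by
  classical
  induction s using Finset.induction_on with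
  | empty => simp [phiE_zero]
  | insert i s his ih => rw [Finset.sum_insert his, Finset.prod_insert his, phiE_add, ih]

include hℓ hℓN in
/-- the product over the Hecke representatives of a function with character `l` has character
`heckeTr l` -/
theorem hkap_has {p : ℕ} [NeZero p] {G : ℍ → ℂ} {l : Additive (Gamma0 N) →+ ZMod p}
    (hl : PhiHas (Gamma0 N) p G l) :
    PhiHas (Gamma0 N) p (hkaProd ℓ G) (heckeTr N ℓ (ZMod p) l) := by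
  intro γ τ
  rw [hkap_prod_eq, hkap_prod_eq, heckeTr_apply hℓ hℓN, hkap_phiE_sum]
  have h1 : ∀ i, G (heckeTrRep ℓ i • ((γ : SL(2, ℤ)) • τ))
      = phiE p (l (Additive.ofMul (heckeTrCoc hℓ hℓN γ i)))
        * G (heckeTrRep ℓ (heckeTrPerm hℓ γ i) • τ) := by
    intro i
    rw [heckeTr_smul hℓ hℓN γ i τ, hl]
  rw [Finset.prod_congr rfl (fun i _ => h1 i), Finset.prod_mul_distrib]
  congr 1
  exact Equiv.prod_comp (heckeTrPerm hℓ γ) (fun i => G (heckeTrRep ℓ i • τ))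

end transfer

/-! ### The main statement -/

/-- **HECKE-ANA, Kummer level.** -/
theorem hkap_main {N : ℕ} {F : Type*} [Field F] [Algebra ℂ F] (M : PhiModel F (Gamma0 N))
    (p : ℕ) [NeZero p] {ℓ : ℕ} (hℓ : ℓ.Prime) (hℓN : ¬ ℓ ∣ N)
    (c c' : ↥(Pic0.torsion ℂ F p))
    (D : Divisor.degZero (K := ℂ) (F := F)) (hD : Pic0.mk D = c.1) (h : F) (hh : h ≠ 0)
    (hdiv : ∀ v : Place ℂ F, (p : ℤ) * (D : Divisor ℂ F) v = v.ord h)
    (D' : Divisor.degZero (K := ℂ) (F := F)) (hD' : Pic0.mk D' = c'.1) (h' : F) (hh' : h' ≠ 0)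
    (hdiv' : ∀ v : Place ℂ F, (p : ℤ) * (D' : Divisor ℂ F) v = v.ord h')
    (hrel : ∀ a b a₁ b₁ : M.R, b ≠ 0 → b₁ ≠ 0 → h * M.ι b = M.ι a → h' * M.ι b₁ = M.ι a₁ →
      ∀ τ, (a₁ : ℍ → ℂ) τ * hkaProd ℓ (b : ℍ → ℂ) τ
        = (b₁ : ℍ → ℂ) τ * hkaProd ℓ (a : ℍ → ℂ) τ) :
    phiHom M p c' = heckeTr N ℓ (ZMod p) (phiHom M p c) := by
  have := M.isDomain
  have hp : p ≠ 0 := NeZero.ne p
  have hp1 : p = (p - 1) + 1 := by omega
  -- Kummer data of `c`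
  obtain ⟨a, b, G, hb, hab, hG, hGp, hl⟩ := phiHom_phiK M p c D hD h hh hdiv
  have ha : a ≠ 0 := phi_a_ne_zero hh hb hab
  have hG0 : G ≠ 0 := phi_root_ne_zero ha hGp
  -- a fraction for `h'`
  obtain ⟨a₁, b₁, hb₁, hab₁⟩ := M.frac h'
  have hR := hrel a (b ^ p) a₁ b₁ (pow_ne_zero p hb) hb₁ (by rw [map_pow]; exact hab) hab₁
  have hab' : h' * M.ι b₁ ^ p = M.ι (a₁ * b₁ ^ (p - 1)) := by
    rw [map_mul, map_pow, ← hab₁]
    conv_lhs => rw [hp1, pow_succ]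
    ring
  have ha' : a₁ * b₁ ^ (p - 1) ≠ 0 := phi_a_ne_zero hh' hb₁ hab'
  -- a root for `c'`
  obtain ⟨G₁, hG₁, hG₁p⟩ := hroot_uhp (NeZero.pos p)
    (M.mdiff _ (a₁ * b₁ ^ (p - 1)).2)
    (phi_order_dvd M p (D' : Divisor ℂ F) h' hh' hdiv' _ b₁ hb₁ hab')
  have hG₁0 : G₁ ≠ 0 := phi_root_ne_zero ha' hG₁p
  have hG₁has : PhiHas (Gamma0 N) p G₁ (phiHom M p c') := fun γ τ =>
    phi_spec' M p c' D' hD' h' hh' hdiv' _ b₁ hb₁ hab' G₁ hG₁ hG₁p γ τ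
  -- the product functions
  have hbm : MDiff (b : ℍ → ℂ) := M.mdiff _ b.2
  have hb₁m : MDiff (b₁ : ℍ → ℂ) := M.mdiff _ b₁.2
  have hPb : MDiff (hkaProd ℓ (b : ℍ → ℂ)) := hkap_mdiff ℓ hbm
  have hPb0 : hkaProd ℓ (b : ℍ → ℂ) ≠ 0 := hkap_ne_zero ℓ hbm (phi_coe_ne_zero hb)
  have hPG : MDiff (hkaProd ℓ G) := hkap_mdiff ℓ hG
  have hPG0 : hkaProd ℓ G ≠ 0 := hkap_ne_zero ℓ hG hG0
  have hPGhas : PhiHas (Gamma0 N) p (hkaProd ℓ G) (heckeTr N ℓ (ZMod p) (phiHom M p c)) :=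
    hkap_has hℓ hℓN hl
  -- the relation of `p`-th powers
  have e1 : hkaProd ℓ ((b ^ p : M.R) : ℍ → ℂ) = hkaProd ℓ (b : ℍ → ℂ) ^ p := by
    rw [← hkaProd_pow]
    rfl
  have e2 : hkaProd ℓ (a : ℍ → ℂ) = hkaProd ℓ G ^ p := by
    rw [← hkaProd_pow]
    congr 1
    funext τ
    exact (hGp τ).symm
  have hpow : ∀ τ, (G₁ τ * hkaProd ℓ (b : ℍ → ℂ) τ) ^ p
      = ((b₁ : ℍ → ℂ) τ * hkaProd ℓ G τ) ^ p := by
    intro τ
    have h1 := hR τ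
    rw [e1, e2, Pi.pow_apply, Pi.pow_apply] at h1
    rw [mul_pow, mul_pow, hG₁p]
    show ((a₁ : ℍ → ℂ) τ * (b₁ : ℍ → ℂ) τ ^ (p - 1)) * hkaProd ℓ (b : ℍ → ℂ) τ ^ p
      = (b₁ : ℍ → ℂ) τ ^ p * hkaProd ℓ G τ ^ p
    have h2 : (b₁ : ℍ → ℂ) τ ^ p = (b₁ : ℍ → ℂ) τ ^ (p - 1) * (b₁ : ℍ → ℂ) τ := by
      conv_lhs => rw [hp1, pow_succ]
    rw [h2, mul_assoc _ ((b₁ : ℍ → ℂ) τ) _, ← h1]
    ring
  -- the character of `b₁ * ∏ G ∘ α_i`
  have h2 : PhiHas (Gamma0 N) p (fun τ => (b₁ : ℍ → ℂ) τ * hkaProd ℓ G τ)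
      (0 + heckeTr N ℓ (ZMod p) (phiHom M p c)) :=
    phiHas_mul (phiHas_zero (M.inv _ b₁.2)) hPGhas
  rw [zero_add] at h2
  have hne : ∃ τ, (b₁ : ℍ → ℂ) τ * hkaProd ℓ G τ ≠ 0 :=
    phi_mul_ne_zero hb₁m hPG (phi_coe_ne_zero hb₁) hPG0
  have h3 : PhiHas (Gamma0 N) p (fun τ => G₁ τ * hkaProd ℓ (b : ℍ → ℂ) τ)
      (heckeTr N ℓ (ZMod p) (phiHom M p c)) :=
    phiHas_of_root (hG₁.mul hPb) (hb₁m.mul hPG) hne hpow h2
  have h4 : PhiHas (Gamma0 N) p G₁ (heckeTr N ℓ (ZMod p) (phiHom M p c)) :=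
    phiHas_cancel hG₁ hPb hPb0 (hkap_inv hℓ hℓN (M.inv _ b.2)) h3
  exact phiHas_unique (phi_exists_ne_zero hG₁0) hG₁has h4

end Fermat.Agent.S29
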