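/-
Stage 3, package KUM (second file): the Kummer character of the Hecke product
`∏ i, H ∘ rep i` is the transfer `heckeTr` of the Kummer character of `H`.
-/
import Fermat.Agent.S29.Kum
import Fermat.Agent.S29.HeckeTr

set_option autoImplicit false

open UpperHalfPlane CongruenceSubgroup
open scoped MatrixGroups Manifold

namespace Fermat.Agent.S29

/-- The product of `H` over the `l + 1` Hecke representatives. -/
noncomputable def kumHeckeProd (l : ℕ) (H : ℍ → ℂ) : ℍ → ℂ :=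
  fun τ => ∏ i : Option (Fin l), H (heckeTrRep l i • τ)

theorem kumHeckeProd_apply (l : ℕ) (H : ℍ → ℂ) (τ : ℍ) :
    kumHeckeProd l H τ = ∏ i : Option (Fin l), H (heckeTrRep l i • τ) := rfl

theorem kum_heckeTrRep_det_pos (l : ℕ) (i : Option (Fin l)) : 0 < (heckeTrRep l i).det.val := by
  cases i with
  | none => exact ModularForm.det_heckeDiagMatrix_pos l
  | some j => exact ModularForm.det_heckeMatrix_pos l j.val

/-- The transfer formula for the Kummer character. -/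
theorem kumChar_heckeTr {N l p : ℕ} [NeZero p] (hl : l.Prime) (hlN : ¬ l ∣ N) {H : ℍ → ℂ}
    (hH : KumOK (Gamma0 N) p H) :
    KumOK (Gamma0 N) p (kumHeckeProd l H) ∧
      kumChar (Gamma0 N) p (kumHeckeProd l H) =
        heckeTr N l (ZMod p) (kumChar (Gamma0 N) p H) := by
  obtain ⟨h1, h2⟩ := kumChar_hecke_smul hH (heckeTrRep l) (kum_heckeTrRep_det_pos l)
    (fun γ => heckeTrPerm hl γ) (fun γ => (heckeTrPerm hl γ).bijective) (heckeTrCoc hl hlN)
    (fun γ i τ => heckeTr_smul hl hlN γ i τ)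
  refine ⟨h1, DFunLike.ext _ _ fun x => ?_⟩
  obtain ⟨γ, rfl⟩ : ∃ γ : Gamma0 N, Additive.ofMul γ = x := ⟨Additive.toMul x, rfl⟩
  rw [heckeTr_apply hl hlN]
  exact h2 γ

/-- The Hecke product of a product. -/
theorem kumHeckeProd_mul (l : ℕ) (H₁ H₂ : ℍ → ℂ) :
    kumHeckeProd l (fun τ => H₁ τ * H₂ τ) = fun τ => kumHeckeProd l H₁ τ * kumHeckeProd l H₂ τ := by
  funext τ
  simp only [kumHeckeProd_apply, Finset.prod_mul_distrib]

/-- The Hecke product of a power. -/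
theorem kumHeckeProd_pow (l : ℕ) (H : ℍ → ℂ) (n : ℕ) :
    kumHeckeProd l (fun τ => H τ ^ n) = fun τ => kumHeckeProd l H τ ^ n := by
  funext τ
  simp only [kumHeckeProd_apply, Finset.prod_pow]

/-- The Hecke product of a holomorphic function is holomorphic. -/
theorem kumHeckeProd_mdiff (l : ℕ) {H : ℍ → ℂ} (hH : MDiff H) : MDiff (kumHeckeProd l H) :=
  kum_mdiff_prod Finset.univ (fun i τ => H (heckeTrRep l i • τ))
    (fun i _ => kum_mdiff_gl (kum_heckeTrRep_det_pos l i) hH)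

/-- The Hecke product of a nonzero holomorphic function is nonzero. -/
theorem kumHeckeProd_ne_zero (l : ℕ) {H : ℍ → ℂ} (hH : MDiff H) (h0 : H ≠ 0) :
    kumHeckeProd l H ≠ 0 :=
  kum_prod_ne_zero Finset.univ (fun i τ => H (heckeTrRep l i • τ))
    (fun i _ => kum_mdiff_gl (kum_heckeTrRep_det_pos l i) hH)
    (fun i _ => kum_comp_gl_ne_zero (heckeTrRep l i) h0)

/-- The Hecke product of a `Γ₀(N)`-invariant function is `Γ₀(N)`-invariant. -/
theorem kumHeckeProd_inv {N l : ℕ} (hl : l.Prime) (hlN : ¬ l ∣ N) {H : ℍ → ℂ}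
    (hinv : ∀ γ ∈ Gamma0 N, ∀ τ : ℍ, H (γ • τ) = H τ) (γ : SL(2, ℤ)) (hγ : γ ∈ Gamma0 N)
    (τ : ℍ) : kumHeckeProd l H (γ • τ) = kumHeckeProd l H τ := by
  rw [kumHeckeProd_apply, kumHeckeProd_apply]
  have h1 : ∀ i : Option (Fin l), H (heckeTrRep l i • (γ • τ)) =
      H (heckeTrRep l (heckeTrPerm hl (⟨γ, hγ⟩ : Gamma0 N) i) • τ) := by
    intro i
    have := heckeTr_smul hl hlN (⟨γ, hγ⟩ : Gamma0 N) i τ
    rw [show heckeTrRep l i • (γ • τ) = _ from this, hinv _ (heckeTrCoc hl hlN ⟨γ, hγ⟩ i).2]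
  rw [Finset.prod_congr rfl (fun i _ => h1 i)]
  exact Fintype.prod_bijective (heckeTrPerm hl (⟨γ, hγ⟩ : Gamma0 N))
    (heckeTrPerm hl (⟨γ, hγ⟩ : Gamma0 N)).bijective _ _ (fun i => rfl)

end Fermat.Agent.S29
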