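import Mathlib
import Fermat.Agent.S20.Forms
import Fermat.Agent.S23.Sym
import Fermat.Agent.S23.TNForm
import Fermat.Agent.S24.JConj
import Fermat.Agent.S24.QLaurent

/-!
# S29, package MFRAT, part 2: the primitive element `Δ^N · j(Nτ)` and Lagrange interpolation

* `mfa_bdd_jd_smul`: `Δ^N · (j(d ·) ∘ γ)` is bounded at `i∞` for every `γ ∈ SL(2, ℤ)`, `d ∣ N`.
* `mfa_isForm_disc_jd`: `Δ^N · j(dτ)` is a modular form of weight `12 N` on `Γ₀(N)`.
* `mfa_stab`: the stabiliser of `Δ^N · j(Nτ)` in `SL(2, ℤ)` is `Γ₀(N)`.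
* `mfa_interp`: Lagrange interpolation against a modular form `v` on `Γ₀(N)` whose stabiliser
  is `Γ₀(N)`: there are `m` and `D ≠ 0` such that for every modular form `u` on `Γ₀(N)`,
  `u · D = ∑ i ≤ m, c i · v ^ (m - i)` with level one forms `c i` of weight `k + i k₂`.
-/

set_option autoImplicit false

open UpperHalfPlane ModularForm Filter CongruenceSubgroup
open scoped Manifold MatrixGroups

noncomputable section

namespace Fermat.Agent.S29

open Fermat.Agent.S20 Fermat.Agent.S23 Fermat.Agent.S23.SymAux Fermat.Agent.S24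

local notation "Δ" => ModularForm.discriminant

/-! ### Growth of the conjugates of `j(dτ)` -/

/-- `Δ^N · (j(d ·) ∘ γ)` is bounded at `i∞`. -/
theorem mfa_bdd_jd_smul (N d : ℕ) [NeZero N] (hd : d ∣ N) (γ : SL(2, ℤ)) :
    IsBoundedAtImInfty (fun τ : ℍ => Δ τ ^ N * jd d (γ • τ)) := by
  have hN0 : 0 < N := NeZero.pos N
  have hd0 : 0 < d := Nat.pos_of_ne_zero
    (fun h => NeZero.ne N (by rw [h] at hd; exact Nat.eq_zero_of_zero_dvd hd))
  obtain ⟨a, e, b, ha, he, hae, -, hj⟩ := jc_hermite d hd0 γ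
  have haR : (0 : ℝ) < a := by exact_mod_cast ha
  have heR : (0 : ℝ) < e := by exact_mod_cast he
  set c : ℝ := (a : ℝ) / e with hc
  have hc0 : 0 < c := div_pos haR heR
  have hcN : c ≤ N := by
    have h1 : c ≤ a := div_le_self haR.le (by exact_mod_cast he)
    have h2 : a ≤ d := by
      have : a * 1 ≤ a * e := Nat.mul_le_mul_left a he
      rw [hae, mul_one] at this
      exact this
    have h3 : d ≤ N := Nat.le_of_dvd hN0 hd
    have h4 : (a : ℝ) ≤ N := by exact_mod_cast h2.trans h3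
    exact h1.trans h4
  -- the map `φ τ = (a τ + b) / e`
  have him : ∀ τ : ℍ, ((((a : ℂ) * (τ : ℂ) + b) / e)).im = c * τ.im := by
    intro τ
    rw [Complex.div_natCast_im]
    have h1 : ((a : ℂ) * (τ : ℂ) + (b : ℂ)).im = a * τ.im := by
      simp [Complex.add_im, Complex.mul_im]
    rw [h1, hc]
    ring
  have hpos : ∀ τ : ℍ, 0 < ((((a : ℂ) * (τ : ℂ) + b) / e)).im := by
    intro τ
    rw [him τ]
    exact mul_pos hc0 τ.im_pos
  set φ : ℍ → ℍ := fun τ => ofComplex (((a : ℂ) * (τ : ℂ) + b) / e) with hφ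
  have hφim : ∀ τ : ℍ, (φ τ).im = c * τ.im := by
    intro τ
    have h1 : ((φ τ : ℍ) : ℂ) = ((a : ℂ) * (τ : ℂ) + b) / e := by
      show ((ofComplex (((a : ℂ) * (τ : ℂ) + b) / e) : ℍ) : ℂ) = _
      rw [ofComplex_apply_of_im_pos (hpos τ)]
    have h2 : (φ τ).im = ((φ τ : ℍ) : ℂ).im := rfl
    rw [h2, h1, him τ]
  have hφt : Tendsto φ atImInfty atImInfty := by
    rw [atImInfty, tendsto_comap_iff]
    have h1 : (UpperHalfPlane.im ∘ φ) = fun τ : ℍ => c * τ.im := by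
      funext τ
      exact hφim τ
    rw [h1]
    exact (tendsto_comap (f := UpperHalfPlane.im) (x := atTop)).const_mul_atTop hc0
  have hJ := jc_tendsto_norm.comp hφt
  have hJ2 : ∀ᶠ τ : ℍ in atImInfty,
      ‖jFun (φ τ)‖ * Real.exp (-(2 * Real.pi) * (c * τ.im)) < 2 := by
    have h := hJ.eventually (gt_mem_nhds (show (1 : ℝ) < 2 by norm_num))
    filter_upwards [h] with τ hτ
    simp only [Function.comp_apply] at hτ
    rw [hφim τ] at hτ
    exact hτ
  obtain ⟨C, hC⟩ := (ql_delta_isBigO_exp).bound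
  have hC0 : ∀ᶠ τ : ℍ in atImInfty, ‖Δ τ‖ ≤ C * Real.exp (-2 * Real.pi * τ.im) := by
    filter_upwards [hC] with τ hτ
    rw [Real.norm_of_nonneg (Real.exp_pos _).le] at hτ
    exact hτ
  have hCpos : 0 ≤ C := by
    obtain ⟨τ, hτ⟩ := hC0.exists
    by_contra hneg
    have h1 : C * Real.exp (-2 * Real.pi * τ.im) < 0 :=
      mul_neg_of_neg_of_pos (not_le.mp hneg) (Real.exp_pos _)
    exact absurd (norm_nonneg (Δ τ)) (not_le.mpr (lt_of_le_of_lt hτ h1))
  show (fun τ : ℍ => Δ τ ^ N * jd d (γ • τ)) =O[atImInfty] (1 : ℍ → ℝ)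
  refine Asymptotics.IsBigO.of_bound (2 * C ^ N) ?_
  filter_upwards [hJ2, hC0] with τ h1 h2
  rw [hj τ]
  have hjc : jC (((a : ℂ) * (τ : ℂ) + b) / e) = jFun (φ τ) := rfl
  rw [hjc, norm_mul, norm_pow, Pi.one_apply, norm_one, mul_one]
  have hy := τ.im_pos
  have hE1 : 0 < Real.exp (-(2 * Real.pi) * (c * τ.im)) := Real.exp_pos _
  have h3 : ‖jFun (φ τ)‖ ≤ 2 * Real.exp ((2 * Real.pi) * (c * τ.im)) := by
    have h4 : ‖jFun (φ τ)‖ = ‖jFun (φ τ)‖ * Real.exp (-(2 * Real.pi) * (c * τ.im))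
        * Real.exp ((2 * Real.pi) * (c * τ.im)) := by
      rw [mul_assoc, ← Real.exp_add]
      have : -(2 * Real.pi) * (c * τ.im) + 2 * Real.pi * (c * τ.im) = 0 := by ring
      rw [this, Real.exp_zero, mul_one]
    rw [h4]
    exact mul_le_mul_of_nonneg_right h1.le (Real.exp_pos _).le
  have h5 : ‖Δ τ‖ ^ N ≤ C ^ N * Real.exp (-(2 * Real.pi) * ((N : ℝ) * τ.im)) := by
    have h6 := pow_le_pow_left₀ (norm_nonneg (Δ τ)) h2 N
    rw [mul_pow, ← Real.exp_nat_mul] at h6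
    have : (N : ℝ) * (-2 * Real.pi * τ.im) = -(2 * Real.pi) * ((N : ℝ) * τ.im) := by ring
    rw [this] at h6
    exact h6
  calc ‖Δ τ‖ ^ N * ‖jFun (φ τ)‖
      ≤ (C ^ N * Real.exp (-(2 * Real.pi) * ((N : ℝ) * τ.im)))
          * (2 * Real.exp ((2 * Real.pi) * (c * τ.im))) :=
        mul_le_mul h5 h3 (norm_nonneg _) (mul_nonneg (pow_nonneg hCpos N) (Real.exp_pos _).le)
    _ = 2 * C ^ N * Real.exp (-(2 * Real.pi) * (((N : ℝ) - c) * τ.im)) := by
        have : Real.exp (-(2 * Real.pi) * ((N : ℝ) * τ.im)) * Real.exp ((2 * Real.pi) * (c * τ.im))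
            = Real.exp (-(2 * Real.pi) * (((N : ℝ) - c) * τ.im)) := by
          rw [← Real.exp_add]
          congr 1
          ring
        rw [← this]
        ring
    _ ≤ 2 * C ^ N * 1 := by
        refine mul_le_mul_of_nonneg_left ?_ (mul_nonneg (by norm_num) (pow_nonneg hCpos N))
        rw [Real.exp_le_one_iff]
        have h7 : 0 ≤ ((N : ℝ) - c) * τ.im := mul_nonneg (sub_nonneg.mpr hcN) hy.le
        have h8 : 0 < 2 * Real.pi := by positivity
        nlinarith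
    _ = 2 * C ^ N := mul_one _

/-! ### The forms `Δ^N · j(dτ)` -/

theorem mfa_isLevelOne_disc_pow (N : ℕ) : IsLevelOne (12 * (N : ℤ)) (Δ ^ N) :=
  (isLevelOne_discriminant.pow N).cast (by ring)

/-- the slash of `Δ^N · j(d ·)` -/
theorem mfa_slash_disc_jd (N d : ℕ) (γ : SL(2, ℤ)) :
    (Δ ^ N * jd d) ∣[12 * (N : ℤ)] γ = fun τ : ℍ => Δ τ ^ N * jd d (γ • τ) := by
  have e : (12 * (N : ℤ)) = 12 * (N : ℤ) + 0 := by ring
  rw [e, mul_slash_SL2, (mfa_isLevelOne_disc_pow N).slash_eq γ]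
  funext τ
  rw [Pi.mul_apply, Pi.pow_apply, SL_slash_apply, neg_zero, zpow_zero, mul_one]

/-- `Δ^N · j(dτ)` is a modular form of weight `12 N` on `Γ₀(N)`, for `d ∣ N`. -/
theorem mfa_isForm_disc_jd (N d : ℕ) [NeZero N] (hd : d ∣ N) :
    IsForm N (12 * (N : ℤ)) (Δ ^ N * jd d) := by
  have : NeZero d :=
    ⟨fun h => NeZero.ne N (by rw [h] at hd; exact Nat.eq_zero_of_zero_dvd hd)⟩
  refine isForm_of ((mfa_isLevelOne_disc_pow N).mdiff.mul (jd_mdiff d)) (fun γ hγ => ?_)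
    (fun γ => ?_)
  · rw [mfa_slash_disc_jd]
    funext τ
    rw [jd_smul_of_mem_Gamma0 N d hd γ hγ τ]
    rfl
  · rw [mfa_slash_disc_jd]
    exact mfa_bdd_jd_smul N d hd γ

/-- the stabiliser of `Δ^N · j(Nτ)` is `Γ₀(N)` -/
theorem mfa_stab (N : ℕ) [NeZero N] (γ : SL(2, ℤ))
    (h : (Δ ^ N * jd N) ∣[12 * (N : ℤ)] γ = Δ ^ N * jd N) : γ ∈ Gamma0 N := by
  apply mem_Gamma0_of_jd_smul_eq N γ
  intro τ
  rw [mfa_slash_disc_jd] at h
  have h1 := congrFun h τ
  simp only [Pi.mul_apply, Pi.pow_apply] at h1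
  exact mul_left_cancel₀ (pow_ne_zero N (discriminant_ne_zero τ)) h1

/-! ### Lagrange interpolation -/

/-- **Lagrange interpolation** against a primitive element `v` (a modular form on `Γ₀(N)`
whose stabiliser in `SL(2, ℤ)` is `Γ₀(N)`). -/
theorem mfa_interp {N : ℕ} [NeZero N] {k2 : ℤ}
    (v : ModularForm (Gamma0 N) k2)
    (hv : ∀ γ : SL(2, ℤ), (⇑v) ∣[k2] γ = ⇑v → γ ∈ Gamma0 N) :
    ∃ (m : ℕ) (D : ℍ → ℂ), D ≠ 0 ∧ MDiff D ∧
      ∀ {k : ℤ} (u : ModularForm (Gamma0 N) k),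
        ∃ c : (i : ℕ) → ModularForm 𝒮ℒ (k + i * k2),
          ∀ z, u z * D z = ∑ i ∈ Finset.range (m + 1), c i z * v z ^ (m - i) := by
  classical
  let _ : Fintype (SL(2, ℤ) ⧸ Gamma0 N) := Fintype.ofFinite _
  have hinvv : ∀ γ ∈ Gamma0 N, (⇑v) ∣[k2] γ = ⇑v := fun γ hγ =>
    SlashInvariantFormClass.slash_action_eq v _ (Subgroup.mem_map_of_mem _ hγ)
  let b : SL(2, ℤ) ⧸ Gamma0 N → ℍ → ℂ := conjFun (Gamma0 N) v k2
  have hb_hol : ∀ q, MDiff (b q) := fun q => (ModularFormClass.holo v).slash k2 _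
  have hb_bdd : ∀ q, IsBoundedAtImInfty (b q) := fun q =>
    ModularFormClass.bdd_at_infty_slash v _
  have hb_perm : ∀ γ : SL(2, ℤ), (fun q => b q ∣[k2] γ) = fun q => b (MulAction.toPerm γ⁻¹ q) := by
    intro γ
    funext q
    exact conjFun_slash hinvv γ q
  set μ := Fintype.card (SL(2, ℤ) ⧸ Gamma0 N) with hμ
  have hμpos : 0 < μ := Fintype.card_pos_iff.mpr ⟨QuotientGroup.mk 1⟩
  let q0 : SL(2, ℤ) ⧸ Gamma0 N := QuotientGroup.mk 1
  have hb1 : b q0 = ⇑v := conjFun_one hinvv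
  refine ⟨μ - 1, ∏ q ∈ Finset.univ.erase q0, (b q0 - b q), ?_, ?_, ?_⟩
  · -- the denominator is not the zero function
    intro hD
    rw [UpperHalfPlane.prod_eq_zero_iff (fun q _ => (hb_hol q0).sub (hb_hol q))] at hD
    obtain ⟨q, hq, hq0⟩ := hD
    have hne : q ≠ q0 := (Finset.mem_erase.mp hq).1
    apply hne
    obtain ⟨g, rfl⟩ := QuotientGroup.mk_surjective q
    have h1 : b (QuotientGroup.mk g) = ⇑v ∣[k2] g⁻¹ := conjFun_mk hinvv g
    have h2 : ⇑v ∣[k2] g⁻¹ = ⇑v := by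
      rw [← h1, ← hb1]
      exact (sub_eq_zero.mp hq0).symm
    have h3 := hv _ h2
    exact QuotientGroup.eq.mpr (by rw [mul_one]; exact h3)
  · exact mdiff_finsetProd _ fun q _ => (hb_hol q0).sub (hb_hol q)
  · intro k u
    have hinvu : ∀ γ ∈ Gamma0 N, (⇑u) ∣[k] γ = ⇑u := fun γ hγ =>
      SlashInvariantFormClass.slash_action_eq u _ (Subgroup.mem_map_of_mem _ hγ)
    let a : SL(2, ℤ) ⧸ Gamma0 N → ℍ → ℂ := conjFun (Gamma0 N) u k
    have ha_hol : ∀ q, MDiff (a q) := fun q => (ModularFormClass.holo u).slash k _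
    have ha_bdd : ∀ q, IsBoundedAtImInfty (a q) := fun q =>
      ModularFormClass.bdd_at_infty_slash u _
    have ha_perm : ∀ (γ : SL(2, ℤ)) (q : SL(2, ℤ) ⧸ Gamma0 N),
        a q ∣[k] γ = a (MulAction.toPerm γ⁻¹ q) := fun γ q => conjFun_slash hinvu γ q
    let Cfun : ℕ → ℍ → ℂ := fun i => ∑ q, a q * esymErase b q i
    have hC_slash : ∀ (γ : SL(2, ℤ)) (i : ℕ), (Cfun i) ∣[k + (i : ℤ) * k2] γ = Cfun i := by
      intro γ i
      show (∑ q, a q * esymErase b q i) ∣[k + (i : ℤ) * k2] γ = ∑ q, a q * esymErase b q i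
      rw [SlashAction.sum_slash]
      have h : ∀ q, (a q * esymErase b q i) ∣[k + (i : ℤ) * k2] γ
          = a (MulAction.toPerm γ⁻¹ q) * esymErase b (MulAction.toPerm γ⁻¹ q) i := by
        intro q
        rw [mul_slash_SL2, esymErase_slash, hb_perm γ,
          esymErase_reindex b (MulAction.toPerm γ⁻¹) q i, ha_perm γ q]
      rw [Finset.sum_congr rfl fun q _ => h q]
      exact Equiv.sum_comp (MulAction.toPerm γ⁻¹) (fun q => a q * esymErase b q i)
    have hC_hol : ∀ i, MDiff (Cfun i) := fun i =>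
      mdiff_finsetSum _ fun q _ => (ha_hol q).mul (mdiff_esymErase b hb_hol q i)
    have hC_bdd : ∀ i, IsBoundedAtImInfty (Cfun i) := fun i =>
      isBoundedAtImInfty_finsetSum _ fun q _ =>
        (ha_bdd q).mul (isBoundedAtImInfty_esymErase b hb_bdd q i)
    let Cm : (i : ℕ) → ModularForm 𝒮ℒ (k + i * k2) := fun i =>
      mkLevelOne (k + i * k2) (Cfun i) (fun γ => hC_slash γ i) (hC_hol i) (hC_bdd i)
    have ha1 : a q0 = ⇑u := conjFun_one hinvu
    refine ⟨fun i => ((-1 : ℂ) ^ i) • Cm i, fun z => ?_⟩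
    have key := congrFun (interp_eval b a q0) z
    have h0 : u z * (∏ q ∈ Finset.univ.erase q0, (b q0 - b q)) z
        = (a q0 * ∏ q ∈ Finset.univ.erase q0, (b q0 - b q)) z := by
      rw [Pi.mul_apply, ha1]
    rw [h0, ← key, Nat.sub_add_cancel hμpos, Finset.sum_apply]
    refine Finset.sum_congr rfl fun i _ => ?_
    simp only [Pi.mul_apply, Pi.pow_apply, hb1, Pi.neg_apply, Pi.one_apply,
      _root_.smul_apply, smul_eq_mul]
    rfl

end Fermat.Agent.S29
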