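import Mathlib
import Fermat.Agent.S20.LevelOne
import Fermat.Agent.S20.Forms
import Fermat.Agent.S23.TNForm
import Fermat.Agent.S24.Real

/-!
# S29, package MFRAT, part 1: level one

`mfaQ F` is the `q`-expansion of a function on the upper half plane as a Laurent series.

* `mfa_levelOne_poly`: for a level one modular form `G` of weight `12 m`, the Laurent series
  `mfaQ G / mfaQ Δ ^ m` is a polynomial in `j(q)`.
* `mfa_levelOne_ratio`: the ratio of the `q`-expansions of two level one modular forms of the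
  same weight lies in `ℂ(j(q))`.
-/

set_option autoImplicit false

open UpperHalfPlane ModularForm Filter
open scoped Manifold MatrixGroups

noncomputable section

namespace Fermat.Agent.S29

open Fermat.Agent.S20 Fermat.Agent.S23 Fermat.Agent.S24

local notation "Δ" => ModularForm.discriminant

/-- the `q`-expansion of a function on the upper half plane, as a Laurent series -/
def mfaQ (F : ℍ → ℂ) : LaurentSeries ℂ := HahnSeries.ofPowerSeries ℤ ℂ (qExpansion 1 F)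

/-- `j(q)` with complex coefficients -/
def mfaJ : LaurentSeries ℂ := ModularCurve.jqModC ℂ

theorem mfaQ_mul {F G : ℍ → ℂ} (hF : Nice F) (hG : Nice G) :
    mfaQ (F * G) = mfaQ F * mfaQ G := by
  rw [mfaQ, hF.qExpansion_mul hG, map_mul]
  rfl

theorem mfaQ_add {F G : ℍ → ℂ} (hF : Nice F) (hG : Nice G) :
    mfaQ (F + G) = mfaQ F + mfaQ G := by
  rw [mfaQ, hF.qExpansion_add hG, map_add]
  rfl

theorem mfaQ_pow {F : ℍ → ℂ} (hF : Nice F) (n : ℕ) : mfaQ (F ^ n) = mfaQ F ^ n := by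
  rw [mfaQ, hF.qExpansion_pow n, map_pow]
  rfl

theorem mfaQ_smul (c : ℂ) {F : ℍ → ℂ} (hF : Nice F) :
    mfaQ (c • F) = HahnSeries.C c * mfaQ F := by
  rw [mfaQ, hF.qExpansion_smul c, ← HahnSeries.ofPowerSeries_C, mfaQ, ← map_mul]
  congr 1
  ext n
  simp

theorem mfaQ_const (c : ℂ) : mfaQ (fun _ : ℍ => c) = HahnSeries.C c := by
  rw [mfaQ, Nice.qExpansion_const, HahnSeries.ofPowerSeries_C]

theorem mfaQ_sum {ι : Type*} (s : Finset ι) {F : ι → ℍ → ℂ} (hF : ∀ i ∈ s, Nice (F i)) :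
    mfaQ (∑ i ∈ s, F i) = ∑ i ∈ s, mfaQ (F i) := by
  rw [mfaQ, Nice.qExpansion_sum s hF, map_sum]
  rfl

theorem mfaQ_eq_zero {F : ℍ → ℂ} (hF : Nice F) (h : mfaQ F = 0) : F = 0 := by
  apply hF.eq_zero_of_qExpansion_eq_zero
  apply HahnSeries.ofPowerSeries_injective (Γ := ℤ)
  rw [map_zero]
  exact h

theorem mfaQ_injective {F G : ℍ → ℂ} (hF : Nice F) (hG : Nice G) (h : mfaQ F = mfaQ G) :
    F = G :=
  hF.eq_of_qExpansion_eq hG (HahnSeries.ofPowerSeries_injective (Γ := ℤ) h)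

/-- level one forms are nice -/
theorem mfa_nice_of_isLevelOne {k : ℤ} {p : ℍ → ℂ} (hp : IsLevelOne k p) : Nice p := by
  obtain ⟨g, rfl⟩ := hp
  exact nice_levelOne g

/-- forms on `Γ₀(N)` are nice -/
theorem mfa_nice_of_isForm {N : ℕ} [NeZero N] {k : ℤ} {F : ℍ → ℂ} (hF : IsForm N k F) : Nice F := by
  obtain ⟨g, rfl⟩ := hF
  exact nice_of_modularForm_Gamma0 g

theorem mfa_nice_disc : Nice Δ := mfa_nice_of_isLevelOne isLevelOne_discriminant

theorem mfaQ_disc_ne_zero : mfaQ Δ ≠ 0 := by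
  intro h
  have h1 := mfaQ_eq_zero mfa_nice_disc h
  exact discriminant_ne_zero UpperHalfPlane.I (by rw [h1]; rfl)

/-- weakly holomorphic functions which are bounded: the two expansions agree -/
theorem mfa_qLaurent_of_nice {g : ℍ → ℂ} (hg : IsWH g) (hb : IsBoundedAtImInfty g) :
    qLaurent ⟨g, hg⟩ = mfaQ g :=
  qLaurent_of_bounded g hg hb

theorem mfa_isWH_of_nice {g : ℍ → ℂ} (hg : Nice g) : IsWH g := by
  refine ⟨hg.holo, ql_vadd_of_periodic hg.per, 0, ?_⟩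
  have e : (fun τ => Δ τ ^ 0 * g τ) = g := by
    funext τ
    simp
  rw [e]
  exact hg.bdd

/-- `E₄³ = j · Δ` on `q`-expansions -/
theorem mfaQ_E4_cube : mfaQ ((⇑E₄) ^ 3) = mfaJ * mfaQ Δ := by
  have hE : Nice ((⇑E₄ : ℍ → ℂ) ^ 3) := (nice_levelOne E₄).pow 3
  have hWE := mfa_isWH_of_nice hE
  have hWD := mfa_isWH_of_nice mfa_nice_disc
  have hfun : (⟨(⇑E₄ : ℍ → ℂ) ^ 3, hWE⟩ : whSubring)
      = ⟨jFun, rz_isWH_jFun⟩ * ⟨Δ, hWD⟩ := by
    apply Subtype.ext
    funext τ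
    show E₄ τ ^ 3 = jFun τ * Δ τ
    rw [jFun, div_mul_cancel₀ _ (discriminant_ne_zero τ)]
  have h := congrArg qLaurent hfun
  rw [map_mul, rz_qLaurent_jFun, mfa_qLaurent_of_nice hWE hE.bdd,
    mfa_qLaurent_of_nice hWD mfa_nice_disc.bdd] at h
  rw [h, mfaJ, ← ModularCurve.jqModC_rat, ModularCurve.coeffEmb, ModularCurve.coeffMap_jqModC]

/-- an identity in a commutative ring -/
theorem mfa_alg_step {K : Type*} [CommRing K] (c J D p : K) (m : ℕ) :
    c * (J * D) ^ (m + 1) + D * (p * D ^ m) = (c * J ^ (m + 1) + p) * D ^ (m + 1) := by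
  ring

/-- an identity in a field -/
theorem mfa_alg_ratio {K : Type*} [Field K] {a b p q d : K} (hP : a * b ^ 11 = p * d)
    (hQ : b ^ 12 = q * d) (hb : b ≠ 0) (hd : d ≠ 0) : q ≠ 0 ∧ a / b = p / q := by
  have hq : q ≠ 0 := by
    rintro rfl
    rw [zero_mul] at hQ
    exact pow_ne_zero 12 hb hQ
  refine ⟨hq, ?_⟩
  rw [div_eq_div_iff hb hq]
  have e1 : a * q * b ^ 11 * d = p * b * b ^ 11 * d := by
    calc a * q * b ^ 11 * d = (a * b ^ 11) * (q * d) := by ring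
      _ = (p * d) * b ^ 12 := by rw [hP, hQ]
      _ = p * b * b ^ 11 * d := by ring
  exact mul_right_cancel₀ (pow_ne_zero 11 hb) (mul_right_cancel₀ hd e1)

/-- **Level one forms of weight `12 m`**: `mfaQ G = P(j) · mfaQ Δ ^ m` for a polynomial `P`. -/
theorem mfa_levelOne_poly (m : ℕ) :
    ∀ G : ℍ → ℂ, IsLevelOne (12 * (m : ℤ)) G →
      ∃ P : Polynomial ℂ, mfaQ G = Polynomial.aeval mfaJ P * mfaQ Δ ^ m := by
  induction m with
  | zero =>
    intro G hG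
    obtain ⟨c, rfl⟩ := IsLevelOne.const_of_zero (hG.cast (by simp))
    refine ⟨Polynomial.C c, ?_⟩
    rw [mfaQ_const, pow_zero, mul_one, Polynomial.aeval_C]
    exact (LaurentSeries.algebraMap_apply ℂ c).symm
  | succ m ih =>
    intro G hG
    obtain ⟨c, hc⟩ := lvl_exists_tendsto hG
    have hE : IsLevelOne (12 * ((m + 1 : ℕ) : ℤ)) ((⇑E₄ : ℍ → ℂ) ^ (3 * (m + 1))) :=
      (isLevelOne_E₄.pow (3 * (m + 1))).cast (by push_cast; ring)
    have hEt : Tendsto ((⇑E₄ : ℍ → ℂ) ^ (3 * (m + 1))) atImInfty (nhds 1) := by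
      have h := tendsto_E₄.pow (3 * (m + 1))
      rw [one_pow] at h
      exact h
    have hG1 : IsLevelOne (12 * ((m + 1 : ℕ) : ℤ)) (G - c • (⇑E₄ : ℍ → ℂ) ^ (3 * (m + 1))) :=
      hG.sub (hE.smul c)
    have ht : Tendsto (G - c • (⇑E₄ : ℍ → ℂ) ^ (3 * (m + 1))) atImInfty (nhds 0) := by
      have h := hc.sub (hEt.const_smul c)
      rw [smul_eq_mul, mul_one, sub_self] at h
      exact h
    obtain ⟨q, hq, hq2⟩ := lvl_exists_eq_disc_mul hG1 ht
    obtain ⟨P, hP⟩ := ih q (hq.cast (by push_cast; ring))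
    refine ⟨Polynomial.C c * Polynomial.X ^ (m + 1) + P, ?_⟩
    have hNE : Nice ((⇑E₄ : ℍ → ℂ) ^ (3 * (m + 1))) := mfa_nice_of_isLevelOne hE
    have hNq : Nice q := mfa_nice_of_isLevelOne hq
    have hGeq : G = c • (⇑E₄ : ℍ → ℂ) ^ (3 * (m + 1)) + Δ * q := by
      rw [← hq2]
      abel
    have hE3 : mfaQ ((⇑E₄ : ℍ → ℂ) ^ (3 * (m + 1))) = (mfaJ * mfaQ Δ) ^ (m + 1) := by
      rw [pow_mul, mfaQ_pow ((nice_levelOne E₄).pow 3), mfaQ_E4_cube]
    rw [hGeq, mfaQ_add (hNE.smul c) (mfa_nice_disc.mul hNq), mfaQ_smul c hNE,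
      mfaQ_mul mfa_nice_disc hNq, hP, hE3, map_add, map_mul, map_pow, Polynomial.aeval_C,
      Polynomial.aeval_X]
    have hC : (algebraMap ℂ (LaurentSeries ℂ)) c = HahnSeries.C c :=
      LaurentSeries.algebraMap_apply ℂ c
    rw [hC]
    exact mfa_alg_step _ _ _ _ _

/-- **Ratios of level one forms**: the ratio of the `q`-expansions of two level one forms of
the same weight is a rational function of `j(q)`. -/
theorem mfa_levelOne_ratio {w : ℤ} {g₁ g₂ : ℍ → ℂ} (h₁ : IsLevelOne w g₁)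
    (h₂ : IsLevelOne w g₂) (hne : g₂ ≠ 0) :
    mfaQ g₁ / mfaQ g₂ ∈ IntermediateField.adjoin ℂ ({mfaJ} : Set (LaurentSeries ℂ)) := by
  have hw : 0 ≤ w := by
    by_contra hw
    exact hne (h₂.eq_zero_of_neg (not_le.mp hw))
  obtain ⟨n, rfl⟩ := Int.eq_ofNat_of_zero_le hw
  have hN1 := mfa_nice_of_isLevelOne h₁
  have hN2 := mfa_nice_of_isLevelOne h₂
  have hA : IsLevelOne (12 * (n : ℤ)) (g₁ * g₂ ^ 11) :=
    (h₁.mul (h₂.pow 11)).cast (by push_cast; ring)
  have hB : IsLevelOne (12 * (n : ℤ)) (g₂ ^ 12) := (h₂.pow 12).cast (by push_cast; ring)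
  obtain ⟨P, hP⟩ := mfa_levelOne_poly n _ hA
  obtain ⟨Q, hQ⟩ := mfa_levelOne_poly n _ hB
  rw [mfaQ_mul hN1 (hN2.pow 11), mfaQ_pow hN2] at hP
  rw [mfaQ_pow hN2] at hQ
  have h2 : mfaQ g₂ ≠ 0 := fun h => hne (mfaQ_eq_zero hN2 h)
  have hD : mfaQ Δ ^ n ≠ 0 := pow_ne_zero n mfaQ_disc_ne_zero
  obtain ⟨hQ0, key⟩ := mfa_alg_ratio hP hQ h2 hD
  rw [key]
  have hmem : ∀ R : Polynomial ℂ, Polynomial.aeval mfaJ R
      ∈ IntermediateField.adjoin ℂ ({mfaJ} : Set (LaurentSeries ℂ)) := by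
    intro R
    rw [Polynomial.aeval_eq_sum_range]
    refine sum_mem fun i _ => ?_
    rw [Algebra.smul_def]
    exact mul_mem (IntermediateField.algebraMap_mem _ _)
      (pow_mem (IntermediateField.subset_adjoin ℂ _ (Set.mem_singleton _)) i)
  exact div_mem (hmem P) (hmem Q)

end Fermat.Agent.S29
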