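import Mathlib
import Fermat.Agent.S29.MfaLevelOne
import Fermat.Agent.S29.MfaInterp

/-!
# S29, package MFRAT: ratios of modular forms and the function field of `X₀(N)` over `ℂ`

`F_ℂ := ModularCurve.laurentBaseChange ℂ (ModularCurve.modularFunctionFieldFull N)` is the
subfield of `ℂ((q))` generated over `ℂ` by the `j(q^d)`, `d ∣ N`.

* `mfa_ratio_mem`: for modular forms `A`, `B` of the same weight on `Γ₀(N)`, `B ≠ 0`, the ratio
  of the `q`-expansions lies in `F_ℂ`.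
* `mfa_exists_ratio`: every element of `F_ℂ` is such a ratio.
* `mfa_mem_iff`: the two together.
-/

set_option autoImplicit false

open UpperHalfPlane ModularForm Filter CongruenceSubgroup
open scoped Manifold MatrixGroups

noncomputable section

namespace Fermat.Agent.S29

open Fermat.Agent.S20 Fermat.Agent.S23 Fermat.Agent.S24

local notation "Δ" => ModularForm.discriminant

/-- the function field of `X₀(N)` over `ℂ`, inside `ℂ((q))` -/
abbrev mfaField (N : ℕ) [NeZero N] : IntermediateField ℂ (LaurentSeries ℂ) :=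
  ModularCurve.laurentBaseChange ℂ (ModularCurve.modularFunctionFieldFull N)

/-! ### The generators -/

theorem mfaJ_eq : mfaJ = ModularCurve.coeffEmb ℂ ModularCurve.jq := by
  rw [mfaJ, ← ModularCurve.jqModC_rat, ModularCurve.coeffEmb, ModularCurve.coeffMap_jqModC]

/-- `j(q^d)` with complex coefficients, `d ∣ N`, lies in the function field -/
theorem mfa_qExpand_mem (N d : ℕ) [NeZero N] [NeZero d] (hd : d ∣ N) :
    ModularCurve.qExpand ℂ d mfaJ ∈ mfaField N := by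
  have h : ModularCurve.qExpand ℂ d mfaJ
      = ModularCurve.coeffEmb ℂ (ModularCurve.qExpand ℚ d ModularCurve.jq) := by
    rw [mfaJ_eq, ModularCurve.coeffEmb, ModularCurve.coeffMap_qExpand]
  rw [h]
  exact ModularCurve.coeffEmb_mem_laurentBaseChange ℂ (ModularCurve.jqd_mem_full N hd)

theorem mfaJ_mem (N : ℕ) [NeZero N] : mfaJ ∈ mfaField N := by
  have h := mfa_qExpand_mem N 1 (one_dvd N)
  rwa [ModularCurve.qExpand_one_apply] at h

theorem mfa_adjoin_le (N : ℕ) [NeZero N] :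
    IntermediateField.adjoin ℂ ({mfaJ} : Set (LaurentSeries ℂ)) ≤ mfaField N := by
  rw [IntermediateField.adjoin_le_iff]
  rintro x hx
  rw [Set.mem_singleton_iff] at hx
  rw [hx]
  exact mfaJ_mem N

theorem mfa_isWH_jd (d : ℕ) [NeZero d] : IsWH (jd d) := by
  rw [rz_jd_eq]
  exact isWH_scale d (NeZero.pos d) rz_isWH_jFun

/-- the Laurent expansion of `j(dτ)` -/
theorem mfa_qLaurent_jd (d : ℕ) [NeZero d] :
    qLaurent ⟨jd d, mfa_isWH_jd d⟩ = ModularCurve.qExpand ℂ d mfaJ := by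
  have e : (⟨jd d, mfa_isWH_jd d⟩ : whSubring)
      = ⟨fun τ : ℍ => jFun (ofComplex ((d : ℂ) * τ)),
          isWH_scale d (NeZero.pos d) rz_isWH_jFun⟩ := Subtype.ext (rz_jd_eq d)
  rw [e, qLaurent_scale d jFun rz_isWH_jFun, rz_qLaurent_jFun, mfaJ_eq]

/-- the `q`-expansion of the form `Δ^N · j(dτ)` -/
theorem mfaQ_disc_jd (N d : ℕ) [NeZero N] [NeZero d] (hd : d ∣ N) :
    mfaQ (Δ ^ N * jd d) = mfaQ Δ ^ N * ModularCurve.qExpand ℂ d mfaJ := by
  have hF := mfa_nice_of_isForm (mfa_isForm_disc_jd N d hd)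
  have hWF := mfa_isWH_of_nice hF
  have hWD := mfa_isWH_of_nice mfa_nice_disc
  have e : (⟨Δ ^ N * jd d, hWF⟩ : whSubring) = ⟨Δ, hWD⟩ ^ N * ⟨jd d, mfa_isWH_jd d⟩ :=
    Subtype.ext rfl
  have h := congrArg qLaurent e
  rw [map_mul, map_pow, mfa_qLaurent_of_nice hWF hF.bdd,
    mfa_qLaurent_of_nice hWD mfa_nice_disc.bdd, mfa_qLaurent_jd] at h
  exact h

/-! ### An identity in a field -/

theorem mfa_alg_mem {K : Type*} [Field K] (S : Subfield K) {x y g₀ T : K} {m : ℕ}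
    (gA gB : ℕ → K) (hg₀ : g₀ ≠ 0) (hy : y ≠ 0) (hT : T ∈ S)
    (hA : ∀ i ∈ Finset.range (m + 1), gA i / g₀ ∈ S)
    (hB : ∀ i ∈ Finset.range (m + 1), gB i / g₀ ∈ S)
    (hne : ∑ i ∈ Finset.range (m + 1), gB i * T ^ (m - i) ≠ 0)
    (h : x * ∑ i ∈ Finset.range (m + 1), gB i * T ^ (m - i)
      = y * ∑ i ∈ Finset.range (m + 1), gA i * T ^ (m - i)) : x / y ∈ S := by
  have e1 : x / y = (∑ i ∈ Finset.range (m + 1), gA i * T ^ (m - i))
      / (∑ i ∈ Finset.range (m + 1), gB i * T ^ (m - i)) := by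
    rw [div_eq_div_iff hy hne, h, mul_comm]
  have e2 : ∀ g : ℕ → K, (∑ i ∈ Finset.range (m + 1), g i * T ^ (m - i)) / g₀
      = ∑ i ∈ Finset.range (m + 1), (g i / g₀) * T ^ (m - i) := by
    intro g
    rw [Finset.sum_div]
    exact Finset.sum_congr rfl fun i _ => by rw [mul_div_right_comm]
  rw [e1, ← div_div_div_cancel_right₀ hg₀, e2, e2]
  exact div_mem (sum_mem fun i hi => mul_mem (hA i hi) (pow_mem hT _))
    (sum_mem fun i hi => mul_mem (hB i hi) (pow_mem hT _))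

/-! ### Ratios of modular forms lie in the function field -/

/-- **MFRAT (M1)**: the ratio of the `q`-expansions of two modular forms of the same weight
on `Γ₀(N)` lies in the function field of `X₀(N)` over `ℂ`. -/
theorem mfa_ratio_mem (N : ℕ) [NeZero N] {k : ℤ} (A B : ModularForm (Gamma0 N) k)
    (hB : (⇑B : ℍ → ℂ) ≠ 0) : mfaQ ⇑A / mfaQ ⇑B ∈ mfaField N := by
  obtain ⟨V, hV⟩ := mfa_isForm_disc_jd N N dvd_rfl
  have hstab : ∀ γ : SL(2, ℤ), (⇑V) ∣[12 * (N : ℤ)] γ = ⇑V → γ ∈ Gamma0 N := by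
    rw [hV]
    exact mfa_stab N
  obtain ⟨m, D, hD0, hDhol, hint⟩ := mfa_interp V hstab
  obtain ⟨cA, hA⟩ := hint A
  obtain ⟨cB, hB'⟩ := hint B
  -- the level one coefficients, all of the same weight
  set w : ℤ := k + 12 * ((N * m : ℕ) : ℤ) with hw
  have hlev : ∀ {c : (i : ℕ) → ModularForm 𝒮ℒ (k + i * (12 * (N : ℤ)))},
      ∀ i ∈ Finset.range (m + 1), IsLevelOne w (⇑(c i) * Δ ^ (N * (m - i))) := by
    intro c i hi
    have him : i ≤ m := Nat.lt_succ_iff.mp (Finset.mem_range.mp hi)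
    have h1 : IsLevelOne (k + (i : ℤ) * (12 * (N : ℤ))) ⇑(c i) := ⟨c i, rfl⟩
    refine (h1.mul (mfa_isLevelOne_disc_pow (N * (m - i)))).cast ?_
    have e1 : ((N * (m - i) : ℕ) : ℤ) = (N : ℤ) * ((m : ℤ) - (i : ℤ)) := by
      rw [Nat.cast_mul, Nat.cast_sub him]
    have e2 : ((N * m : ℕ) : ℤ) = (N : ℤ) * (m : ℤ) := Nat.cast_mul N m
    rw [hw, e1, e2]
    ring
  have hNA := nice_of_modularForm_Gamma0 A
  have hNB := nice_of_modularForm_Gamma0 B
  have hWA := mfa_isWH_of_nice hNA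
  have hWB := mfa_isWH_of_nice hNB
  have hWG : ∀ {c : (i : ℕ) → ModularForm 𝒮ℒ (k + i * (12 * (N : ℤ)))} (i : ℕ),
      IsWH (⇑(c i) * Δ ^ (N * (m - i))) := fun {c} i =>
    mfa_isWH_of_nice ((nice_levelOne (c i)).mul (mfa_nice_disc.pow _))
  have hbG : ∀ {c : (i : ℕ) → ModularForm 𝒮ℒ (k + i * (12 * (N : ℤ)))} (i : ℕ),
      IsBoundedAtImInfty (⇑(c i) * Δ ^ (N * (m - i))) := fun {c} i =>
    ((nice_levelOne (c i)).mul (mfa_nice_disc.pow _)).bdd
  -- the sums in the ring of weakly holomorphic functions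
  let t : whSubring := ⟨jd N, mfa_isWH_jd N⟩
  let sum : ((i : ℕ) → ModularForm 𝒮ℒ (k + i * (12 * (N : ℤ)))) → whSubring := fun c =>
    ∑ i ∈ Finset.range (m + 1), (⟨⇑(c i) * Δ ^ (N * (m - i)), hWG i⟩ : whSubring) * t ^ (m - i)
  have hsum : ∀ (c : (i : ℕ) → ModularForm 𝒮ℒ (k + i * (12 * (N : ℤ)))) (z : ℍ),
      (sum c : ℍ → ℂ) z = ∑ i ∈ Finset.range (m + 1), c i z * V z ^ (m - i) := by
    intro c z
    have h1 : (sum c : ℍ → ℂ) z
        = ∑ i ∈ Finset.range (m + 1), (c i z * Δ z ^ (N * (m - i))) * jd N z ^ (m - i) := by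
      show ((∑ i ∈ Finset.range (m + 1),
        (⟨⇑(c i) * Δ ^ (N * (m - i)), hWG i⟩ : whSubring) * t ^ (m - i) : whSubring) : ℍ → ℂ) z
          = _
      rw [AddSubmonoidClass.coe_finsetSum, Finset.sum_apply]
      rfl
    rw [h1]
    refine Finset.sum_congr rfl fun i _ => ?_
    have hVz : V z = Δ z ^ N * jd N z := by
      have := congrFun hV z
      simpa using this
    rw [hVz, mul_pow, ← pow_mul]
    ring
  have hAD : ∀ z, A z * D z = (sum cA : ℍ → ℂ) z := fun z => by rw [hsum, hA z]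
  have hBD : ∀ z, B z * D z = (sum cB : ℍ → ℂ) z := fun z => by rw [hsum, hB' z]
  -- the relation
  have hrel : (⟨⇑A, hWA⟩ : whSubring) * sum cB = ⟨⇑B, hWB⟩ * sum cA := by
    apply Subtype.ext
    funext z
    show A z * (sum cB : ℍ → ℂ) z = B z * (sum cA : ℍ → ℂ) z
    rw [← hBD z, ← hAD z]
    ring
  have hsB : sum cB ≠ 0 := by
    intro h0
    have h1 : (⇑B : ℍ → ℂ) * D = 0 := by
      funext z
      rw [Pi.mul_apply, hBD z, h0]
      rfl
    rcases (UpperHalfPlane.mul_eq_zero_iff (ModularFormClass.holo B) hDhol).mp h1 with h | h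
    · exact hB h
    · exact hD0 h
  -- apply the Laurent expansion
  set T : LaurentSeries ℂ := ModularCurve.qExpand ℂ N mfaJ with hT
  have hqsum : ∀ c : (i : ℕ) → ModularForm 𝒮ℒ (k + i * (12 * (N : ℤ))),
      qLaurent (sum c) = ∑ i ∈ Finset.range (m + 1),
        mfaQ (⇑(c i) * Δ ^ (N * (m - i))) * T ^ (m - i) := by
    intro c
    show qLaurent (∑ i ∈ Finset.range (m + 1),
        (⟨⇑(c i) * Δ ^ (N * (m - i)), hWG i⟩ : whSubring) * t ^ (m - i)) = _
    rw [map_sum]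
    refine Finset.sum_congr rfl fun i _ => ?_
    rw [map_mul, map_pow, mfa_qLaurent_of_nice (hWG i) (hbG i), mfa_qLaurent_jd]
  have hrel2 := congrArg qLaurent hrel
  rw [map_mul, map_mul, hqsum, hqsum, mfa_qLaurent_of_nice hWA hNA.bdd,
    mfa_qLaurent_of_nice hWB hNB.bdd] at hrel2
  have hne : ∑ i ∈ Finset.range (m + 1), mfaQ (⇑(cB i) * Δ ^ (N * (m - i))) * T ^ (m - i) ≠ 0 := by
    rw [← hqsum]
    exact fun h => hsB (qLaurent_injective (by rw [h, map_zero]))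
  obtain ⟨i₀, hi₀, hi₀ne⟩ : ∃ i ∈ Finset.range (m + 1),
      mfaQ (⇑(cB i) * Δ ^ (N * (m - i))) ≠ 0 := by
    by_contra hcon
    apply hne
    refine Finset.sum_eq_zero fun i hi => ?_
    have : mfaQ (⇑(cB i) * Δ ^ (N * (m - i))) = 0 := by
      by_contra h
      exact hcon ⟨i, hi, h⟩
    rw [this, zero_mul]
  have hG0 : (⇑(cB i₀) * Δ ^ (N * (m - i₀)) : ℍ → ℂ) ≠ 0 := by
    intro h
    apply hi₀ne
    rw [h, mfaQ, UpperHalfPlane.qExpansion_zero 1, map_zero]
  have hmB : mfaQ ⇑B ≠ 0 := fun h => hB (mfaQ_eq_zero hNB h)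
  have hmem := mfa_alg_mem (mfaField N).toSubfield
    (fun i => mfaQ (⇑(cA i) * Δ ^ (N * (m - i)))) (fun i => mfaQ (⇑(cB i) * Δ ^ (N * (m - i))))
    hi₀ne hmB (mfa_qExpand_mem N N dvd_rfl)
    (fun i hi => mfa_adjoin_le N (mfa_levelOne_ratio (hlev i hi) (hlev i₀ hi₀) hG0))
    (fun i hi => mfa_adjoin_le N (mfa_levelOne_ratio (hlev i hi) (hlev i₀ hi₀) hG0))
    hne hrel2
  exact hmem

/-! ### The field of ratios -/

theorem mfaQ_zero : mfaQ (0 : ℍ → ℂ) = 0 := by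
  rw [mfaQ, UpperHalfPlane.qExpansion_zero 1, map_zero]

theorem mfaQ_one : mfaQ (fun _ : ℍ => (1 : ℂ)) = 1 := by
  rw [mfaQ_const, map_one]

theorem mfaQ_neg {F : ℍ → ℂ} (hF : Nice F) : mfaQ (-F) = -mfaQ F := by
  rw [mfaQ, hF.qExpansion_neg, map_neg]
  rfl

theorem mfa_const_one_ne_zero : (fun _ : ℍ => (1 : ℂ)) ≠ 0 := fun h =>
  one_ne_zero (congrFun h UpperHalfPlane.I)

theorem mfa_alg_add {K : Type*} [CommRing K] (x y b₁ b₂ : K) :
    (x + y) * (b₁ * b₂) = x * b₁ * b₂ + b₁ * (y * b₂) := by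
  ring

/-- the ratios of `q`-expansions of modular forms of the same weight on `Γ₀(N)` form a
subfield of `ℂ((q))` -/
def mfaRatio (N : ℕ) [NeZero N] : Subfield (LaurentSeries ℂ) where
  carrier := {x | ∃ (k : ℤ) (A B : ℍ → ℂ), IsForm N k A ∧ IsForm N k B ∧ B ≠ 0 ∧
    x * mfaQ B = mfaQ A}
  mul_mem' := by
    rintro x y ⟨k₁, A₁, B₁, hA₁, hB₁, hne₁, h₁⟩ ⟨k₂, A₂, B₂, hA₂, hB₂, hne₂, h₂⟩
    refine ⟨k₁ + k₂, A₁ * A₂, B₁ * B₂, hA₁.mul hA₂, hB₁.mul hB₂, ?_, ?_⟩
    · intro h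
      rcases (UpperHalfPlane.mul_eq_zero_iff hB₁.mdiff hB₂.mdiff).mp h with h | h
      · exact hne₁ h
      · exact hne₂ h
    · rw [mfaQ_mul (mfa_nice_of_isForm hB₁) (mfa_nice_of_isForm hB₂),
        mfaQ_mul (mfa_nice_of_isForm hA₁) (mfa_nice_of_isForm hA₂), ← h₁, ← h₂]
      exact mul_mul_mul_comm _ _ _ _
  one_mem' := ⟨0, fun _ => 1, fun _ => 1, isForm_const N 1, isForm_const N 1,
    mfa_const_one_ne_zero, by rw [one_mul]⟩
  add_mem' := by
    rintro x y ⟨k₁, A₁, B₁, hA₁, hB₁, hne₁, h₁⟩ ⟨k₂, A₂, B₂, hA₂, hB₂, hne₂, h₂⟩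
    refine ⟨k₁ + k₂, A₁ * B₂ + B₁ * A₂, B₁ * B₂, (hA₁.mul hB₂).add (hB₁.mul hA₂),
      hB₁.mul hB₂, ?_, ?_⟩
    · intro h
      rcases (UpperHalfPlane.mul_eq_zero_iff hB₁.mdiff hB₂.mdiff).mp h with h | h
      · exact hne₁ h
      · exact hne₂ h
    · rw [mfaQ_mul (mfa_nice_of_isForm hB₁) (mfa_nice_of_isForm hB₂),
        mfaQ_add ((mfa_nice_of_isForm hA₁).mul (mfa_nice_of_isForm hB₂))
          ((mfa_nice_of_isForm hB₁).mul (mfa_nice_of_isForm hA₂)),
        mfaQ_mul (mfa_nice_of_isForm hA₁) (mfa_nice_of_isForm hB₂),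
        mfaQ_mul (mfa_nice_of_isForm hB₁) (mfa_nice_of_isForm hA₂), ← h₁, ← h₂]
      exact mfa_alg_add _ _ _ _
  zero_mem' := ⟨0, 0, fun _ => 1, isForm_zero N 0, isForm_const N 1,
    mfa_const_one_ne_zero, by rw [zero_mul, mfaQ_zero]⟩
  neg_mem' := by
    rintro x ⟨k, A, B, hA, hB, hne, h⟩
    exact ⟨k, -A, B, hA.neg, hB, hne,
      (neg_mul x (mfaQ B)).trans (by rw [h, mfaQ_neg (mfa_nice_of_isForm hA)])⟩
  inv_mem' := by
    rintro x ⟨k, A, B, hA, hB, hne, h⟩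
    by_cases hA0 : A = 0
    · subst hA0
      rw [mfaQ_zero] at h
      have hx : x = 0 := by
        rcases mul_eq_zero.mp h with h | h
        · exact h
        · exact absurd (mfaQ_eq_zero (mfa_nice_of_isForm hB) h) hne
      rw [hx, inv_zero]
      exact ⟨0, 0, fun _ => 1, isForm_zero N 0, isForm_const N 1,
        mfa_const_one_ne_zero, by rw [zero_mul, mfaQ_zero]⟩
    · refine ⟨k, B, A, hB, hA, hA0, ?_⟩
      have ha : mfaQ A ≠ 0 := fun h0 => hA0 (mfaQ_eq_zero (mfa_nice_of_isForm hA) h0)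
      have hx : x ≠ 0 := by
        rintro rfl
        rw [zero_mul] at h
        exact ha h.symm
      rw [← h, ← mul_assoc, inv_mul_cancel₀ hx, one_mul]

theorem mfa_mem_ratio_iff {N : ℕ} [NeZero N] {x : LaurentSeries ℂ} :
    x ∈ mfaRatio N ↔ ∃ (k : ℤ) (A B : ℍ → ℂ), IsForm N k A ∧ IsForm N k B ∧ B ≠ 0 ∧
      x * mfaQ B = mfaQ A := Iff.rfl

theorem mfa_const_mem (N : ℕ) [NeZero N] (c : ℂ) : HahnSeries.C c ∈ mfaRatio N :=
  ⟨0, fun _ => c, fun _ => 1, isForm_const N c, isForm_const N 1, mfa_const_one_ne_zero,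
    by rw [mfaQ_one, mul_one, mfaQ_const]⟩

/-- the generators `j(q^d)`, `d ∣ N`, are ratios of modular forms on `Γ₀(N)` -/
theorem mfa_qExpand_mem_ratio (N d : ℕ) [NeZero N] [NeZero d] (hd : d ∣ N) :
    ModularCurve.qExpand ℂ d mfaJ ∈ mfaRatio N := by
  refine ⟨12 * (N : ℤ), Δ ^ N * jd d, Δ ^ N, mfa_isForm_disc_jd N d hd,
    (mfa_isLevelOne_disc_pow N).isForm, ?_, ?_⟩
  · intro h
    have h1 := congrFun h UpperHalfPlane.I
    exact pow_ne_zero N (discriminant_ne_zero UpperHalfPlane.I) h1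
  · rw [mfaQ_disc_jd N d hd, mfaQ_pow mfa_nice_disc, mul_comm]

/-- every element of the function field is a ratio of modular forms (subfield form) -/
theorem mfa_le_ratio (N : ℕ) [NeZero N] {x : LaurentSeries ℂ} (hx : x ∈ mfaField N) :
    x ∈ mfaRatio N := by
  have hle : mfaField N ≤ (mfaRatio N).toIntermediateField (fun c => by
      rw [LaurentSeries.algebraMap_apply]
      exact mfa_const_mem N c) := by
    rw [mfaField, ModularCurve.laurentBaseChange, IntermediateField.adjoin_le_iff]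
    rintro _ ⟨y, hy, rfl⟩
    have hy' : y ∈ Subfield.closure (Set.range (algebraMap ℚ (LaurentSeries ℚ)) ∪
        ModularCurve.divisorExpansions N) := hy
    clear hy
    show ModularCurve.coeffEmb ℂ y ∈ mfaRatio N
    induction hy' using Subfield.closure_induction with
    | mem z hz =>
      rcases hz with ⟨a, rfl⟩ | ⟨d, hne, hdvd, rfl⟩
      · have e : ModularCurve.coeffEmb ℂ (algebraMap ℚ (LaurentSeries ℚ) a)
            = HahnSeries.C (algebraMap ℚ ℂ a) := by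
          rw [ModularCurve.algebraMap_laurentSeries_eq_single, ModularCurve.coeffEmb,
            ModularCurve.coeffMap_single]
          rfl
        rw [e]
        exact mfa_const_mem N _
      · have e : ModularCurve.coeffEmb ℂ (ModularCurve.qExpand ℚ d ModularCurve.jq)
            = ModularCurve.qExpand ℂ d mfaJ := by
          rw [mfaJ_eq, ModularCurve.coeffEmb, ModularCurve.coeffMap_qExpand]
        rw [e]
        exact mfa_qExpand_mem_ratio N d hdvd
    | one => rw [map_one]; exact one_mem _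
    | add x y _ _ hx hy => rw [map_add]; exact add_mem hx hy
    | neg x _ hx => rw [map_neg]; exact neg_mem hx
    | inv x _ hx => rw [map_inv₀]; exact inv_mem hx
    | mul x y _ _ hx hy => rw [map_mul]; exact mul_mem hx hy
  exact hle hx

/-- **MFRAT (M2)**: every element of the function field of `X₀(N)` over `ℂ` is the ratio of
the `q`-expansions of two modular forms of the same weight on `Γ₀(N)`. -/
theorem mfa_exists_ratio (N : ℕ) [NeZero N] {x : LaurentSeries ℂ} (hx : x ∈ mfaField N) :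
    ∃ (k : ℤ) (A B : ModularForm (Gamma0 N) k), (⇑B : ℍ → ℂ) ≠ 0 ∧
      x * mfaQ ⇑B = mfaQ ⇑A := by
  obtain ⟨k, A, B, ⟨A', rfl⟩, ⟨B', rfl⟩, hne, h⟩ := mfa_le_ratio N hx
  exact ⟨k, A', B', hne, h⟩

/-- **MFRAT**: the function field of `X₀(N)` over `ℂ` is exactly the field of ratios of
`q`-expansions of modular forms of the same weight on `Γ₀(N)`. -/
theorem mfa_mem_iff (N : ℕ) [NeZero N] (x : LaurentSeries ℂ) :
    x ∈ mfaField N ↔ ∃ (k : ℤ) (A B : ModularForm (Gamma0 N) k), (⇑B : ℍ → ℂ) ≠ 0 ∧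
      x * mfaQ ⇑B = mfaQ ⇑A := by
  refine ⟨mfa_exists_ratio N, ?_⟩
  rintro ⟨k, A, B, hne, h⟩
  have hb : mfaQ ⇑B ≠ 0 := fun h0 => hne (mfaQ_eq_zero (nice_of_modularForm_Gamma0 B) h0)
  have hx : x = mfaQ ⇑A / mfaQ ⇑B := by rw [← h, mul_div_cancel_right₀ _ hb]
  rw [hx]
  exact mfa_ratio_mem N A B hne

/-- the meromorphic function `A / B` attached to an element of the function field is well
defined: two representations by ratios give `A * B' = A' * B` on the upper half plane. -/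
theorem mfa_ratio_unique {N : ℕ} [NeZero N] {k k' : ℤ} {A B : ModularForm (Gamma0 N) k}
    {A' B' : ModularForm (Gamma0 N) k'} {x : LaurentSeries ℂ}
    (h : x * mfaQ ⇑B = mfaQ ⇑A) (h' : x * mfaQ ⇑B' = mfaQ ⇑A') :
    (⇑A : ℍ → ℂ) * ⇑B' = ⇑A' * ⇑B := by
  have hA := nice_of_modularForm_Gamma0 A
  have hB := nice_of_modularForm_Gamma0 B
  have hA' := nice_of_modularForm_Gamma0 A'
  have hB' := nice_of_modularForm_Gamma0 B'
  apply mfaQ_injective (hA.mul hB') (hA'.mul hB)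
  rw [mfaQ_mul hA hB', mfaQ_mul hA' hB, ← h, ← h']
  exact mul_right_comm _ _ _

end Fermat.Agent.S29
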