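import Mathlib
import Fermat.Agent.S29.MfRat
import Fermat.Agent.S29.MfaRatio

/-!
# S29, package [MFRAT]: the unconditional consumer interface

`F_ℂ := ModularCurve.laurentBaseChange ℂ (ModularCurve.modularFunctionFieldFull N)`.

* `mfa_field_eq`: the field of ratios `mfrField N` of `S29/MfRat.lean` IS `F_ℂ`
  (no degree count is needed: the hard inclusion is `mfa_ratio_mem` of `S29/MfaRatio.lean`,
  proved by Lagrange interpolation over the cosets of `Γ₀(N)` and the structure of the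
  level one forms);
* `mfa_M1`: the ratio of the `q`-expansions of two modular forms of the same weight on `Γ₀(N)`
  lies in `F_ℂ`;
* `mfa_M2`: every element of `F_ℂ` is such a ratio;
* `mfa_wh_bridge`: comparison of a representation by weakly holomorphic functions (S24
  vocabulary) with a representation by modular forms.
-/

set_option autoImplicit false

open UpperHalfPlane ModularForm ModularCurve
open scoped Manifold MatrixGroups

noncomputable section

namespace Fermat.Agent.S29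

open Fermat.Agent.S20 Fermat.Agent.S23 Fermat.Agent.S24

/-- **MFRAT (M1)**, unconditional, every weight: the ratio of the `q`-expansions of two modular
forms of the same weight on `Γ₀(N)` lies in the function field `F_ℂ` of `X₀(N)`. -/
theorem mfa_M1 (N : ℕ) [NeZero N] (w : ℤ) (A B : ModularForm (CongruenceSubgroup.Gamma0 N) w)
    (hB : B ≠ 0) :
    HahnSeries.ofPowerSeries ℤ ℂ (UpperHalfPlane.qExpansion 1 A) /
      HahnSeries.ofPowerSeries ℤ ℂ (UpperHalfPlane.qExpansion 1 B) ∈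
      laurentBaseChange ℂ (modularFunctionFieldFull N) := by
  have hB' : (⇑B : ℍ → ℂ) ≠ 0 := fun h => hB (DFunLike.coe_injective (by rw [h]; rfl))
  exact mfa_ratio_mem N A B hB'

/-- `mfa_M1` in relation form. -/
theorem mfa_M1_rel (N : ℕ) [NeZero N] (w : ℤ) (A B : ModularForm (CongruenceSubgroup.Gamma0 N) w)
    (hB : B ≠ 0) (x : LaurentSeries ℂ)
    (hx : x * HahnSeries.ofPowerSeries ℤ ℂ (UpperHalfPlane.qExpansion 1 B) =
      HahnSeries.ofPowerSeries ℤ ℂ (UpperHalfPlane.qExpansion 1 A)) :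
    x ∈ laurentBaseChange ℂ (modularFunctionFieldFull N) := by
  have h0 := mfr_qExpansion_ne_zero hB
  have e : x = HahnSeries.ofPowerSeries ℤ ℂ (UpperHalfPlane.qExpansion 1 A) /
      HahnSeries.ofPowerSeries ℤ ℂ (UpperHalfPlane.qExpansion 1 B) := by
    rw [← hx, mul_div_cancel_right₀ _ h0]
  rw [e]
  exact mfa_M1 N w A B hB

/-- **MFRAT**: the field of ratios of modular forms of equal weight on `Γ₀(N)` is the function
field `F_ℂ` (this is the hypothesis `hF` of `mfr_ratio_mem`; no degree bound is needed). -/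
theorem mfa_field_eq (N : ℕ) [NeZero N] :
    mfrField N = laurentBaseChange ℂ (modularFunctionFieldFull N) := by
  refine le_antisymm ?_ (mfr_FC_le N)
  intro x hx
  obtain ⟨w, g, h, ⟨A, rfl⟩, ⟨B, rfl⟩, hh0, hxh⟩ := mem_mfrField.mp hx
  have hB : B ≠ 0 := by
    rintro rfl
    apply hh0
    rw [FunLike.coe_zero, UpperHalfPlane.qExpansion_zero, map_zero]
  exact mfa_M1_rel N w A B hB x hxh

/-- **MFRAT (M2)**, weights in `ℤ`: every element of `F_ℂ` is the ratio of the `q`-expansions of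
two modular forms of the same weight on `Γ₀(N)`. -/
theorem mfa_M2 (N : ℕ) [NeZero N] (x : LaurentSeries ℂ)
    (hx : x ∈ laurentBaseChange ℂ (modularFunctionFieldFull N)) :
    ∃ (w : ℤ) (A B : ModularForm (CongruenceSubgroup.Gamma0 N) w), B ≠ 0 ∧
      x * HahnSeries.ofPowerSeries ℤ ℂ (UpperHalfPlane.qExpansion 1 B) =
        HahnSeries.ofPowerSeries ℤ ℂ (UpperHalfPlane.qExpansion 1 A) := by
  obtain ⟨w, A, B, hB, h⟩ := mfr_exists_ratio N x hx
  exact ⟨(w : ℤ), A, B, hB, h⟩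

/-- membership in `F_ℂ` is the existence of a representation by a ratio of forms -/
theorem mfa_mem_FC_iff (N : ℕ) [NeZero N] (x : LaurentSeries ℂ) :
    x ∈ laurentBaseChange ℂ (modularFunctionFieldFull N) ↔
      ∃ (w : ℤ) (A B : ModularForm (CongruenceSubgroup.Gamma0 N) w), B ≠ 0 ∧
        x * HahnSeries.ofPowerSeries ℤ ℂ (UpperHalfPlane.qExpansion 1 B) =
          HahnSeries.ofPowerSeries ℤ ℂ (UpperHalfPlane.qExpansion 1 A) :=
  ⟨mfa_M2 N x, fun ⟨w, A, B, hB, h⟩ => mfa_M1_rel N w A B hB x h⟩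

/-- a modular form on `Γ₀(N)` is weakly holomorphic in the sense of S24, and its `qLaurent`
expansion is its `q`-expansion -/
theorem mfa_isWH_form {N : ℕ} [NeZero N] {k : ℤ}
    (A : ModularForm (CongruenceSubgroup.Gamma0 N) k) : IsWH (⇑A : ℍ → ℂ) :=
  mfa_isWH_of_nice (nice_of_modularForm_Gamma0 A)

theorem mfa_qLaurent_form {N : ℕ} [NeZero N] {k : ℤ}
    (A : ModularForm (CongruenceSubgroup.Gamma0 N) k) :
    qLaurent ⟨(⇑A : ℍ → ℂ), mfa_isWH_form A⟩ =
      HahnSeries.ofPowerSeries ℤ ℂ (UpperHalfPlane.qExpansion 1 A) :=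
  qLaurent_of_bounded _ _ (nice_of_modularForm_Gamma0 A).bdd

/-- **Bridge** between the two kinds of representations of an element `x` of `ℂ((q))`: if
`x = qLaurent g / qLaurent h` with `g`, `h` weakly holomorphic (S24) and `x = q(A) / q(B)` with
`A`, `B` modular forms on `Γ₀(N)`, then `g · B = h · A` pointwise on the upper half plane. -/
theorem mfa_wh_bridge {N : ℕ} [NeZero N] {k : ℤ}
    (A B : ModularForm (CongruenceSubgroup.Gamma0 N) k) {g h : ℍ → ℂ} (hg : IsWH g) (hh : IsWH h)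
    (x : LaurentSeries ℂ)
    (hx : x * HahnSeries.ofPowerSeries ℤ ℂ (UpperHalfPlane.qExpansion 1 B) =
      HahnSeries.ofPowerSeries ℤ ℂ (UpperHalfPlane.qExpansion 1 A))
    (hx' : x * qLaurent ⟨h, hh⟩ = qLaurent ⟨g, hg⟩) (τ : ℍ) : g τ * B τ = h τ * A τ := by
  have e : (⟨g, hg⟩ : whSubring) * ⟨(⇑B : ℍ → ℂ), mfa_isWH_form B⟩ =
      ⟨h, hh⟩ * ⟨(⇑A : ℍ → ℂ), mfa_isWH_form A⟩ := by
    apply qLaurent_injective
    rw [map_mul, map_mul, mfa_qLaurent_form, mfa_qLaurent_form, ← hx, ← hx']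
    ring
  have e2 := congrArg (fun f : whSubring => (f : ℍ → ℂ) τ) e
  exact e2

/-- The function `g / h` attached to an element of `F_ℂ` through weakly holomorphic functions is
a ratio of modular forms: there are forms `A`, `B ≠ 0` of the same weight on `Γ₀(N)` with
`g · B = h · A` on the upper half plane. -/
theorem mfa_wh_exists {N : ℕ} [NeZero N] {g h : ℍ → ℂ} (hg : IsWH g) (hh : IsWH h)
    (x : LaurentSeries ℂ) (hx : x ∈ laurentBaseChange ℂ (modularFunctionFieldFull N))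
    (hx' : x * qLaurent ⟨h, hh⟩ = qLaurent ⟨g, hg⟩) :
    ∃ (w : ℤ) (A B : ModularForm (CongruenceSubgroup.Gamma0 N) w), B ≠ 0 ∧
      (x * HahnSeries.ofPowerSeries ℤ ℂ (UpperHalfPlane.qExpansion 1 B) =
        HahnSeries.ofPowerSeries ℤ ℂ (UpperHalfPlane.qExpansion 1 A)) ∧
      ∀ τ : ℍ, g τ * B τ = h τ * A τ := by
  obtain ⟨w, A, B, hB, h1⟩ := mfa_M2 N x hx
  exact ⟨w, A, B, hB, h1, mfa_wh_bridge A B hg hh x h1 hx'⟩

/-- Conversely: weakly holomorphic `g`, `h ≠ 0` with `g · B = h · A` for two modular forms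
`A`, `B ≠ 0` of the same weight on `Γ₀(N)` have `qLaurent g / qLaurent h ∈ F_ℂ`. -/
theorem mfa_wh_mem {N : ℕ} [NeZero N] {k : ℤ}
    (A B : ModularForm (CongruenceSubgroup.Gamma0 N) k) (hB : B ≠ 0) {g h : ℍ → ℂ} (hg : IsWH g)
    (hh : IsWH h) (hh0 : h ≠ 0) (hrel : ∀ τ : ℍ, g τ * B τ = h τ * A τ) :
    qLaurent ⟨g, hg⟩ / qLaurent ⟨h, hh⟩ ∈ laurentBaseChange ℂ (modularFunctionFieldFull N) := by
  have e : (⟨g, hg⟩ : whSubring) * ⟨(⇑B : ℍ → ℂ), mfa_isWH_form B⟩ =
      ⟨h, hh⟩ * ⟨(⇑A : ℍ → ℂ), mfa_isWH_form A⟩ := Subtype.ext (funext hrel)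
  have e2 := congrArg qLaurent e
  rw [map_mul, map_mul, mfa_qLaurent_form, mfa_qLaurent_form] at e2
  have hh1 : qLaurent ⟨h, hh⟩ ≠ 0 := by
    intro h0
    apply hh0
    have := qLaurent_injective (h0.trans (map_zero qLaurent).symm)
    exact congrArg Subtype.val this
  have hB0 := mfr_qExpansion_ne_zero hB
  have e3 : qLaurent ⟨g, hg⟩ / qLaurent ⟨h, hh⟩ =
      HahnSeries.ofPowerSeries ℤ ℂ (UpperHalfPlane.qExpansion 1 A) /
        HahnSeries.ofPowerSeries ℤ ℂ (UpperHalfPlane.qExpansion 1 B) := by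
    rw [div_eq_div_iff hh1 hB0, e2, mul_comm]
  rw [e3]
  exact mfa_M1 N k A B hB

end Fermat.Agent.S29
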