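import Mathlib
import Fermat.Agent.S29.MfRatApi
import Fermat.Agent.S29.RootInField

/-!
# S29: [MFRAT] in the `S20.IsForm` vocabulary, and [ROOT-IN-FIELD] without hypotheses

* `mfa_M1_isForm`, `mfa_M2_isForm`: the two MFRAT facts for functions `A B : ℍ → ℂ` with
  `S20.IsForm N w A`, `S20.IsForm N w B` (the literal hypotheses `hM1`, `hM2` of `rif_core`);
* `mfa_rif`: `rif_core` with the two hypotheses discharged.
-/

set_option autoImplicit false

open UpperHalfPlane ModularForm ModularCurve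
open scoped Manifold MatrixGroups

noncomputable section

namespace Fermat.Agent.S29

open Fermat.Agent.S20 Fermat.Agent.S23 Fermat.Agent.S24

/-- **MFRAT (M2)** in the `IsForm` vocabulary: every element of `F_ℂ` is a ratio of two modular
forms of the same weight on `Γ₀(N)`. -/
theorem mfa_M2_isForm (N : ℕ) [NeZero N] :
    ∀ x ∈ laurentBaseChange ℂ (modularFunctionFieldFull N),
      ∃ (w : ℤ) (A B : ℍ → ℂ), IsForm N w A ∧ IsForm N w B ∧ B ≠ 0 ∧
        x * HahnSeries.ofPowerSeries ℤ ℂ (qExpansion 1 B) =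
          HahnSeries.ofPowerSeries ℤ ℂ (qExpansion 1 A) := by
  intro x hx
  obtain ⟨w, A, B, hB, h⟩ := mfa_M2 N x hx
  refine ⟨w, ⇑A, ⇑B, ⟨A, rfl⟩, ⟨B, rfl⟩, ?_, h⟩
  intro h0
  exact hB (DFunLike.coe_injective (by rw [h0]; rfl))

/-- **MFRAT (M1)** in the `IsForm` vocabulary: the ratio of the `q`-expansions of two modular
forms of the same weight on `Γ₀(N)` lies in `F_ℂ`. -/
theorem mfa_M1_isForm (N : ℕ) [NeZero N] :
    ∀ (w : ℤ) (A B : ℍ → ℂ), IsForm N w A → IsForm N w B → B ≠ 0 →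
      HahnSeries.ofPowerSeries ℤ ℂ (qExpansion 1 A) /
        HahnSeries.ofPowerSeries ℤ ℂ (qExpansion 1 B) ∈
        laurentBaseChange ℂ (modularFunctionFieldFull N) := by
  rintro w _ _ ⟨A, rfl⟩ ⟨B, rfl⟩ hB
  exact mfa_ratio_mem N A B hB

/-- **[ROOT-IN-FIELD]**, unconditional: if `G` is holomorphic and `Γ₀(N)`-invariant and
`G ^ p = a / b` with `a / b` (a quotient of weakly holomorphic functions) in the function field
`F_ℂ` of `X₀(N)`, then `G` is represented by an element `x` of `F_ℂ`: whenever `x = a' / b'` as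
Laurent series (`a'`, `b'` weakly holomorphic), `G * b' = a'` on the upper half plane. -/
theorem mfa_rif (N : ℕ) [NeZero N] {p : ℕ} (hp : 0 < p) {G a b : ℍ → ℂ} (hG : MDiff G)
    (hGinv : ∀ γ ∈ CongruenceSubgroup.Gamma0 N, ∀ τ : ℍ, G (γ • τ) = G τ)
    (ha : IsWH a) (hb : IsWH b) (hb0 : b ≠ 0)
    (hab : qLaurent ⟨a, ha⟩ / qLaurent ⟨b, hb⟩ ∈
      laurentBaseChange ℂ (modularFunctionFieldFull N))
    (hGp : ∀ τ, G τ ^ p * b τ = a τ) :
    ∃ x ∈ laurentBaseChange ℂ (modularFunctionFieldFull N),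
      ∀ (a' b' : ℍ → ℂ) (ha' : IsWH a') (hb' : IsWH b'),
        x * qLaurent ⟨b', hb'⟩ = qLaurent ⟨a', ha'⟩ → ∀ τ, G τ * b' τ = a' τ :=
  rif_core N hp (mfa_M2_isForm N) (mfa_M1_isForm N) hG hGinv ha hb hb0 hab hGp

end Fermat.Agent.S29
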