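import Fermat.Agent.S37.HeckeIn
import Fermat.Agent.S18.PlaceDict

/-!
# S29, OPEN-STAB: divisor classes of `X₀(N)` over `ℚ̄` are fixed by open subgroups

Every element of the function field `F = ℚ̄(X₀(N)) ⊆ ℚ̄((q))` is fixed (coefficientwise) by the
absolute Galois group of a number field; every place of `F`, hence every divisor and every class
in `J₀(N)(ℚ̄) = Pic⁰(F)`, is fixed by the absolute Galois group of a number field.

* `ostab_fix_smul`: functions;
* `ostab_place`: places;
* `ostab_main`: divisor classes.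
-/

set_option autoImplicit false
set_option linter.style.haveILetI false
set_option linter.unusedSectionVars false

open ModularCurve AlgebraicCurve IntermediateField

namespace Fermat.Agent.S29

local notation "Qb" => AlgebraicClosure ℚ

/-- `x` is fixed, coefficientwise, by the absolute Galois group of a number field. -/
def OstabFix (x : LaurentSeries Qb) : Prop :=
  ∃ L : IntermediateField ℚ Qb, FiniteDimensional ℚ L ∧
    ∀ σ : Qb ≃ₐ[ℚ] Qb, (∀ y ∈ L, σ y = y) → coeffMap (σ : Qb →+* Qb) x = x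

theorem ostab_fix_const (a : Qb) : OstabFix (algebraMap Qb (LaurentSeries Qb) a) := by
  refine ⟨ℚ⟮a⟯, ?_, fun σ hσ => ?_⟩
  · exact IntermediateField.adjoin.finiteDimensional
      ((AlgebraicClosure.isAlgebraic ℚ).isAlgebraic a).isIntegral
  · rw [coeffMap_algebraMap]
    have h := hσ a (IntermediateField.mem_adjoin_simple_self ℚ a)
    exact congrArg _ h

theorem ostab_fix_emb (z : LaurentSeries ℚ) : OstabFix (coeffEmb Qb z) :=
  ⟨⊥, inferInstance, fun σ _ => coeffMap_coeffEmb σ z⟩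

theorem ostab_fix_sup {x y : LaurentSeries Qb} (hx : OstabFix x) (hy : OstabFix y) :
    ∃ L : IntermediateField ℚ Qb, FiniteDimensional ℚ L ∧
      ∀ σ : Qb ≃ₐ[ℚ] Qb, (∀ z ∈ L, σ z = z) →
        coeffMap (σ : Qb →+* Qb) x = x ∧ coeffMap (σ : Qb →+* Qb) y = y := by
  obtain ⟨L₁, h₁, hx⟩ := hx
  obtain ⟨L₂, h₂, hy⟩ := hy
  haveI := h₁
  haveI := h₂
  refine ⟨L₁ ⊔ L₂, IntermediateField.finiteDimensional_sup L₁ L₂, fun σ hσ => ⟨?_, ?_⟩⟩
  · exact hx σ fun z hz => hσ z ((le_sup_left : L₁ ≤ L₁ ⊔ L₂) hz)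
  · exact hy σ fun z hz => hσ z ((le_sup_right : L₂ ≤ L₁ ⊔ L₂) hz)

theorem ostab_fix_of_mem (F₀ : IntermediateField ℚ (LaurentSeries ℚ)) {x : LaurentSeries Qb}
    (hx : x ∈ laurentBaseChange Qb F₀) : OstabFix x := by
  rw [mem_laurentBaseChange_iff] at hx
  induction hx using Subfield.closure_induction with
  | mem y hy =>
      rcases hy with ⟨a, rfl⟩ | ⟨z, -, rfl⟩
      · exact ostab_fix_const a
      · exact ostab_fix_emb z
  | one => exact ⟨⊥, inferInstance, fun σ _ => map_one _⟩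
  | add x y _ _ hx hy =>
      obtain ⟨L, hL, h⟩ := ostab_fix_sup hx hy
      exact ⟨L, hL, fun σ hσ => by rw [map_add, (h σ hσ).1, (h σ hσ).2]⟩
  | neg x _ hx =>
      obtain ⟨L, hL, h⟩ := hx
      exact ⟨L, hL, fun σ hσ => by rw [map_neg, h σ hσ]⟩
  | inv x _ hx =>
      obtain ⟨L, hL, h⟩ := hx
      exact ⟨L, hL, fun σ hσ => by rw [map_inv₀, h σ hσ]⟩
  | mul x y _ _ hx hy =>
      obtain ⟨L, hL, h⟩ := ostab_fix_sup hx hy
      exact ⟨L, hL, fun σ hσ => by rw [map_mul, (h σ hσ).1, (h σ hσ).2]⟩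

/-- Every element of the base-changed field is fixed by the absolute Galois group of a number
field. -/
theorem ostab_fix_smul (F₀ : IntermediateField ℚ (LaurentSeries ℚ))
    (f : laurentBaseChange Qb F₀) :
    ∃ L : IntermediateField ℚ Qb, FiniteDimensional ℚ L ∧
      ∀ σ : Qb ≃ₐ[ℚ] Qb, (∀ y ∈ L, σ y = y) → arithmeticGalois F₀ σ • f = f := by
  obtain ⟨L, hL, h⟩ := ostab_fix_of_mem F₀ f.2
  exact ⟨L, hL, fun σ hσ => Subtype.ext ((coe_arithmeticGalois_smul F₀ σ f).trans (h σ hσ))⟩

/-- Finitely many elements are fixed by the absolute Galois group of one number field. -/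
theorem ostab_fix_finset (F₀ : IntermediateField ℚ (LaurentSeries ℚ))
    (s : Finset (laurentBaseChange Qb F₀)) :
    ∃ L : IntermediateField ℚ Qb, FiniteDimensional ℚ L ∧
      ∀ σ : Qb ≃ₐ[ℚ] Qb, (∀ y ∈ L, σ y = y) → ∀ f ∈ s, arithmeticGalois F₀ σ • f = f := by
  classical
  induction s using Finset.induction_on with
  | empty => exact ⟨⊥, inferInstance, fun σ _ f hf => absurd hf (Finset.notMem_empty f)⟩
  | insert a s _ ih =>
      obtain ⟨L₁, h₁, hs⟩ := ih
      obtain ⟨L₂, h₂, ha⟩ := ostab_fix_smul F₀ a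
      haveI := h₁
      haveI := h₂
      refine ⟨L₁ ⊔ L₂, IntermediateField.finiteDimensional_sup L₁ L₂, fun σ hσ f hf => ?_⟩
      rcases Finset.mem_insert.mp hf with rfl | hf
      · exact ha σ fun z hz => hσ z ((le_sup_right : L₂ ≤ L₁ ⊔ L₂) hz)
      · exact hs σ (fun z hz => hσ z ((le_sup_left : L₁ ≤ L₁ ⊔ L₂) hz)) f hf

section place

variable (N : ℕ) [NeZero N]

/-- a transcendental element which is regular at a given place, and its value there -/
theorem ostab_exists_param (P : Place Qb (modularFunctionFieldBar N)) :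
    ∃ y : modularFunctionFieldBar N, y ≠ 0 ∧ 0 < P.ord y := by
  haveI := Fermat.Agent.S24.finiteDimensional_jBar' N
  have htr := Fermat.Agent.S24.transcendental_jBar' N
  have hbij := Fermat.Agent.S37.hki_residue N P
  obtain ⟨x, hxtr, hx0⟩ : ∃ x : modularFunctionFieldBar N, Transcendental Qb x ∧ 0 ≤ P.ord x := by
    by_cases h : 0 ≤ P.ord (Fermat.Agent.S24.jBar N)
    · exact ⟨_, htr, h⟩
    · refine ⟨(Fermat.Agent.S24.jBar N)⁻¹, ?_, ?_⟩
      · intro hal
        apply htr
        have := hal.inv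
        rwa [inv_inv] at this
      · rw [P.ord_inv]
        omega
  have hxmem : x ∈ P.toValuationSubring := (Fermat.Agent.S24.sf_ord_nonneg_iff P x).mp hx0
  set a : Qb := Fermat.Agent.S24.placeRes P hbij ⟨x, hxmem⟩ with ha
  set z : P.toValuationSubring := ⟨x, hxmem⟩ - algebraMap Qb P.toValuationSubring a with hz
  have hzres : Fermat.Agent.S24.placeRes P hbij z = 0 := by
    rw [hz, map_sub, AlgHom.commutes]
    simp [ha]
  have hzunit : ¬ IsUnit z := (Fermat.Agent.S24.placeRes_eq_zero_iff P hbij z).mp hzres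
  have hzcoe : (z : modularFunctionFieldBar N) = x - algebraMap Qb _ a := by
    rw [hz]
    push_cast
    rw [Place.coe_algebraMap]
  have hne : x - algebraMap Qb (modularFunctionFieldBar N) a ≠ 0 := by
    intro h0
    apply hxtr
    rw [sub_eq_zero.mp h0]
    exact isAlgebraic_algebraMap a
  refine ⟨x - algebraMap Qb _ a, hne, ?_⟩
  rw [Fermat.Agent.S24.sf_ord_pos_iff]
  intro hinv
  apply hzunit
  refine IsUnit.of_mul_eq_one (⟨_, hinv⟩ : P.toValuationSubring) ?_
  apply Subtype.ext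
  push_cast
  rw [hzcoe]
  exact mul_inv_cancel₀ hne

/-- **Every place of `ℚ̄(X₀(N))` is fixed by the absolute Galois group of a number field.** -/
theorem ostab_place (P : Place Qb (modularFunctionFieldBar N)) :
    ∃ L : IntermediateField ℚ Qb, FiniteDimensional ℚ L ∧
      ∀ σ : Qb ≃ₐ[ℚ] Qb, (∀ x ∈ L, σ x = x) →
        arithmeticGalois (modularFunctionFieldFull N) σ • P = P := by
  classical
  haveI := Fermat.Agent.S24.finiteDimensional_jBar' N
  have htr := Fermat.Agent.S24.transcendental_jBar' N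
  obtain ⟨y, hy0, hyP⟩ := ostab_exists_param N P
  have hfin := Fermat.Agent.S24.ord_support_finite (Fermat.Agent.S24.jBar N) htr y hy0
  have hsep : ∀ Q : Place Qb (modularFunctionFieldBar N), Q ≠ P →
      ∃ f : modularFunctionFieldBar N, 0 ≤ P.ord f ∧ ¬ 0 ≤ Q.ord f := by
    intro Q hQ
    by_contra hcon
    apply hQ
    symm
    apply Fermat.Agent.S18.pld_eq_of_le
    intro f hf
    by_contra hfQ
    exact hcon ⟨f, (Fermat.Agent.S24.sf_ord_nonneg_iff P f).mpr hf,
      fun h => hfQ ((Fermat.Agent.S24.sf_ord_nonneg_iff Q f).mp h)⟩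
  choose! f hf using hsep
  obtain ⟨L, hL, hfix⟩ := ostab_fix_finset (modularFunctionFieldFull N)
    (insert y (hfin.toFinset.image f))
  refine ⟨L, hL, fun σ hσ => ?_⟩
  set g := arithmeticGalois (modularFunctionFieldFull N) σ with hg
  by_contra hne
  have h1 : (g • P).ord y = P.ord y := by
    have h := SemilinearAut.ord_smul g P y
    rwa [hfix σ hσ y (Finset.mem_insert_self _ _)] at h
  have hmem : g • P ∈ hfin.toFinset := by
    rw [Set.Finite.mem_toFinset, Function.mem_support, h1]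
    omega
  have h2 := hf (g • P) hne
  have h3 : (g • P).ord (f (g • P)) = P.ord (f (g • P)) := by
    have h := SemilinearAut.ord_smul g P (f (g • P))
    rwa [hfix σ hσ _ (Finset.mem_insert_of_mem (Finset.mem_image_of_mem f hmem))] at h
  exact h2.2 (h3 ▸ h2.1)

/-- Every divisor of `ℚ̄(X₀(N))` is fixed by the absolute Galois group of a number field. -/
theorem ostab_divisor (D : Divisor Qb (modularFunctionFieldBar N)) :
    ∃ L : IntermediateField ℚ Qb, FiniteDimensional ℚ L ∧
      ∀ σ : Qb ≃ₐ[ℚ] Qb, (∀ x ∈ L, σ x = x) →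
        arithmeticGalois (modularFunctionFieldFull N) σ • D = D := by
  classical
  induction D using Finsupp.induction with
  | zero => exact ⟨⊥, inferInstance, fun σ _ => smul_zero _⟩
  | single_add v n D _ _ ih =>
      obtain ⟨L₁, h₁, hD⟩ := ih
      obtain ⟨L₂, h₂, hv⟩ := ostab_place N v
      haveI := h₁
      haveI := h₂
      refine ⟨L₁ ⊔ L₂, IntermediateField.finiteDimensional_sup L₁ L₂, fun σ hσ => ?_⟩
      rw [smul_add, SemilinearAut.smul_single,
        hv σ fun z hz => hσ z ((le_sup_right : L₂ ≤ L₁ ⊔ L₂) hz),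
        hD σ fun z hz => hσ z ((le_sup_left : L₁ ≤ L₁ ⊔ L₂) hz)]

/-- **Every class of `J₀(N)(ℚ̄)` is fixed by the absolute Galois group of a number field.** -/
theorem ostab_main (x : JZero N) :
    ∃ L : IntermediateField ℚ Qb, FiniteDimensional ℚ L ∧
      ∀ σ : Qb ≃ₐ[ℚ] Qb, (∀ y ∈ L, σ y = y) → σ • x = x := by
  obtain ⟨D, rfl⟩ := Pic0.mk_surjective x
  obtain ⟨L, hL, h⟩ := ostab_divisor N (D : Divisor Qb (modularFunctionFieldBar N))
  refine ⟨L, hL, fun σ hσ => ?_⟩
  rw [galois_smul_pic0_def, SemilinearAut.pic0_smul_mk]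
  exact congrArg Pic0.mk (Subtype.ext (h σ hσ))

/-- Finitely many classes of `J₀(N)(ℚ̄)` are fixed by the absolute Galois group of one number
field. -/
theorem ostab_finset (s : Finset (JZero N)) :
    ∃ L : IntermediateField ℚ Qb, FiniteDimensional ℚ L ∧
      ∀ σ : Qb ≃ₐ[ℚ] Qb, (∀ y ∈ L, σ y = y) → ∀ x ∈ s, σ • x = x := by
  classical
  induction s using Finset.induction_on with
  | empty => exact ⟨⊥, inferInstance, fun σ _ x hx => absurd hx (Finset.notMem_empty x)⟩
  | insert a s _ ih =>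
      obtain ⟨L₁, h₁, hs⟩ := ih
      obtain ⟨L₂, h₂, ha⟩ := ostab_main N a
      haveI := h₁
      haveI := h₂
      refine ⟨L₁ ⊔ L₂, IntermediateField.finiteDimensional_sup L₁ L₂, fun σ hσ x hx => ?_⟩
      rcases Finset.mem_insert.mp hx with rfl | hx
      · exact ha σ fun z hz => hσ z ((le_sup_right : L₂ ≤ L₁ ⊔ L₂) hz)
      · exact hs σ (fun z hz => hσ z ((le_sup_left : L₁ ≤ L₁ ⊔ L₂) hz)) x hx

end place

end Fermat.Agent.S29
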