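import Mathlib
import Fermat.Prelude.Def_ModularCurve_ArithmeticGalois
import Fermat.Agent.S18.DvrDef

/-!
# S29, package OPENSTAB: torsion classes of `J₀(N)` are fixed by an open subgroup of `Gal(ℚ̄/ℚ)`

* `ost_elt`: every element of the function field `laurentBaseChange ℚ̄ F₀` is fixed by
  `Gal(ℚ̄/L)` for some finite extension `L/ℚ` (its coefficients lie in a number field).
* `ost_torsion`: a class `x` of `J₀(N)` with `m • x = 0`, `m ≠ 0`, is fixed by `Gal(ℚ̄/L)` for some
  finite `L/ℚ`: if `x = [D]` and `m D = div f`, every `σ` fixing `f` fixes `D` (divisors are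
  torsion-free).
* `ost_exists_galois`: every finite extension of `ℚ` inside `ℚ̄` is contained in a finite Galois
  one.
* `ost_finset`: a finite set of `m`-torsion classes is fixed pointwise by `Gal(ℚ̄/L)` for one
  finite Galois `L/ℚ`, which can be chosen to contain a given finite extension `L₀`.
-/

set_option autoImplicit false
set_option linter.style.haveILetI false

noncomputable section

open ModularCurve AlgebraicCurve

namespace Fermat.Agent.S29

local notation "Qb" => AlgebraicClosure ℚ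

/-- Every element of the function field over `ℚ̄` is fixed by `Gal(ℚ̄/L)` for some finite
extension `L/ℚ`. -/
theorem ost_elt (F₀ : IntermediateField ℚ (LaurentSeries ℚ))
    (f : ↥(laurentBaseChange Qb F₀)) :
    ∃ L : IntermediateField ℚ Qb, FiniteDimensional ℚ L ∧
      ∀ σ : Qb ≃ₐ[ℚ] Qb, (∀ y ∈ L, σ y = y) → arithmeticGalois F₀ σ • f = f := by
  classical
  obtain ⟨T, hT⟩ := Fermat.Agent.S18.dvd_descend_bc Qb F₀ (f : LaurentSeries Qb) f.2
  refine ⟨IntermediateField.adjoin ℚ (T : Set Qb), ?_, fun σ hσ => ?_⟩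
  · exact IntermediateField.finiteDimensional_adjoin
      (fun x _ => ((AlgebraicClosure.isAlgebraic ℚ).isAlgebraic x).isIntegral)
  · obtain ⟨x₀, -, hx₀⟩ := hT (IntermediateField.adjoin ℚ (T : Set Qb))
      (fun c hc => IntermediateField.subset_adjoin ℚ _ hc)
    apply Subtype.ext
    rw [coe_arithmeticGalois_smul, ← hx₀, coeffMap_coeffMap]
    refine coeffMap_congr (RingHom.ext fun y => ?_) _
    exact hσ _ y.2

/-- A torsion class of `J₀(N)` is fixed by `Gal(ℚ̄/L)` for some finite extension `L/ℚ`. -/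
theorem ost_torsion (N : ℕ) (m : ℕ) (hm : m ≠ 0) (x : JZero N) (hx : m • x = 0) :
    ∃ L : IntermediateField ℚ Qb, FiniteDimensional ℚ L ∧
      ∀ σ : Qb ≃ₐ[ℚ] Qb, (∀ y ∈ L, σ y = y) → σ • x = x := by
  obtain ⟨D, rfl⟩ := Pic0.mk_surjective x
  -- `m D` is principal
  have hmD : ((m • D : Divisor.degZero (K := Qb) (F := ↥(modularFunctionFieldBar N))) :
      Divisor Qb ↥(modularFunctionFieldBar N)) ∈
      Divisor.principal (K := Qb) (F := ↥(modularFunctionFieldBar N)) := by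
    have h1 : Pic0.mk (m • D) = (0 : JZero N) := by
      rw [← hx]
      rfl
    have h2 := (QuotientAddGroup.eq_zero_iff (m • D)).mp h1
    exact AddSubgroup.mem_addSubgroupOf.mp h2
  obtain ⟨f, hf0, hf⟩ := hmD
  obtain ⟨L, hL, hLf⟩ := ost_elt (modularFunctionFieldFull N) f
  refine ⟨L, hL, fun σ hσ => ?_⟩
  have hgf := hLf σ hσ
  rw [galois_smul_pic0_def, SemilinearAut.pic0_smul_mk]
  congr 1
  apply Subtype.ext
  rw [SemilinearAut.coe_degZeroSMulHom]
  ext w
  rw [SemilinearAut.divisor_smul_apply]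
  -- compare `m * D (g⁻¹ w)` and `m * D w`
  have h1 := hf ((arithmeticGalois (modularFunctionFieldFull N) σ)⁻¹ • w)
  have h2 := hf w
  have h3 := SemilinearAut.ord_smul (arithmeticGalois (modularFunctionFieldFull N) σ)
    ((arithmeticGalois (modularFunctionFieldFull N) σ)⁻¹ • w) f
  rw [smul_inv_smul, hgf] at h3
  have h4 : ∀ v : Place Qb ↥(modularFunctionFieldBar N),
      ((m • D : Divisor.degZero (K := Qb) (F := ↥(modularFunctionFieldBar N))) :
        Divisor Qb ↥(modularFunctionFieldBar N)) v =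
        (m : ℤ) * (D : Divisor Qb ↥(modularFunctionFieldBar N)) v := by
    intro v
    rw [AddSubgroupClass.coe_nsmul, Finsupp.smul_apply, nsmul_eq_mul]
  rw [h4] at h1 h2
  have h5 : (m : ℤ) * (D : Divisor Qb ↥(modularFunctionFieldBar N))
      ((arithmeticGalois (modularFunctionFieldFull N) σ)⁻¹ • w) =
      (m : ℤ) * (D : Divisor Qb ↥(modularFunctionFieldBar N)) w := by
    rw [h1, h2, h3]
  exact mul_left_cancel₀ (Nat.cast_ne_zero.mpr hm) h5

/-- Every finite extension of `ℚ` inside `ℚ̄` is contained in a finite Galois one. -/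
theorem ost_exists_galois (L₁ : IntermediateField ℚ Qb) [FiniteDimensional ℚ L₁] :
    ∃ L : IntermediateField ℚ Qb, FiniteDimensional ℚ L ∧ IsGalois ℚ L ∧ L₁ ≤ L := by
  haveI : Algebra.IsAlgebraic ℚ Qb := AlgebraicClosure.isAlgebraic ℚ
  haveI : IsAlgClosure ℚ Qb := ⟨inferInstance, inferInstance⟩
  haveI : Normal ℚ Qb := IsAlgClosure.normal ℚ Qb
  haveI : Normal ℚ ↥(IntermediateField.normalClosure ℚ (↥L₁) Qb) := normalClosure.normal ℚ (↥L₁) Qb
  refine ⟨IntermediateField.normalClosure ℚ (↥L₁) Qb, inferInstance, ?_, ?_⟩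
  · exact { }
  · exact IntermediateField.le_normalClosure L₁

/-- A finite set of `m`-torsion classes of `J₀(N)` is fixed pointwise by `Gal(ℚ̄/L)` for one
finite Galois extension `L/ℚ`, containing a given finite extension `L₀`. -/
theorem ost_finset (N : ℕ) (m : ℕ) (hm : m ≠ 0) (s : Finset (JZero N))
    (hs : ∀ x ∈ s, m • x = 0) (L₀ : IntermediateField ℚ Qb) [FiniteDimensional ℚ L₀] :
    ∃ L : IntermediateField ℚ Qb, FiniteDimensional ℚ L ∧ IsGalois ℚ L ∧ L₀ ≤ L ∧
      ∀ σ : Qb ≃ₐ[ℚ] Qb, (∀ y ∈ L, σ y = y) → ∀ x ∈ s, σ • x = x := by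
  classical
  have hex : ∀ x : JZero N, ∃ L : IntermediateField ℚ Qb, FiniteDimensional ℚ L ∧
      (x ∈ s → ∀ σ : Qb ≃ₐ[ℚ] Qb, (∀ y ∈ L, σ y = y) → σ • x = x) := by
    intro x
    by_cases hx : x ∈ s
    · obtain ⟨L, hL, h⟩ := ost_torsion N m hm x (hs x hx)
      exact ⟨L, hL, fun _ => h⟩
    · exact ⟨⊥, inferInstance, fun h => absurd h hx⟩
  choose Lx hLx hLxs using hex
  haveI : ∀ x, FiniteDimensional ℚ ↥(Lx x) := hLx
  haveI hfd : FiniteDimensional ℚ ↥(L₀ ⊔ ⨆ x ∈ s, Lx x) := by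
    haveI : FiniteDimensional ℚ ↥(⨆ x ∈ s, Lx x) :=
      IntermediateField.finiteDimensional_iSup_of_finset
    exact IntermediateField.finiteDimensional_sup L₀ _
  obtain ⟨L, hL, hgal, hle⟩ := ost_exists_galois (L₀ ⊔ ⨆ x ∈ s, Lx x)
  refine ⟨L, hL, hgal, le_sup_left.trans hle, fun σ hσ x hx => ?_⟩
  refine hLxs x hx σ fun y hy => hσ y (hle ?_)
  have h1 : Lx x ≤ ⨆ x ∈ s, Lx x := le_iSup₂ (f := fun x (_ : x ∈ s) => Lx x) x hx
  exact (le_sup_right : (⨆ x ∈ s, Lx x) ≤ L₀ ⊔ ⨆ x ∈ s, Lx x) (h1 hy)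

end Fermat.Agent.S29
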