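import Mathlib
import Fermat.Agent.S29.PeriodMain

/-!
# S29/S30, package [PERIOD-GEN]: the period map intertwines `T_l` with `heckeTr` on every cusp form

`per_heckeTr_periodMap`: `heckeTr N l ℂ (periodMap N f) = periodMap N (T_l f)` for every
`f ∈ S₂(Γ₀(N))` and every prime `l ∤ N` (not only for eigenforms), together with the linear
form `per_periodLin` of the period map.
-/

set_option autoImplicit false

open UpperHalfPlane ModularForm CongruenceSubgroup ModularCurve ModularCurve.Period
open Fermat.Agent.S20
open scoped MatrixGroups ModularForm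

namespace Fermat.Agent.S29

variable {N : ℕ} [NeZero N]

/-- **[PERIOD-GEN]** The period map intertwines `T_l` on `S₂(Γ₀(N))` with the transfer operator
`heckeTr` on `Hom(Γ₀(N), ℂ)`, for every cusp form. -/
theorem per_heckeTr_periodMap {l : ℕ} (hl : l.Prime) (hlN : ¬ l ∣ N)
    (f : CuspForm (Gamma0 N) 2) :
    heckeTr N l ℂ (periodMap N f) = periodMap N (CuspForm.heckeTLin 2 hl hlN f) := by
  have : Fact l.Prime := ⟨hl⟩
  rw [heckeTr_eq_per_Tcoh hlN, ← per_periodMap_heckeT hlN f]

/-- The period map as a `ℂ`-linear map. -/
noncomputable def per_periodLin (N : ℕ) [NeZero N] :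
    CuspForm (Gamma0 N) 2 →ₗ[ℂ] (Additive (Gamma0 N) →+ ℂ) where
  toFun := periodMap N
  map_add' := period_periodMap_add
  map_smul' := fun c f => period_periodMap_smul c f

@[simp] theorem per_periodLin_apply (f : CuspForm (Gamma0 N) 2) :
    per_periodLin N f = periodMap N f := rfl

/-- The period map is injective. -/
theorem per_periodLin_injective : Function.Injective (per_periodLin N) := by
  rw [← LinearMap.ker_eq_bot, LinearMap.ker_eq_bot']
  intro f hf
  by_contra h
  exact per_periodMap_ne_zero_of_ne_zero h hf

/-- Periods of every cusp form vanish on the elements with `|trace| ≤ 2`; the period map takes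
values in the homomorphisms killing them. -/
theorem per_periodLin_trace_le_two (f : CuspForm (Gamma0 N) 2) (γ : Gamma0 N)
    (ht : |((γ : SL(2, ℤ)) : Matrix (Fin 2) (Fin 2) ℤ).trace| ≤ 2) :
    per_periodLin N f (Additive.ofMul γ) = 0 :=
  per_trace_le_two f γ ht

end Fermat.Agent.S29
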