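import Mathlib

/-!
# S29, package [PHI], analytic core PHI-CHAR: the character of a `p`-th root

`G : ℍ → ℂ` holomorphic and not identically zero, `Γ ≤ SL(2, ℤ)`, `k : ℤ`.  If `(G ∣[k] γ) ^ p = G ^ p`
for all `γ ∈ Γ` (i.e. `G ^ p` is invariant of weight `k p`), then `G ∣[k] γ = χ γ • G` for a
character `χ : Γ →* ℂˣ` with values in the `p`-th roots of unity.

* `phc_eq_smul_of_pow_eq` : two holomorphic functions on `ℍ` with the same `p`-th power differ by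
  a `p`-th root of unity;
* `phc_char` : the character;
* `phc_translate_eq_one` : triviality at a cusp (order of `G ^ p` divisible by `p`);
* `phc_fixed_point` : the value of the character at an element fixing `τ₀ ∈ ℍ`.
-/

set_option autoImplicit false

noncomputable section

open UpperHalfPlane Filter Topology
open scoped ModularForm Manifold MatrixGroups

namespace Fermat.Agent.S29

/-- Two holomorphic functions on `ℍ` with the same `p`-th power differ by a `p`-th root of unity. -/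
theorem phc_eq_smul_of_pow_eq {p : ℕ} (hp : 0 < p) {G G' : ℍ → ℂ}
    (hG : MDifferentiable 𝓘(ℂ) 𝓘(ℂ) G) (hG' : MDifferentiable 𝓘(ℂ) 𝓘(ℂ) G')
    (h : G' ^ p = G ^ p) : ∃ ζ : ℂ, ζ ^ p = 1 ∧ G' = ζ • G := by
  classical
  have hprim : IsPrimitiveRoot (Complex.exp (2 * Real.pi * Complex.I / p)) p :=
    Complex.isPrimitiveRoot_exp p hp.ne'
  have hprod : ∏ ζ ∈ Polynomial.nthRootsFinset p (1 : ℂ), (G' - ζ • G) = 0 := by
    funext τ
    rw [Finset.prod_apply]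
    have h1 := hprim.pow_sub_pow_eq_prod_sub_mul (G' τ) (G τ) hp
    have h2 : G' τ ^ p = G τ ^ p := by
      have := congrFun h τ
      simpa using this
    rw [h2, sub_self] at h1
    simpa using h1.symm
  have hmd : ∀ ζ ∈ Polynomial.nthRootsFinset p (1 : ℂ),
      MDifferentiable 𝓘(ℂ) 𝓘(ℂ) (G' - ζ • G) := fun ζ _ => hG'.sub (hG.const_smul ζ)
  obtain ⟨ζ, hζ, h0⟩ := (UpperHalfPlane.prod_eq_zero_iff hmd).mp hprod
  refine ⟨ζ, ?_, sub_eq_zero.mp h0⟩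
  exact (Polynomial.mem_nthRootsFinset hp 1).mp hζ

/-- A nonzero function determines the scalar. -/
theorem phc_smul_cancel {G : ℍ → ℂ} (hG0 : G ≠ 0) {a b : ℂ} (h : a • G = b • G) : a = b := by
  obtain ⟨τ, hτ⟩ : ∃ τ, G τ ≠ (0 : ℍ → ℂ) τ := Function.ne_iff.mp hG0
  have := congrFun h τ
  simp only [Pi.smul_apply, smul_eq_mul] at this
  exact mul_right_cancel₀ hτ this

/-- **The character of a `p`-th root.** -/
theorem phc_char {p : ℕ} (hp : 0 < p) (k : ℤ) (Γ : Subgroup SL(2, ℤ)) {G : ℍ → ℂ}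
    (hG : MDifferentiable 𝓘(ℂ) 𝓘(ℂ) G) (hG0 : G ≠ 0)
    (h : ∀ γ ∈ Γ, (G ∣[k] γ) ^ p = G ^ p) :
    ∃ χ : Γ →* ℂˣ, (∀ γ, χ γ ^ p = 1) ∧
      ∀ γ : Γ, G ∣[k] (γ : SL(2, ℤ)) = ((χ γ : ℂˣ) : ℂ) • G := by
  classical
  have hex : ∀ γ : Γ, ∃ ζ : ℂ, ζ ^ p = 1 ∧ G ∣[k] (γ : SL(2, ℤ)) = ζ • G := fun γ =>
    phc_eq_smul_of_pow_eq hp hG (hG.slash k _) (h γ γ.2)
  choose c hc1 hc2 using hex
  have hmul : ∀ γ δ : Γ, c (γ * δ) = c γ * c δ := by
    intro γ δ
    apply phc_smul_cancel hG0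
    rw [← hc2 (γ * δ), Subgroup.coe_mul, SlashAction.slash_mul, hc2 γ,
      ModularForm.SL_smul_slash, hc2 δ, smul_smul]
  have hone : c 1 = 1 := by
    apply phc_smul_cancel hG0
    rw [← hc2 1, Subgroup.coe_one, SlashAction.slash_one, one_smul]
  let χ : Γ →* ℂˣ :=
    { toFun := fun γ => Units.ofPowEqOne (c γ) p (hc1 γ) hp.ne'
      map_one' := by
        apply Units.ext
        simp [hone]
      map_mul' := fun γ δ => by
        apply Units.ext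
        simp [hmul] }
  refine ⟨χ, fun γ => ?_, fun γ => ?_⟩
  · apply Units.ext
    simp [χ]
  · simpa [χ] using hc2 γ

/-! ### Parabolic elements: triviality at a cusp -/

/-- A continuous function on a preconnected space all of whose values are `p`-th roots of a fixed
number is constant. -/
theorem phc_const_of_pow_eq {α : Type*} [TopologicalSpace α] [PreconnectedSpace α] {p : ℕ}
    (hp : 0 < p) {h : α → ℂ} (hh : Continuous h) (L : ℂ) (hL : ∀ t, h t ^ p = L) (x y : α) :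
    h x = h y := by
  classical
  have hfin : {z : ℂ | z ^ p = L}.Finite := by
    have hne : (Polynomial.X ^ p - Polynomial.C L : Polynomial ℂ) ≠ 0 :=
      Polynomial.X_pow_sub_C_ne_zero hp L
    refine ((Polynomial.X ^ p - Polynomial.C L : Polynomial ℂ).roots.toFinset.finite_toSet).subset
      fun z hz => ?_
    simp only [Finset.mem_coe, Multiset.mem_toFinset, Polynomial.mem_roots hne,
      Polynomial.IsRoot.def, Polynomial.eval_sub, Polynomial.eval_pow, Polynomial.eval_X,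
      Polynomial.eval_C]
    exact sub_eq_zero.mpr hz
  exact isPreconnected_univ.constant_of_mapsTo (T := {z : ℂ | z ^ p = L}) hfin.isDiscrete
    hh.continuousOn (fun t _ => hL t) (Set.mem_univ x) (Set.mem_univ y)

/-- Abstract form of the triviality at a cusp: `g` continuous on `ℍ`, `g (τ + w) = ζ g τ`,
`ζ ^ p = 1` and `g ^ p → L ≠ 0` at `i∞` imply `ζ = 1`. -/
theorem phc_translate_eq_one' {p : ℕ} (hp : 0 < p) {g : ℍ → ℂ} (hg : Continuous g) (w : ℝ)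
    (ζ : ℂ) (hζp : ζ ^ p = 1) (hζ : ∀ τ : ℍ, g (w +ᵥ τ) = ζ * g τ) {L : ℂ} (hL : L ≠ 0)
    (hlim : Tendsto (fun τ : ℍ => g τ ^ p) atImInfty (𝓝 L)) : ζ = 1 := by
  -- a horizontal line on which `g ^ p` is close to `L`
  have hLpos : 0 < ‖L‖ := norm_pos_iff.mpr hL
  have hev : ∀ᶠ τ in atImInfty, dist (g τ ^ p) L < ‖L‖ := (Metric.tendsto_nhds.mp hlim) _ hLpos
  obtain ⟨Y, hY⟩ := (atImInfty_mem _).mp hev
  have hY1 : 0 < max Y 1 := lt_of_lt_of_le one_pos (le_max_right _ _)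
  let τ₀ : ℍ := ⟨Complex.I * (max Y 1 : ℝ), by simp [hY1]⟩
  have hτ₀ : τ₀.im = max Y 1 := by
    show (Complex.I * (max Y 1 : ℝ)).im = max Y 1
    simp
  let c : ℝ → ℍ := fun t => t +ᵥ τ₀
  have hc : Continuous c := by
    refine UpperHalfPlane.isEmbedding_coe.continuous_iff.mpr ?_
    show Continuous fun t : ℝ => ((t +ᵥ τ₀ : ℍ) : ℂ)
    simp only [UpperHalfPlane.coe_vadd]
    fun_prop
  have him : ∀ t, (c t).im = max Y 1 := fun t => by
    show (t +ᵥ τ₀).im = max Y 1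
    rw [UpperHalfPlane.vadd_im, hτ₀]
  let φ : ℝ → ℂ := fun t => g (c t)
  have hφ : Continuous φ := hg.comp hc
  have hφL : ∀ t, dist (φ t ^ p) L < ‖L‖ := fun t =>
    hY (c t) (by rw [him]; exact le_max_left _ _)
  have hφ0 : ∀ t, φ t ^ p ≠ 0 := by
    intro t h0
    have := hφL t
    rw [h0, dist_eq_norm, zero_sub, norm_neg] at this
    exact lt_irrefl _ this
  -- the branch of the `p`-th root near `L`
  have hslit : ∀ t, φ t ^ p / L ∈ Complex.slitPlane := by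
    intro t
    have h1 : φ t ^ p / L = 1 + (φ t ^ p - L) / L := by field_simp; ring
    rw [h1]
    apply Complex.mem_slitPlane_of_norm_lt_one
    rw [norm_div, div_lt_one hLpos, ← dist_eq_norm]
    exact hφL t
  let ψ : ℝ → ℂ := fun t => Complex.exp (Complex.log (φ t ^ p / L) / p)
  have hψ : Continuous ψ := by
    have h1 : Continuous fun t => φ t ^ p / L := (hφ.pow p).div_const L
    have h2 : Continuous fun t => Complex.log (φ t ^ p / L) :=
      continuous_iff_continuousAt.mpr fun t => h1.continuousAt.clog (hslit t)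
    exact Complex.continuous_exp.comp (h2.div_const _)
  have hψp : ∀ t, ψ t ^ p = φ t ^ p / L := by
    intro t
    have hp0 : (p : ℂ) ≠ 0 := Nat.cast_ne_zero.mpr hp.ne'
    show Complex.exp (Complex.log (φ t ^ p / L) / p) ^ p = _
    rw [← Complex.exp_nat_mul, mul_div_cancel₀ _ hp0,
      Complex.exp_log (div_ne_zero (hφ0 t) hL)]
  have hψ0 : ∀ t, ψ t ≠ 0 := fun t => Complex.exp_ne_zero _
  let h : ℝ → ℂ := fun t => φ t / ψ t
  have hh : Continuous h := hφ.div hψ hψ0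
  have hhp : ∀ t, h t ^ p = L := by
    intro t
    show (φ t / ψ t) ^ p = L
    rw [div_pow, hψp t]
    field_simp [hφ0 t]
  have hconst : h 0 = h w := phc_const_of_pow_eq hp hh L hhp 0 w
  -- compare
  have hφw : φ w = ζ * φ 0 := by
    show g (w +ᵥ τ₀) = ζ * g ((0 : ℝ) +ᵥ τ₀)
    rw [hζ τ₀, zero_vadd]
  have hψw : ψ w = ψ 0 := by
    show Complex.exp (Complex.log (φ w ^ p / L) / p) = Complex.exp (Complex.log (φ 0 ^ p / L) / p)
    rw [hφw, mul_pow, hζp, one_mul]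
  have h0 : h 0 ≠ 0 := by
    intro h00
    have := hhp 0
    rw [h00, zero_pow hp.ne'] at this
    exact hL this.symm
  have hw : h w = ζ * h 0 := by
    show φ w / ψ w = ζ * (φ 0 / ψ 0)
    rw [hφw, hψw, mul_div_assoc]
  rw [hw] at hconst
  have : (1 : ℂ) * h 0 = ζ * h 0 := by rw [one_mul]; exact hconst
  exact (mul_right_cancel₀ h0 this).symm

/-- **Triviality at a cusp.**  If `G (τ + w) = ζ G τ` with `ζ ^ p = 1` and
`G ^ p = q_w ^ (p m) · (a function tending to L ≠ 0 at i∞)`, `q_w = exp (2 π i τ / w)`, then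
`ζ = 1`. -/
theorem phc_translate_eq_one {p : ℕ} (hp : 0 < p) {G : ℍ → ℂ} (hGc : Continuous G) (w : ℕ)
    (hw : 0 < w) (ζ : ℂ) (hζp : ζ ^ p = 1) (hζ : ∀ τ : ℍ, G ((w : ℝ) +ᵥ τ) = ζ * G τ) (m : ℤ)
    {L : ℂ} (hL : L ≠ 0)
    (hlim : Tendsto (fun τ : ℍ => G τ ^ p *
      Complex.exp (-(2 * Real.pi * Complex.I * ((p : ℂ) * m) * τ / w))) atImInfty (𝓝 L)) :
    ζ = 1 := by
  have hw0 : (w : ℂ) ≠ 0 := Nat.cast_ne_zero.mpr hw.ne'
  let e : ℍ → ℂ := fun τ => Complex.exp (-(2 * Real.pi * Complex.I * m * τ / w))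
  have he : Continuous e := by
    have : Continuous fun τ : ℍ => (τ : ℂ) := UpperHalfPlane.continuous_coe
    fun_prop
  refine phc_translate_eq_one' hp (g := fun τ => G τ * e τ) (hGc.mul he) (w : ℝ) ζ hζp ?_ hL ?_
  · intro τ
    show G ((w : ℝ) +ᵥ τ) * e ((w : ℝ) +ᵥ τ) = ζ * (G τ * e τ)
    have he' : e ((w : ℝ) +ᵥ τ) = e τ := by
      show Complex.exp (-(2 * Real.pi * Complex.I * m * (((w : ℝ) +ᵥ τ : ℍ) : ℂ) / w)) =
        Complex.exp (-(2 * Real.pi * Complex.I * m * (τ : ℂ) / w))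
      rw [UpperHalfPlane.coe_vadd]
      have h1 : -(2 * Real.pi * Complex.I * m * (((w : ℝ) : ℂ) + (τ : ℂ)) / w) =
          -(2 * Real.pi * Complex.I * m * (τ : ℂ) / w) + (-m : ℤ) * (2 * Real.pi * Complex.I) := by
        push_cast
        field_simp
        ring
      rw [h1, Complex.exp_add, Complex.exp_int_mul_two_pi_mul_I, mul_one]
    rw [hζ τ, he', mul_assoc]
  · refine hlim.congr fun τ => ?_
    show G τ ^ p * Complex.exp (-(2 * Real.pi * Complex.I * ((p : ℂ) * m) * τ / w)) =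
      (G τ * e τ) ^ p
    rw [mul_pow]
    congr 1
    show _ = Complex.exp (-(2 * Real.pi * Complex.I * m * τ / w)) ^ p
    rw [← Complex.exp_nat_mul]
    congr 1
    ring

/-! ### Elliptic elements: the value at a fixed point -/

/-- Explicit Möbius formulas for `γ : SL(2, ℤ)`. -/
theorem phc_moebius (γ : SL(2, ℤ)) :
    (∀ τ : ℍ, denom γ τ = ((γ 1 0 : ℤ) : ℂ) * τ + ((γ 1 1 : ℤ) : ℂ)) ∧
    (∀ τ : ℍ, ((γ • τ : ℍ) : ℂ) =
      (((γ 0 0 : ℤ) : ℂ) * τ + ((γ 0 1 : ℤ) : ℂ)) / (((γ 1 0 : ℤ) : ℂ) * τ + ((γ 1 1 : ℤ) : ℂ))) ∧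
    ((γ 0 0 : ℤ) : ℂ) * ((γ 1 1 : ℤ) : ℂ) - ((γ 0 1 : ℤ) : ℂ) * ((γ 1 0 : ℤ) : ℂ) = 1 := by
  refine ⟨fun τ => ?_, fun τ => ?_, ?_⟩
  · simp [denom]
  · rw [coe_specialLinearGroup_apply]
    simp
  · have h := γ.det_coe
    rw [Matrix.det_fin_two] at h
    have h2 := congrArg (Int.cast : ℤ → ℂ) h
    push_cast at h2
    linear_combination h2


/-- **Value of the character at an element fixing a point.**  If `γ • τ₀ = τ₀`,
`G ∣[k] γ = x • G` and `G` vanishes to order `m` at `τ₀`, then `x = μ ^ (-(k + 2 m))`,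
`μ = denom γ τ₀`. -/
theorem phc_fixed_point {G : ℍ → ℂ} (hG : MDifferentiable 𝓘(ℂ) 𝓘(ℂ) G) (k : ℤ) (γ : SL(2, ℤ))
    (τ₀ : ℍ) (hγ : γ • τ₀ = τ₀) (x : ℂ) (hx : G ∣[k] γ = x • G) (m : ℕ)
    (hm : analyticOrderAt (G ∘ ofComplex) (τ₀ : ℂ) = m) :
    x = denom γ τ₀ ^ (-(k + 2 * (m : ℤ))) := by
  obtain ⟨hden, hsm, hdet⟩ := phc_moebius γ
  set a : ℂ := ((γ 0 0 : ℤ) : ℂ) with ha
  set b : ℂ := ((γ 0 1 : ℤ) : ℂ) with hb
  set c : ℂ := ((γ 1 0 : ℤ) : ℂ) with hc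
  set d : ℂ := ((γ 1 1 : ℤ) : ℂ) with hd
  set μ : ℂ := denom γ τ₀ with hμ
  have hμ' : μ = c * τ₀ + d := hden τ₀
  have hμ0 : μ ≠ 0 := denom_ne_zero _ τ₀
  set f : ℂ → ℂ := G ∘ ofComplex with hf
  have hfU : DifferentiableOn ℂ f {z | 0 < z.im} := mdifferentiable_iff.mp hG
  have hUn : {z : ℂ | 0 < z.im} ∈ 𝓝 (τ₀ : ℂ) := isOpen_upperHalfPlaneSet.mem_nhds τ₀.2
  have hfa : AnalyticAt ℂ f τ₀ := hfU.analyticAt hUn
  obtain ⟨g, hga, hg0, hfac⟩ := (hfa.analyticOrderAt_eq_natCast).mp hm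
  -- the Möbius map near `τ₀`
  let M : ℂ → ℂ := fun z => (a * z + b) / (c * z + d)
  have hMτ : M τ₀ = τ₀ := by
    show (a * (τ₀ : ℂ) + b) / (c * τ₀ + d) = τ₀
    rw [← hsm τ₀, hγ]
  have hMc : ContinuousAt M τ₀ := by
    have h1 : ContinuousAt (fun z : ℂ => a * z + b) τ₀ := by fun_prop
    have h2 : ContinuousAt (fun z : ℂ => c * z + d) τ₀ := by fun_prop
    exact h1.div h2 (by rw [← hμ']; exact hμ0)
  -- the functional equation on the upper half plane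
  have hfe : ∀ z : ℂ, 0 < z.im → f (M z) * (c * z + d) ^ (-k) = x * f z := by
    intro z hz
    have h1 := congrFun hx ⟨z, hz⟩
    rw [ModularForm.SL_slash_apply, Pi.smul_apply, smul_eq_mul, hden] at h1
    have h2 : f (M z) = G (γ • ⟨z, hz⟩) := by
      show G (ofComplex ((a * z + b) / (c * z + d))) = G (γ • ⟨z, hz⟩)
      have := hsm ⟨z, hz⟩
      rw [show ((⟨z, hz⟩ : ℍ) : ℂ) = z from rfl] at this
      rw [← this, ofComplex_apply]
    have h3 : f z = G ⟨z, hz⟩ := by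
      show G (ofComplex z) = G ⟨z, hz⟩
      rw [ofComplex_apply_of_im_pos hz]
    rw [h2, h3]
    exact h1
  -- difference formula
  have hdiff : ∀ z : ℂ, c * z + d ≠ 0 → M z - τ₀ = (z - τ₀) / ((c * z + d) * μ) := by
    intro z hz
    have h1 : (τ₀ : ℂ) = (a * τ₀ + b) / (c * τ₀ + d) := hMτ.symm
    have hμ1 : c * (τ₀ : ℂ) + d ≠ 0 := by rw [← hμ']; exact hμ0
    show (a * z + b) / (c * z + d) - τ₀ = (z - τ₀) / ((c * z + d) * μ)
    rw [hμ']
    have h2 : (a * z + b) / (c * z + d) - (τ₀ : ℂ) =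
        (a * z + b) / (c * z + d) - (a * τ₀ + b) / (c * τ₀ + d) := by rw [← h1]
    rw [h2, div_sub_div _ _ hz hμ1,
      div_eq_div_iff (mul_ne_zero hz hμ1) (mul_ne_zero hz hμ1)]
    linear_combination (z - (τ₀ : ℂ)) * ((c * z + d) * (c * (τ₀ : ℂ) + d)) * hdet
  -- eventually near `τ₀`
  have hev1 : ∀ᶠ z in 𝓝 (τ₀ : ℂ), 0 < z.im := hUn
  have hev2 : ∀ᶠ z in 𝓝 (τ₀ : ℂ), c * z + d ≠ 0 := by
    have h2 : ContinuousAt (fun z : ℂ => c * z + d) τ₀ := by fun_prop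
    exact h2.eventually_ne (by rw [← hμ']; exact hμ0)
  have hev3 : ∀ᶠ z in 𝓝 (τ₀ : ℂ), f (M z) = (M z - τ₀) ^ m • g (M z) := by
    have : Tendsto M (𝓝 (τ₀ : ℂ)) (𝓝 (τ₀ : ℂ)) := by
      have := hMc.tendsto
      rwa [hMτ] at this
    exact this.eventually hfac
  -- the two continuous functions
  let F1 : ℂ → ℂ := fun z => ((c * z + d) * μ) ^ (-(m : ℤ)) * g (M z) * (c * z + d) ^ (-k)
  let F2 : ℂ → ℂ := fun z => x * g z
  have hF1c : ContinuousAt F1 τ₀ := by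
    have h2 : ContinuousAt (fun z : ℂ => c * z + d) τ₀ := by fun_prop
    have hμ1 : c * (τ₀ : ℂ) + d ≠ 0 := by rw [← hμ']; exact hμ0
    have h3 : ContinuousAt (fun z : ℂ => ((c * z + d) * μ) ^ (-(m : ℤ))) τ₀ :=
      (h2.mul continuousAt_const).zpow₀ _ (Or.inl (mul_ne_zero hμ1 hμ0))
    have h4 : ContinuousAt (fun z : ℂ => g (M z)) τ₀ := by
      have hgc : ContinuousAt g (M τ₀) := by rw [hMτ]; exact hga.continuousAt
      exact hgc.comp hMc
    have h5 : ContinuousAt (fun z : ℂ => (c * z + d) ^ (-k)) τ₀ := h2.zpow₀ _ (Or.inl hμ1)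
    exact (h3.mul h4).mul h5
  have hF2c : ContinuousAt F2 τ₀ := continuousAt_const.mul hga.continuousAt
  have hEq : F1 =ᶠ[𝓝[≠] (τ₀ : ℂ)] F2 := by
    have hall : ∀ᶠ z : ℂ in 𝓝 (τ₀ : ℂ), z ≠ (τ₀ : ℂ) → F1 z = F2 z := by
      filter_upwards [hev1, hev2, hev3, hfac] with z hz1 hz2 hz3 hz4 hzne
      have h1 := hfe z hz1
      rw [hz3, hz4, hdiff z hz2] at h1
      simp only [smul_eq_mul] at h1
      have hzs : z - (τ₀ : ℂ) ≠ 0 := sub_ne_zero.mpr hzne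
      have hpow : (z - (τ₀ : ℂ)) ^ m ≠ 0 := pow_ne_zero _ hzs
      show ((c * z + d) * μ) ^ (-(m : ℤ)) * g (M z) * (c * z + d) ^ (-k) = x * g z
      have h2 : ((z - (τ₀ : ℂ)) / ((c * z + d) * μ)) ^ m =
          (z - (τ₀ : ℂ)) ^ m * ((c * z + d) * μ) ^ (-(m : ℤ)) := by
        rw [div_pow, zpow_neg, zpow_natCast, div_eq_mul_inv]
      rw [h2] at h1
      apply mul_left_cancel₀ hpow
      linear_combination h1
    exact eventually_nhdsWithin_iff.mpr hall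
  have hlim1 : Tendsto F1 (𝓝[≠] (τ₀ : ℂ)) (𝓝 (F1 τ₀)) := hF1c.tendsto.mono_left nhdsWithin_le_nhds
  have hlim2 : Tendsto F2 (𝓝[≠] (τ₀ : ℂ)) (𝓝 (F2 τ₀)) := hF2c.tendsto.mono_left nhdsWithin_le_nhds
  have hval : F1 τ₀ = F2 τ₀ := tendsto_nhds_unique (hlim1.congr' hEq) hlim2
  -- conclude
  have hval' : (μ * μ) ^ (-(m : ℤ)) * g τ₀ * μ ^ (-k) = x * g τ₀ := by
    have : F1 τ₀ = (μ * μ) ^ (-(m : ℤ)) * g τ₀ * μ ^ (-k) := by
      show ((c * (τ₀ : ℂ) + d) * μ) ^ (-(m : ℤ)) * g (M τ₀) * (c * (τ₀ : ℂ) + d) ^ (-k) = _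
      rw [hMτ, ← hμ']
    rw [← this]
    exact hval
  have hfin : x = (μ * μ) ^ (-(m : ℤ)) * μ ^ (-k) := by
    apply mul_right_cancel₀ hg0
    linear_combination -hval'
  rw [hfin, mul_zpow, ← zpow_add₀ hμ0, ← zpow_add₀ hμ0]
  congr 1
  ring


/-! ### Cusps other than `∞` -/

/-- If `γ σ = σ T ^ w` and `G ∣[k] γ = x • G`, then `G ∣[k] σ` is multiplied by `x` under the
translation by `w`. -/
theorem phc_translate_of_conj {G : ℍ → ℂ} (k : ℤ) (σ γ : SL(2, ℤ)) (w : ℤ)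
    (hconj : γ * σ = σ * ModularGroup.T ^ w) (x : ℂ) (hx : G ∣[k] γ = x • G) (τ : ℍ) :
    (G ∣[k] σ) ((w : ℝ) +ᵥ τ) = x * (G ∣[k] σ) τ := by
  have h1 : (G ∣[k] σ) ∣[k] (ModularGroup.T ^ w) = x • (G ∣[k] σ) := by
    rw [← SlashAction.slash_mul, ← hconj, SlashAction.slash_mul, hx, ModularForm.SL_smul_slash]
  have h2 := congrFun h1 τ
  rw [ModularForm.SL_slash_apply, Pi.smul_apply, smul_eq_mul,
    UpperHalfPlane.modular_T_zpow_smul] at h2
  have h3 : denom (ModularGroup.T ^ w : SL(2, ℤ)) τ = 1 := by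
    rw [(phc_moebius (ModularGroup.T ^ w)).1 τ, ModularGroup.coe_T_zpow]
    simp
  rw [h3, one_zpow, mul_one] at h2
  exact h2

/-- **Triviality of the character on a parabolic element** `γ = σ T ^ w σ⁻¹`: if the `p`-th power
of `G ∣[k] σ` is `q_w ^ (p m)` times a function with a nonzero limit at `i∞`, then the scalar `x`
with `G ∣[k] γ = x • G` is `1`. -/
theorem phc_char_parabolic {p : ℕ} (hp : 0 < p) (k : ℤ) {G : ℍ → ℂ}
    (hG : MDifferentiable 𝓘(ℂ) 𝓘(ℂ) G) (σ γ : SL(2, ℤ)) (w : ℕ) (hw : 0 < w)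
    (hconj : γ * σ = σ * ModularGroup.T ^ (w : ℤ)) (x : ℂ) (hxp : x ^ p = 1)
    (hx : G ∣[k] γ = x • G) (m : ℤ) {L : ℂ} (hL : L ≠ 0)
    (hlim : Tendsto (fun τ : ℍ => (G ∣[k] σ) τ ^ p *
      Complex.exp (-(2 * Real.pi * Complex.I * ((p : ℂ) * m) * τ / w))) atImInfty (𝓝 L)) :
    x = 1 := by
  have hc : Continuous (G ∣[k] σ) := (hG.slash k _).continuous
  refine phc_translate_eq_one hp hc w hw x hxp (fun τ => ?_) m hL hlim
  have := phc_translate_of_conj k σ γ (w : ℤ) hconj x hx τ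
  simpa using this

/-- A scalar which is both a `p`-th and an `n`-th root of unity, `n` prime to `p`, is `1`
(elliptic elements when `p ∤ 12`). -/
theorem phc_eq_one_of_coprime {p n : ℕ} (h : Nat.Coprime n p) {x : ℂ} (hp : x ^ p = 1)
    (hn : x ^ n = 1) : x = 1 := by
  have h1 : x ^ Nat.gcd n p = 1 := pow_gcd_eq_one.mpr ⟨hn, hp⟩
  rwa [h, pow_one] at h1

end Fermat.Agent.S29
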