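import Fermat.Agent.S29.HolRoot
import Fermat.Agent.S24.SysBase

/-!
# S29, package [PHI], part 1: characters of holomorphic functions on the upper half plane

`phiE p : ZMod p → ℂ` is the additive character `x ↦ exp(2πi x / p)`.  A function `G : ℍ → ℂ`
"has character `l`" (`PhiHas Γ p G l`, `l : Additive Γ →+ ZMod p`) if
`G (γ • τ) = phiE p (l γ) * G τ` for all `γ ∈ Γ`.  A holomorphic function which is not identically
zero and whose `p`-th power is `Γ`-invariant has a unique character.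
-/

set_option autoImplicit false

open UpperHalfPlane
open scoped MatrixGroups Manifold

namespace Fermat.Agent.S29

open Fermat.Agent.S24

/-- The additive character `x ↦ exp(2πi x / p)` of `ZMod p`. -/
noncomputable def phiE (p : ℕ) (x : ZMod p) : ℂ :=
  Complex.exp (2 * Real.pi * Complex.I / p) ^ x.val

section PhiE

variable (p : ℕ) [NeZero p]

theorem phiE_prim : IsPrimitiveRoot (Complex.exp (2 * Real.pi * Complex.I / p)) p :=
  Complex.isPrimitiveRoot_exp p (NeZero.ne p)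

theorem phiE_zero : phiE p 0 = 1 := by
  simp [phiE]

theorem phiE_pow (x : ZMod p) : phiE p x ^ p = 1 := by
  rw [phiE, ← pow_mul, Nat.mul_comm x.val p, pow_mul, (phiE_prim p).pow_eq_one, one_pow]

theorem phiE_ne_zero (x : ZMod p) : phiE p x ≠ 0 := by
  intro h
  have := phiE_pow p x
  rw [h, zero_pow (NeZero.ne p)] at this
  exact zero_ne_one this

theorem phiE_add (x y : ZMod p) : phiE p (x + y) = phiE p x * phiE p y := by
  rw [phiE, phiE, phiE, ← pow_add, ZMod.val_add]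
  conv_rhs => rw [← Nat.mod_add_div (x.val + y.val) p]
  rw [pow_add, pow_mul, (phiE_prim p).pow_eq_one, one_pow, mul_one]

theorem phiE_injective : Function.Injective (phiE p) := by
  intro x y h
  exact ZMod.val_injective p ((phiE_prim p).pow_inj (ZMod.val_lt x) (ZMod.val_lt y) h)

theorem phiE_surj {ζ : ℂ} (hζ : ζ ^ p = 1) : ∃ x : ZMod p, phiE p x = ζ := by
  obtain ⟨i, hi, h⟩ := (phiE_prim p).eq_pow_of_pow_eq_one hζ
  refine ⟨(i : ZMod p), ?_⟩
  rw [phiE, ZMod.val_natCast_of_lt hi, h]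

end PhiE

/-- `G` transforms under `Γ` by the character `γ ↦ exp(2πi l(γ) / p)`. -/
def PhiHas (Γ : Subgroup SL(2, ℤ)) (p : ℕ) (G : ℍ → ℂ) (l : Additive Γ →+ ZMod p) : Prop :=
  ∀ (γ : Γ) (τ : ℍ), G ((γ : SL(2, ℤ)) • τ) = phiE p (l (Additive.ofMul γ)) * G τ

section PhiHas

variable {Γ : Subgroup SL(2, ℤ)} {p : ℕ} [NeZero p]

theorem phiHas_unique {G : ℍ → ℂ} (hne : ∃ τ, G τ ≠ 0) {l l' : Additive Γ →+ ZMod p}
    (h : PhiHas Γ p G l) (h' : PhiHas Γ p G l') : l = l' := by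
  obtain ⟨τ, hτ⟩ := hne
  refine AddMonoidHom.ext fun γ => ?_
  have h1 := h (Additive.toMul γ) τ
  have h2 := h' (Additive.toMul γ) τ
  rw [h1] at h2
  exact phiE_injective p (mul_right_cancel₀ hτ h2)

theorem phiHas_mul {G G' : ℍ → ℂ} {l l' : Additive Γ →+ ZMod p}
    (h : PhiHas Γ p G l) (h' : PhiHas Γ p G' l') :
    PhiHas Γ p (fun τ => G τ * G' τ) (l + l') := by
  intro γ τ
  show G _ * G' _ = _
  rw [h γ τ, h' γ τ, AddMonoidHom.add_apply, phiE_add]
  ring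

theorem phiHas_zero {G : ℍ → ℂ} (h : ∀ (γ : Γ) (τ : ℍ), G ((γ : SL(2, ℤ)) • τ) = G τ) :
    PhiHas Γ p G 0 := by
  intro γ τ
  rw [h γ τ, AddMonoidHom.zero_apply, phiE_zero, one_mul]

theorem phiHas_zero_inv {G : ℍ → ℂ} (h : PhiHas Γ p G 0) (γ : Γ) (τ : ℍ) :
    G ((γ : SL(2, ℤ)) • τ) = G τ := by
  rw [h γ τ, AddMonoidHom.zero_apply, phiE_zero, one_mul]

/-- Two holomorphic `p`-th roots of the same function have the same character. -/
theorem phiHas_of_root {G₁ G₂ : ℍ → ℂ} (h1 : MDiff G₁) (h2 : MDiff G₂) (hne : ∃ τ, G₂ τ ≠ 0)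
    (hpow : ∀ τ, G₁ τ ^ p = G₂ τ ^ p) {l : Additive Γ →+ ZMod p} (h : PhiHas Γ p G₂ l) :
    PhiHas Γ p G₁ l := by
  obtain ⟨ζ, -, hζ⟩ := hroot_uhp_unique (NeZero.pos p) h1 h2 hne hpow
  intro γ τ
  rw [hζ, hζ, h γ τ]
  ring

/-- A holomorphic function, not identically zero, whose `p`-th power is `Γ`-invariant has a
character. -/
theorem phiHas_exists {G : ℍ → ℂ} (hG : MDiff G) (hne : ∃ τ, G τ ≠ 0)
    (hinv : ∀ (γ : Γ) (τ : ℍ), G ((γ : SL(2, ℤ)) • τ) ^ p = G τ ^ p) :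
    ∃ l : Additive Γ →+ ZMod p, PhiHas Γ p G l := by
  have key : ∀ γ : Γ, ∃ x : ZMod p, ∀ τ : ℍ, G ((γ : SL(2, ℤ)) • τ) = phiE p x * G τ := by
    intro γ
    obtain ⟨ζ, hζ1, hζ⟩ := hroot_uhp_unique (NeZero.pos p)
      (sysfin_mdiff_smul (γ : SL(2, ℤ)) hG) hG hne (hinv γ)
    obtain ⟨x, hx⟩ := phiE_surj p hζ1
    exact ⟨x, fun τ => by rw [hx]; exact hζ τ⟩
  choose x hx using key
  obtain ⟨τ₁, hτ₁⟩ := hne
  refine ⟨AddMonoidHom.mk' (fun γ => x (Additive.toMul γ)) ?_, fun γ τ => hx γ τ⟩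
  intro a b
  apply phiE_injective p
  apply mul_right_cancel₀ hτ₁
  rw [phiE_add, ← hx]
  have h1 : ((Additive.toMul (a + b) : Γ) : SL(2, ℤ)) • τ₁
      = ((Additive.toMul a : Γ) : SL(2, ℤ)) • (((Additive.toMul b : Γ) : SL(2, ℤ)) • τ₁) := by
    rw [← mul_smul]
    rfl
  rw [h1, hx, hx]
  ring

theorem phi_noZeroDivisors : NoZeroDivisors holSubring :=
  Function.Injective.noZeroDivisors (taylorHom UpperHalfPlane.I)
    (taylorHom_injective UpperHalfPlane.I) (map_zero _) (map_mul _)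

/-- Cancellation of holomorphic functions. -/
theorem phi_hol_cancel {f g B : ℍ → ℂ} (hf : MDiff f) (hg : MDiff g) (hB : MDiff B)
    (hB0 : B ≠ 0) (h : ∀ τ, f τ * B τ = g τ * B τ) : f = g := by
  have := phi_noZeroDivisors
  have h1 : (⟨f - g, MDifferentiable.sub hf hg⟩ : holSubring) * ⟨B, hB⟩ = 0 := by
    apply Subtype.ext
    funext τ
    show (f τ - g τ) * B τ = 0
    rw [sub_mul, h τ, sub_self]
  rcases mul_eq_zero.mp h1 with h2 | h2
  · have h3 : f - g = 0 := congrArg Subtype.val h2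
    exact sub_eq_zero.mp h3
  · exact absurd (congrArg Subtype.val h2) hB0

/-- The character does not change on division by an invariant holomorphic function. -/
theorem phiHas_cancel {G B : ℍ → ℂ} (hG : MDiff G) (hB : MDiff B) (hB0 : B ≠ 0)
    (hBinv : ∀ (γ : Γ) (τ : ℍ), B ((γ : SL(2, ℤ)) • τ) = B τ) {l : Additive Γ →+ ZMod p}
    (h : PhiHas Γ p (fun τ => G τ * B τ) l) : PhiHas Γ p G l := by
  intro γ τ
  have h1 : (fun τ => G ((γ : SL(2, ℤ)) • τ))
      = fun τ => phiE p (l (Additive.ofMul γ)) * G τ := by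
    refine phi_hol_cancel (sysfin_mdiff_smul (γ : SL(2, ℤ)) hG)
      (MDifferentiable.mul mdifferentiable_const hG) hB hB0 fun τ => ?_
    have h2 := h γ τ
    simp only at h2
    rw [hBinv γ τ] at h2
    rw [h2]
    ring
  exact congrFun h1 τ

theorem phiHas_mul_inv {G B : ℍ → ℂ} (hBinv : ∀ (γ : Γ) (τ : ℍ), B ((γ : SL(2, ℤ)) • τ) = B τ)
    {l : Additive Γ →+ ZMod p} (h : PhiHas Γ p G l) : PhiHas Γ p (fun τ => G τ * B τ) l := by
  intro γ τ
  show G _ * B _ = _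
  rw [h γ τ, hBinv γ τ]
  ring

end PhiHas

end Fermat.Agent.S29
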