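import Fermat.Agent.S29.PhiHom

/-!
# S29/S30, package [PHI], part 7: `phiHom` kills the stabilisers of points

If `γ ∈ Γ` fixes a point `τ₀` of the upper half plane then `phiHom M p c γ = 0` for every
`p`-torsion class `c` (any modulus `p`).  Proof: let `m` be the ramification index of the Taylor
point at `τ₀` and `u = a₁ / b₁` a uniformiser of its place; the order of a `p`-th root `G` is
`m d`, so `G b₁ ^ d` and `a₁ ^ d` have the same order at `τ₀`, their "ratio" is holomorphic and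
nonzero at `τ₀`, and evaluating the transformation rule at the fixed point gives `χ(γ) = 1`.
-/

set_option autoImplicit false

open AlgebraicCurve UpperHalfPlane Filter
open scoped MatrixGroups Manifold Topology

namespace Fermat.Agent.S29

open Fermat.Agent.S24

/-- Two holomorphic functions with the same finite order at a fixed point `τ₀` of `γ`, one
invariant and one transforming by the constant `χ`: then `χ = 1`. -/
theorem phi_fixed_ratio {K A : ℍ → ℂ} (hK : MDiff K) (hA : MDiff A) (γ : SL(2, ℤ)) (τ₀ : ℍ)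
    (hγ : γ • τ₀ = τ₀) (χ : ℂ) (hKγ : ∀ τ : ℍ, K (γ • τ) = χ * K τ)
    (hAγ : ∀ τ : ℍ, A (γ • τ) = A τ) (n : ℕ)
    (hnK : analyticOrderAt (K ∘ ofComplex) (τ₀ : ℂ) = (n : ℕ∞))
    (hnA : analyticOrderAt (A ∘ ofComplex) (τ₀ : ℂ) = (n : ℕ∞)) : χ = 1 := by
  set w : ℂ := ((γ 1 0 : ℤ) : ℂ) * (τ₀ : ℂ) + ((γ 1 1 : ℤ) : ℂ) with hw
  have h0 : w ≠ 0 := ty_denom_ne_zero γ τ₀
  have hKa : AnalyticAt ℂ (K ∘ ofComplex) (τ₀ : ℂ) := ty_analyticAt hK τ₀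
  have hAa : AnalyticAt ℂ (A ∘ ofComplex) (τ₀ : ℂ) := ty_analyticAt hA τ₀
  rw [hKa.analyticOrderAt_eq_natCast] at hnK
  rw [hAa.analyticOrderAt_eq_natCast] at hnA
  obtain ⟨k, hka, hk0, hkK⟩ := hnK
  obtain ⟨α, hαa, hα0, hαA⟩ := hnA
  have hfix := ty_mob_fixed γ τ₀ hγ
  have hmob_cont : Tendsto (tyMob γ) (𝓝 (τ₀ : ℂ)) (𝓝 (τ₀ : ℂ)) := by
    have := (ty_mob_analyticAt γ τ₀).continuousAt
    rw [ContinuousAt, hfix] at this
    exact this
  -- the transformation rules near `τ₀`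
  have hK1 : ∀ᶠ z in 𝓝 (τ₀ : ℂ), (K ∘ ofComplex) (tyMob γ z) = χ * (K ∘ ofComplex) z := by
    have h1 := ty_comp_eventuallyEq γ τ₀ K
    filter_upwards [h1] with z hz
    have h2 : ((fun τ => K (γ • τ)) ∘ ofComplex) z = χ * (K ∘ ofComplex) z := hKγ (ofComplex z)
    rw [← h2, hz]
    rfl
  have hA1 : ∀ᶠ z in 𝓝 (τ₀ : ℂ), (A ∘ ofComplex) (tyMob γ z) = (A ∘ ofComplex) z := by
    have h1 := ty_comp_eventuallyEq γ τ₀ A
    filter_upwards [h1] with z hz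
    have h2 : ((fun τ => A (γ • τ)) ∘ ofComplex) z = (A ∘ ofComplex) z := hAγ (ofComplex z)
    rw [← h2, hz]
    rfl
  have hK2 : ∀ᶠ z in 𝓝 (τ₀ : ℂ),
      (K ∘ ofComplex) (tyMob γ z) = (tyMob γ z - (τ₀ : ℂ)) ^ n • k (tyMob γ z) :=
    hmob_cont.eventually hkK
  have hA2 : ∀ᶠ z in 𝓝 (τ₀ : ℂ),
      (A ∘ ofComplex) (tyMob γ z) = (tyMob γ z - (τ₀ : ℂ)) ^ n • α (tyMob γ z) :=
    hmob_cont.eventually hαA
  have hden : ∀ᶠ z in 𝓝 (τ₀ : ℂ), ((γ 1 0 : ℤ) : ℂ) * z + ((γ 1 1 : ℤ) : ℂ) ≠ 0 := by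
    have hc : ContinuousAt (fun z : ℂ => ((γ 1 0 : ℤ) : ℂ) * z + ((γ 1 1 : ℤ) : ℂ)) (τ₀ : ℂ) := by
      fun_prop
    exact hc.eventually_ne h0
  -- the function which vanishes near `τ₀`
  set Ψ : ℂ → ℂ := fun z => k (tyMob γ z) * α z - χ * (k z * α (tyMob γ z)) with hΨ
  have hΨc : ContinuousAt Ψ (τ₀ : ℂ) := by
    have h1 : ContinuousAt (fun z => k (tyMob γ z)) (τ₀ : ℂ) := by
      have : ContinuousAt k (tyMob γ (τ₀ : ℂ)) := by rw [hfix]; exact hka.continuousAt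
      exact this.comp (ty_mob_analyticAt γ τ₀).continuousAt
    have h2 : ContinuousAt (fun z => α (tyMob γ z)) (τ₀ : ℂ) := by
      have : ContinuousAt α (tyMob γ (τ₀ : ℂ)) := by rw [hfix]; exact hαa.continuousAt
      exact this.comp (ty_mob_analyticAt γ τ₀).continuousAt
    exact (h1.mul hαa.continuousAt).sub (continuousAt_const.mul (hka.continuousAt.mul h2))
  have hΨ0 : ∀ᶠ z in 𝓝[≠] (τ₀ : ℂ), Ψ z = 0 := by
    have hne : ∀ᶠ z in 𝓝[≠] (τ₀ : ℂ), z ≠ (τ₀ : ℂ) := eventually_mem_nhdsWithin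
    have hall : ∀ᶠ z in 𝓝[≠] (τ₀ : ℂ), _ :=
      (((((hK1.and hA1).and hK2).and hA2).and hkK).and (hαA.and hden)).filter_mono
        nhdsWithin_le_nhds
    filter_upwards [hne, hall] with z hz ⟨⟨⟨⟨⟨e1, e2⟩, e3⟩, e4⟩, e5⟩, e6, e7⟩
    have hz0 : z - (τ₀ : ℂ) ≠ 0 := sub_ne_zero.mpr hz
    have hmz : tyMob γ z - (τ₀ : ℂ) ≠ 0 := by
      have := ty_mob_sub γ τ₀ z e7
      rw [hfix] at this
      rw [this]
      exact mul_ne_zero hz0 (inv_ne_zero (mul_ne_zero e7 h0))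
    rw [e3, e5, smul_eq_mul, smul_eq_mul] at e1
    rw [e4, e6, smul_eq_mul, smul_eq_mul] at e2
    have h3 : (tyMob γ z - (τ₀ : ℂ)) ^ n * (z - (τ₀ : ℂ)) ^ n * Ψ z = 0 := by
      simp only [hΨ]
      linear_combination ((z - (τ₀ : ℂ)) ^ n * α z) * e1
        - χ * ((z - (τ₀ : ℂ)) ^ n * k z) * e2
    rcases mul_eq_zero.mp h3 with h4 | h4
    · exact absurd h4 (mul_ne_zero (pow_ne_zero n hmz) (pow_ne_zero n hz0))
    · exact h4
  have hlim : Tendsto Ψ (𝓝[≠] (τ₀ : ℂ)) (𝓝 (Ψ (τ₀ : ℂ))) :=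
    hΨc.tendsto.mono_left nhdsWithin_le_nhds
  have hlim0 : Tendsto Ψ (𝓝[≠] (τ₀ : ℂ)) (𝓝 0) :=
    tendsto_const_nhds.congr' (hΨ0.mono fun z hz => hz.symm)
  have hval : Ψ (τ₀ : ℂ) = 0 := tendsto_nhds_unique hlim hlim0
  simp only [hΨ, hfix] at hval
  have h5 : k (τ₀ : ℂ) * α (τ₀ : ℂ) * (1 - χ) = 0 := by linear_combination hval
  rcases mul_eq_zero.mp h5 with h6 | h6
  · exact absurd h6 (mul_ne_zero hk0 hα0)
  · exact (sub_eq_zero.mp h6).symm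

section Fixed

variable {F : Type*} [Field F] [Algebra ℂ F] {Γ : Subgroup SL(2, ℤ)} (M : PhiModel F Γ)
variable (p : ℕ) [NeZero p]

omit [NeZero p] in
/-- The analytic order of a nonzero holomorphic function is finite. -/
theorem phi_order_nat {G : ℍ → ℂ} (hG : MDiff G) (hG0 : G ≠ 0) (τ₀ : ℍ) :
    ∃ n : ℕ, analyticOrderAt (G ∘ ofComplex) (τ₀ : ℂ) = (n : ℕ∞) := by
  obtain ⟨n, hn⟩ := ENat.ne_top_iff_exists.mp (ty_order_ne_top τ₀ hG hG0)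
  exact ⟨n, by rw [← ty_order_taylorAt τ₀ hG, hn]⟩

omit [NeZero p] in
/-- A uniformiser at the Taylor point `τ₀`, as a fraction of elements of the model ring, and the
ramification index `m` of the Taylor point (`m = 0` if the point defines no place). -/
theorem phi_exists_unif (τ₀ : ℍ) :
    ∃ (a₁ b₁ : M.R) (m na nb : ℕ), a₁ ≠ 0 ∧ b₁ ≠ 0 ∧
      analyticOrderAt ((a₁ : ℍ → ℂ) ∘ ofComplex) (τ₀ : ℂ) = (na : ℕ∞) ∧
      analyticOrderAt ((b₁ : ℍ → ℂ) ∘ ofComplex) (τ₀ : ℂ) = (nb : ℕ∞) ∧ na = nb + m ∧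
      (∀ f : F, f ≠ 0 → ∃ t : ℤ, (phiTaylor M τ₀ f).order = (m : ℤ) * t) ∧
      ∀ (D : Divisor ℂ F) (h : F), h ≠ 0 → (∀ v : Place ℂ F, (p : ℤ) * D v = v.ord h) →
        ∃ t : ℤ, (phiTaylor M τ₀ h).order = (m : ℤ) * ((p : ℤ) * t) := by
  by_cases hx : ∃ x : F, 0 < (phiTaylor M τ₀ x).order
  · obtain ⟨x, hx⟩ := hx
    set P := laurentPlace (K := ℂ) (phiTaylor M τ₀) (phiTaylor_const_order M τ₀) x hx with hP
    obtain ⟨m, hm0, hm⟩ := (isPlaceOf_laurentPlace (K := ℂ) (phiTaylor M τ₀)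
      (phiTaylor_const_order M τ₀) x hx).exists_order_eq
    obtain ⟨π, hπ⟩ := IsDiscreteValuationRing.exists_irreducible P.toValuationSubring
    have hπ1 : P.ord (π : F) = 1 := P.ord_coe_irreducible hπ
    have hπ0 : (π : F) ≠ 0 := by
      intro h0
      rw [h0, Place.ord_zero] at hπ1
      exact zero_ne_one hπ1
    obtain ⟨a₁, b₁, hb₁, hab⟩ := M.frac (π : F)
    have ha₁ : a₁ ≠ 0 := by
      rintro rfl
      rw [map_zero] at hab
      exact mul_ne_zero hπ0 (M.ι_ne_zero hb₁) hab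
    obtain ⟨na, hna1, hna2⟩ := phiTaylorR_order M τ₀ a₁ ha₁
    obtain ⟨nb, hnb1, hnb2⟩ := phiTaylorR_order M τ₀ b₁ hb₁
    have h1 : (phiTaylor M τ₀ (M.ι a₁)).order
        = (phiTaylor M τ₀ (π : F)).order + (phiTaylor M τ₀ (M.ι b₁)).order := by
      rw [← hab, cl_order_map_mul _ hπ0 (M.ι_ne_zero hb₁)]
    rw [phiTaylor_ι, phiTaylor_ι, hna2, hnb2, hm _ hπ0, hπ1, mul_one] at h1
    refine ⟨a₁, b₁, m.toNat, na, nb, ha₁, hb₁, hna1, hnb1, ?_, ?_, ?_⟩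
    · have : (m.toNat : ℤ) = m := Int.toNat_of_nonneg hm0.le
      omega
    · intro f hf
      exact ⟨P.ord f, by rw [Int.toNat_of_nonneg hm0.le, hm f hf]⟩
    · intro D h hh hdiv
      exact ⟨D P, by rw [Int.toNat_of_nonneg hm0.le, hm h hh, hdiv]⟩
  · have hzero : ∀ f : F, f ≠ 0 → (phiTaylor M τ₀ f).order = 0 := by
      intro f _
      have h1 : ¬ 0 < (phiTaylor M τ₀ f).order := fun h1 => hx ⟨f, h1⟩
      have h2 : ¬ 0 < (phiTaylor M τ₀ f⁻¹).order := fun h1 => hx ⟨f⁻¹, h1⟩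
      rw [cl_order_map_inv] at h2
      omega
    obtain ⟨n1, hn1, hn2⟩ := phiTaylorR_order M τ₀ 1 one_ne_zero
    have hn0 : n1 = 0 := by
      rw [map_one] at hn2
      have : (1 : LaurentSeries ℂ).order = 0 := HahnSeries.order_one
      rw [this] at hn2
      exact_mod_cast hn2.symm
    subst hn0
    refine ⟨1, 1, 0, 0, 0, one_ne_zero, one_ne_zero, hn1, hn1, rfl, ?_, ?_⟩
    · intro f hf
      exact ⟨0, by rw [hzero f hf]; simp⟩
    · intro D h hh _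
      exact ⟨0, by rw [hzero h hh]; simp⟩

/-- **`phiHom` kills the stabiliser of every point of the upper half plane.** -/
theorem phi_fixed (c : ↥(Pic0.torsion ℂ F p)) (γ : Γ) (τ₀ : ℍ)
    (hγ : (γ : SL(2, ℤ)) • τ₀ = τ₀) : phiHom M p c (Additive.ofMul γ) = 0 := by
  have hp : p ≠ 0 := NeZero.ne p
  obtain ⟨D, h, a, b, G, hD, hh, hdiv, hb, hab, hG, hGp, hGγ⟩ := phi_exists_data M p c
  have ha : a ≠ 0 := phi_a_ne_zero hh hb hab
  have hG0 : G ≠ 0 := phi_root_ne_zero ha hGp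
  obtain ⟨nG, hnG⟩ := phi_order_nat hG hG0 τ₀
  obtain ⟨na, hna1, hna2⟩ := phiTaylorR_order M τ₀ a ha
  obtain ⟨a₁, b₁, m, n₁, n₂, ha₁, hb₁, hn₁, hn₂, hnm, hdvd, hdvdp⟩ := phi_exists_unif M p τ₀
  have hGa : AnalyticAt ℂ (G ∘ ofComplex) (τ₀ : ℂ) := ty_analyticAt hG τ₀
  -- `na = p * nG`
  have hna : na = p * nG := by
    have e : ((a : ℍ → ℂ) ∘ ofComplex) = (G ∘ ofComplex) ^ p := by
      funext z
      simp only [Function.comp, Pi.pow_apply]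
      exact (hGp _).symm
    rw [e, analyticOrderAt_pow hGa, hnG] at hna1
    have : ((p * nG : ℕ) : ℕ∞) = (na : ℕ∞) := by
      rw [← hna1]
      push_cast
      rw [nsmul_eq_mul]
    exact_mod_cast this.symm
  -- `nG = m * d`
  obtain ⟨t, ht⟩ := hdvdp (D : Divisor ℂ F) h hh hdiv
  obtain ⟨tb, htb⟩ := hdvd (M.ι b) (M.ι_ne_zero hb)
  have h1 : (phiTaylor M τ₀ (M.ι a)).order
      = (phiTaylor M τ₀ h).order + (p : ℤ) * (phiTaylor M τ₀ (M.ι b)).order := by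
    rw [← hab, cl_order_map_mul _ hh (pow_ne_zero p (M.ι_ne_zero hb))]
    have := cl_order_map_zpow (phiTaylor M τ₀) (M.ι b) (p : ℤ)
    rw [zpow_natCast] at this
    rw [this]
  rw [phiTaylor_ι, hna2, ht, htb, hna] at h1
  have hp' : (p : ℤ) ≠ 0 := by exact_mod_cast hp
  have h2 : (nG : ℤ) = (m : ℤ) * (t + tb) := by
    have : (p : ℤ) * (nG : ℤ) = (p : ℤ) * ((m : ℤ) * (t + tb)) := by
      push_cast at h1
      linear_combination h1
    exact mul_left_cancel₀ hp' this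
  obtain ⟨d, hd⟩ : ∃ d : ℕ, nG = m * d := by
    rcases Nat.eq_zero_or_pos m with hm | hm
    · subst hm
      refine ⟨0, ?_⟩
      have : (nG : ℤ) = 0 := by rw [h2]; simp
      exact_mod_cast this
    · have hnn : 0 ≤ t + tb := by
        by_contra hneg
        have hlt : t + tb < 0 := not_le.mp hneg
        have h3 : (m : ℤ) * (t + tb) < 0 :=
          mul_neg_of_pos_of_neg (by exact_mod_cast hm) hlt
        have h4 : (0 : ℤ) ≤ (nG : ℤ) := Int.natCast_nonneg nG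
        omega
      refine ⟨(t + tb).toNat, ?_⟩
      have : (nG : ℤ) = ((m * (t + tb).toNat : ℕ) : ℤ) := by
        rw [h2]
        push_cast
        rw [Int.toNat_of_nonneg hnn]
      exact_mod_cast this
  -- the two functions of equal order
  have ha₁m : MDiff (a₁ : ℍ → ℂ) := M.mdiff _ a₁.2
  have hb₁m : MDiff (b₁ : ℍ → ℂ) := M.mdiff _ b₁.2
  have ha₁a : AnalyticAt ℂ ((a₁ : ℍ → ℂ) ∘ ofComplex) (τ₀ : ℂ) := ty_analyticAt ha₁m τ₀
  have hb₁a : AnalyticAt ℂ ((b₁ : ℍ → ℂ) ∘ ofComplex) (τ₀ : ℂ) := ty_analyticAt hb₁m τ₀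
  have hKm : MDiff (fun τ => G τ * (b₁ : ℍ → ℂ) τ ^ d) := hG.mul (hb₁m.pow d)
  have hAm : MDiff (fun τ => (a₁ : ℍ → ℂ) τ ^ d) := ha₁m.pow d
  have hKo : analyticOrderAt ((fun τ => G τ * (b₁ : ℍ → ℂ) τ ^ d) ∘ ofComplex) (τ₀ : ℂ)
      = ((d * n₁ : ℕ) : ℕ∞) := by
    have e : ((fun τ => G τ * (b₁ : ℍ → ℂ) τ ^ d) ∘ ofComplex)
        = (G ∘ ofComplex) * ((b₁ : ℍ → ℂ) ∘ ofComplex) ^ d := by
      funext z
      rfl
    rw [e, analyticOrderAt_mul hGa (hb₁a.pow d), analyticOrderAt_pow hb₁a, hnG, hn₂, hd, hnm]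
    push_cast
    rw [nsmul_eq_mul]
    ring
  have hAo : analyticOrderAt ((fun τ => (a₁ : ℍ → ℂ) τ ^ d) ∘ ofComplex) (τ₀ : ℂ)
      = ((d * n₁ : ℕ) : ℕ∞) := by
    have e : ((fun τ => (a₁ : ℍ → ℂ) τ ^ d) ∘ ofComplex)
        = ((a₁ : ℍ → ℂ) ∘ ofComplex) ^ d := by
      funext z
      rfl
    rw [e, analyticOrderAt_pow ha₁a, hn₁]
    push_cast
    rw [nsmul_eq_mul]
  have hχ : phiE p (phiHom M p c (Additive.ofMul γ)) = 1 := by
    refine phi_fixed_ratio hKm hAm (γ : SL(2, ℤ)) τ₀ hγ _ (fun τ => ?_) (fun τ => ?_) (d * n₁)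
      hKo hAo
    · show G _ * (b₁ : ℍ → ℂ) _ ^ d = _
      rw [hGγ γ τ, M.inv _ b₁.2 γ τ]
      ring
    · show (a₁ : ℍ → ℂ) _ ^ d = _
      rw [M.inv _ a₁.2 γ τ]
  rw [← phiE_zero p] at hχ
  exact phiE_injective p hχ

end Fixed

end Fermat.Agent.S29
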