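import Fermat.Agent.S29.PhiKum
import Fermat.Agent.S29.PlCApi
import Fermat.Agent.S29.MfRat
import Fermat.Agent.S29.RootInField
import Fermat.Agent.S22.FG

/-!
# S29, packages [PHI-INST] and [ROOT-IN-FIELD] (step 2)

* `phiModelC N` : the analytic model (`PhiModel`) of the function field `F_ℂ` of `X₀(N)` over `ℂ`
  given by the ring `anaRingC N` of the functions `j(dτ)`, `d ∣ N`.
* `phiC_rootIn` : holomorphic `Γ₀(N)`-invariant `p`-th roots of elements of `anaRingC N` are
  quotients of elements of `anaRingC N` (the hypothesis `PhiRootIn` of `phi_injective`), given the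
  identification `mfrField N = F_ℂ` of the field of ratios of modular forms with `F_ℂ`.
* `phiC_injective`, `phiC_finite` : the comparison hom
  `phiHom (phiModelC N) p : Pic⁰(F_ℂ)[p] → Hom(Γ₀(N), ℤ/p)` is injective and `Pic⁰(F_ℂ)[p]` is
  finite.
-/

set_option autoImplicit false

open AlgebraicCurve UpperHalfPlane ModularForm
open scoped MatrixGroups Manifold

namespace Fermat.Agent.S29

open Fermat.Agent.S20 Fermat.Agent.S24

section PhiInst

variable (N : ℕ) [NeZero N]

set_option quotPrecheck false in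
local notation "FC" =>
  ↥(ModularCurve.laurentBaseChange ℂ (ModularCurve.modularFunctionFieldFull N))

/-- The `q`-expansion of an element of the analytic ring lies in the function field. -/
theorem phiC_κA_mem (g : anaRingC N) :
    plcκA N g ∈ ModularCurve.laurentBaseChange ℂ (ModularCurve.modularFunctionFieldFull N) := by
  obtain ⟨P, rfl⟩ := plc_evA_surjective N g
  have h1 : plcκF N (plcEvF N P) = plcκA N (plcEvA N P) :=
    congrArg (fun φ => φ P) (plc_comp_eq N)
  rw [← h1]
  exact (plcEvF N P).2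

/-- The analytic ring inside the function field. -/
noncomputable def phiCι : anaRingC N →+* FC :=
  (plcκA N).codRestrict
    (ModularCurve.laurentBaseChange ℂ (ModularCurve.modularFunctionFieldFull N)) (phiC_κA_mem N)

theorem phiCι_coe (g : anaRingC N) : ((phiCι N g : FC) : LaurentSeries ℂ) = plcκA N g := rfl

theorem phiCι_injective : Function.Injective (phiCι N) := fun _ _ h =>
  plcκA_injective N (congrArg Subtype.val h)

theorem phiC_κA_eq (g : anaRingC N) :
    plcκA N g = qLaurent ⟨(g : ℍ → ℂ), plc_anaRingC_le N g.2⟩ := rfl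

/-- **[PHI-INST]** The analytic model of the function field of `X₀(N)` over `ℂ`. -/
noncomputable def phiModelC : PhiModel FC (CongruenceSubgroup.Gamma0 N) where
  R := anaRingC N
  mdiff := fun _ ha => plc_mdiff_of_mem N ha
  inv := fun _ ha γ τ => plc_invariant N ha γ.1 γ.2 τ
  const_mem := plc_const_mem N
  ι := phiCι N
  ι_injective := phiCι_injective N
  ι_const := fun c => by
    apply Subtype.ext
    rw [phiCι_coe, phiC_κA_eq, qLaurent_const]
    show HahnSeries.C c = algebraMap ℂ (LaurentSeries ℂ) c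
    rw [ModularCurve.algebraMap_laurentSeries_eq_single]
    rfl
  frac := fun f => by
    obtain ⟨g, h, hh, hf, -⟩ := plc_exists_fraction_q N f
    refine ⟨g, h, hh, ?_⟩
    apply Subtype.ext
    have hh0 : plcκA N h ≠ 0 := by
      have := (plcκA_injective N).ne hh
      rwa [map_zero] at this
    show (f : LaurentSeries ℂ) * plcκA N h = plcκA N g
    rw [hf, div_mul_cancel₀ _ hh0]
  unit_const := fun κ hκ h => by
    obtain ⟨c, hc⟩ := plc_const_of_ord_eq_zero N κ hκ h
    exact ⟨c, hc.symm⟩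

theorem phiModelC_R : (phiModelC N).R = anaRingC N := rfl

theorem phiModelC_ι_coe (g : anaRingC N) :
    (((phiModelC N).ι g : FC) : LaurentSeries ℂ) = plcκA N g := rfl

/-- (M2) in the shape used by `rif_core`. -/
theorem phiC_hM2 :
    ∀ x ∈ ModularCurve.laurentBaseChange ℂ (ModularCurve.modularFunctionFieldFull N),
      ∃ (w : ℤ) (A B : ℍ → ℂ), IsForm N w A ∧ IsForm N w B ∧ B ≠ 0 ∧
        x * HahnSeries.ofPowerSeries ℤ ℂ (qExpansion 1 B) =
          HahnSeries.ofPowerSeries ℤ ℂ (qExpansion 1 A) := by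
  intro x hx
  obtain ⟨w, A, B, hB, h⟩ := mfr_exists_ratio N x hx
  refine ⟨(w : ℤ), ⇑A, ⇑B, ⟨A, rfl⟩, ⟨B, rfl⟩, ?_, h⟩
  intro h0
  exact hB (DFunLike.coe_injective h0)

/-- (M1) in the shape used by `rif_core`. -/
theorem phiC_hM1
    (hF : mfrField N =
      ModularCurve.laurentBaseChange ℂ (ModularCurve.modularFunctionFieldFull N)) :
    ∀ (w : ℤ) (A B : ℍ → ℂ), IsForm N w A → IsForm N w B → B ≠ 0 →
      HahnSeries.ofPowerSeries ℤ ℂ (qExpansion 1 A) /
        HahnSeries.ofPowerSeries ℤ ℂ (qExpansion 1 B) ∈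
        ModularCurve.laurentBaseChange ℂ (ModularCurve.modularFunctionFieldFull N) := by
  intro w A B hA hB hB0
  rcases lt_or_ge w 0 with hw | hw
  · exact absurd (hB.eq_zero_of_neg hw) hB0
  · obtain ⟨A', rfl⟩ := hA
    obtain ⟨B', rfl⟩ := hB
    refine mfr_ratio_mem N hF hw A' B' ?_
    rintro rfl
    exact hB0 rfl

/-- **[ROOT-IN-FIELD]**, in the shape of `PhiRootIn`: a holomorphic `Γ₀(N)`-invariant function
whose `p`-th power lies in the analytic ring `anaRingC N` is a quotient of two elements of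
`anaRingC N`. -/
theorem phiC_rootIn
    (hF : mfrField N =
      ModularCurve.laurentBaseChange ℂ (ModularCurve.modularFunctionFieldFull N))
    (p : ℕ) [NeZero p] : PhiRootIn (phiModelC N) p := by
  intro G hG hGinv ⟨a, ha⟩
  have hp : 0 < p := Nat.pos_of_ne_zero (NeZero.ne p)
  have haw : IsWH ((a : anaRingC N) : ℍ → ℂ) := plc_anaRingC_le N a.2
  have h1 : (1 : ℍ → ℂ) ≠ 0 := fun h => one_ne_zero (congrFun h UpperHalfPlane.I)
  have hq1 : qLaurent ⟨(1 : ℍ → ℂ), ql_isWH_one⟩ = 1 := map_one qLaurent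
  have hab : qLaurent ⟨((a : anaRingC N) : ℍ → ℂ), haw⟩ / qLaurent ⟨(1 : ℍ → ℂ), ql_isWH_one⟩ ∈
      ModularCurve.laurentBaseChange ℂ (ModularCurve.modularFunctionFieldFull N) := by
    rw [hq1, div_one]
    exact phiC_κA_mem N a
  obtain ⟨x, hx, hxp⟩ := rif_core N hp (phiC_hM2 N) (phiC_hM1 N hF) hG
    (fun γ hγ τ => hGinv ⟨γ, hγ⟩ τ) haw ql_isWH_one h1 hab
    (fun τ => by rw [Pi.one_apply, mul_one]; exact ha τ)
  obtain ⟨g, h, hh, hf, -⟩ := plc_exists_fraction_q N ⟨x, hx⟩
  have hh0 : plcκA N h ≠ 0 := by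
    have := (plcκA_injective N).ne hh
    rwa [map_zero] at this
  refine ⟨g, h, hh, ?_⟩
  refine hxp _ _ (plc_anaRingC_le N g.2) (plc_anaRingC_le N h.2) ?_
  show x * plcκA N h = plcκA N g
  have hf' : x = plcκA N g / plcκA N h := hf
  rw [hf', div_mul_cancel₀ _ hh0]

/-- **The comparison hom over `ℂ` is injective.** -/
theorem phiC_injective
    (hF : mfrField N =
      ModularCurve.laurentBaseChange ℂ (ModularCurve.modularFunctionFieldFull N))
    (p : ℕ) [NeZero p] : Function.Injective (phiHom (phiModelC N) p) :=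
  phi_injective (phiModelC N) p (phiC_rootIn N hF p)

/-- **`Pic⁰(F_ℂ)[p]` is finite.** -/
theorem phiC_finite
    (hF : mfrField N =
      ModularCurve.laurentBaseChange ℂ (ModularCurve.modularFunctionFieldFull N))
    (p : ℕ) [NeZero p] : Finite ↥(Pic0.torsion ℂ FC p) := by
  haveI : Group.FG ↥(CongruenceSubgroup.Gamma0 N) :=
    (Group.fg_iff_subgroup_fg _).mpr (Fermat.Agent.S22.fg_Gamma0_fg N)
  exact phi_finite (phiModelC N) p (phiC_rootIn N hF p)

end PhiInst

end Fermat.Agent.S29
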