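import Fermat.Agent.S29.PhiHom
import Fermat.Agent.S29.Kum

/-!
# S29, package [PHI], part 5: bridge to the Kummer character `kumChar`

`phiHom M p c` is the Kummer character `kumChar Γ p a` of every numerator `a` in the model ring
with `h * b ^ p = a`, `div h = p D`, `[D] = c` (and of `a * b ^ (p - 1)` if `h = a / b`).
-/

set_option autoImplicit false

open AlgebraicCurve UpperHalfPlane
open scoped MatrixGroups Manifold

namespace Fermat.Agent.S29

open Fermat.Agent.S24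

theorem phiE_eq_kumExp (p : ℕ) (x : ZMod p) : phiE p x = kumExp p x := rfl

section Bridge

variable {F : Type*} [Field F] [Algebra ℂ F] {Γ : Subgroup SL(2, ℤ)} (M : PhiModel F Γ)
variable (p : ℕ) [NeZero p]

/-- Admissible numerators satisfy the hypothesis `KumOK` of the Kummer character. -/
theorem phi_kumOK (D : Divisor ℂ F) (h : F) (hh : h ≠ 0)
    (hdiv : ∀ v : Place ℂ F, (p : ℤ) * D v = v.ord h)
    (a b : M.R) (hb : b ≠ 0) (hab : h * M.ι b ^ p = M.ι a) : KumOK Γ p (a : ℍ → ℂ) where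
  mdiff := M.mdiff _ a.2
  ne_zero := phi_coe_ne_zero (phi_a_ne_zero hh hb hab)
  inv := fun γ hγ τ => M.inv _ a.2 ⟨γ, hγ⟩ τ
  ord := phi_order_dvd M p D h hh hdiv a b hb hab

/-- **Bridge.** `phiHom c` is the Kummer character of any numerator `a = h * b ^ p`. -/
theorem phiHom_eq_kumChar' (c : ↥(Pic0.torsion ℂ F p)) (D : Divisor.degZero (K := ℂ) (F := F))
    (hD : Pic0.mk D = c.1) (h : F) (hh : h ≠ 0)
    (hdiv : ∀ v : Place ℂ F, (p : ℤ) * (D : Divisor ℂ F) v = v.ord h)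
    (a b : M.R) (hb : b ≠ 0) (hab : h * M.ι b ^ p = M.ι a) :
    phiHom M p c = kumChar Γ p (a : ℍ → ℂ) := by
  have hOK : KumOK Γ p (a : ℍ → ℂ) := phi_kumOK M p (D : Divisor ℂ F) h hh hdiv a b hb hab
  obtain ⟨G, hG, hGp⟩ := hOK.exists_root
  obtain ⟨τ₁, hτ₁⟩ := kum_exists_ne (kum_root_ne_zero hOK.ne_zero hGp)
  refine AddMonoidHom.ext fun γ => ?_
  have h1 := phi_spec' M p c D hD h hh hdiv a b hb hab G hG hGp (Additive.toMul γ) τ₁
  have h2 := kumChar_spec hOK hG hGp (Additive.toMul γ) τ₁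
  rw [h1] at h2
  exact phiE_injective p (mul_right_cancel₀ hτ₁ h2)

/-- **Bridge, fraction form.** If `h = a / b` then `phiHom c` is the Kummer character of
`a * b ^ (p - 1)`. -/
theorem phiHom_eq_kumChar (c : ↥(Pic0.torsion ℂ F p)) (D : Divisor.degZero (K := ℂ) (F := F))
    (hD : Pic0.mk D = c.1) (h : F) (hh : h ≠ 0)
    (hdiv : ∀ v : Place ℂ F, (p : ℤ) * (D : Divisor ℂ F) v = v.ord h)
    (a b : M.R) (hb : b ≠ 0) (hab : h * M.ι b = M.ι a) :
    KumOK Γ p (fun τ => (a : ℍ → ℂ) τ * (b : ℍ → ℂ) τ ^ (p - 1)) ∧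
      phiHom M p c = kumChar Γ p (fun τ => (a : ℍ → ℂ) τ * (b : ℍ → ℂ) τ ^ (p - 1)) := by
  have hp : p ≠ 0 := NeZero.ne p
  have hab' : h * M.ι b ^ p = M.ι (a * b ^ (p - 1)) := by
    rw [map_mul, map_pow, ← hab]
    conv_lhs => rw [show p = (p - 1) + 1 by omega, pow_succ]
    ring
  exact ⟨phi_kumOK M p (D : Divisor ℂ F) h hh hdiv _ b hb hab',
    phiHom_eq_kumChar' M p c D hD h hh hdiv _ b hb hab'⟩

/-- Every `p`-torsion class has Kummer data whose character is `phiHom`. -/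
theorem phi_exists_kum (c : ↥(Pic0.torsion ℂ F p)) :
    ∃ (D : Divisor.degZero (K := ℂ) (F := F)) (h : F) (a b : M.R),
      Pic0.mk D = c.1 ∧ h ≠ 0 ∧ (∀ v : Place ℂ F, (p : ℤ) * (D : Divisor ℂ F) v = v.ord h) ∧
      b ≠ 0 ∧ h * M.ι b ^ p = M.ι a ∧ KumOK Γ p (a : ℍ → ℂ) ∧
      phiHom M p c = kumChar Γ p (a : ℍ → ℂ) := by
  obtain ⟨D, h, a, b, G, hD, hh, hdiv, hb, hab, -, -, -⟩ := phi_exists_data M p c
  exact ⟨D, h, a, b, hD, hh, hdiv, hb, hab,
    phi_kumOK M p (D : Divisor ℂ F) h hh hdiv a b hb hab,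
    phiHom_eq_kumChar' M p c D hD h hh hdiv a b hb hab⟩

end Bridge

end Fermat.Agent.S29
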