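import Fermat.Agent.S29.PhiModel

/-!
# S29, package [PHI], part 3: the character of a `p`-th root of a function

For `h ∈ F` whose divisor is divisible by `p` there is a unique `l : Additive Γ →+ ZMod p` which is
the character of a holomorphic `p`-th root of `h * b ^ p` (`b` a denominator in the model ring):
`PhiK M p h l`.  It is multiplicative in `h` and trivial on `p`-th powers and on constants.
-/

set_option autoImplicit false

open AlgebraicCurve UpperHalfPlane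
open scoped MatrixGroups Manifold

namespace Fermat.Agent.S29

open Fermat.Agent.S24

section Kummer

variable {F : Type*} [Field F] [Algebra ℂ F] {Γ : Subgroup SL(2, ℤ)} (M : PhiModel F Γ)
variable (p : ℕ) [NeZero p]

/-- `l` is the character of a holomorphic `p`-th root of `h * b ^ p`, for a denominator `b` in
the model ring. -/
def PhiK (h : F) (l : Additive Γ →+ ZMod p) : Prop :=
  ∃ (a b : M.R) (G : ℍ → ℂ), b ≠ 0 ∧ h * M.ι b ^ p = M.ι a ∧ MDiff G ∧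
    (∀ τ, G τ ^ p = (a : ℍ → ℂ) τ) ∧ PhiHas Γ p G l

variable {M p}

theorem phi_coe_ne_zero {a : M.R} (ha : a ≠ 0) : (a : ℍ → ℂ) ≠ 0 :=
  fun h => ha (Subtype.ext h)

theorem phi_exists_ne_zero {G : ℍ → ℂ} (hG : G ≠ 0) : ∃ τ, G τ ≠ 0 := by
  by_contra hcon
  simp only [not_exists, not_not] at hcon
  exact hG (funext hcon)

theorem phi_root_ne_zero {G : ℍ → ℂ} {a : M.R} (ha : a ≠ 0)
    (hGp : ∀ τ, G τ ^ p = (a : ℍ → ℂ) τ) : G ≠ 0 := by
  rintro rfl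
  apply ha
  apply Subtype.ext
  funext τ
  rw [← hGp τ]
  simp [(NeZero.ne p)]

theorem phi_a_ne_zero {h : F} (hh : h ≠ 0) {a b : M.R} (hb : b ≠ 0)
    (hab : h * M.ι b ^ p = M.ι a) : a ≠ 0 := by
  rintro rfl
  rw [map_zero] at hab
  exact mul_ne_zero hh (pow_ne_zero p (M.ι_ne_zero hb)) hab

theorem phi_mul_ne_zero {G B : ℍ → ℂ} (hG : MDiff G) (hB : MDiff B) (hG0 : G ≠ 0) (hB0 : B ≠ 0) :
    ∃ τ, G τ * B τ ≠ 0 := by
  by_contra hcon
  simp only [not_exists, not_not] at hcon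
  have h1 : G = 0 := by
    refine phi_hol_cancel hG mdifferentiable_const hB hB0 fun τ => ?_
    rw [hcon τ]
    simp
  exact hG0 h1

theorem phiK_unique {h : F} (hh : h ≠ 0) {l l' : Additive Γ →+ ZMod p}
    (h1 : PhiK M p h l) (h2 : PhiK M p h l') : l = l' := by
  obtain ⟨a, b, G, hb, hab, hG, hGp, hl⟩ := h1
  obtain ⟨a', b', G', hb', hab', hG', hGp', hl'⟩ := h2
  have ha' : a' ≠ 0 := phi_a_ne_zero hh hb' hab'
  have ha : a ≠ 0 := phi_a_ne_zero hh hb hab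
  have hbm : MDiff (b : ℍ → ℂ) := M.mdiff _ b.2
  have hbm' : MDiff (b' : ℍ → ℂ) := M.mdiff _ b'.2
  -- the two roots `G * b'` and `G' * b`
  have hR : a * b' ^ p = a' * b ^ p := by
    apply M.ι_injective
    rw [map_mul, map_mul, map_pow, map_pow, ← hab, ← hab']
    ring
  have hpow : ∀ τ, (G τ * (b' : ℍ → ℂ) τ) ^ p = (G' τ * (b : ℍ → ℂ) τ) ^ p := by
    intro τ
    rw [mul_pow, mul_pow, hGp, hGp']
    have := congrArg (fun r : M.R => (r : ℍ → ℂ) τ) hR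
    simpa using this
  have hne2 : ∃ τ, G' τ * (b : ℍ → ℂ) τ ≠ 0 :=
    phi_mul_ne_zero hG' hbm (phi_root_ne_zero ha' hGp') (phi_coe_ne_zero hb)
  have hne1 : ∃ τ, G τ * (b' : ℍ → ℂ) τ ≠ 0 :=
    phi_mul_ne_zero hG hbm' (phi_root_ne_zero ha hGp) (phi_coe_ne_zero hb')
  have hl1 : PhiHas Γ p (fun τ => G τ * (b' : ℍ → ℂ) τ) l := phiHas_mul_inv (M.inv _ b'.2) hl
  have hl2 : PhiHas Γ p (fun τ => G' τ * (b : ℍ → ℂ) τ) l' := phiHas_mul_inv (M.inv _ b.2) hl'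
  have hl3 : PhiHas Γ p (fun τ => G τ * (b' : ℍ → ℂ) τ) l' :=
    phiHas_of_root (hG.mul hbm') (hG'.mul hbm) hne2 hpow hl2
  exact phiHas_unique hne1 hl1 hl3

theorem phiK_mul {h h' : F} {l l' : Additive Γ →+ ZMod p}
    (h1 : PhiK M p h l) (h2 : PhiK M p h' l') : PhiK M p (h * h') (l + l') := by
  obtain ⟨a, b, G, hb, hab, hG, hGp, hl⟩ := h1
  obtain ⟨a', b', G', hb', hab', hG', hGp', hl'⟩ := h2
  haveI := M.isDomain
  refine ⟨a * a', b * b', fun τ => G τ * G' τ, mul_ne_zero hb hb', ?_, hG.mul hG', fun τ => ?_,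
    phiHas_mul hl hl'⟩
  · rw [map_mul, map_mul, ← hab, ← hab']
    ring
  · rw [mul_pow, hGp, hGp']
    rfl

theorem phiK_pow {u : F} : PhiK M p (u ^ p) 0 := by
  obtain ⟨a, b, hb, hab⟩ := M.frac u
  refine ⟨a ^ p, b, (a : ℍ → ℂ), hb, ?_, M.mdiff _ a.2, fun τ => rfl,
    phiHas_zero (M.inv _ a.2)⟩
  rw [map_pow, ← hab, mul_pow]

theorem phiK_const (c : ℂ) : PhiK M p (algebraMap ℂ F c) 0 := by
  obtain ⟨r, hr⟩ := IsAlgClosed.exists_pow_nat_eq c (NeZero.pos p)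
  refine ⟨M.const c, 1, fun _ => r, one_ne_zero, ?_, mdifferentiable_const, fun τ => hr,
    phiHas_zero fun _ _ => rfl⟩
  rw [map_one, one_pow, mul_one]
  exact (M.ι_const c).symm

/-- Existence of the character when the divisor of `h` is divisible by `p`. -/
theorem phiK_exists (D : Divisor ℂ F) {h : F} (hh : h ≠ 0)
    (hdiv : ∀ v : Place ℂ F, (p : ℤ) * D v = v.ord h) :
    ∃ l : Additive Γ →+ ZMod p, PhiK M p h l := by
  have hp : p ≠ 0 := (NeZero.ne p)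
  obtain ⟨a₀, b₀, hb₀, hab₀⟩ := M.frac h
  have hab : h * M.ι b₀ ^ p = M.ι (a₀ * b₀ ^ (p - 1)) := by
    rw [map_mul, map_pow, ← hab₀]
    conv_lhs => rw [show p = (p - 1) + 1 by omega, pow_succ]
    ring
  have ha : a₀ * b₀ ^ (p - 1) ≠ 0 := phi_a_ne_zero hh hb₀ hab
  obtain ⟨G, hG, hGp⟩ := hroot_uhp (NeZero.pos p) (M.mdiff _ (a₀ * b₀ ^ (p - 1)).2)
    (phi_order_dvd M p D h hh hdiv _ b₀ hb₀ hab)
  have hne : ∃ τ, G τ ≠ 0 := phi_exists_ne_zero (phi_root_ne_zero ha hGp)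
  obtain ⟨l, hl⟩ := phiHas_exists (Γ := Γ) hG hne (fun γ τ => by
    rw [hGp, hGp]
    exact M.inv _ (a₀ * b₀ ^ (p - 1)).2 γ τ)
  exact ⟨l, _, b₀, G, hb₀, hab, hG, hGp, hl⟩

/-- Characterisation (primed form): any holomorphic `p`-th root of `h * b ^ p` has the
character of `h`. -/
theorem phiK_spec' {h : F} (hh : h ≠ 0) {l : Additive Γ →+ ZMod p} (hl : PhiK M p h l)
    (a b : M.R) (hb : b ≠ 0) (hab : h * M.ι b ^ p = M.ι a) (G : ℍ → ℂ) (hG : MDiff G)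
    (hGp : ∀ τ, G τ ^ p = (a : ℍ → ℂ) τ) : PhiHas Γ p G l := by
  have ha : a ≠ 0 := phi_a_ne_zero hh hb hab
  have hne : ∃ τ, G τ ≠ 0 := phi_exists_ne_zero (phi_root_ne_zero ha hGp)
  obtain ⟨l', hl'⟩ := phiHas_exists (Γ := Γ) hG hne (fun γ τ => by
    rw [hGp, hGp]
    exact M.inv _ a.2 γ τ)
  have h1 : PhiK M p h l' := ⟨a, b, G, hb, hab, hG, hGp, hl'⟩
  rw [phiK_unique hh hl h1]
  exact hl'

/-- Characterisation: any holomorphic `G` with `G ^ p * b = a`, where `h = a / b`, has the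
character of `h`. -/
theorem phiK_spec {h : F} (hh : h ≠ 0) {l : Additive Γ →+ ZMod p} (hl : PhiK M p h l)
    (a b : M.R) (hb : b ≠ 0) (hab : h * M.ι b = M.ι a) (G : ℍ → ℂ) (hG : MDiff G)
    (hGp : ∀ τ, G τ ^ p * (b : ℍ → ℂ) τ = (a : ℍ → ℂ) τ) : PhiHas Γ p G l := by
  have hp : p ≠ 0 := (NeZero.ne p)
  have hbm : MDiff (b : ℍ → ℂ) := M.mdiff _ b.2
  have hab' : h * M.ι b ^ p = M.ι (a * b ^ (p - 1)) := by
    rw [map_mul, map_pow, ← hab]
    conv_lhs => rw [show p = (p - 1) + 1 by omega, pow_succ]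
    ring
  have h1 : PhiHas Γ p (fun τ => G τ * (b : ℍ → ℂ) τ) l := by
    refine phiK_spec' hh hl _ b hb hab' _ (hG.mul hbm) fun τ => ?_
    show (G τ * (b : ℍ → ℂ) τ) ^ p = (a : ℍ → ℂ) τ * (b : ℍ → ℂ) τ ^ (p - 1)
    rw [← hGp τ, mul_pow]
    have hb1 : (b : ℍ → ℂ) τ ^ p = (b : ℍ → ℂ) τ * (b : ℍ → ℂ) τ ^ (p - 1) := by
      rw [← pow_succ']
      congr 1
      omega
    rw [hb1]
    ring
  exact phiHas_cancel hG hbm (phi_coe_ne_zero hb) (M.inv _ b.2) h1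

end Kummer

end Fermat.Agent.S29
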