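import Fermat.Agent.S29.PhiChar
import Fermat.Agent.S24.ClassifyBasics

/-!
# S29, package [PHI], part 2: analytic models of function fields and Taylor points

`PhiModel F Γ`: a ring `R` of holomorphic `Γ`-invariant functions on the upper half plane,
containing the constants, whose field of fractions is the function field `F` over `ℂ`.
For every `τ₀` the Taylor expansion at `τ₀` lifts to a ring hom `F → ℂ((t))`; if the divisor of
`h ∈ F` is divisible by `p` then so is the order of the Taylor expansion of `h` at every point.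
-/

set_option autoImplicit false

open AlgebraicCurve UpperHalfPlane
open scoped MatrixGroups Manifold

namespace Fermat.Agent.S29

open Fermat.Agent.S24

/-- An analytic model of a function field `F` over `ℂ`: a ring `R` of holomorphic `Γ`-invariant
functions on the upper half plane containing the constants, with `F = Frac R`, such that the
elements of `F` without zeros and poles are constants. -/
structure PhiModel (F : Type*) [Field F] [Algebra ℂ F] (Γ : Subgroup SL(2, ℤ)) where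
  /-- the ring of functions -/
  R : Subring (ℍ → ℂ)
  mdiff : ∀ a ∈ R, MDiff a
  inv : ∀ a ∈ R, ∀ (γ : Γ) (τ : ℍ), a ((γ : SL(2, ℤ)) • τ) = a τ
  const_mem : ∀ c : ℂ, (fun _ : ℍ => c) ∈ R
  /-- the embedding into the function field -/
  ι : R →+* F
  ι_injective : Function.Injective ι
  ι_const : ∀ c : ℂ, ι ⟨fun _ => c, const_mem c⟩ = algebraMap ℂ F c
  frac : ∀ f : F, ∃ a b : R, b ≠ 0 ∧ f * ι b = ι a
  unit_const : ∀ κ : F, κ ≠ 0 → (∀ v : Place ℂ F, v.ord κ = 0) → ∃ c : ℂ, κ = algebraMap ℂ F c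

section Model

variable {F : Type*} [Field F] [Algebra ℂ F] {Γ : Subgroup SL(2, ℤ)} (M : PhiModel F Γ)

theorem PhiModel.isDomain : IsDomain M.R :=
  Function.Injective.isDomain M.ι M.ι_injective

theorem PhiModel.le_hol : M.R ≤ holSubring := fun a ha => M.mdiff a ha

theorem PhiModel.ι_ne_zero {b : M.R} (hb : b ≠ 0) : M.ι b ≠ 0 :=
  (map_ne_zero_iff M.ι M.ι_injective).mpr hb

/-- the constant function as an element of the model ring -/
def PhiModel.const (c : ℂ) : M.R := ⟨fun _ => c, M.const_mem c⟩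

/-- Taylor expansion at `τ₀` on the model ring. -/
noncomputable def phiTaylorR (τ₀ : ℍ) : M.R →+* LaurentSeries ℂ :=
  (HahnSeries.ofPowerSeries ℤ ℂ).comp ((taylorHom τ₀).comp (Subring.inclusion M.le_hol))

theorem phiTaylorR_apply (τ₀ : ℍ) (a : M.R) :
    phiTaylorR M τ₀ a = HahnSeries.ofPowerSeries ℤ ℂ (taylorAt τ₀ (a : ℍ → ℂ)) := rfl

theorem phiTaylorR_injective (τ₀ : ℍ) : Function.Injective (phiTaylorR M τ₀) := by
  refine (HahnSeries.ofPowerSeries_injective (Γ := ℤ) (R := ℂ)).comp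
    ((taylorHom_injective τ₀).comp (Subring.inclusion_injective M.le_hol))

theorem PhiModel.exists_lift {E : Type*} [Field E] (Θ : M.R →+* E) (hΘ : Function.Injective Θ) :
    ∃ φ : F →+* E, ∀ a : M.R, φ (M.ι a) = Θ a := by
  letI : Algebra M.R F := M.ι.toAlgebra
  haveI : IsDomain M.R := M.isDomain
  haveI : FaithfulSMul M.R F := (faithfulSMul_iff_algebraMap_injective M.R F).mpr M.ι_injective
  haveI : IsFractionRing M.R F := by
    refine IsFractionRing.of_field M.R F fun z => ?_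
    obtain ⟨a, b, hb, h⟩ := M.frac z
    refine ⟨a, b, ?_⟩
    have hb' : M.ι b ≠ 0 := M.ι_ne_zero hb
    show z = M.ι a / M.ι b
    rw [eq_div_iff hb', h]
  exact ⟨IsFractionRing.lift hΘ, fun a => IsFractionRing.lift_algebraMap hΘ a⟩

/-- Taylor expansion at `τ₀` on the function field. -/
noncomputable def phiTaylor (τ₀ : ℍ) : F →+* LaurentSeries ℂ :=
  (M.exists_lift (phiTaylorR M τ₀) (phiTaylorR_injective M τ₀)).choose

theorem phiTaylor_ι (τ₀ : ℍ) (a : M.R) : phiTaylor M τ₀ (M.ι a) = phiTaylorR M τ₀ a :=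
  (M.exists_lift (phiTaylorR M τ₀) (phiTaylorR_injective M τ₀)).choose_spec a

theorem phiTaylor_const (τ₀ : ℍ) (c : ℂ) :
    phiTaylor M τ₀ (algebraMap ℂ F c) = HahnSeries.C c := by
  rw [← M.ι_const c, phiTaylor_ι, phiTaylorR_apply]
  show HahnSeries.ofPowerSeries ℤ ℂ (taylorAt τ₀ (fun _ => c)) = _
  rw [taylorAt_const, HahnSeries.ofPowerSeries_C]

theorem phiTaylor_const_order (τ₀ : ℍ) (c : ℂ) :
    0 ≤ (phiTaylor M τ₀ (algebraMap ℂ F c)).order := by
  rw [phiTaylor_const]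
  by_cases hc : c = 0
  · subst hc
    simp
  · rw [HahnSeries.order_C]

/-- If the divisor of `h` is divisible by `p`, so is the order of its Taylor expansion at every
point of the upper half plane. -/
theorem phiTaylor_dvd (τ₀ : ℍ) (p : ℕ) (D : Divisor ℂ F) (h : F) (hh : h ≠ 0)
    (hdiv : ∀ v : Place ℂ F, (p : ℤ) * D v = v.ord h) :
    (p : ℤ) ∣ (phiTaylor M τ₀ h).order := by
  by_cases hx : ∃ x : F, 0 < (phiTaylor M τ₀ x).order
  · obtain ⟨x, hx⟩ := hx
    obtain ⟨m, -, hm⟩ := (isPlaceOf_laurentPlace (K := ℂ) (phiTaylor M τ₀)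
      (phiTaylor_const_order M τ₀) x hx).exists_order_eq
    rw [hm h hh, ← hdiv]
    exact ⟨m * D _, by ring⟩
  · have h1 : ¬ 0 < (phiTaylor M τ₀ h).order := fun h1 => hx ⟨h, h1⟩
    have h2 : ¬ 0 < (phiTaylor M τ₀ h⁻¹).order := fun h1 => hx ⟨h⁻¹, h1⟩
    rw [cl_order_map_inv] at h2
    have h3 : (phiTaylor M τ₀ h).order = 0 := by omega
    rw [h3]
    exact dvd_zero _

/-- The analytic order of a nonzero element of the model ring is the order of its Taylor
expansion. -/
theorem phiTaylorR_order (τ₀ : ℍ) (a : M.R) (ha : a ≠ 0) :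
    ∃ n : ℕ, analyticOrderAt ((a : ℍ → ℂ) ∘ ofComplex) (τ₀ : ℂ) = (n : ℕ∞)
      ∧ (phiTaylorR M τ₀ a).order = (n : ℤ) := by
  have hmd : MDiff (a : ℍ → ℂ) := M.mdiff _ a.2
  have hne : (a : ℍ → ℂ) ≠ 0 := fun h => ha (Subtype.ext h)
  obtain ⟨n, hn⟩ := ENat.ne_top_iff_exists.mp (ty_order_ne_top τ₀ hmd hne)
  refine ⟨n, ?_, ?_⟩
  · rw [← ty_order_taylorAt τ₀ hmd, hn]
  · rw [phiTaylorR_apply]
    exact sysfin_order_ofPowerSeries _ n hn.symm

/-- Key divisibility: if `h = a / b^p`-type data has divisor divisible by `p`, all analytic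
orders of `a` are divisible by `p`. -/
theorem phi_order_dvd (p : ℕ) (D : Divisor ℂ F) (h : F) (hh : h ≠ 0)
    (hdiv : ∀ v : Place ℂ F, (p : ℤ) * D v = v.ord h) (a b : M.R) (hb : b ≠ 0)
    (hab : h * M.ι b ^ p = M.ι a) (τ₀ : ℍ) :
    ∃ m : ℕ, analyticOrderAt ((a : ℍ → ℂ) ∘ ofComplex) (τ₀ : ℂ) = ((p * m : ℕ) : ℕ∞) := by
  have hb' : M.ι b ≠ 0 := M.ι_ne_zero hb
  have ha : a ≠ 0 := by
    rintro rfl
    rw [map_zero] at hab
    exact mul_ne_zero hh (pow_ne_zero p hb') hab
  obtain ⟨n, hn1, hn2⟩ := phiTaylorR_order M τ₀ a ha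
  have h1 : (phiTaylor M τ₀ (M.ι a)).order
      = (phiTaylor M τ₀ h).order + (p : ℤ) * (phiTaylor M τ₀ (M.ι b)).order := by
    rw [← hab, cl_order_map_mul _ hh (pow_ne_zero p hb')]
    have := cl_order_map_zpow (phiTaylor M τ₀) (M.ι b) (p : ℤ)
    rw [zpow_natCast] at this
    rw [this]
  rw [phiTaylor_ι, hn2] at h1
  obtain ⟨k, hk⟩ := phiTaylor_dvd M τ₀ p D h hh hdiv
  have h2 : (p : ℤ) ∣ (n : ℤ) := ⟨k + (phiTaylor M τ₀ (M.ι b)).order, by rw [h1, hk]; ring⟩
  obtain ⟨m, hm⟩ := Int.natCast_dvd_natCast.mp h2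
  exact ⟨m, by rw [hn1, hm]⟩

end Model

end Fermat.Agent.S29
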