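import Fermat.Agent.S29.PlCApi

/-!
# Stage 3 (S29), package PLACES-C, part 7: exact multiplicities and the `q`-expansion bridge

On top of `PlCPlaces` / `PlCApi`:

* `plb_classify`: every place of `F_ℂ` is the place of a Laurent point `plcPhi N τ₀ q` with
  multiplicity exactly `1`, or of `plcPhi N i q` with `S • q = q` and multiplicity exactly `2`,
  or of `plcPhi N ρ q` with `(S T) • q = q` and multiplicity exactly `3`, or a cusp place.
* `plb_rel`: two representations of the same element of `F_ℂ` as a quotient of `q`-expansions of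
  weakly holomorphic functions are proportional as functions on the upper half plane.
* `plb_phi_order`, `plb_cusp_order`: the orders of the Laurent points in terms of an arbitrary
  representation by weakly holomorphic functions (for instance modular forms).
-/

set_option autoImplicit false
set_option linter.style.haveILetI false
set_option linter.unusedSectionVars false

open AlgebraicCurve IntermediateField UpperHalfPlane ModularForm EisensteinSeries
open scoped MatrixGroups Manifold
open Fermat.Agent.S24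

namespace Fermat.Agent.S29

section PlbGeneric

variable {K F : Type*} [Field K] [IsAlgClosed K] [CharZero K] [Field F] [Algebra K F]
variable {L : Type*} [Field L] {ι : Type*}

/-- In a full Laurent system, the `j`-th Laurent point has multiplicity exactly
`m = e₀ / (length of the orbit of j)`. -/
theorem plb_mult {x : F} (hx : Transcendental K x) [FiniteDimensional K⟮x⟯ F] [Finite ι]
    (S : LaurentSystem K x L ι) (j : ι) :
    ∃ m : ℤ, 0 < m ∧ (Function.minimalPeriod S.π j : ℤ) * m = (S.e₀ : ℤ) ∧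
      ∀ f : F, f ≠ 0 → (S.φ j f).order = m * (S.place j).ord f := by
  obtain ⟨m, hm0, hm⟩ := (S.isPlaceOf_place j).exists_order_eq
  obtain ⟨π₀, hπ₀⟩ := IsDiscreteValuationRing.exists_irreducible (S.place j).toValuationSubring
  have ht : (S.place j).ord (π₀ : F) = 1 := (S.place j).ord_coe_irreducible hπ₀
  have ht0 : (π₀ : F) ≠ 0 := by
    intro h0
    rw [h0, Place.ord_zero] at ht
    exact zero_ne_one ht
  have h2 := plc_mult_eq hx S j _ ht0
  rw [hm _ ht0, ht, mul_one, mul_one] at h2
  exact ⟨m, hm0, h2, hm⟩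

end PlbGeneric

section PlbPlaces

variable (N : ℕ) [NeZero N]

set_option quotPrecheck false in
local notation "FC" => ↥(ModularCurve.laurentBaseChange ℂ (ModularCurve.modularFunctionFieldFull N))
local notation "Xc" => SL(2, ℤ) ⧸ CongruenceSubgroup.Gamma0 N

/-- A coset fixed by `δ` gives an element of `Γ₀(N)` conjugate to `δ`. -/
theorem plb_fixed_mem (δ : SL(2, ℤ)) (q : Xc) (hfix : δ • q = q) :
    q.out⁻¹ * (δ * q.out) ∈ CongruenceSubgroup.Gamma0 N :=
  sysfin_mem_of_smul_eq N δ q hfix

/-- The width of the cusp attached to a coset: the length of its `T`-orbit. -/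
noncomputable def plbWidth (q : Xc) : ℕ :=
  Function.minimalPeriod (MulAction.toPerm ModularGroup.T : Equiv.Perm Xc) q

theorem plbWidth_def (q : Xc) :
    plbWidth N q = Function.minimalPeriod (MulAction.toPerm ModularGroup.T : Equiv.Perm Xc) q :=
  rfl

theorem plbWidth_pos (q : Xc) : 0 < plbWidth N q := by
  refine Function.IsPeriodicPt.minimalPeriod_pos
    (orderOf_pos (MulAction.toPerm ModularGroup.T : Equiv.Perm Xc)) ?_
  show (MulAction.toPerm ModularGroup.T : Equiv.Perm Xc)^[orderOf _] q = q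
  rw [Equiv.Perm.iterate_eq_pow, pow_orderOf_eq_one]
  rfl

theorem plbWidth_smul (q : Xc) : (ModularGroup.T ^ plbWidth N q) • q = q := by
  have hper : Function.IsPeriodicPt (MulAction.toPerm ModularGroup.T : Equiv.Perm Xc)
      (plbWidth N q) q := Function.isPeriodicPt_minimalPeriod _ _
  have h1 : (fun x : Xc => ModularGroup.T • x)^[plbWidth N q] q = q := hper
  rwa [smul_iterate] at h1

theorem plbWidth_mem (q : Xc) :
    q.out⁻¹ * (ModularGroup.T ^ plbWidth N q * q.out) ∈ CongruenceSubgroup.Gamma0 N :=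
  sysfin_mem_of_smul_eq N _ q (plbWidth_smul N q)

/-- The width divides the level, and the multiplicity of the cusp place is `N / width`. -/
theorem plbWidth_dvd (q : Xc) : plbWidth N q ∣ N := by
  haveI := plc_finiteDimensional_J N
  have hJt := plc_transcendental_J N
  obtain ⟨S, hS, hπ, -⟩ := plc_laurentSystem_infty N
  have hx : Transcendental ℂ (plcJ N)⁻¹ := by
    intro h
    exact hJt (by simpa using h.inv)
  haveI : FiniteDimensional ℂ⟮(plcJ N)⁻¹⟯ FC := by
    rw [sysfin_adjoin_inv]; infer_instance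
  obtain ⟨m, hm0, hrm, -⟩ := plb_mult hx S q
  rw [hS, hπ] at hrm
  have h1 : ((plbWidth N q : ℕ) : ℤ) ∣ (N : ℤ) := Dvd.intro _ hrm
  exact_mod_cast h1

/-- **Strong classification of the places of `F_ℂ`** (exact multiplicities): every place is the
place of a Laurent point `plcPhi N τ₀ q` of multiplicity one, or of `plcPhi N i q` with `q` fixed
by `S` (multiplicity two), or of `plcPhi N ρ q` with `q` fixed by `S T` (multiplicity three),
or a cusp place. -/
theorem plb_classify (P : Place ℂ FC) :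
    (∃ (τ₀ : ℍ) (q : Xc), IsPlaceOf P (plcPhi N τ₀ q) ∧
        ∀ f : FC, f ≠ 0 → (plcPhi N τ₀ q f).order = P.ord f) ∨
    (∃ q : Xc, ModularGroup.S • q = q ∧ IsPlaceOf P (plcPhi N UpperHalfPlane.I q) ∧
        ∀ f : FC, f ≠ 0 → (plcPhi N UpperHalfPlane.I q f).order = 2 * P.ord f) ∨
    (∃ q : Xc, (ModularGroup.S * ModularGroup.T) • q = q ∧ IsPlaceOf P (plcPhi N rho q) ∧
        ∀ f : FC, f ≠ 0 → (plcPhi N rho q f).order = 3 * P.ord f) ∨
    (∃ q : Xc, IsPlaceOf P (plcCusp N q) ∧ ∀ f : FC, f ≠ 0 →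
        (plbWidth N q : ℤ) * (plcCusp N q f).order = (N : ℤ) * P.ord f) := by
  haveI := plc_finiteDimensional_J N
  have hJt := plc_transcendental_J N
  by_cases hneg : P.ord (plcJ N) < 0
  · -- a cusp
    right; right; right
    obtain ⟨S, hS, hπ, hφ⟩ := plc_laurentSystem_infty N
    have hx : Transcendental ℂ (plcJ N)⁻¹ := by
      intro h
      exact hJt (by simpa using h.inv)
    haveI : FiniteDimensional ℂ⟮(plcJ N)⁻¹⟯ FC := by
      rw [sysfin_adjoin_inv]; infer_instance
    have hP : P ∈ zeroPlaces ℂ (plcJ N)⁻¹ := by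
      show 0 < P.ord (plcJ N)⁻¹
      rw [Place.ord_inv]
      omega
    obtain ⟨q, rfl⟩ := S.exists_place_eq hx P hP
    refine ⟨q, ?_, fun f hf => ?_⟩
    · have := S.isPlaceOf_place q
      rwa [hφ] at this
    · have h := plc_mult_eq hx S q f hf
      rw [hS, hπ, hφ] at h
      exact h
  · -- an interior point
    push Not at hneg
    have hmem : plcJ N ∈ P.toValuationSubring := place_mem_of_ord_nonneg P hneg
    obtain ⟨a, ha⟩ := (plc_residue N P).2 (IsLocalRing.residue P.toValuationSubring ⟨plcJ N, hmem⟩)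
    have h1 : IsLocalRing.residue P.toValuationSubring
        (⟨plcJ N, hmem⟩ - algebraMap ℂ P.toValuationSubring a) = 0 := by
      rw [map_sub, ← ha]
      exact sub_eq_zero.mpr rfl
    rw [IsLocalRing.residue_eq_zero_iff, sf_mem_maximalIdeal_iff_ord] at h1
    have hne : plcJ N - algebraMap ℂ FC a ≠ 0 := by
      intro h0
      apply hJt
      rw [sub_eq_zero] at h0
      rw [h0]
      exact isAlgebraic_algebraMap a
    have hpos : 0 < P.ord (plcJ N - algebraMap ℂ FC a) := by
      rcases h1 with h1 | h1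
      · exfalso
        apply hne
        have := congrArg (fun y : P.toValuationSubring => (y : FC)) h1
        simpa using this
      · exact h1
    have hxa : Transcendental ℂ (plcJ N - algebraMap ℂ FC a) := by
      intro h
      apply hJt
      have h2 := h.add (isAlgebraic_algebraMap (R := ℂ) (A := FC) a)
      simpa using h2
    haveI : FiniteDimensional ℂ⟮plcJ N - algebraMap ℂ FC a⟯ FC := by
      rw [sysfin_adjoin_sub]; infer_instance
    -- the member of a system above `j = a` cutting out `P`, with its exact multiplicity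
    have key : ∀ (τ₀ : ℍ) (S : LaurentSystem ℂ (plcJ N - algebraMap ℂ FC a) ℂ Xc),
        S.φ = plcPhi N τ₀ →
        ∃ (q : Xc) (m : ℤ), 0 < m ∧ (Function.minimalPeriod S.π q : ℤ) * m = (S.e₀ : ℤ) ∧
          IsPlaceOf P (plcPhi N τ₀ q) ∧
          ∀ f : FC, f ≠ 0 → (plcPhi N τ₀ q f).order = m * P.ord f := by
      intro τ₀ S hφ
      obtain ⟨q, rfl⟩ := S.exists_place_eq hxa P hpos
      obtain ⟨m, hm0, hrm, hm⟩ := plb_mult hxa S q
      refine ⟨q, m, hm0, hrm, ?_, ?_⟩
      · have := S.isPlaceOf_place q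
        rwa [hφ] at this
      · intro f hf
        have := hm f hf
        rwa [hφ] at this
    by_cases h0 : a = 0
    · subst h0
      obtain ⟨S, hS, hπ, hφ⟩ := plc_laurentSystem_zero N
      have hx0 : plcJ N - algebraMap ℂ FC 0 = plcJ N := by simp
      have hS' : ∃ S' : LaurentSystem ℂ (plcJ N - algebraMap ℂ FC 0) ℂ Xc,
          S'.e₀ = 3 ∧ S'.π = MulAction.toPerm (ModularGroup.S * ModularGroup.T) ∧
            S'.φ = plcPhi N rho := by
        rw [hx0]
        exact ⟨S, hS, hπ, hφ⟩
      obtain ⟨S', hS', hπ', hφ'⟩ := hS'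
      obtain ⟨q, m, hm0, hrm, hP, hm⟩ := key rho S' hφ'
      rw [hS', hπ'] at hrm
      have hmd : m ∣ 3 := Dvd.intro_left _ hrm
      have hle : m ≤ 3 := Int.le_of_dvd (by norm_num) hmd
      have hcases : m = 1 ∨ m = 2 ∨ m = 3 := by omega
      rcases hcases with rfl | rfl | rfl
      · left
        exact ⟨rho, q, hP, fun f hf => by rw [hm f hf, one_mul]⟩
      · exfalso
        omega
      · right; right; left
        have hr : Function.minimalPeriod
            (MulAction.toPerm (ModularGroup.S * ModularGroup.T) : Equiv.Perm Xc) q = 1 := by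
          have : ((Function.minimalPeriod
            (MulAction.toPerm (ModularGroup.S * ModularGroup.T) : Equiv.Perm Xc) q : ℕ) : ℤ) = 1 := by
            omega
          exact_mod_cast this
        have hfix : (MulAction.toPerm (ModularGroup.S * ModularGroup.T) : Equiv.Perm Xc) q = q :=
          Function.minimalPeriod_eq_one_iff_isFixedPt.mp hr
        exact ⟨q, hfix, hP, hm⟩
    by_cases h1728 : a = 1728
    · subst h1728
      obtain ⟨S, hS, hπ, hφ⟩ := plc_laurentSystem_1728 N
      obtain ⟨q, m, hm0, hrm, hP, hm⟩ := key UpperHalfPlane.I S hφ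
      rw [hS, hπ] at hrm
      have hmd : m ∣ 2 := Dvd.intro_left _ hrm
      have hle : m ≤ 2 := Int.le_of_dvd (by norm_num) hmd
      have hcases : m = 1 ∨ m = 2 := by omega
      rcases hcases with rfl | rfl
      · left
        exact ⟨UpperHalfPlane.I, q, hP, fun f hf => by rw [hm f hf, one_mul]⟩
      · right; left
        have hr : Function.minimalPeriod
            (MulAction.toPerm ModularGroup.S : Equiv.Perm Xc) q = 1 := by
          have : ((Function.minimalPeriod
            (MulAction.toPerm ModularGroup.S : Equiv.Perm Xc) q : ℕ) : ℤ) = 1 := by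
            omega
          exact_mod_cast this
        have hfix : (MulAction.toPerm ModularGroup.S : Equiv.Perm Xc) q = q :=
          Function.minimalPeriod_eq_one_iff_isFixedPt.mp hr
        exact ⟨q, hfix, hP, hm⟩
    · left
      obtain ⟨τ₀, rfl⟩ := jFun_surjective a
      obtain ⟨S, hS, hφ⟩ := plc_laurentSystem_generic N τ₀ h0 h1728
      obtain ⟨q, m, hm0, hrm, hP, hm⟩ := key τ₀ S hφ
      rw [hS] at hrm
      have hm1 : m = 1 := by
        have hmd : m ∣ 1 := Dvd.intro_left _ hrm
        have hle : m ≤ 1 := Int.le_of_dvd (by norm_num) hmd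
        omega
      subst hm1
      exact ⟨τ₀, q, hP, fun f hf => by rw [hm f hf, one_mul]⟩

/-! ### The `q`-expansion bridge -/

/-- Two representations of an element of `F_ℂ` as a quotient of `q`-expansions, one by elements
of the analytic ring and one by arbitrary weakly holomorphic functions, are proportional as
functions on the upper half plane. -/
theorem plb_rel (f : FC) (g h : anaRingC N)
    (hf : (f : LaurentSeries ℂ) * plcκA N h = plcκA N g) (G H : ℍ → ℂ) (hG : IsWH G) (hH : IsWH H)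
    (hfG : (f : LaurentSeries ℂ) * qLaurent ⟨H, hH⟩ = qLaurent ⟨G, hG⟩) (τ : ℍ) :
    (g : ℍ → ℂ) τ * H τ = G τ * (h : ℍ → ℂ) τ := by
  have hg' : IsWH (g : ℍ → ℂ) := plc_anaRingC_le N g.2
  have hh' : IsWH (h : ℍ → ℂ) := plc_anaRingC_le N h.2
  have e1 : plcκA N g = qLaurent ⟨(g : ℍ → ℂ), hg'⟩ := rfl
  have e2 : plcκA N h = qLaurent ⟨(h : ℍ → ℂ), hh'⟩ := rfl
  have key : qLaurent (⟨(g : ℍ → ℂ), hg'⟩ * ⟨H, hH⟩) =
      qLaurent (⟨G, hG⟩ * ⟨(h : ℍ → ℂ), hh'⟩) := by
    rw [map_mul, map_mul, ← e1, ← e2, ← hf, ← hfG]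
    ring
  have := qLaurent_injective key
  exact congrFun (congrArg Subtype.val this) τ

/-- The `q`-expansion of a nonzero weakly holomorphic function is nonzero. -/
theorem plb_qLaurent_ne_zero {H : ℍ → ℂ} (hH : IsWH H) (hH0 : H ≠ 0) :
    qLaurent ⟨H, hH⟩ ≠ 0 := by
  intro h
  apply hH0
  have h1 : (⟨H, hH⟩ : whSubring) = 0 := qLaurent_injective (by rw [h, map_zero])
  exact congrArg Subtype.val h1

/-- The ring of holomorphic functions on the upper half plane has no zero divisors. -/
theorem plb_hol_cancel {A B : ℍ → ℂ} (hA : MDiff A) (hB : MDiff B) (hB0 : B ≠ 0)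
    (h : ∀ τ, A τ * B τ = 0) : A = 0 := by
  have h1 : taylorHom UpperHalfPlane.I ⟨A, hA⟩ * taylorHom UpperHalfPlane.I ⟨B, hB⟩ = 0 := by
    rw [← map_mul]
    have : (⟨A, hA⟩ * ⟨B, hB⟩ : holSubring) = 0 := by
      apply Subtype.ext
      funext τ
      exact h τ
    rw [this, map_zero]
  rcases mul_eq_zero.mp h1 with h2 | h2
  · have h3 : (⟨A, hA⟩ : holSubring) = 0 :=
      taylorHom_injective UpperHalfPlane.I (by rw [h2, map_zero])
    exact congrArg Subtype.val h3
  · exfalso
    apply hB0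
    have h3 : (⟨B, hB⟩ : holSubring) = 0 :=
      taylorHom_injective UpperHalfPlane.I (by rw [h2, map_zero])
    exact congrArg Subtype.val h3

/-- **The order of an interior Laurent point through an arbitrary representation**: if
`f = G / H` as `q`-expansions of weakly holomorphic functions (for instance modular forms on
`Γ₀(N)`), the order of `plcPhi N τ₀ q f` is the difference of the orders of vanishing of `G` and
`H` at `q.out⁻¹ • τ₀`. -/
theorem plb_phi_order (τ₀ : ℍ) (q : Xc) (f : FC) (hf0 : f ≠ 0) (G H : ℍ → ℂ) (hG : IsWH G)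
    (hH : IsWH H) (hH0 : H ≠ 0)
    (hfG : (f : LaurentSeries ℂ) * qLaurent ⟨H, hH⟩ = qLaurent ⟨G, hG⟩) :
    (plcPhi N τ₀ q f).order =
      (analyticOrderNatAt (G ∘ ofComplex) ((q.out⁻¹ • τ₀ : ℍ) : ℂ) : ℤ) -
        (analyticOrderNatAt (H ∘ ofComplex) ((q.out⁻¹ • τ₀ : ℍ) : ℂ) : ℤ) := by
  obtain ⟨g, h, hh, hfq, -⟩ := plc_exists_fraction_q N f
  have hκh : plcκA N h ≠ 0 := by
    have := (plcκA_injective N).ne hh
    rwa [map_zero] at this
  have hfc : (f : LaurentSeries ℂ) ≠ 0 := by
    intro h0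
    apply hf0
    exact Subtype.ext h0
  have hg : g ≠ 0 := by
    rintro rfl
    rw [map_zero, zero_div] at hfq
    exact hfc hfq
  have hfq' : (f : LaurentSeries ℂ) * plcκA N h = plcκA N g := by
    rw [hfq, div_mul_cancel₀ _ hκh]
  have hG0 : G ≠ 0 := by
    rintro rfl
    have h1 : qLaurent ⟨(0 : ℍ → ℂ), hG⟩ = 0 := by
      have : (⟨(0 : ℍ → ℂ), hG⟩ : whSubring) = 0 := rfl
      rw [this, map_zero]
    rw [h1] at hfG
    rcases mul_eq_zero.mp hfG with h2 | h2
    · exact hfc h2
    · exact plb_qLaurent_ne_zero hH hH0 h2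
  have hrel := plb_rel N f g h hfq' G H hG hH hfG
  rw [plcPhi_order N τ₀ q f g h hg hh hfq]
  set τ : ℍ := q.out⁻¹ • τ₀ with hτ
  have hgm : MDiff (g : ℍ → ℂ) := plc_mdiff_of_mem N g.2
  have hhm : MDiff (h : ℍ → ℂ) := plc_mdiff_of_mem N h.2
  have hg0 : (g : ℍ → ℂ) ≠ 0 := fun h0 => hg (Subtype.ext h0)
  have hh0 : (h : ℍ → ℂ) ≠ 0 := fun h0 => hh (Subtype.ext h0)
  have top : ∀ {A : ℍ → ℂ}, MDiff A → A ≠ 0 → analyticOrderAt (A ∘ ofComplex) (τ : ℂ) ≠ ⊤ := by
    intro A hA hA0
    rw [← ty_order_taylorAt τ hA]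
    exact ty_order_ne_top τ hA hA0
  have hfun : ((g : ℍ → ℂ) ∘ ofComplex) * (H ∘ ofComplex) =
      (G ∘ ofComplex) * ((h : ℍ → ℂ) ∘ ofComplex) := by
    funext z
    exact hrel (ofComplex z)
  have h1 := analyticOrderNatAt_mul (ty_analyticAt hgm τ) (ty_analyticAt hH.1 τ)
    (top hgm hg0) (top hH.1 hH0)
  have h2 := analyticOrderNatAt_mul (ty_analyticAt hG.1 τ) (ty_analyticAt hhm τ)
    (top hG.1 hG0) (top hhm hh0)
  rw [hfun, h2] at h1
  omega

/-- **The order of a cusp Laurent point through an arbitrary representation**: if `f = G / H` as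
`q`-expansions of weakly holomorphic functions and `G'`, `H'` are weakly holomorphic with
`G' / H' = (G / H) (γ⁻¹ • (N τ))`, `γ = q.out` (for modular forms: `G' = (G ∣ γ⁻¹)(N τ)`,
`H' = (H ∣ γ⁻¹)(N τ)`), then the order of `plcCusp N q f` is the difference of the orders of the
`q`-expansions of `G'` and `H'`. -/
theorem plb_cusp_order (q : Xc) (f : FC) (hf0 : f ≠ 0) (G H : ℍ → ℂ) (hG : IsWH G)
    (hH : IsWH H) (hH0 : H ≠ 0)
    (hfG : (f : LaurentSeries ℂ) * qLaurent ⟨H, hH⟩ = qLaurent ⟨G, hG⟩)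
    (G' H' : ℍ → ℂ) (hG' : IsWH G') (hH' : IsWH H') (hH'0 : H' ≠ 0)
    (hrel' : ∀ τ, G' τ * H (scSub N q.out τ) = H' τ * G (scSub N q.out τ)) :
    (plcCusp N q f).order = (qLaurent ⟨G', hG'⟩).order - (qLaurent ⟨H', hH'⟩).order := by
  obtain ⟨g, h, hh, hfq, -⟩ := plc_exists_fraction_q N f
  have hκh : plcκA N h ≠ 0 := by
    have := (plcκA_injective N).ne hh
    rwa [map_zero] at this
  have hfc : (f : LaurentSeries ℂ) ≠ 0 := by
    intro h0
    apply hf0
    exact Subtype.ext h0
  have hg : g ≠ 0 := by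
    rintro rfl
    rw [map_zero, zero_div] at hfq
    exact hfc hfq
  have hfq' : (f : LaurentSeries ℂ) * plcκA N h = plcκA N g := by
    rw [hfq, div_mul_cancel₀ _ hκh]
  have hG0 : G ≠ 0 := by
    rintro rfl
    have h1 : qLaurent ⟨(0 : ℍ → ℂ), hG⟩ = 0 := by
      have : (⟨(0 : ℍ → ℂ), hG⟩ : whSubring) = 0 := rfl
      rw [this, map_zero]
    rw [h1] at hfG
    rcases mul_eq_zero.mp hfG with h2 | h2
    · exact hfc h2
    · exact plb_qLaurent_ne_zero hH hH0 h2
  have hrel := plb_rel N f g h hfq' G H hG hH hfG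
  rw [plcCusp_order N q f g h hg hh hfq]
  -- the functions `g ∘ s`, `h ∘ s`, `G ∘ s`, with `s τ = γ⁻¹ • (N τ)`
  have hmdS : ∀ {A : ℍ → ℂ}, MDiff A → MDiff (fun τ => A (scSub N q.out τ)) := by
    intro A hA
    exact ql_mdiff_scale (sysfin_mdiff_smul q.out⁻¹ hA) (NeZero.pos N)
  have hGs0 : (fun τ => G (scSub N q.out τ)) ≠ 0 := by
    intro h0
    apply hG0
    funext w
    obtain ⟨τ, rfl⟩ := sc_sub_surjective N q.out w
    exact congrFun h0 τ
  have hgs : IsWH (scComp N q.out (g : ℍ → ℂ)) := plc_cusp_isWH N q.out g.2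
  have hhs : IsWH (scComp N q.out (h : ℍ → ℂ)) := plc_cusp_isWH N q.out h.2
  -- `G' * (h ∘ s) = H' * (g ∘ s)`
  have hfun : ∀ τ, G' τ * (h : ℍ → ℂ) (scSub N q.out τ) = H' τ * (g : ℍ → ℂ) (scSub N q.out τ) := by
    have hz : (fun τ => G' τ * (h : ℍ → ℂ) (scSub N q.out τ) -
        H' τ * (g : ℍ → ℂ) (scSub N q.out τ)) = 0 := by
      refine plb_hol_cancel (B := fun τ => G (scSub N q.out τ)) ?_ (hmdS hG.1) hGs0 ?_
      · exact (hG'.1.mul hhs.1).sub (hH'.1.mul hgs.1)
      · intro τ
        have h1 := hrel (scSub N q.out τ)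
        have h2 := hrel' τ
        linear_combination (G' τ) * (-h1) + ((g : ℍ → ℂ) (scSub N q.out τ)) * h2
    intro τ
    have := congrFun hz τ
    simpa [sub_eq_zero] using this
  have hmul : qLaurent ⟨G', hG'⟩ * plcCuspTheta N q.out h =
      qLaurent ⟨H', hH'⟩ * plcCuspTheta N q.out g := by
    rw [plcCuspTheta_apply, plcCuspTheta_apply, ← map_mul, ← map_mul]
    congr 1
    apply Subtype.ext
    funext τ
    exact hfun τ
  have hθg : plcCuspTheta N q.out g ≠ 0 := by
    have := (plcCuspTheta_injective N q.out).ne hg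
    rwa [map_zero] at this
  have hθh : plcCuspTheta N q.out h ≠ 0 := by
    have := (plcCuspTheta_injective N q.out).ne hh
    rwa [map_zero] at this
  have hH'q := plb_qLaurent_ne_zero hH' hH'0
  have hG'q : qLaurent ⟨G', hG'⟩ ≠ 0 := by
    intro h0
    rw [h0, zero_mul] at hmul
    exact (mul_ne_zero hH'q hθg) hmul.symm
  have h1 := HahnSeries.order_mul hG'q hθh
  have h2 := HahnSeries.order_mul hH'q hθg
  rw [hmul, h2] at h1
  omega

end PlbPlaces

end Fermat.Agent.S29
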