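import Fermat.Agent.S29.PlCReal
import Fermat.Agent.S24.SumFormulaA4
import Fermat.Agent.S24.Classify

/-!
# Stage 3 (S29), package PLACES-C, part 2: degree of the function field over `ℂ(j)`

Port of the base-change part of `S24/Degree.lean` to the constant field `ℂ`: `j` is transcendental
over `ℂ` and `[F_ℂ : ℂ(j)] ≤ [SL(2,ℤ) : Γ₀(N)]`. Consequences: principal divisors of `F_ℂ` have
finite support and degree zero, every place has degree one, functions without zeros and poles are
constant.
-/

set_option autoImplicit false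
set_option linter.style.haveILetI false

open AlgebraicCurve IntermediateField UpperHalfPlane ModularForm EisensteinSeries
open scoped MatrixGroups Manifold
open Fermat.Agent.S24

namespace Fermat.Agent.S29

section PlcDg
variable (N : ℕ) [NeZero N]

theorem plc_coe_J :
    ((plcJ N : ↥(ModularCurve.laurentBaseChange ℂ (ModularCurve.modularFunctionFieldFull N))) :
      LaurentSeries ℂ) = ModularCurve.jqModC ℂ := by
  show ModularCurve.coeffEmb ℂ ModularCurve.jq = _
  rw [← ModularCurve.jqModC_rat, ModularCurve.coeffEmb, ModularCurve.coeffMap_jqModC]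

theorem plc_transcendental_J : Transcendental ℂ (plcJ N) := by
  intro h
  apply dg_transcendental_jqModC ℂ
  rw [← plc_coe_J N]
  obtain ⟨p, hp0, hp⟩ := h
  refine ⟨p, hp0, ?_⟩
  have := congrArg (fun x : ↥(ModularCurve.laurentBaseChange ℂ (ModularCurve.modularFunctionFieldFull N)) =>
    (x : LaurentSeries ℂ)) hp
  simpa using this

/-! ### base change to `ℚ̄` -/

theorem plc_rank_le :
    Module.rank ↥(ℂ⟮plcJ N⟯) ↥(ModularCurve.laurentBaseChange ℂ (ModularCurve.modularFunctionFieldFull N)) ≤
      ((CongruenceSubgroup.Gamma0 N).index : Cardinal) := by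
  rw [← IntermediateField.relrank_top_right (ℂ⟮plcJ N⟯)]
  show Subfield.relrank (ℂ⟮plcJ N⟯).toSubfield
    (⊤ : IntermediateField ℂ ↥(ModularCurve.laurentBaseChange ℂ (ModularCurve.modularFunctionFieldFull N))).toSubfield
      ≤ _
  set val : ↥(ModularCurve.laurentBaseChange ℂ (ModularCurve.modularFunctionFieldFull N)) →+* LaurentSeries ℂ :=
    (ModularCurve.laurentBaseChange ℂ (ModularCurve.modularFunctionFieldFull N)).val.toRingHom with hval
  set ce : LaurentSeries ℚ →+* LaurentSeries ℂ :=
    ModularCurve.coeffEmb ℂ with hce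
  rw [← Subfield.relrank_map_map _ _ val]
  refine dg_relrank_sup_le ((Fermat.Agent.S28.Qj 1).map ce)
    ((ModularCurve.modularFunctionFieldFull N).toSubfield.map ce) _ _
    ((Subfield.gc_map_comap ce).monotone_l (dg_Qj_le_full N)) ?_ ?_ ?_ _ ?_
  · -- `ce (ℚ(j)) ≤ ℚ̄(j)`
    rw [Subfield.map_le_iff_le_comap, Fermat.Agent.S28.Qj, Subfield.closure_le]
    rintro x rfl
    refine ⟨plcJ N, IntermediateField.mem_adjoin_simple_self _ _, ?_⟩
    show ((plcJ N : ↥(ModularCurve.laurentBaseChange ℂ (ModularCurve.modularFunctionFieldFull N))) :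
      LaurentSeries ℂ) = ce (Fermat.Agent.S28.jd ℚ 1)
    rw [Fermat.Agent.S28.jd_one]
    rfl
  · exact (Subfield.gc_map_comap val).monotone_l (fun x _ => trivial)
  · -- the function field is generated by `ℚ̄(j)` and `ce (ℚ(j_d))`
    rintro _ ⟨y, -, rfl⟩
    have hy : (y : LaurentSeries ℂ) ∈
        (ModularCurve.laurentBaseChange ℂ (ModularCurve.modularFunctionFieldFull N)).toSubfield := y.2
    have hle : (ModularCurve.laurentBaseChange ℂ (ModularCurve.modularFunctionFieldFull N)).toSubfield ≤
        Subfield.closure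
          (((ℂ⟮plcJ N⟯).toSubfield.map val : Set _) ∪
            ((ModularCurve.modularFunctionFieldFull N).toSubfield.map ce)) := by
      refine le_trans (le_of_eq (IntermediateField.adjoin_toSubfield ℂ _)) ?_
      rw [Subfield.closure_le]
      rintro z (⟨c, rfl⟩ | ⟨x, hx, rfl⟩)
      · refine Subfield.subset_closure (Or.inl ?_)
        exact ⟨algebraMap _ _ c, (ℂ⟮plcJ N⟯).algebraMap_mem c, rfl⟩
      · refine Subfield.subset_closure (Or.inr ?_)
        exact ⟨x, hx, rfl⟩
    exact hle hy
  · rw [Subfield.relrank_map_map]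
    exact dg_relrank_full_le N

theorem plc_free_J :
    Module.Free ↥ℂ⟮plcJ N⟯
      ↥(ModularCurve.laurentBaseChange ℂ (ModularCurve.modularFunctionFieldFull N)) :=
  Module.Free.of_divisionRing _ _

theorem plc_finiteDimensional_J :
    FiniteDimensional ℂ⟮plcJ N⟯
      ↥(ModularCurve.laurentBaseChange ℂ (ModularCurve.modularFunctionFieldFull N)) := by
  haveI := plc_free_J N
  exact Module.rank_lt_aleph0_iff.mp ((plc_rank_le N).trans_lt Cardinal.natCast_lt_aleph0)

theorem plc_finrank_J_le :
    Module.finrank ℂ⟮plcJ N⟯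
      ↥(ModularCurve.laurentBaseChange ℂ (ModularCurve.modularFunctionFieldFull N)) ≤
      Nat.card (SL(2, ℤ) ⧸ CongruenceSubgroup.Gamma0 N) := by
  haveI := plc_free_J N
  exact Module.finrank_le_of_rank_le (plc_rank_le N)

end PlcDg
section PlcCurve
variable (N : ℕ) [NeZero N]

set_option quotPrecheck false in
local notation "FC" => ↥(ModularCurve.laurentBaseChange ℂ (ModularCurve.modularFunctionFieldFull N))

/-- the `q`-expansion of an element of `F_ℂ` as a quotient of `q`-expansions of elements of the
analytic ring, with the same numerator and denominator as in every lift. -/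
theorem plc_exists_fraction_q (f : FC) :
    ∃ g h : anaRingC N, h ≠ 0 ∧ (f : LaurentSeries ℂ) = plcκA N g / plcκA N h ∧
      ∀ {E : Type} [Field E] (Θ : anaRingC N →+* E) (hΘ : Function.Injective Θ),
        plcLift N Θ hΘ f = Θ g / Θ h := by
  refine ⟨plcEvA N (plcNum N f), plcEvA N (plcDen N f), ?_, ?_, fun Θ hΘ => rfl⟩
  · intro h0
    exact plcDen_ne N f ((plc_evF_eq_zero_iff N _).mpr h0)
  · have h1 : ∀ P : MvPolynomial (plcIdx N) ℂ, plcκF N (plcEvF N P) = plcκA N (plcEvA N P) :=
      fun P => congrArg (fun φ => φ P) (plc_comp_eq N)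
    rw [← h1, ← h1, ← map_div₀, ← plc_eq_div N f]
    rfl

/-- every place of the function field of `X₀(N)` over `ℂ` has residue field `ℂ`. -/
theorem plc_residue (v : Place ℂ FC) : Function.Bijective (algebraMap ℂ v.ResidueField) := by
  haveI := plc_finiteDimensional_J N
  haveI : Algebra.IsAlgebraic ℂ⟮plcJ N⟯ FC := Algebra.IsAlgebraic.of_finite _ _
  exact Fermat.Agent.S24.place_residue_bijective v (plcJ N)

/-- every place of the function field of `X₀(N)` over `ℂ` has degree one. -/
theorem plc_deg_eq_one (v : Place ℂ FC) : v.deg = 1 := by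
  have e : ℂ ≃ₗ[ℂ] v.ResidueField :=
    LinearEquiv.ofBijective (Algebra.linearMap ℂ v.ResidueField) (plc_residue N v)
  rw [Place.deg, ← e.finrank_eq, Module.finrank_self]

/-- principal divisors of the function field of `X₀(N)` over `ℂ`. -/
theorem plc_hasPrincipalDivisors : HasPrincipalDivisors ℂ FC := by
  classical
  haveI := plc_finiteDimensional_J N
  refine ⟨fun f hf => ?_⟩
  have hfin := Fermat.Agent.S24.ord_support_finite (plcJ N) (plc_transcendental_J N) f hf
  refine ⟨Finsupp.ofSupportFinite (fun P => P.ord f) hfin, fun v => rfl, ?_⟩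
  obtain ⟨W, hW⟩ : ∃ W : Divisor ℂ FC, W = Finsupp.ofSupportFinite (fun P => P.ord f) hfin :=
    ⟨_, rfl⟩
  rw [← hW]
  have hWv : ∀ v, W v = v.ord f := fun v => by rw [hW]; rfl
  have hdeg : Divisor.degree W = ∑ᶠ v, W v := by
    rw [finsum_eq_sum_of_support_subset (s := W.support) _ (by intro v hv; simpa using hv)]
    show (Finsupp.liftAddHom fun v : Place ℂ FC => AddMonoidHom.mulRight ((v.deg : ℕ) : ℤ)) W = _
    rw [Finsupp.liftAddHom_apply, Finsupp.sum]
    refine Finset.sum_congr rfl fun v _ => ?_
    simp [plc_deg_eq_one N v]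
  rw [hdeg]
  simp only [hWv]
  exact Fermat.Agent.S24.finsum_ord_eq_zero (plcJ N) (plc_transcendental_J N) f hf

instance plc_instHasPrincipalDivisors : HasPrincipalDivisors ℂ FC :=
  plc_hasPrincipalDivisors N

/-- a function without zeros and poles is constant. -/
theorem plc_const_of_ord_eq_zero (u : FC) (_hu : u ≠ 0) (h : ∀ P : Place ℂ FC, P.ord u = 0) :
    ∃ c : ℂ, algebraMap ℂ FC c = u := by
  haveI := plc_finiteDimensional_J N
  by_cases hua : IsAlgebraic ℂ u
  · exact Fermat.Agent.S24.a4_mem_range_of_isAlgebraic hua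
  · exfalso
    have hut : Transcendental ℂ u := hua
    haveI := Fermat.Agent.S24.a4_finiteDimensional_of_transcendental (plcJ N) hut
    have h1 := Fermat.Agent.S24.finsum_ord_zeroPlaces u hut
    have h2 : ∑ᶠ P ∈ zeroPlaces ℂ u, P.ord u = 0 :=
      finsum_mem_eq_zero_of_forall_eq_zero fun P _ => h P
    rw [h2] at h1
    have h3 : 0 < Module.finrank ℂ⟮u⟯ FC := Module.finrank_pos
    omega

end PlcCurve

end Fermat.Agent.S29
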