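import Fermat.Agent.S29.PlCApi
import Fermat.Agent.S29.PhiInst

/-!
# Stage 3 (S29), package PLACES-C, part 9: the Laurent points on elements of the analytic ring

For `a ∈ anaRingC N` and the element `f` of `F_ℂ` with `q`-expansion `plcκA N a`
(for instance `f = (phiModelC N).ι a`), the Laurent points of `F_ℂ` are computed by the
corresponding maps on the analytic ring:

* `plcLift_of_κ`, `plcLift_ι` : `plcLift N Θ hΘ f = Θ a`;
* `plcPhi_of_κ`, `plcPhi_ι` : `plcPhi N τ₀ q f = plcTheta N τ₀ q.out a`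
  (the Taylor expansion of `a ∘ q.out⁻¹` at `τ₀`);
* `plcCusp_of_κ`, `plcCusp_ι` : `plcCusp N q f = plcCuspTheta N q.out a`
  (the `q^(1/N)`-expansion of `a ∘ q.out⁻¹`).
-/

set_option autoImplicit false

open AlgebraicCurve UpperHalfPlane
open scoped MatrixGroups Manifold
open Fermat.Agent.S24

namespace Fermat.Agent.S29

section PlcIota

variable (N : ℕ) [NeZero N]

set_option quotPrecheck false in
local notation "FC" => ↥(ModularCurve.laurentBaseChange ℂ (ModularCurve.modularFunctionFieldFull N))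
local notation "Xc" => SL(2, ℤ) ⧸ CongruenceSubgroup.Gamma0 N

theorem plcLift_of_κ {E : Type} [Field E] (Θ : anaRingC N →+* E) (hΘ : Function.Injective Θ)
    (f : FC) (a : anaRingC N) (hf : (f : LaurentSeries ℂ) = plcκA N a) :
    plcLift N Θ hΘ f = Θ a := by
  have h := plcLift_eq_of_q N Θ hΘ f a 1 one_ne_zero (by rw [hf, map_one, div_one])
  rw [h, map_one, div_one]

theorem plcLift_ι {E : Type} [Field E] (Θ : anaRingC N →+* E) (hΘ : Function.Injective Θ)
    (a : anaRingC N) : plcLift N Θ hΘ ((phiModelC N).ι a) = Θ a :=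
  plcLift_of_κ N Θ hΘ _ a rfl

theorem plcPhi_of_κ (τ₀ : ℍ) (q : Xc) (f : FC) (a : anaRingC N)
    (hf : (f : LaurentSeries ℂ) = plcκA N a) :
    plcPhi N τ₀ q f = plcTheta N τ₀ q.out a :=
  plcLift_of_κ N _ _ f a hf

theorem plcPhi_ι (τ₀ : ℍ) (q : Xc) (a : anaRingC N) :
    plcPhi N τ₀ q ((phiModelC N).ι a) = plcTheta N τ₀ q.out a :=
  plcPhi_of_κ N τ₀ q _ a rfl

theorem plcCusp_of_κ (q : Xc) (f : FC) (a : anaRingC N)
    (hf : (f : LaurentSeries ℂ) = plcκA N a) :
    plcCusp N q f = plcCuspTheta N q.out a :=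
  plcLift_of_κ N _ _ f a hf

theorem plcCusp_ι (q : Xc) (a : anaRingC N) :
    plcCusp N q ((phiModelC N).ι a) = plcCuspTheta N q.out a :=
  plcCusp_of_κ N q _ a rfl

end PlcIota

end Fermat.Agent.S29
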