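import Fermat.Agent.S29.PlCSysCusp

/-!
# Stage 3 (S29), package PLACES-C, part 5: every place of `F_ℂ` is analytic

* `plc_mult_eq`: in a full Laurent system, the exact relation between the order of the `j`-th
  Laurent point and the order at its place:
  `minimalPeriod π j * ord (φ_j f) = e₀ * ord_{P_j} f`.
* `plc_point`: every point `τ₀` of the upper half plane (and every coset `q`) defines a place of
  `F_ℂ`, with `ord (plcPhi N τ₀ q f) = m * ord_P f`, `m > 0`.
* `plc_classify`: every place of `F_ℂ` is of this form with `m ∈ {1, 2, 3}`, or is a cusp place,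
  with `w * ord (plcCusp N q f) = N * ord_P f`, `w` the length of the `T`-orbit of `q`.
-/

set_option autoImplicit false
set_option linter.style.haveILetI false

open AlgebraicCurve IntermediateField UpperHalfPlane ModularForm EisensteinSeries
open scoped MatrixGroups Manifold
open Fermat.Agent.S24

namespace Fermat.Agent.S29

section PlcGeneric

variable {K F : Type*} [Field K] [IsAlgClosed K] [CharZero K] [Field F] [Algebra K F]
variable {L : Type*} [Field L] {ι : Type*}

/-- The exact multiplicity of a Laurent point of a full Laurent system. -/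
theorem plc_mult_eq {x : F} (hx : Transcendental K x) [FiniteDimensional K⟮x⟯ F] [Finite ι]
    (S : LaurentSystem K x L ι) (j : ι) (f : F) (hf : f ≠ 0) :
    (Function.minimalPeriod S.π j : ℤ) * (S.φ j f).order = (S.e₀ : ℤ) * (S.place j).ord f := by
  classical
  have := Fintype.ofFinite ι
  choose m hm0 hm using fun i => (S.isPlaceOf_place i).exists_order_eq
  obtain ⟨π₀, hπ₀⟩ := IsDiscreteValuationRing.exists_irreducible (S.place j).toValuationSubring
  have ht : (S.place j).ord (π₀ : F) = 1 := (S.place j).ord_coe_irreducible hπ₀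
  have ht0 : (π₀ : F) ≠ 0 := by
    intro h0
    rw [h0, Place.ord_zero] at ht
    exact zero_ne_one ht
  have hplace : ∀ a : ℕ, S.place ((S.π ^ a) j) = S.place j := by
    intro a
    rw [← zpow_natCast]
    exact S.place_zpow _ _
  have hmπ : ∀ a : ℕ, m ((S.π ^ a) j) = m j := by
    intro a
    have h1 := hm ((S.π ^ a) j) _ ht0
    have h2 := hm j _ ht0
    rw [S.order_pow, hplace, ht, mul_one] at h1
    rw [ht, mul_one] at h2
    rw [← h1, ← h2]
  obtain ⟨r, hr_def⟩ : ∃ r : ℕ, r = Function.minimalPeriod S.π j := ⟨_, rfl⟩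
  have hr : 0 < r := by
    rw [hr_def]
    refine Function.IsPeriodicPt.minimalPeriod_pos (orderOf_pos S.π) ?_
    show (S.π)^[orderOf S.π] j = j
    rw [Equiv.Perm.iterate_eq_pow, pow_orderOf_eq_one]
    rfl
  have hdvd : (S.e₀ : ℤ) ∣ (r : ℤ) * m j := by
    have h := S.dvd j _ ht0
    rw [hm j _ ht0, ht, mul_one] at h
    rw [hr_def]
    exact h
  have hle : (S.e₀ : ℤ) ≤ (r : ℤ) * m j :=
    Int.le_of_dvd (mul_pos (by exact_mod_cast hr) (hm0 j)) hdvd
  have hsum := S.sum_mult_eq hx m hm (S.place j) (S.place_mem_zeroPlaces j)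
  let O : Finset ι := (Finset.range r).image (fun a => (S.π ^ a) j)
  have hO : ∑ k ∈ O, m k = (r : ℤ) * m j := by
    rw [Finset.sum_image]
    · rw [Finset.sum_congr rfl (fun a _ => hmπ a), Finset.sum_const, Finset.card_range,
        nsmul_eq_mul]
    · intro a ha b hb hab
      have ha' : a < Function.minimalPeriod S.π j := by
        rw [← hr_def]; simpa using ha
      have hb' : b < Function.minimalPeriod S.π j := by
        rw [← hr_def]; simpa using hb
      exact Function.iterate_injOn_Iio_minimalPeriod (f := S.π) (x := j) ha' hb' hab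
  have hsub : O ⊆ Finset.univ.filter (fun k => S.place k = S.place j) := by
    intro k hk
    rw [Finset.mem_filter]
    refine ⟨Finset.mem_univ _, ?_⟩
    obtain ⟨a, _, rfl⟩ := Finset.mem_image.mp hk
    exact hplace a
  have h3 := Finset.sum_le_sum_of_subset_of_nonneg hsub (f := m) (fun k _ _ => (hm0 k).le)
  rw [hO, hsum] at h3
  have heq : (r : ℤ) * m j = S.e₀ := le_antisymm h3 hle
  rw [← hr_def, hm j f hf, ← mul_assoc, heq]

end PlcGeneric

section PlcPlaces

variable (N : ℕ) [NeZero N]

set_option quotPrecheck false in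
local notation "FC" => ↥(ModularCurve.laurentBaseChange ℂ (ModularCurve.modularFunctionFieldFull N))
local notation "Xc" => SL(2, ℤ) ⧸ CongruenceSubgroup.Gamma0 N

theorem plc_jFun_sub_ne_zero (a : ℂ) : (fun τ : ℍ => jFun τ - a) ≠ 0 := by
  intro h
  obtain ⟨τ, hτ⟩ := jFun_surjective (a + 1)
  have h1 := congrFun h τ
  simp only [Pi.zero_apply] at h1
  rw [hτ] at h1
  simp at h1

/-- the order of `j - j(τ₀)` at `τ₀` is a positive natural number. -/
theorem plc_order_jFun_sub (τ₀ : ℍ) :
    ∃ e : ℕ, 0 < e ∧ (taylorAt τ₀ (fun τ => jFun τ - jFun τ₀)).order = (e : ℕ∞) := by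
  have hmd : MDiff (fun τ : ℍ => jFun τ - jFun τ₀) := jc_jFun_mdiff.sub mdifferentiable_const
  obtain ⟨e, he⟩ := ENat.ne_top_iff_exists.mp
    (ty_order_ne_top τ₀ hmd (plc_jFun_sub_ne_zero (jFun τ₀)))
  refine ⟨e, ?_, he.symm⟩
  by_contra h0
  have he0 : e = 0 := by omega
  subst he0
  have h1 : (taylorAt τ₀ (fun τ => jFun τ - jFun τ₀)).order = 0 := by
    rw [← he]; rfl
  rw [ty_order_taylorAt τ₀ hmd] at h1
  have h2 := (ty_analyticAt hmd τ₀).analyticOrderAt_eq_zero.mp h1
  apply h2
  simp [Function.comp, ofComplex_apply]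

/-- Every point of the upper half plane defines a place of `F_ℂ`. -/
theorem plc_point (τ₀ : ℍ) (q : Xc) :
    ∃ (P : Place ℂ FC) (m : ℤ), 0 < m ∧ IsPlaceOf P (plcPhi N τ₀ q) ∧
      ∀ f : FC, f ≠ 0 → (plcPhi N τ₀ q f).order = m * P.ord f := by
  obtain ⟨e, he, hord⟩ := plc_order_jFun_sub τ₀
  have hx : 0 < (plcPhi N τ₀ q (plcJ N - algebraMap ℂ FC (jFun τ₀))).order := by
    rw [plcPhi_x, sysfin_order_ofPowerSeries _ e hord]
    exact_mod_cast he
  have hK : ∀ c : ℂ, 0 ≤ (plcPhi N τ₀ q (algebraMap ℂ FC c)).order := by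
    intro c
    rw [plcPhi_const, HahnSeries.order_C]
  have hP := isPlaceOf_laurentPlace (K := ℂ) (plcPhi N τ₀ q) hK _ hx
  obtain ⟨m, hm0, hm⟩ := hP.exists_order_eq
  exact ⟨_, m, hm0, hP, hm⟩

/-- Every coset defines a cusp place of `F_ℂ`. -/
theorem plc_cusp_point (q : Xc) :
    ∃ (P : Place ℂ FC), IsPlaceOf P (plcCusp N q) ∧ P.ord (plcJ N) < 0 ∧
      ∀ f : FC, f ≠ 0 →
        (Function.minimalPeriod (MulAction.toPerm ModularGroup.T : Equiv.Perm Xc) q : ℤ) *
          (plcCusp N q f).order = (N : ℤ) * P.ord f := by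
  haveI := plc_finiteDimensional_J N
  obtain ⟨S, hS, hπ, hφ⟩ := plc_laurentSystem_infty N
  have hx : Transcendental ℂ (plcJ N)⁻¹ := by
    intro h
    exact plc_transcendental_J N (by simpa using h.inv)
  haveI : FiniteDimensional ℂ⟮(plcJ N)⁻¹⟯ FC := by
    rw [sysfin_adjoin_inv]; infer_instance
  refine ⟨S.place q, ?_, ?_, fun f hf => ?_⟩
  · have := S.isPlaceOf_place q
    rwa [hφ] at this
  · have h1 : 0 < (S.place q).ord (plcJ N)⁻¹ := S.place_mem_zeroPlaces q
    rw [Place.ord_inv] at h1
    omega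
  · have h := plc_mult_eq hx S q f hf
    rw [hS, hπ, hφ] at h
    exact h

/-- Every place of the function field of `X₀(N)` over `ℂ` is analytic: it is the place of a point
of the upper half plane (with multiplicity `m ∈ {1, 2, 3}`) or of a cusp. -/
theorem plc_classify (P : Place ℂ FC) :
    (∃ (τ₀ : ℍ) (q : Xc) (m : ℤ), (m = 1 ∨ m = 2 ∨ m = 3) ∧ IsPlaceOf P (plcPhi N τ₀ q) ∧
        ∀ f : FC, f ≠ 0 → (plcPhi N τ₀ q f).order = m * P.ord f) ∨
    (∃ q : Xc, IsPlaceOf P (plcCusp N q) ∧ ∀ f : FC, f ≠ 0 →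
        (Function.minimalPeriod (MulAction.toPerm ModularGroup.T : Equiv.Perm Xc) q : ℤ) *
          (plcCusp N q f).order = (N : ℤ) * P.ord f) := by
  haveI := plc_finiteDimensional_J N
  have hJt := plc_transcendental_J N
  by_cases hneg : P.ord (plcJ N) < 0
  · -- a cusp
    right
    obtain ⟨S, hS, hπ, hφ⟩ := plc_laurentSystem_infty N
    have hx : Transcendental ℂ (plcJ N)⁻¹ := by
      intro h
      exact hJt (by simpa using h.inv)
    haveI : FiniteDimensional ℂ⟮(plcJ N)⁻¹⟯ FC := by
      rw [sysfin_adjoin_inv]; infer_instance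
    have hP : P ∈ zeroPlaces ℂ (plcJ N)⁻¹ := by
      show 0 < P.ord (plcJ N)⁻¹
      rw [Place.ord_inv]
      omega
    obtain ⟨q, rfl⟩ := S.exists_place_eq hx P hP
    refine ⟨q, ?_, fun f hf => ?_⟩
    · have := S.isPlaceOf_place q
      rwa [hφ] at this
    · have h := plc_mult_eq hx S q f hf
      rw [hS, hπ, hφ] at h
      exact h
  · -- an interior point
    left
    push Not at hneg
    have hmem : plcJ N ∈ P.toValuationSubring := place_mem_of_ord_nonneg P hneg
    obtain ⟨a, ha⟩ := (plc_residue N P).2 (IsLocalRing.residue P.toValuationSubring ⟨plcJ N, hmem⟩)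
    have h1 : IsLocalRing.residue P.toValuationSubring
        (⟨plcJ N, hmem⟩ - algebraMap ℂ P.toValuationSubring a) = 0 := by
      rw [map_sub, ← ha]
      exact sub_eq_zero.mpr rfl
    rw [IsLocalRing.residue_eq_zero_iff, sf_mem_maximalIdeal_iff_ord] at h1
    have hne : plcJ N - algebraMap ℂ FC a ≠ 0 := by
      intro h0
      apply hJt
      rw [sub_eq_zero] at h0
      rw [h0]
      exact isAlgebraic_algebraMap a
    have hpos : 0 < P.ord (plcJ N - algebraMap ℂ FC a) := by
      rcases h1 with h1 | h1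
      · exfalso
        apply hne
        have := congrArg (fun y : P.toValuationSubring => (y : FC)) h1
        simpa using this
      · exact h1
    have hxa : Transcendental ℂ (plcJ N - algebraMap ℂ FC a) := by
      intro h
      apply hJt
      have h2 := h.add (isAlgebraic_algebraMap (R := ℂ) (A := FC) a)
      simpa using h2
    haveI : FiniteDimensional ℂ⟮plcJ N - algebraMap ℂ FC a⟯ FC := by
      rw [sysfin_adjoin_sub]; infer_instance
    -- the three cases
    have key : ∀ (τ₀ : ℍ) (e : ℕ) (S : LaurentSystem ℂ (plcJ N - algebraMap ℂ FC a) ℂ Xc),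
        (e = 1 ∨ e = 2 ∨ e = 3) → S.e₀ = e → S.φ = plcPhi N τ₀ →
        ∃ (τ₀ : ℍ) (q : Xc) (m : ℤ), (m = 1 ∨ m = 2 ∨ m = 3) ∧ IsPlaceOf P (plcPhi N τ₀ q) ∧
          ∀ f : FC, f ≠ 0 → (plcPhi N τ₀ q f).order = m * P.ord f := by
      intro τ₀ e S he hS hφ
      obtain ⟨q, rfl⟩ := S.exists_place_eq hxa P hpos
      obtain ⟨m, hm0, hm⟩ := (S.isPlaceOf_place q).exists_order_eq
      obtain ⟨π₀, hπ₀⟩ := IsDiscreteValuationRing.exists_irreducible (S.place q).toValuationSubring
      have ht : (S.place q).ord (π₀ : FC) = 1 := (S.place q).ord_coe_irreducible hπ₀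
      have ht0 : (π₀ : FC) ≠ 0 := by
        intro h0
        rw [h0, Place.ord_zero] at ht
        exact zero_ne_one ht
      have h2 := plc_mult_eq hxa S q _ ht0
      rw [hm _ ht0, ht, mul_one, mul_one, hS] at h2
      have hr0 : 0 < Function.minimalPeriod S.π q := by
        refine Function.IsPeriodicPt.minimalPeriod_pos (orderOf_pos S.π) ?_
        show (S.π)^[orderOf S.π] q = q
        rw [Equiv.Perm.iterate_eq_pow, pow_orderOf_eq_one]
        rfl
      have hm3 : m = 1 ∨ m = 2 ∨ m = 3 := by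
        have hmle : m ≤ e := by
          have : (1 : ℤ) ≤ Function.minimalPeriod S.π q := by exact_mod_cast hr0
          nlinarith
        rcases he with rfl | rfl | rfl
        · left; push_cast at hmle; omega
        · have : m = 1 ∨ m = 2 := by push_cast at hmle; omega
          tauto
        · have : m = 1 ∨ m = 2 ∨ m = 3 := by push_cast at hmle; omega
          exact this
      refine ⟨τ₀, q, m, hm3, ?_, ?_⟩
      · have := S.isPlaceOf_place q
        rwa [hφ] at this
      · intro f hf
        have := hm f hf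
        rwa [hφ] at this
    by_cases h0 : a = 0
    · subst h0
      obtain ⟨S, hS, -, hφ⟩ := plc_laurentSystem_zero N
      have hx0 : plcJ N - algebraMap ℂ FC 0 = plcJ N := by simp
      have hS' : ∃ S' : LaurentSystem ℂ (plcJ N - algebraMap ℂ FC 0) ℂ Xc,
          S'.e₀ = 3 ∧ S'.φ = plcPhi N rho := by
        rw [hx0]
        exact ⟨S, hS, hφ⟩
      obtain ⟨S', hS', hφ'⟩ := hS'
      exact key rho 3 S' (by tauto) hS' hφ'
    by_cases h1728 : a = 1728
    · subst h1728
      obtain ⟨S, hS, -, hφ⟩ := plc_laurentSystem_1728 N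
      exact key UpperHalfPlane.I 2 S (by tauto) hS hφ
    · obtain ⟨τ₀, rfl⟩ := jFun_surjective a
      obtain ⟨S, hS, hφ⟩ := plc_laurentSystem_generic N τ₀ h0 h1728
      exact key τ₀ 1 S (by tauto) hS hφ

end PlcPlaces

end Fermat.Agent.S29
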