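import Fermat.Agent.S24.Real
import Fermat.Agent.S24.Degree
import Fermat.Agent.S24.SysBase

/-!
# Stage 3 (S29), package PLACES-C, part 1: the analytic model of the function field over `ℂ`

Port of `S24/Real.lean` (and of the degree bound of `S24/Degree.lean`) to the constant field `ℂ`:
the function field `F_ℂ = ℂ(j(q^d), d ∣ N) ⊆ ℂ((q))` and the analytic ring
`anaRingC N = ℂ[j(dτ), d ∣ N] ⊆ (ℍ → ℂ)` are both quotients of the polynomial ring
`ℂ[X_d, d ∣ N]`, with the same kernel. Hence every injective ring hom `Θ : anaRingC N →+* E` into a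
field lifts to `F_ℂ`.
-/

set_option autoImplicit false

open AlgebraicCurve IntermediateField UpperHalfPlane ModularForm EisensteinSeries
open scoped MatrixGroups Manifold
open Fermat.Agent.S24

namespace Fermat.Agent.S29

/-- The analytic model of the ring generated over `ℂ` by the functions `j(dτ)`, `d ∣ N`. -/
def anaRingC (N : ℕ) : Subring (ℍ → ℂ) :=
  Subring.closure
    (Set.range (fun c : ℂ => (fun _ : ℍ => c)) ∪ {g | ∃ d : ℕ, d ∣ N ∧ g = jd d})

theorem plc_const_mem (N : ℕ) (c : ℂ) : (fun _ : ℍ => c) ∈ anaRingC N :=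
  Subring.subset_closure (Or.inl ⟨c, rfl⟩)

theorem plc_jd_mem {N d : ℕ} (hd : d ∣ N) : jd d ∈ anaRingC N :=
  Subring.subset_closure (Or.inr ⟨d, hd, rfl⟩)

/-- The element `j(q^d)` of the function field of `X₀(N)` over `ℂ`, for `d ∣ N`. -/
noncomputable def plcJd (N d : ℕ) [NeZero N] [NeZero d] (hd : d ∣ N) :
    ↥(ModularCurve.laurentBaseChange ℂ (ModularCurve.modularFunctionFieldFull N)) :=
  ⟨ModularCurve.coeffEmb ℂ (ModularCurve.qExpand ℚ d ModularCurve.jq),
    ModularCurve.coeffEmb_mem_laurentBaseChange ℂ (ModularCurve.jqd_mem_full N hd)⟩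

/-- The element `j` of the function field of `X₀(N)` over `ℂ`. -/
noncomputable def plcJ (N : ℕ) [NeZero N] :
    ↥(ModularCurve.laurentBaseChange ℂ (ModularCurve.modularFunctionFieldFull N)) :=
  ⟨ModularCurve.coeffEmb ℂ ModularCurve.jq,
    ModularCurve.coeffEmb_mem_laurentBaseChange ℂ
      (by
        have h := ModularCurve.jqd_mem_full N (one_dvd N)
        rwa [ModularCurve.qExpand_one_apply] at h)⟩

section Rz
variable (N : ℕ) [NeZero N]

/-- index type: the divisors of `N` -/
abbrev plcIdx (N : ℕ) : Type := {d : ℕ // d ∣ N}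

theorem plc_neZero {N : ℕ} [NeZero N] (d : plcIdx N) : NeZero d.1 :=
  ⟨ne_zero_of_dvd_ne_zero (NeZero.ne N) d.2⟩

/-- the generators `j(q^d)` of the function field -/
noncomputable def plcGenF (d : plcIdx N) : ↥(ModularCurve.laurentBaseChange ℂ (ModularCurve.modularFunctionFieldFull N)) :=
  haveI := plc_neZero d
  plcJd N d.1 d.2

theorem plcGenF_eq (d : ℕ) [NeZero d] (hd : d ∣ N) : plcGenF N ⟨d, hd⟩ = plcJd N d hd := rfl

/-- evaluation of polynomials at the generators of the function field -/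
noncomputable def plcEvF : MvPolynomial (plcIdx N) ℂ →ₐ[ℂ]
    ↥(ModularCurve.laurentBaseChange ℂ (ModularCurve.modularFunctionFieldFull N)) :=
  MvPolynomial.aeval (plcGenF N)

/-- constants as a ring hom into the analytic ring -/
noncomputable def plcConst : ℂ →+* anaRingC N where
  toFun c := ⟨fun _ => c, plc_const_mem N c⟩
  map_one' := rfl
  map_mul' _ _ := rfl
  map_zero' := rfl
  map_add' _ _ := rfl

/-- the generators `j(dτ)` of the analytic ring -/
noncomputable def plcGenA (d : plcIdx N) : anaRingC N := ⟨jd d.1, plc_jd_mem d.2⟩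

/-- evaluation of polynomials at the generators of the analytic ring -/
noncomputable def plcEvA : MvPolynomial (plcIdx N) ℂ →+* anaRingC N :=
  MvPolynomial.eval₂Hom (plcConst N) (plcGenA N)

omit [NeZero N] in
theorem plcEvA_C (c : ℂ) : plcEvA N (MvPolynomial.C c) = plcConst N c := by
  simp [plcEvA]

omit [NeZero N] in
theorem plcEvA_X (d : plcIdx N) : plcEvA N (MvPolynomial.X d) = plcGenA N d := by
  simp [plcEvA]

theorem plcEvF_C (c : ℂ) :
    plcEvF N (MvPolynomial.C c) = algebraMap _ _ c := by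
  simp [plcEvF]

theorem plcEvF_X (d : plcIdx N) : plcEvF N (MvPolynomial.X d) = plcGenF N d := by
  simp [plcEvF]

omit [NeZero N] in
theorem plc_evA_surjective : Function.Surjective (plcEvA N) := by
  have key : ∀ g ∈ anaRingC N, ∃ P, ((plcEvA N P : anaRingC N) : ℍ → ℂ) = g := by
    intro g hg
    induction hg using Subring.closure_induction with
    | mem x hx =>
      rcases hx with ⟨c, rfl⟩ | ⟨d, hd, rfl⟩
      · exact ⟨MvPolynomial.C c, by rw [plcEvA_C]; rfl⟩
      · exact ⟨MvPolynomial.X ⟨d, hd⟩, by rw [plcEvA_X]; rfl⟩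
    | zero => exact ⟨0, by simp⟩
    | one => exact ⟨1, by simp⟩
    | add x y _ _ hx hy =>
      obtain ⟨P, rfl⟩ := hx
      obtain ⟨Q, rfl⟩ := hy
      exact ⟨P + Q, by simp⟩
    | neg x _ hx =>
      obtain ⟨P, rfl⟩ := hx
      exact ⟨-P, by simp⟩
    | mul x y _ _ hx hy =>
      obtain ⟨P, rfl⟩ := hx
      obtain ⟨Q, rfl⟩ := hy
      exact ⟨P * Q, by simp⟩
  rintro ⟨g, hg⟩
  obtain ⟨P, hP⟩ := key g hg
  exact ⟨P, Subtype.ext hP⟩

/-- the function field is generated, as a field over `ℚ̄`, by the `j(q^d)` -/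
theorem plc_le_adjoin :
    ModularCurve.laurentBaseChange ℂ (ModularCurve.modularFunctionFieldFull N) ≤
      IntermediateField.adjoin ℂ
        (Set.range fun d : plcIdx N => ((plcGenF N d : ↥(ModularCurve.laurentBaseChange ℂ (ModularCurve.modularFunctionFieldFull N))) :
          LaurentSeries ℂ)) := by
  set T := IntermediateField.adjoin ℂ
        (Set.range fun d : plcIdx N => ((plcGenF N d : ↥(ModularCurve.laurentBaseChange ℂ (ModularCurve.modularFunctionFieldFull N))) :
          LaurentSeries ℂ)) with hT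
  show ModularCurve.laurentBaseChange ℂ (ModularCurve.modularFunctionFieldFull N)
    ≤ T
  rw [ModularCurve.laurentBaseChange, IntermediateField.adjoin_le_iff]
  rintro _ ⟨x, hx, rfl⟩
  have hle : (ModularCurve.modularFunctionFieldFull N).toSubfield ≤
      T.toSubfield.comap (ModularCurve.coeffEmb ℂ) := by
    rw [ModularCurve.modularFunctionFieldFull, IntermediateField.adjoin_toSubfield,
      Subfield.closure_le]
    rintro y (⟨c, rfl⟩ | ⟨d, hne, hd, rfl⟩)
    · show ModularCurve.coeffEmb ℂ (algebraMap ℚ (LaurentSeries ℚ) c) ∈ T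
      have : ModularCurve.coeffEmb ℂ (algebraMap ℚ (LaurentSeries ℚ) c)
          = algebraMap ℂ (LaurentSeries ℂ)
            (algebraMap ℚ ℂ c) := by
        rw [ModularCurve.algebraMap_apply_eq_single, ModularCurve.algebraMap_laurentSeries_eq_single,
          ModularCurve.coeffEmb, ModularCurve.coeffMap_single]
      rw [this]
      exact T.algebraMap_mem _
    · show ModularCurve.coeffEmb ℂ (ModularCurve.qExpand ℚ d ModularCurve.jq) ∈ T
      exact IntermediateField.subset_adjoin _ _ ⟨⟨d, hd⟩, rfl⟩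
  exact hle hx

theorem plc_exists_frac (f : ↥(ModularCurve.laurentBaseChange ℂ (ModularCurve.modularFunctionFieldFull N))) :
    ∃ PQ : MvPolynomial (plcIdx N) ℂ × MvPolynomial (plcIdx N) ℂ,
      plcEvF N PQ.2 ≠ 0 ∧ f = plcEvF N PQ.1 / plcEvF N PQ.2 := by
  have hf := plc_le_adjoin N f.2
  rw [IntermediateField.mem_adjoin_range_iff] at hf
  obtain ⟨r, s, hrs⟩ := hf
  have hval : ∀ P : MvPolynomial (plcIdx N) ℂ,
      MvPolynomial.aeval (fun d : plcIdx N =>
        ((plcGenF N d : ↥(ModularCurve.laurentBaseChange ℂ (ModularCurve.modularFunctionFieldFull N))) :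
          LaurentSeries ℂ)) P
        = ((plcEvF N P : ↥(ModularCurve.laurentBaseChange ℂ (ModularCurve.modularFunctionFieldFull N))) :
          LaurentSeries ℂ) := by
    intro P
    have := MvPolynomial.comp_aeval (plcGenF N) (ModularCurve.laurentBaseChange ℂ (ModularCurve.modularFunctionFieldFull N)).val
      (R := ℂ)
    have h2 := congrArg (fun φ => φ P) this
    simp only [AlgHom.comp_apply] at h2
    exact h2.symm
  rw [hval, hval] at hrs
  have hfeq : f = plcEvF N r / plcEvF N s := by
    apply Subtype.ext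
    rw [hrs]
    simp
  by_cases hs : plcEvF N s = 0
  · refine ⟨(0, 1), by simp, ?_⟩
    rw [hfeq, hs]
    simp
  · exact ⟨(r, s), hs, hfeq⟩

/-- a chosen numerator -/
noncomputable def plcNum (f : ↥(ModularCurve.laurentBaseChange ℂ (ModularCurve.modularFunctionFieldFull N))) :
    MvPolynomial (plcIdx N) ℂ :=
  (Classical.choose (plc_exists_frac N f)).1

/-- a chosen denominator -/
noncomputable def plcDen (f : ↥(ModularCurve.laurentBaseChange ℂ (ModularCurve.modularFunctionFieldFull N))) :
    MvPolynomial (plcIdx N) ℂ :=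
  (Classical.choose (plc_exists_frac N f)).2

theorem plcDen_ne (f : ↥(ModularCurve.laurentBaseChange ℂ (ModularCurve.modularFunctionFieldFull N))) : plcEvF N (plcDen N f) ≠ 0 :=
  (Classical.choose_spec (plc_exists_frac N f)).1

theorem plc_eq_div (f : ↥(ModularCurve.laurentBaseChange ℂ (ModularCurve.modularFunctionFieldFull N))) :
    f = plcEvF N (plcNum N f) / plcEvF N (plcDen N f) :=
  (Classical.choose_spec (plc_exists_frac N f)).2

/-! ### comparison of the two kernels inside `ℂ((q))` -/

theorem plc_isWH_const (c : ℂ) : IsWH (fun _ : ℍ => c) := by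
  refine ⟨mdifferentiable_const, fun _ => rfl, 0, ?_⟩
  simp only [pow_zero, one_mul]
  exact Filter.const_boundedAtFilter _ c

theorem plc_jd_eq (d : ℕ) : jd d = fun τ : ℍ => jFun (ofComplex ((d : ℂ) * τ)) := rfl

theorem plc_anaRingC_le : anaRingC N ≤ whSubring := by
  rw [anaRingC, Subring.closure_le]
  rintro g (⟨c, rfl⟩ | ⟨d, hd, rfl⟩)
  · exact plc_isWH_const _
  · exact isWH_scale d (Nat.pos_of_ne_zero (ne_zero_of_dvd_ne_zero (NeZero.ne N) hd)) Fermat.Agent.S24.rz_isWH_jFun

/-- the analytic ring inside `ℂ((q))` -/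
noncomputable def plcκA : anaRingC N →+* LaurentSeries ℂ :=
  qLaurent.comp (Subring.inclusion (plc_anaRingC_le N))

theorem plcκA_injective : Function.Injective (plcκA N) := by
  intro a b hab
  have := qLaurent_injective hab
  exact Subring.inclusion_injective (plc_anaRingC_le N) this

/-- the function field inside `ℂ((q))` -/
noncomputable def plcκF :
    ↥(ModularCurve.laurentBaseChange ℂ (ModularCurve.modularFunctionFieldFull N)) →+*
      LaurentSeries ℂ :=
  (ModularCurve.laurentBaseChange ℂ (ModularCurve.modularFunctionFieldFull N)).val.toRingHom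

omit [NeZero N] in
theorem plcκF_apply
    (f : ↥(ModularCurve.laurentBaseChange ℂ (ModularCurve.modularFunctionFieldFull N))) :
    plcκF N f = (f : LaurentSeries ℂ) := rfl

omit [NeZero N] in
theorem plcκF_injective : Function.Injective (plcκF N) := (plcκF N).injective

theorem plc_comp_eq : (plcκF N).comp (plcEvF N : MvPolynomial (plcIdx N) ℂ →+*
      ↥(ModularCurve.laurentBaseChange ℂ (ModularCurve.modularFunctionFieldFull N))) =
      (plcκA N).comp (plcEvA N) := by
  refine MvPolynomial.ringHom_ext ?_ ?_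
  · intro c
    show plcκF N (plcEvF N (MvPolynomial.C c)) = plcκA N (plcEvA N (MvPolynomial.C c))
    rw [plcEvF_C, plcEvA_C]
    show (algebraMap ℂ (LaurentSeries ℂ) c) = qLaurent ⟨fun _ => c, rz_isWH_const c⟩
    rw [qLaurent_const, ModularCurve.algebraMap_laurentSeries_eq_single]
    rfl
  · intro d
    show plcκF N (plcEvF N (MvPolynomial.X d)) = plcκA N (plcEvA N (MvPolynomial.X d))
    rw [plcEvF_X, plcEvA_X]
    have := plc_neZero d
    show (ModularCurve.coeffEmb ℂ (ModularCurve.qExpand ℚ d.1 ModularCurve.jq)) =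
      qLaurent ⟨fun τ : ℍ => jFun (ofComplex ((d.1 : ℂ) * τ)), _⟩
    have h1 := qLaurent_scale d.1 jFun Fermat.Agent.S24.rz_isWH_jFun
    rw [Fermat.Agent.S24.rz_qLaurent_jFun] at h1
    rw [h1, ModularCurve.coeffEmb, ModularCurve.coeffMap_qExpand]

theorem plc_evF_eq_zero_iff (P : MvPolynomial (plcIdx N) ℂ) :
    plcEvF N P = 0 ↔ plcEvA N P = 0 := by
  have h := congrArg (fun φ => φ P) (plc_comp_eq N)
  simp only [RingHom.comp_apply] at h
  constructor
  · intro hP
    apply plcκA_injective N
    rw [map_zero, ← h]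
    show plcκF N (plcEvF N P) = 0
    rw [hP, map_zero]
  · intro hP
    apply plcκF_injective N
    rw [map_zero]
    have h' : plcκF N (plcEvF N P) = plcκA N (plcEvA N P) := h
    rw [h', hP, map_zero]

/-! ### the lift -/

theorem plc_lift_eq {E : Type} [Field E] (Θ : anaRingC N →+* E) (hΘ : Function.Injective Θ)
    (f : ↥(ModularCurve.laurentBaseChange ℂ (ModularCurve.modularFunctionFieldFull N)))
    (P Q : MvPolynomial (plcIdx N) ℂ) (hQ : plcEvF N Q ≠ 0)
    (hf : f = plcEvF N P / plcEvF N Q) :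
    Θ (plcEvA N (plcNum N f)) / Θ (plcEvA N (plcDen N f)) = Θ (plcEvA N P) / Θ (plcEvA N Q) := by
  have hne : ∀ Q : MvPolynomial (plcIdx N) ℂ, plcEvF N Q ≠ 0 →
      Θ (plcEvA N Q) ≠ 0 := by
    intro Q hQ h0
    rw [← map_zero Θ] at h0
    exact hQ ((plc_evF_eq_zero_iff N Q).mpr (hΘ h0))
  have h1 : plcEvF N (plcNum N f) / plcEvF N (plcDen N f) = plcEvF N P / plcEvF N Q := by
    rw [← plc_eq_div, hf]
  rw [div_eq_div_iff (plcDen_ne N f) hQ] at h1
  have h2 : plcEvF N (plcNum N f * Q - P * plcDen N f) = 0 := by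
    rw [map_sub, map_mul, map_mul, h1, sub_self]
  rw [plc_evF_eq_zero_iff] at h2
  have h3 := congrArg Θ h2
  simp only [map_zero, map_sub, map_mul, sub_eq_zero] at h3
  rw [div_eq_div_iff (hne _ (plcDen_ne N f)) (hne _ hQ)]
  exact h3

set_option synthInstance.maxHeartbeats 400000 in
/-- a ring hom on the analytic ring lifts to the function field -/
noncomputable def plcLift {E : Type} [Field E] (Θ : anaRingC N →+* E) (hΘ : Function.Injective Θ) :
    ↥(ModularCurve.laurentBaseChange ℂ (ModularCurve.modularFunctionFieldFull N)) →+* E where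
  toFun f := Θ (plcEvA N (plcNum N f)) / Θ (plcEvA N (plcDen N f))
  map_one' := by
    rw [plc_lift_eq N Θ hΘ 1 1 1 (by simp) (by simp)]
    simp
  map_mul' f g := by
    have hf := plc_eq_div N f
    have hg := plc_eq_div N g
    rw [plc_lift_eq N Θ hΘ (f * g) (plcNum N f * plcNum N g) (plcDen N f * plcDen N g)
      (by rw [map_mul]; exact mul_ne_zero (plcDen_ne N f) (plcDen_ne N g))
      (by rw [map_mul, map_mul, ← div_mul_div_comm, ← hf, ← hg])]
    rw [map_mul, map_mul, map_mul, map_mul, div_mul_div_comm]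
  map_zero' := by
    rw [plc_lift_eq N Θ hΘ 0 0 1 (by simp) (by simp)]
    simp
  map_add' f g := by
    have hf := plc_eq_div N f
    have hg := plc_eq_div N g
    have hne : ∀ Q : MvPolynomial (plcIdx N) ℂ, plcEvF N Q ≠ 0 →
        Θ (plcEvA N Q) ≠ 0 := by
      intro Q hQ h0
      rw [← map_zero Θ] at h0
      exact hQ ((plc_evF_eq_zero_iff N Q).mpr (hΘ h0))
    rw [plc_lift_eq N Θ hΘ (f + g) (plcNum N f * plcDen N g + plcNum N g * plcDen N f)
      (plcDen N f * plcDen N g)
      (by rw [map_mul]; exact mul_ne_zero (plcDen_ne N f) (plcDen_ne N g))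
      (by
        rw [map_add, map_mul, map_mul, map_mul]
        conv_lhs => rw [hf, hg]
        rw [div_add_div _ _ (plcDen_ne N f) (plcDen_ne N g)]
        ring)]
    rw [map_add, map_mul, map_mul, map_mul, map_add, map_mul, map_mul, map_mul,
      div_add_div _ _ (hne _ (plcDen_ne N f)) (hne _ (plcDen_ne N g))]
    ring

theorem plcLift_apply {E : Type} [Field E] (Θ : anaRingC N →+* E) (hΘ : Function.Injective Θ)
    (f : ↥(ModularCurve.laurentBaseChange ℂ (ModularCurve.modularFunctionFieldFull N))) :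
    plcLift N Θ hΘ f = Θ (plcEvA N (plcNum N f)) / Θ (plcEvA N (plcDen N f)) := rfl

/-- the lift on polynomial expressions in the generators -/
theorem plcLift_evF {E : Type} [Field E] (Θ : anaRingC N →+* E) (hΘ : Function.Injective Θ)
    (P : MvPolynomial (plcIdx N) ℂ) :
    plcLift N Θ hΘ (plcEvF N P) = Θ (plcEvA N P) := by
  rw [plcLift_apply, plc_lift_eq N Θ hΘ (plcEvF N P) P 1 (by simp) (by simp)]
  simp

theorem plcLift_const {E : Type} [Field E] (Θ : anaRingC N →+* E) (hΘ : Function.Injective Θ)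
    (c : ℂ) :
    plcLift N Θ hΘ (algebraMap _ _ c) = Θ ⟨_, plc_const_mem N c⟩ := by
  rw [← plcEvF_C, plcLift_evF, plcEvA_C]
  rfl

theorem plcLift_plcJd {E : Type} [Field E] (Θ : anaRingC N →+* E) (hΘ : Function.Injective Θ)
    (d : ℕ) [NeZero d] (hd : d ∣ N) :
    plcLift N Θ hΘ (plcJd N d hd) = Θ ⟨_, plc_jd_mem hd⟩ := by
  rw [← plcGenF_eq N d hd, ← plcEvF_X, plcLift_evF, plcEvA_X]
  rfl

/-- every element of the function field is a quotient of elements of the analytic ring, uniformly
in the lift -/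
theorem plc_exists_fraction (f : ↥(ModularCurve.laurentBaseChange ℂ (ModularCurve.modularFunctionFieldFull N))) :
    ∃ g h : anaRingC N, h ≠ 0 ∧ ∀ {E : Type} [Field E] (Θ : anaRingC N →+* E)
      (hΘ : Function.Injective Θ), plcLift N Θ hΘ f = Θ g / Θ h := by
  refine ⟨plcEvA N (plcNum N f), plcEvA N (plcDen N f), ?_, fun Θ hΘ => rfl⟩
  intro h0
  exact plcDen_ne N f ((plc_evF_eq_zero_iff N _).mpr h0)

theorem plc_ringHom_ext {E : Type} [Field E] (φ ψ : ↥(ModularCurve.laurentBaseChange ℂ (ModularCurve.modularFunctionFieldFull N)) →+* E)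
    (hc : ∀ c : ℂ, φ (algebraMap _ _ c) = ψ (algebraMap _ _ c))
    (hj : ∀ (d : ℕ) [NeZero d] (hd : d ∣ N), φ (plcJd N d hd) = ψ (plcJd N d hd)) : φ = ψ := by
  have hcomp : φ.comp (plcEvF N : MvPolynomial (plcIdx N) ℂ →+*
      ↥(ModularCurve.laurentBaseChange ℂ (ModularCurve.modularFunctionFieldFull N))) = ψ.comp (plcEvF N : MvPolynomial (plcIdx N)
        ℂ →+* ↥(ModularCurve.laurentBaseChange ℂ (ModularCurve.modularFunctionFieldFull N))) := by
    refine MvPolynomial.ringHom_ext ?_ ?_
    · intro c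
      show φ (plcEvF N (MvPolynomial.C c)) = ψ (plcEvF N (MvPolynomial.C c))
      rw [plcEvF_C]
      exact hc c
    · intro d
      show φ (plcEvF N (MvPolynomial.X d)) = ψ (plcEvF N (MvPolynomial.X d))
      rw [plcEvF_X]
      have := plc_neZero d
      exact hj d.1 d.2
  have hP : ∀ P : MvPolynomial (plcIdx N) ℂ,
      φ (plcEvF N P) = ψ (plcEvF N P) := fun P => congrArg (fun χ => χ P) hcomp
  refine RingHom.ext fun f => ?_
  rw [plc_eq_div N f, map_div₀, map_div₀, hP, hP]

theorem plcJ_eq_plcJd_one : plcJ N = plcJd N 1 (one_dvd N) := by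
  apply Subtype.ext
  show ModularCurve.coeffEmb ℂ ModularCurve.jq =
    ModularCurve.coeffEmb ℂ (ModularCurve.qExpand ℚ 1 ModularCurve.jq)
  rw [ModularCurve.qExpand_one_apply]

end Rz

end Fermat.Agent.S29
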