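import Fermat.Agent.S29.PlCSysFin
import Fermat.Agent.S24.SysCusp

/-!
# Stage 3 (S29), package PLACES-C, part 4: the Laurent system at the cusps, over `ℂ`

Port of `S24/SysCusp.lean` to the constant field `ℂ`. For a coset `q = γ Γ₀(N)` the ring
homomorphism `plcCusp N q` sends `f` to the Laurent `q`-expansion of `τ ↦ f (γ⁻¹ • (N τ))`.
-/

set_option autoImplicit false

open AlgebraicCurve IntermediateField UpperHalfPlane ModularForm EisensteinSeries
open scoped MatrixGroups Manifold
open Fermat.Agent.S24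

noncomputable section

namespace Fermat.Agent.S29

theorem plc_cusp_isWH (N : ℕ) [NeZero N] (γ : SL(2, ℤ)) {g : ℍ → ℂ} (hg : g ∈ anaRingC N) :
    IsWH (scComp N γ g) := by
  have hle : anaRingC N ≤ whSubring.comap (scComp N γ) := by
    rw [anaRingC, Subring.closure_le]
    rintro g (⟨c, rfl⟩ | ⟨d, hd, rfl⟩)
    · exact ql_isWH_const c
    · show IsWH (scComp N γ (jd d))
      obtain ⟨k, r, hk, h⟩ := jd_smul_scale N d hd γ⁻¹
      have e : scComp N γ (jd d)
          = fun τ : ℍ => (fun τ' : ℍ => jFun (r +ᵥ τ')) (ofComplex ((k : ℂ) * τ)) := by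
        funext τ
        exact h τ
      rw [e]
      exact isWH_scale k hk (isWH_vadd r isWH_jFun)
  exact hle hg

/-- the restriction of the substitution to the analytic ring -/
def plcCuspRestr (N : ℕ) [NeZero N] (γ : SL(2, ℤ)) : anaRingC N →+* whSubring :=
  ((scComp N γ).comp (anaRingC N).subtype).codRestrict whSubring (fun g => plc_cusp_isWH N γ g.2)

/-- the Laurent expansion of `g ∘ γ⁻¹` in the local parameter `q^(1/N)` -/
def plcCuspTheta (N : ℕ) [NeZero N] (γ : SL(2, ℤ)) : anaRingC N →+* LaurentSeries ℂ :=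
  qLaurent.comp (plcCuspRestr N γ)

theorem plcCuspTheta_apply (N : ℕ) [NeZero N] (γ : SL(2, ℤ)) (g : anaRingC N) :
    plcCuspTheta N γ g = qLaurent ⟨scComp N γ g.1, plc_cusp_isWH N γ g.2⟩ := rfl

theorem plcCuspTheta_injective (N : ℕ) [NeZero N] (γ : SL(2, ℤ)) :
    Function.Injective (plcCuspTheta N γ) := by
  intro g g' h
  have h1 : plcCuspRestr N γ g = plcCuspRestr N γ g' := qLaurent_injective h
  apply Subtype.ext
  funext w
  obtain ⟨τ, rfl⟩ := sc_sub_surjective N γ w
  exact congrFun (congrArg Subtype.val h1) τ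

/-- the Laurent point of the function field attached to a coset -/
def plcCusp (N : ℕ) [NeZero N] (q : SL(2, ℤ) ⧸ CongruenceSubgroup.Gamma0 N) :
    ↥(ModularCurve.laurentBaseChange ℂ (ModularCurve.modularFunctionFieldFull N)) →+* LaurentSeries ℂ :=
  plcLift N (plcCuspTheta N q.out) (plcCuspTheta_injective N q.out)

theorem plcCusp_const (N : ℕ) [NeZero N] (q : SL(2, ℤ) ⧸ CongruenceSubgroup.Gamma0 N)
    (c : ℂ) :
    plcCusp N q (algebraMap _ _ c) = HahnSeries.C c := by
  rw [plcCusp, plcLift_const, plcCuspTheta_apply]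
  exact qLaurent_const c _

theorem plcCusp_plcJd (N : ℕ) [NeZero N] (q : SL(2, ℤ) ⧸ CongruenceSubgroup.Gamma0 N)
    (d : ℕ) [NeZero d] (hd : d ∣ N) :
    plcCusp N q (plcJd N d hd)
      = qLaurent ⟨scComp N q.out (jd d), plc_cusp_isWH N q.out (plc_jd_mem hd)⟩ := by
  rw [plcCusp, plcLift_plcJd]
  rfl

theorem plcCusp_plcJ (N : ℕ) [NeZero N] (q : SL(2, ℤ) ⧸ CongruenceSubgroup.Gamma0 N) :
    plcCusp N q (plcJ N) = scJ N := by
  have e : (⟨scComp N q.out (jd 1), plc_cusp_isWH N q.out (plc_jd_mem (one_dvd N))⟩ : whSubring)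
      = ⟨fun τ : ℍ => jFun (ofComplex ((N : ℂ) * τ)), isWH_scale N (NeZero.pos N) isWH_jFun⟩ := by
    apply Subtype.ext
    funext τ
    show jd 1 (q.out⁻¹ • ofComplex ((N : ℂ) * τ)) = jFun (ofComplex ((N : ℂ) * τ))
    rw [sc_jd_one, jFun_smul]
  rw [plcJ_eq_plcJd_one, plcCusp_plcJd, e, qLaurent_scale N jFun isWH_jFun, qLaurent_jFun, scJ]

theorem plcCusp_injective (N : ℕ) [NeZero N] : Function.Injective (plcCusp N) := by
  intro q q' h
  have h1 : plcCusp N q (plcJd N N dvd_rfl) = plcCusp N q' (plcJd N N dvd_rfl) := by rw [h]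
  rw [plcCusp_plcJd, plcCusp_plcJd] at h1
  have h2 := qLaurent_injective h1
  have h3 : ∀ w : ℍ, jd N (q.out⁻¹ • w) = jd N (q'.out⁻¹ • w) := by
    intro w
    obtain ⟨τ, rfl⟩ := sc_scale_surjective N w
    exact congrFun (congrArg Subtype.val h2) τ
  have h4 : q.out⁻¹ * q'.out ∈ CongruenceSubgroup.Gamma0 N := by
    apply mem_Gamma0_of_jd_smul_eq
    intro τ
    have h5 := h3 (q'.out • τ)
    rw [inv_smul_smul] at h5
    rw [mul_smul]
    exact h5
  rw [← q.out_eq', ← q'.out_eq']
  exact QuotientGroup.eq.mpr h4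

theorem plc_cusp_card_eq (N : ℕ) [NeZero N] :
    Nat.card (SL(2, ℤ) ⧸ CongruenceSubgroup.Gamma0 N)
      = Module.finrank ℂ⟮(plcJ N)⁻¹⟯
          ↥(ModularCurve.laurentBaseChange ℂ (ModularCurve.modularFunctionFieldFull N)) := by
  have := plc_finiteDimensional_J N
  obtain ⟨hfd, hrank⟩ := sc_transport _ _ (sc_adjoin_inv (K := ℂ) (plcJ N))
  have := hfd
  apply le_antisymm
  · refine sys_card_le_finrank (K := ℂ) ((plcJ N)⁻¹) (plcCusp N)
      (plcCusp_injective N) (fun i j c => ?_) (fun i j => ?_)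
    · rw [plcCusp_const, plcCusp_const]
    · rw [map_inv₀, map_inv₀, plcCusp_plcJ, plcCusp_plcJ]
  · rw [hrank]
    exact plc_finrank_J_le N

theorem plcCusp_T (N : ℕ) [NeZero N] (q : SL(2, ℤ) ⧸ CongruenceSubgroup.Gamma0 N) :
    plcCusp N (ModularGroup.T • q)
      = (twist (scZeta N) (sc_zeta_ne_zero N)).comp (plcCusp N q) := by
  apply plc_ringHom_ext
  · intro c
    rw [RingHom.comp_apply, plcCusp_const, plcCusp_const, sc_twist_C]
  · intro d _ hd
    rw [RingHom.comp_apply, plcCusp_plcJd, plcCusp_plcJd]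
    have hG := plc_cusp_isWH N q.out (plc_jd_mem hd)
    have h1 := qLaurent_vadd (-1 / (N : ℝ)) (scComp N q.out (jd d)) hG
    have h2 : twist (scZeta N) (sc_zeta_ne_zero N) (qLaurent ⟨scComp N q.out (jd d), hG⟩)
        = qLaurent ⟨fun τ => scComp N q.out (jd d) ((-1 / (N : ℝ)) +ᵥ τ),
            isWH_vadd (-1 / (N : ℝ)) hG⟩ := h1.symm
    rw [h2]
    have e : (⟨scComp N (ModularGroup.T • q).out (jd d),
          plc_cusp_isWH N (ModularGroup.T • q).out (plc_jd_mem hd)⟩ : whSubring)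
        = ⟨fun τ => scComp N q.out (jd d) ((-1 / (N : ℝ)) +ᵥ τ),
            isWH_vadd (-1 / (N : ℝ)) hG⟩ := by
      apply Subtype.ext
      funext τ
      show jd d ((ModularGroup.T • q).out⁻¹ • ofComplex ((N : ℂ) * τ))
        = jd d (q.out⁻¹ • ofComplex ((N : ℂ) * (((-1 / (N : ℝ)) +ᵥ τ : ℍ) : ℂ)))
      rw [sc_jd_T N q d hd]
      congr 2
      apply UpperHalfPlane.ext
      have hNC : (N : ℂ) ≠ 0 := by exact_mod_cast NeZero.ne N
      rw [coe_vadd, ql_coe_scale (NeZero.pos N), ql_coe_scale (NeZero.pos N), coe_vadd]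
      push_cast
      field_simp
    rw [e]

theorem plcCusp_iter (N : ℕ) [NeZero N] (k : ℕ) (q : SL(2, ℤ) ⧸ CongruenceSubgroup.Gamma0 N)
    (f : ↥(ModularCurve.laurentBaseChange ℂ (ModularCurve.modularFunctionFieldFull N))) (n : ℤ) :
    (plcCusp N ((MulAction.toPerm ModularGroup.T :
        Equiv.Perm (SL(2, ℤ) ⧸ CongruenceSubgroup.Gamma0 N))^[k] q) f).coeff n
      = (scZeta N ^ n) ^ k * (plcCusp N q f).coeff n := by
  induction k with
  | zero => simp
  | succ k ih =>
    rw [Function.iterate_succ_apply']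
    show (plcCusp N (ModularGroup.T • _) f).coeff n = _
    rw [plcCusp_T, RingHom.comp_apply, twist_coeff, ih, pow_succ]
    ring

/-- fibre over `j = ∞` (the cusps, `T`-orbits) -/
theorem plc_laurentSystem_infty (N : ℕ) [NeZero N] :
    ∃ S : LaurentSystem ℂ (plcJ N)⁻¹ ℂ
        (SL(2, ℤ) ⧸ CongruenceSubgroup.Gamma0 N),
      S.e₀ = N ∧ S.π = MulAction.toPerm ModularGroup.T ∧ S.φ = plcCusp N := by
  refine ⟨{
    φ := plcCusp N
    base := RingHom.id ℂ
    map_const := fun q c => plcCusp_const N q c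
    injective := plcCusp_injective N
    map_x := fun i j => by rw [map_inv₀, map_inv₀, plcCusp_plcJ, plcCusp_plcJ]
    e₀ := N
    e₀_pos := NeZero.pos N
    order_x := fun q => by
      rw [map_inv₀, plcCusp_plcJ, sc_order_inv (sc_J_ne_zero N), sc_order_J, neg_neg]
    card_eq := plc_cusp_card_eq N
    π := MulAction.toPerm ModularGroup.T
    order_π := fun q f => by
      show (plcCusp N (ModularGroup.T • q) f).order = _
      rw [plcCusp_T, RingHom.comp_apply, sc_order_twist]
    dvd := fun q f hf => by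
      set w := Function.minimalPeriod
        (MulAction.toPerm ModularGroup.T :
          Equiv.Perm (SL(2, ℤ) ⧸ CongruenceSubgroup.Gamma0 N)) q with hw
      have hy : plcCusp N q f ≠ 0 := by
        rw [Ne, map_eq_zero]
        exact hf
      have h1 := plcCusp_iter N w q f (plcCusp N q f).order
      rw [hw, Function.iterate_minimalPeriod, ← hw] at h1
      have h2 : (scZeta N ^ (plcCusp N q f).order) ^ w = 1 := by
        have h3 := (mt HahnSeries.coeff_order_eq_zero.mp hy)
        have h4 : ((scZeta N ^ (plcCusp N q f).order) ^ w - 1) * (plcCusp N q f).coeff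
            (plcCusp N q f).order = 0 := by
          rw [sub_mul, one_mul, ← h1, sub_self]
        rcases mul_eq_zero.mp h4 with h5 | h5
        · exact sub_eq_zero.mp h5
        · exact absurd h5 h3
      exact sc_zeta_pow_eq_one N _ w h2 }, rfl, rfl, rfl⟩

end Fermat.Agent.S29
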