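import Fermat.Agent.S29.PlCDegree
import Fermat.Agent.S24.SysFin

/-!
# Stage 3 (S29), package PLACES-C, part 3: Laurent systems at interior points, over `ℂ`

Port of `S24/SysFin.lean` to the constant field `ℂ`. For a point `τ₀` of the upper half plane,
the Taylor expansions at `τ₀` of the conjugates `f ∘ γ⁻¹`, `γ` running through representatives of
`SL(2, ℤ) ⧸ Γ₀(N)`, form a full Laurent system of the function field of `X₀(N)` over `ℂ` above
`j = j(τ₀)`.
-/

set_option autoImplicit false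

open AlgebraicCurve IntermediateField UpperHalfPlane ModularForm EisensteinSeries
open scoped MatrixGroups Manifold
open Fermat.Agent.S24

namespace Fermat.Agent.S29

section PlcAnaBase

variable (N : ℕ) [NeZero N]

local notation "Xc" => SL(2, ℤ) ⧸ CongruenceSubgroup.Gamma0 N

theorem plc_mdiff_of_mem {g : ℍ → ℂ} (hg : g ∈ anaRingC N) : MDiff g := by
  have h : anaRingC N ≤ holSubring := by
    apply Subring.closure_le.mpr
    rintro g (⟨c, rfl⟩ | ⟨d, hd, rfl⟩)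
    · exact mdifferentiable_const
    · have : NeZero d := ⟨fun h => by
        subst h
        exact NeZero.ne N (Nat.eq_zero_of_zero_dvd hd)⟩
      exact jd_mdiff d
  exact h hg

theorem plc_invariant {g : ℍ → ℂ} (hg : g ∈ anaRingC N) (γ : SL(2, ℤ))
    (hγ : γ ∈ CongruenceSubgroup.Gamma0 N) (τ : ℍ) : g (γ • τ) = g τ := by
  induction hg using Subring.closure_induction with
  | mem g hg =>
    rcases hg with ⟨c, rfl⟩ | ⟨d, hd, rfl⟩
    · rfl
    · exact jd_smul_of_mem_Gamma0 N d hd γ hγ τ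
  | zero => rfl
  | one => rfl
  | add f g _ _ hf hg => simp only [Pi.add_apply, hf, hg]
  | neg f _ hf => simp only [Pi.neg_apply, hf]
  | mul f g _ _ hf hg => simp only [Pi.mul_apply, hf, hg]

/-- Change of representative: the expansion attached to `δ • q` is the expansion attached to `q`
precomposed with `δ⁻¹`. -/
theorem plc_out_smul (δ : SL(2, ℤ)) (q : Xc) (g : anaRingC N) (τ : ℍ) :
    (g : ℍ → ℂ) ((δ • q).out⁻¹ • τ) = (g : ℍ → ℂ) (q.out⁻¹ • (δ⁻¹ • τ)) := by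
  have h1 : ((δ * q.out : SL(2, ℤ)) : Xc) = ((δ • q).out : Xc) := by
    rw [QuotientGroup.out_eq']
    conv_rhs => rw [← QuotientGroup.out_eq' q]
    rfl
  have h2 : (δ * q.out)⁻¹ * (δ • q).out ∈ CongruenceSubgroup.Gamma0 N := QuotientGroup.eq.mp h1
  have h3 : ((δ * q.out)⁻¹ * (δ • q).out)⁻¹ ∈ CongruenceSubgroup.Gamma0 N := inv_mem h2
  have h4 : (δ • q).out⁻¹ • τ =
      ((δ * q.out)⁻¹ * (δ • q).out)⁻¹ • (q.out⁻¹ • (δ⁻¹ • τ)) := by
    rw [← mul_smul, ← mul_smul]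
    congr 1
    group
  rw [h4, plc_invariant N g.2 _ h3]

end PlcAnaBase

/-! ### The analytic ring -/

section PlcAna

variable (N : ℕ) [NeZero N]

local notation "Kb" => ℂ
set_option quotPrecheck false in
local notation "Fb" => ↥(ModularCurve.laurentBaseChange ℂ (ModularCurve.modularFunctionFieldFull N))
local notation "Xc" => SL(2, ℤ) ⧸ CongruenceSubgroup.Gamma0 N

/-- `g ↦ g ∘ γ⁻¹` from the analytic ring to the ring of holomorphic functions. -/
noncomputable def plcTrans (γ : SL(2, ℤ)) : anaRingC N →+* holSubring where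
  toFun g := ⟨fun τ => (g : ℍ → ℂ) (γ⁻¹ • τ), sysfin_mdiff_smul γ⁻¹ (plc_mdiff_of_mem N g.2)⟩
  map_one' := rfl
  map_mul' _ _ := rfl
  map_zero' := rfl
  map_add' _ _ := rfl

/-- The Taylor expansion at `τ₀` of `g ∘ γ⁻¹`, as a Laurent series. -/
noncomputable def plcTheta (τ₀ : ℍ) (γ : SL(2, ℤ)) : anaRingC N →+* LaurentSeries ℂ :=
  (HahnSeries.ofPowerSeries ℤ ℂ).comp ((taylorHom τ₀).comp (plcTrans N γ))

theorem plcTheta_apply (τ₀ : ℍ) (γ : SL(2, ℤ)) (g : anaRingC N) :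
    plcTheta N τ₀ γ g =
      HahnSeries.ofPowerSeries ℤ ℂ (taylorAt τ₀ (fun τ => (g : ℍ → ℂ) (γ⁻¹ • τ))) := rfl

theorem plcTheta_injective (τ₀ : ℍ) (γ : SL(2, ℤ)) :
    Function.Injective (plcTheta N τ₀ γ) := by
  refine (HahnSeries.ofPowerSeries_injective (Γ := ℤ) (R := ℂ)).comp
    ((taylorHom_injective τ₀).comp ?_)
  intro g h hgh
  apply Subtype.ext
  funext τ
  have h1 := congrArg (fun f : holSubring => (f : ℍ → ℂ) (γ • τ)) hgh
  simpa [plcTrans] using h1

/-- The Laurent point of the function field attached to `τ₀` and the coset `q`. -/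
noncomputable def plcPhi (τ₀ : ℍ) (q : Xc) : Fb →+* LaurentSeries ℂ :=
  plcLift N (plcTheta N τ₀ q.out) (plcTheta_injective N τ₀ q.out)

theorem plcPhi_def (τ₀ : ℍ) (q : Xc) :
    plcPhi N τ₀ q = plcLift N (plcTheta N τ₀ q.out) (plcTheta_injective N τ₀ q.out) := rfl

theorem plcPhi_const (τ₀ : ℍ) (q : Xc) (c : Kb) :
    plcPhi N τ₀ q (algebraMap Kb Fb c) = HahnSeries.C (c) := by
  rw [plcPhi_def, plcLift_const, plcTheta_apply]
  show HahnSeries.ofPowerSeries ℤ ℂ (taylorAt τ₀ (fun _ => c)) = _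
  rw [taylorAt_const, HahnSeries.ofPowerSeries_C]

theorem plcPhi_plcJd (τ₀ : ℍ) (q : Xc) (d : ℕ) [NeZero d] (hd : d ∣ N) :
    plcPhi N τ₀ q (plcJd N d hd) =
      HahnSeries.ofPowerSeries ℤ ℂ (taylorAt τ₀ (fun τ => jd d (q.out⁻¹ • τ))) := by
  rw [plcPhi_def, plcLift_plcJd, plcTheta_apply]

theorem plcPhi_plcJ (τ₀ : ℍ) (q : Xc) :
    plcPhi N τ₀ q (plcJ N) = HahnSeries.ofPowerSeries ℤ ℂ (taylorAt τ₀ jFun) := by
  rw [plcJ_eq_plcJd_one, plcPhi_plcJd]
  have h : (fun τ => jd 1 (q.out⁻¹ • τ)) = jFun := by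
    funext τ
    rw [sysfin_jd_one, jc_jFun_smul]
  rw [h]

theorem plcPhi_x (τ₀ : ℍ) (q : Xc) (a : Kb) :
    plcPhi N τ₀ q (plcJ N - algebraMap Kb Fb a) =
      HahnSeries.ofPowerSeries ℤ ℂ (taylorAt τ₀ (fun τ => jFun τ - a)) := by
  rw [map_sub, plcPhi_plcJ, plcPhi_const, ← HahnSeries.ofPowerSeries_C, ← map_sub]
  congr 1
  have h := map_sub (taylorHom τ₀) ⟨jFun, jc_jFun_mdiff⟩ ⟨fun _ => a, mdifferentiable_const⟩
  simp only [taylorHom_apply] at h
  rw [taylorAt_const] at h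
  exact h.symm

theorem plcPhi_fraction (f : Fb) : ∃ g h : anaRingC N, h ≠ 0 ∧ ∀ (τ₀ : ℍ) (q : Xc),
    plcPhi N τ₀ q f = plcTheta N τ₀ q.out g / plcTheta N τ₀ q.out h := by
  obtain ⟨g, h, hh, H⟩ := plc_exists_fraction N f
  exact ⟨g, h, hh, fun τ₀ q => H _ _⟩

theorem plcPhi_injective (τ₀ : ℍ) : Function.Injective (plcPhi N τ₀) := by
  intro q q' h
  have h1 := congrArg (fun φ : Fb →+* LaurentSeries ℂ => φ (plcJd N N dvd_rfl)) h
  simp only [plcPhi_plcJd] at h1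
  have h2 := HahnSeries.ofPowerSeries_injective (Γ := ℤ) (R := ℂ) h1
  have h3 : (fun τ => jd N (q.out⁻¹ • τ)) = fun τ => jd N (q'.out⁻¹ • τ) := by
    have h4 := taylorHom_injective τ₀
      (a₁ := ⟨_, sysfin_mdiff_smul q.out⁻¹ (jd_mdiff N)⟩)
      (a₂ := ⟨_, sysfin_mdiff_smul q'.out⁻¹ (jd_mdiff N)⟩) h2
    exact congrArg Subtype.val h4
  have h4 : q.out⁻¹ * q'.out ∈ CongruenceSubgroup.Gamma0 N := by
    apply mem_Gamma0_of_jd_smul_eq
    intro τ
    have h5 := congrFun h3 (q'.out • τ)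
    simp only [inv_smul_smul] at h5
    rw [mul_smul]
    exact h5
  rw [← QuotientGroup.out_eq' q, ← QuotientGroup.out_eq' q']
  exact QuotientGroup.eq.mpr h4

/-- Orders of the Taylor expansions of nonzero elements of the analytic ring. -/
theorem plc_theta_order (τ₀ : ℍ) (γ : SL(2, ℤ)) (g : anaRingC N) (hg : g ≠ 0) :
    ∃ n : ℕ, (taylorAt τ₀ (fun τ => (g : ℍ → ℂ) (γ⁻¹ • τ))).order = (n : ℕ∞) ∧
      (plcTheta N τ₀ γ g).order = (n : ℤ) := by
  have hmd : MDiff (fun τ => (g : ℍ → ℂ) (γ⁻¹ • τ)) :=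
    sysfin_mdiff_smul γ⁻¹ (plc_mdiff_of_mem N g.2)
  have hne : (fun τ => (g : ℍ → ℂ) (γ⁻¹ • τ)) ≠ 0 := by
    intro h
    apply hg
    apply Subtype.ext
    funext τ
    have h1 := congrFun h (γ • τ)
    simpa using h1
  obtain ⟨n, hn⟩ := ENat.ne_top_iff_exists.mp (ty_order_ne_top τ₀ hmd hne)
  exact ⟨n, hn.symm, by
    rw [plcTheta_apply]
    exact sysfin_order_ofPowerSeries _ n hn.symm⟩

theorem plc_order_smul_theta (τ₀ : ℍ) (δ : SL(2, ℤ)) (hδ : δ • τ₀ = τ₀) (q : Xc)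
    (g : anaRingC N) :
    (plcTheta N τ₀ (δ • q).out g).order = (plcTheta N τ₀ q.out g).order := by
  rcases eq_or_ne g 0 with rfl | hg
  · simp
  obtain ⟨n, hn, hn'⟩ := plc_theta_order N τ₀ q.out g hg
  obtain ⟨m, hm, hm'⟩ := plc_theta_order N τ₀ (δ • q).out g hg
  have hmd : MDiff (fun τ => (g : ℍ → ℂ) (q.out⁻¹ • τ)) :=
    sysfin_mdiff_smul q.out⁻¹ (plc_mdiff_of_mem N g.2)
  have hδ' : δ⁻¹ • τ₀ = τ₀ := by
    conv_lhs => rw [← hδ]
    simp
  have h1 := order_taylorAt_smul τ₀ δ⁻¹ hδ' hmd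
  have h2 : (fun τ => (g : ℍ → ℂ) ((δ • q).out⁻¹ • τ)) =
      fun τ => (fun τ => (g : ℍ → ℂ) (q.out⁻¹ • τ)) (δ⁻¹ • τ) := by
    funext τ
    exact plc_out_smul N δ q g τ
  rw [h2, h1, hn] at hm
  have : n = m := by exact_mod_cast hm
  rw [hn', hm', this]

/-- Orders are invariant under the action of the stabiliser of `τ₀` on the cosets. -/
theorem plc_order_smul (τ₀ : ℍ) (δ : SL(2, ℤ)) (hδ : δ • τ₀ = τ₀) (q : Xc) (f : Fb) :
    (plcPhi N τ₀ (δ • q) f).order = (plcPhi N τ₀ q f).order := by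
  obtain ⟨g, h, hh, H⟩ := plcPhi_fraction N f
  rw [H τ₀ q, H τ₀ (δ • q)]
  rcases eq_or_ne g 0 with rfl | hg
  · simp
  have hg1 := (plcTheta_injective N τ₀ q.out).ne hg
  have hh1 := (plcTheta_injective N τ₀ q.out).ne hh
  have hg2 := (plcTheta_injective N τ₀ (δ • q).out).ne hg
  have hh2 := (plcTheta_injective N τ₀ (δ • q).out).ne hh
  rw [map_zero] at hg1 hh1 hg2 hh2
  rw [sysfin_order_div _ _ hg1 hh1, sysfin_order_div _ _ hg2 hh2,
    plc_order_smul_theta N τ₀ δ hδ q g, plc_order_smul_theta N τ₀ δ hδ q h]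

/-- Divisibility of the orders at a fixed coset. -/
theorem plc_dvd (τ₀ : ℍ) (δ : SL(2, ℤ)) (e : ℕ) (he : e.Prime)
    (hpow : ∀ q : Xc, (δ ^ e) • q = q)
    (hinv : ∀ G : ℍ → ℂ, MDiff G → G ≠ 0 → (∀ τ, G (δ • τ) = G τ) →
      ∃ k : ℕ, (taylorAt τ₀ G).order = ((e * k : ℕ) : ℕ∞))
    (q : Xc) (f : Fb) :
    (e : ℤ) ∣ (Function.minimalPeriod (MulAction.toPerm δ : Equiv.Perm Xc) q : ℤ) *
      (plcPhi N τ₀ q f).order := by
  have hper : Function.IsPeriodicPt (MulAction.toPerm δ : Equiv.Perm Xc) e q := by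
    show (fun x : Xc => δ • x)^[e] q = q
    rw [smul_iterate]
    exact hpow q
  rcases (Nat.dvd_prime he).mp hper.minimalPeriod_dvd with h1 | h1
  · -- fixed coset
    rw [h1, Nat.cast_one, one_mul]
    have hfix : δ • q = q := Function.minimalPeriod_eq_one_iff_isFixedPt.mp h1
    have hmem : q.out⁻¹ * (δ * q.out) ∈ CongruenceSubgroup.Gamma0 N :=
      sysfin_mem_of_smul_eq N δ q hfix
    have key : ∀ g : anaRingC N, g ≠ 0 → (e : ℤ) ∣ (plcTheta N τ₀ q.out g).order := by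
      intro g hg
      obtain ⟨n, hn, hn'⟩ := plc_theta_order N τ₀ q.out g hg
      have hmd : MDiff (fun τ => (g : ℍ → ℂ) (q.out⁻¹ • τ)) :=
        sysfin_mdiff_smul q.out⁻¹ (plc_mdiff_of_mem N g.2)
      have hne : (fun τ => (g : ℍ → ℂ) (q.out⁻¹ • τ)) ≠ 0 := by
        intro h
        rw [h] at hn
        have h0 : taylorAt τ₀ (0 : ℍ → ℂ) = 0 := (ty_taylorAt_eq_zero_iff τ₀ mdifferentiable_const).mpr rfl
        rw [h0] at hn
        simp at hn
      have hGinv : ∀ τ, (fun τ => (g : ℍ → ℂ) (q.out⁻¹ • τ)) (δ • τ) =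
          (fun τ => (g : ℍ → ℂ) (q.out⁻¹ • τ)) τ := by
        intro τ
        show (g : ℍ → ℂ) (q.out⁻¹ • (δ • τ)) = (g : ℍ → ℂ) (q.out⁻¹ • τ)
        have h3 : q.out⁻¹ • (δ • τ) = (q.out⁻¹ * (δ * q.out)) • (q.out⁻¹ • τ) := by
          rw [← mul_smul, ← mul_smul]
          congr 1
          group
        rw [h3, plc_invariant N g.2 _ hmem]
      obtain ⟨k, hk⟩ := hinv _ hmd hne hGinv
      rw [hn] at hk
      have hnk : n = e * k := by exact_mod_cast hk
      rw [hn', hnk]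
      exact ⟨k, by push_cast; ring⟩
    obtain ⟨g, h, hh, H⟩ := plcPhi_fraction N f
    rw [H τ₀ q]
    rcases eq_or_ne g 0 with rfl | hg
    · simp
    have hg1 := (plcTheta_injective N τ₀ q.out).ne hg
    have hh1 := (plcTheta_injective N τ₀ q.out).ne hh
    rw [map_zero] at hg1 hh1
    rw [sysfin_order_div _ _ hg1 hh1]
    exact dvd_sub (key g hg) (key h hh)
  · rw [h1]
    exact dvd_mul_right _ _

/-- The Taylor system at `τ₀`. -/
theorem plc_sys_exists (τ₀ : ℍ) (a : Kb) (e : ℕ) (he : 0 < e)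
    (hord : (taylorAt τ₀ (fun τ => jFun τ - a)).order = (e : ℕ∞))
    (δ : SL(2, ℤ)) (hδ : δ • τ₀ = τ₀)
    (hdvd : ∀ (q : Xc) (f : Fb), f ≠ 0 →
      (e : ℤ) ∣ (Function.minimalPeriod (MulAction.toPerm δ : Equiv.Perm Xc) q : ℤ) *
        (plcPhi N τ₀ q f).order) :
    ∃ S : LaurentSystem Kb (plcJ N - algebraMap Kb Fb a) ℂ Xc,
      S.e₀ = e ∧ S.π = MulAction.toPerm δ ∧ S.φ = plcPhi N τ₀ := by
  have hE := sysfin_transport (sysfin_adjoin_sub (K := Kb) (plcJ N) a)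
  have : FiniteDimensional Kb⟮plcJ N - algebraMap Kb Fb a⟯ Fb := hE.1 (plc_finiteDimensional_J N)
  have hcard : Nat.card Xc = Module.finrank Kb⟮plcJ N - algebraMap Kb Fb a⟯ Fb := by
    apply le_antisymm
    · exact sysfin_card_le (plcJ N - algebraMap Kb Fb a) (plcPhi N τ₀)
        (plcPhi_injective N τ₀)
        (fun i j c => by rw [plcPhi_const, plcPhi_const])
        (fun i j => by rw [plcPhi_x, plcPhi_x])
    · rw [hE.2]
      exact plc_finrank_J_le N
  exact ⟨{ φ := plcPhi N τ₀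
           base := RingHom.id ℂ
           map_const := plcPhi_const N τ₀
           injective := plcPhi_injective N τ₀
           map_x := fun i j => by rw [plcPhi_x, plcPhi_x]
           e₀ := e
           e₀_pos := he
           order_x := fun i => by
             rw [plcPhi_x]
             exact sysfin_order_ofPowerSeries _ e hord
           card_eq := hcard
           π := MulAction.toPerm δ
           order_π := fun i f => plc_order_smul N τ₀ δ hδ i f
           dvd := hdvd }, rfl, rfl, rfl⟩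

/-- generic fibre: unramified -/
theorem plc_laurentSystem_generic (τ₀ : ℍ) (h0 : jFun τ₀ ≠ 0) (h1 : jFun τ₀ ≠ 1728) :
    ∃ S : LaurentSystem Kb (plcJ N - algebraMap Kb Fb (jFun τ₀)) ℂ Xc,
      S.e₀ = 1 ∧ S.φ = plcPhi N τ₀ := by
  have hord := order_taylorAt_jFun_generic τ₀ h0 h1
  obtain ⟨S, hS, -, hφ⟩ := plc_sys_exists N τ₀ (jFun τ₀) 1 one_pos (by simpa using hord) 1
    (one_smul _ _) (fun q f _ => by simp)
  exact ⟨S, hS, hφ⟩

/-- fibre over `j = 1728` (the point `i`, stabiliser generated by `S`) -/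
theorem plc_laurentSystem_1728 :
    ∃ S : LaurentSystem Kb (plcJ N - algebraMap Kb Fb 1728) ℂ Xc,
      S.e₀ = 2 ∧ S.π = MulAction.toPerm ModularGroup.S ∧ S.φ = plcPhi N UpperHalfPlane.I := by
  have hord : (taylorAt UpperHalfPlane.I (fun τ => jFun τ - 1728)).order = ((2 : ℕ) : ℕ∞) := by
    simpa using order_taylorAt_jFun_I
  have hS2 : (ModularGroup.S ^ 2 : SL(2, ℤ)) = -1 := by
    rw [pow_two]
    decide
  refine plc_sys_exists N UpperHalfPlane.I 1728 2 two_pos hord ModularGroup.S sysfin_S_smul_I ?_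
  intro q f _
  refine plc_dvd N UpperHalfPlane.I ModularGroup.S 2 Nat.prime_two ?_ ?_ q f
  · intro q
    rw [hS2]
    exact sysfin_neg_one_smul N q
  · intro G hG hne hinv
    exact two_dvd_order_taylorAt_I hG hne hinv

/-- fibre over `j = 0` (the point `ρ`, stabiliser generated by `S * T`) -/
theorem plc_laurentSystem_zero :
    ∃ S : LaurentSystem Kb (plcJ N) ℂ Xc,
      S.e₀ = 3 ∧ S.π = MulAction.toPerm (ModularGroup.S * ModularGroup.T) ∧
        S.φ = plcPhi N rho := by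
  have hord : (taylorAt rho (fun τ => jFun τ - 0)).order = ((3 : ℕ) : ℕ∞) := by
    have h : (fun τ => jFun τ - 0) = jFun := by
      funext τ
      simp
    rw [h]
    simpa using order_taylorAt_jFun_rho
  have hST3 : ((ModularGroup.S * ModularGroup.T) ^ 3 : SL(2, ℤ)) = -1 := by
    rw [pow_succ, pow_two]
    decide
  have key : ∃ S : LaurentSystem Kb (plcJ N - algebraMap Kb Fb 0) ℂ Xc,
      S.e₀ = 3 ∧ S.π = MulAction.toPerm (ModularGroup.S * ModularGroup.T) ∧
        S.φ = plcPhi N rho := by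
    refine plc_sys_exists N rho 0 3 (by norm_num) hord (ModularGroup.S * ModularGroup.T)
      sysfin_ST_smul_rho ?_
    intro q f _
    refine plc_dvd N rho (ModularGroup.S * ModularGroup.T) 3 Nat.prime_three ?_ ?_ q f
    · intro q
      rw [hST3]
      exact sysfin_neg_one_smul N q
    · intro G hG hne hinv
      exact three_dvd_order_taylorAt_rho hG hne hinv
  have hx : plcJ N - algebraMap Kb Fb 0 = plcJ N := by simp
  rw [hx] at key
  exact key

end PlcAna

end Fermat.Agent.S29
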