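import Fermat.Agent.S24.Classify

/-!
# S29, PLACES-C (generic part): exact multiplicities in a full Laurent system

For a full system `S` of Laurent points above `x = 0` (S24 `LaurentSystem`), the orders of the
`i`-th Laurent point are proportional to the orders at its place, with the EXACT factor
`e₀ / (length of the π-orbit of i)`:

  `minimalPeriod S.π i * (S.φ i f).order = S.e₀ * (S.place i).ord f`.

Consequences: classification of all places of `F / K` by systems above `x - c` (`c : K`) and
above `x⁻¹`, with this exact formula.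
-/

set_option autoImplicit false

open AlgebraicCurve IntermediateField

namespace Fermat.Agent.S29

open Fermat.Agent.S24

section Exact

variable {K F : Type*} [Field K] [IsAlgClosed K] [CharZero K] [Field F] [Algebra K F]
variable {L : Type*} [Field L] {ι : Type*}

/-- The multiplicity of the `i`-th member of a full Laurent system: if `m` is any proportionality
factor between the orders of `S.φ i` and the orders at `S.place i`, then
`(orbit length of i) * m = e₀`. -/
theorem plg_mult {x : F} (hx : Transcendental K x) [FiniteDimensional K⟮x⟯ F] [Finite ι]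
    (S : LaurentSystem K x L ι) (i : ι) (m : ℤ)
    (hm : ∀ f : F, f ≠ 0 → (S.φ i f).order = m * (S.place i).ord f) :
    (Function.minimalPeriod S.π i : ℤ) * m = (S.e₀ : ℤ) := by
  classical
  have := Fintype.ofFinite ι
  choose m' hm0 hm' using fun k => (S.isPlaceOf_place k).exists_order_eq
  obtain ⟨π₀, hπ₀⟩ := IsDiscreteValuationRing.exists_irreducible (S.place i).toValuationSubring
  have ht : (S.place i).ord (π₀ : F) = 1 := (S.place i).ord_coe_irreducible hπ₀
  have ht0 : (π₀ : F) ≠ 0 := by
    intro h0
    rw [h0, Place.ord_zero] at ht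
    exact zero_ne_one ht
  -- `m` is the canonical factor at `i`
  have hmi : m = m' i := by
    have h1 := hm _ ht0
    have h2 := hm' i _ ht0
    rw [ht, mul_one] at h1 h2
    rw [← h1, ← h2]
  subst hmi
  have hplace : ∀ a : ℕ, S.place ((S.π ^ a) i) = S.place i := by
    intro a
    rw [← zpow_natCast]
    exact S.place_zpow _ _
  have hmπ : ∀ a : ℕ, m' ((S.π ^ a) i) = m' i := by
    intro a
    have h1 := hm' ((S.π ^ a) i) _ ht0
    have h2 := hm' i _ ht0
    rw [S.order_pow, hplace, ht, mul_one] at h1
    rw [ht, mul_one] at h2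
    rw [← h1, ← h2]
  set r := Function.minimalPeriod S.π i with hr_def
  have hr : 0 < r := by
    refine Function.IsPeriodicPt.minimalPeriod_pos (orderOf_pos S.π) ?_
    show (S.π)^[orderOf S.π] i = i
    rw [Equiv.Perm.iterate_eq_pow, pow_orderOf_eq_one]
    rfl
  have hdvd : (S.e₀ : ℤ) ∣ (r : ℤ) * m' i := by
    have h := S.dvd i _ ht0
    rwa [hm' i _ ht0, ht, mul_one] at h
  have hle : (S.e₀ : ℤ) ≤ (r : ℤ) * m' i :=
    Int.le_of_dvd (mul_pos (by exact_mod_cast hr) (hm0 i)) hdvd
  have hsum := S.sum_mult_eq hx m' hm' (S.place i) (S.place_mem_zeroPlaces i)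
  let O : Finset ι := (Finset.range r).image (fun a => (S.π ^ a) i)
  have hO : ∑ k ∈ O, m' k = (r : ℤ) * m' i := by
    rw [Finset.sum_image]
    · rw [Finset.sum_congr rfl (fun a _ => hmπ a), Finset.sum_const, Finset.card_range,
        nsmul_eq_mul]
    · intro a ha b hb hab
      exact Function.iterate_injOn_Iio_minimalPeriod (f := S.π) (x := i)
        (by simpa using ha) (by simpa using hb) hab
  have hsub : O ⊆ Finset.univ.filter (fun k => S.place k = S.place i) := by
    intro k hk
    rw [Finset.mem_filter]
    refine ⟨Finset.mem_univ _, ?_⟩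
    obtain ⟨a, _, rfl⟩ := Finset.mem_image.mp hk
    exact hplace a
  have h3 := Finset.sum_le_sum_of_subset_of_nonneg hsub (f := m') (fun k _ _ => (hm0 k).le)
  rw [hO, hsum] at h3
  omega

/-- **Exact multiplicity.** In a full Laurent system, the order of the `i`-th Laurent point,
multiplied by the length of the orbit of `i` under the symmetry, is `e₀` times the order at the
place of `i`. -/
theorem plg_exact {x : F} (hx : Transcendental K x) [FiniteDimensional K⟮x⟯ F] [Finite ι]
    (S : LaurentSystem K x L ι) (i : ι) (f : F) (hf : f ≠ 0) :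
    (Function.minimalPeriod S.π i : ℤ) * (S.φ i f).order = (S.e₀ : ℤ) * (S.place i).ord f := by
  obtain ⟨m, -, hm⟩ := (S.isPlaceOf_place i).exists_order_eq
  have h := plg_mult hx S i m hm
  rw [hm f hf, ← mul_assoc, h]

/-- The orbit length divides `e₀`. -/
theorem plg_minimalPeriod_dvd {x : F} (hx : Transcendental K x) [FiniteDimensional K⟮x⟯ F]
    [Finite ι] (S : LaurentSystem K x L ι) (i : ι) :
    (Function.minimalPeriod S.π i : ℤ) ∣ (S.e₀ : ℤ) := by
  obtain ⟨m, -, hm⟩ := (S.isPlaceOf_place i).exists_order_eq
  exact Dvd.intro _ (plg_mult hx S i m hm)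

/-- Every zero place of `x` is the place of a member of the system, with the exact order
formula. -/
theorem plg_of_zero {x : F} (hx : Transcendental K x) [FiniteDimensional K⟮x⟯ F] [Finite ι]
    (S : LaurentSystem K x L ι) (P : Place K F) (hP : 0 < P.ord x) :
    ∃ i : ι, S.place i = P ∧ ∀ f : F, f ≠ 0 →
      (Function.minimalPeriod S.π i : ℤ) * (S.φ i f).order = (S.e₀ : ℤ) * P.ord f := by
  obtain ⟨i, rfl⟩ := S.exists_place_eq hx P hP
  exact ⟨i, rfl, fun f hf => plg_exact hx S i f hf⟩

/-- The place of a member of a system, with the exact order formula (converse direction). -/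
theorem plg_point {x : F} (hx : Transcendental K x) [FiniteDimensional K⟮x⟯ F] [Finite ι]
    (S : LaurentSystem K x L ι) (i : ι) :
    ∃ P : Place K F, 0 < P.ord x ∧ (∀ f : F, f ∈ P.toValuationSubring ↔ 0 ≤ (S.φ i f).order) ∧
      ∀ f : F, f ≠ 0 →
        (Function.minimalPeriod S.π i : ℤ) * (S.φ i f).order = (S.e₀ : ℤ) * P.ord f :=
  ⟨S.place i, S.place_mem_zeroPlaces i, S.isPlaceOf_place i, fun f hf => plg_exact hx S i f hf⟩

/-- Unramified members: if the orbit of `i` has full length `e₀`, the Laurent point computes
the orders at its place exactly. -/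
theorem plg_order_eq_of_period {x : F} (hx : Transcendental K x) [FiniteDimensional K⟮x⟯ F]
    [Finite ι] (S : LaurentSystem K x L ι) (i : ι) (hi : Function.minimalPeriod S.π i = S.e₀)
    (f : F) (hf : f ≠ 0) : (S.φ i f).order = (S.place i).ord f := by
  have h := plg_exact hx S i f hf
  rw [hi] at h
  have h0 : (S.e₀ : ℤ) ≠ 0 := by exact_mod_cast S.e₀_pos.ne'
  exact mul_left_cancel₀ h0 h

/-- Totally ramified members: if `i` is fixed by the symmetry, the orders of the Laurent point
are `e₀` times the orders at its place. -/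
theorem plg_order_eq_of_fixed {x : F} (hx : Transcendental K x) [FiniteDimensional K⟮x⟯ F]
    [Finite ι] (S : LaurentSystem K x L ι) (i : ι) (hi : S.π i = i)
    (f : F) (hf : f ≠ 0) : (S.φ i f).order = (S.e₀ : ℤ) * (S.place i).ord f := by
  have h := plg_exact hx S i f hf
  have h1 : Function.minimalPeriod S.π i = 1 :=
    Function.minimalPeriod_eq_one_iff_isFixedPt.mpr hi
  rw [h1, Nat.cast_one, one_mul] at h
  exact h

end Exact

section Classify

variable {K F : Type*} [Field K] [IsAlgClosed K] [CharZero K] [Field F] [Algebra K F]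

/-- **Classification of the places** of `F / K`: a family of full Laurent systems above `x - c`
(`c : K`) and a system above `x⁻¹` account for every place, with the exact order formula. -/
theorem plg_classify_systems {x : F} (hx : Transcendental K x) [FiniteDimensional K⟮x⟯ F]
    {L L' : Type*} [Field L] [Field L'] {ι ι' : Type*} [Finite ι] [Finite ι']
    (Sfin : ∀ c : K, LaurentSystem K (x - algebraMap K F c) L ι)
    (Sinf : LaurentSystem K x⁻¹ L' ι') (P : Place K F) :
    (∃ (c : K) (i : ι), (Sfin c).place i = P ∧ 0 < P.ord (x - algebraMap K F c) ∧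
        ∀ f : F, f ≠ 0 → (Function.minimalPeriod (Sfin c).π i : ℤ) * ((Sfin c).φ i f).order =
          ((Sfin c).e₀ : ℤ) * P.ord f) ∨
      (∃ i : ι', Sinf.place i = P ∧ 0 < P.ord x⁻¹ ∧
        ∀ f : F, f ≠ 0 → (Function.minimalPeriod Sinf.π i : ℤ) * (Sinf.φ i f).order =
          (Sinf.e₀ : ℤ) * P.ord f) := by
  rcases place_center x hx P with ⟨c, hc⟩ | h
  · left
    have _i1 := sf_finiteDimensional_sub x c
    obtain ⟨i, hi, hf⟩ := plg_of_zero (sf_transcendental_sub hx c) (Sfin c) P hc
    exact ⟨c, i, hi, hc, hf⟩
  · right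
    have _i2 := sf_finiteDimensional_inv (K := K) x
    obtain ⟨i, hi, hf⟩ := plg_of_zero (sf_transcendental_inv hx) Sinf P h
    exact ⟨i, hi, h, hf⟩

end Classify

end Fermat.Agent.S29
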