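import Fermat.Agent.S29.PsiGlobal
import Fermat.Agent.S29.EisChi
import Fermat.Agent.S29.MfRatApi
import Fermat.Agent.S29.PhiCMain

/-!
# Stage 3 (S29), package PSI-C, global part (Eisenstein instantiation)

Let `χ` be a character of `Γ₀(N)` with values `ζ_p ^ a(γ)`, trivial on the upper triangular
elements, `E = eisxChi N 4 χ`, `E₁ = eisxChi N 4 1`.  If `f ∈ F_ℂ` is the function `(E / E₁) ^ p`
(given through `q`-expansions of the modular forms `E ^ p`, `E₁ ^ p`) and `p` divides the order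
of `f` at every place, then the class `c` of `(1/p) div f` is a `p`-torsion class with
`phiHom (phiModelC N) p c = a` (`psg_chi`).  `psg_main_of_loc`: the same for the character
`ζ_p ^ ψ` of a homomorphism `ψ : Γ₀(N) → ℤ/p` vanishing on the elements with `|trace| ≤ 2`; so
`ψ` lies in the range of the comparison homomorphism as soon as the local divisibility is known.
-/

set_option autoImplicit false
set_option linter.style.haveILetI false

open AlgebraicCurve IntermediateField UpperHalfPlane ModularForm CongruenceSubgroup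
open scoped MatrixGroups Manifold
open Fermat.Agent.S24

namespace Fermat.Agent.S29

/-- The character `γ ↦ ζ_p ^ ψ(γ)` of `Γ₀(N)`. -/
noncomputable def psgChi (N p : ℕ) [NeZero p] (ψ : Additive ↥(Gamma0 N) →+ ZMod p) :
    ↥(Gamma0 N) →* ℂˣ where
  toFun γ := Units.mk0 (kumExp p (ψ (Additive.ofMul γ))) (kumExp_ne_zero p _)
  map_one' := by
    apply Units.ext
    show kumExp p (ψ (Additive.ofMul 1)) = 1
    rw [ofMul_one, map_zero, kumExp_zero]
  map_mul' γ δ := by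
    apply Units.ext
    show kumExp p (ψ (Additive.ofMul (γ * δ))) = kumExp p (ψ (Additive.ofMul γ)) *
      kumExp p (ψ (Additive.ofMul δ))
    rw [ofMul_mul, map_add, kumExp_add]

theorem psgChi_coe (N p : ℕ) [NeZero p] (ψ : Additive ↥(Gamma0 N) →+ ZMod p) (γ : ↥(Gamma0 N)) :
    ((psgChi N p ψ γ : ℂˣ) : ℂ) = kumExp p (ψ (Additive.ofMul γ)) := rfl

theorem psgChi_pow (N p : ℕ) [NeZero p] (ψ : Additive ↥(Gamma0 N) →+ ZMod p) (γ : ↥(Gamma0 N)) :
    psgChi N p ψ γ ^ p = 1 := by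
  apply Units.ext
  rw [Units.val_pow_eq_pow_val, psgChi_coe, kumExp_pow, Units.val_one]

theorem psgChi_norm (N p : ℕ) [NeZero p] (ψ : Additive ↥(Gamma0 N) →+ ZMod p) (γ : ↥(Gamma0 N)) :
    ‖((psgChi N p ψ γ : ℂˣ) : ℂ)‖ = 1 := by
  rw [psgChi_coe]
  exact Complex.norm_eq_one_of_pow_eq_one (kumExp_pow p _) (NeZero.ne p)

theorem psgChi_eq_one (N p : ℕ) [NeZero p] (ψ : Additive ↥(Gamma0 N) →+ ZMod p) (γ : ↥(Gamma0 N))
    (h : ψ (Additive.ofMul γ) = 0) : psgChi N p ψ γ = 1 := by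
  apply Units.ext
  rw [psgChi_coe, h, kumExp_zero, Units.val_one]

/-- An element of `SL(2, ℤ)` with lower left entry `0` has trace `± 2`. -/
theorem psg_trace_of_lower (γ : SL(2, ℤ)) (h : γ 1 0 = 0) :
    |(γ : Matrix (Fin 2) (Fin 2) ℤ).trace| ≤ 2 := by
  have hdet := γ.det_coe
  rw [Matrix.det_fin_two] at hdet
  have h' : (γ : Matrix (Fin 2) (Fin 2) ℤ) 1 0 = 0 := h
  rw [h', mul_zero, sub_zero] at hdet
  rw [Matrix.trace_fin_two]
  rcases Int.eq_one_or_neg_one_of_mul_eq_one' hdet with ⟨h1, h2⟩ | ⟨h1, h2⟩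
  · rw [h1, h2]; norm_num
  · rw [h1, h2]; norm_num

section PsgEis

variable (N : ℕ) [NeZero N]

set_option quotPrecheck false in
local notation "FC" => ↥(ModularCurve.laurentBaseChange ℂ (ModularCurve.modularFunctionFieldFull N))

theorem psg_three_le_four : (3 : ℤ) ≤ 4 := by norm_num

/-- The power `E₁ ^ p` of the Eisenstein series with trivial character, as a modular form. -/
noncomputable def psgB (p : ℕ) : ModularForm (Gamma0 N) ((4 : ℤ) * (p : ℤ)) :=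
  eisxPow N psg_three_le_four (1 : ↥(Gamma0 N) →* ℂˣ) (fun _ => by simp) (fun _ _ => rfl) p
    (fun _ => one_pow p)

theorem psgB_coe (p : ℕ) :
    (psgB N p : ℍ → ℂ) = eisxChi N 4 (1 : ↥(Gamma0 N) →* ℂˣ) ^ p := rfl

omit [NeZero N] in
theorem psg_eis_one_ne_zero : eisxChi N 4 (1 : ↥(Gamma0 N) →* ℂˣ) ≠ 0 :=
  eisxChi_ne_zero psg_three_le_four (by decide) (fun _ => by simp) (fun _ _ => rfl)

theorem psgB_ne_zero (p : ℕ) : psgB N p ≠ 0 := by
  intro h0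
  obtain ⟨τ, hτ⟩ : ∃ τ, eisxChi N 4 (1 : ↥(Gamma0 N) →* ℂˣ) τ ≠ 0 := by
    by_contra hcon
    push Not at hcon
    exact psg_eis_one_ne_zero N (funext hcon)
  have h1 : (psgB N p : ℍ → ℂ) τ = 0 := by rw [h0]; rfl
  rw [psgB_coe, Pi.pow_apply] at h1
  exact hτ (eq_zero_of_pow_eq_zero h1)

/-- **PSI-C, global part for a character `χ = ζ_p ^ a`.** -/
theorem psg_chi (p : ℕ) [NeZero p] (χ : ↥(Gamma0 N) →* ℂˣ)
    (h1 : ∀ γ, ‖((χ γ : ℂˣ) : ℂ)‖ = 1)
    (hT : ∀ γ : ↥(Gamma0 N), (γ : SL(2, ℤ)) 1 0 = 0 → χ γ = 1)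
    (hp : ∀ γ, χ γ ^ p = 1)
    (a : ↥(Gamma0 N) → ZMod p) (ha : ∀ γ, ((χ γ : ℂˣ) : ℂ) = kumExp p (a γ))
    (f : FC)
    (hf : (f : LaurentSeries ℂ) * HahnSeries.ofPowerSeries ℤ ℂ (qExpansion 1 (psgB N p))
      = HahnSeries.ofPowerSeries ℤ ℂ
          (qExpansion 1 (eisxPow N psg_three_le_four χ h1 hT p hp)))
    (hloc : ∀ P : Place ℂ FC, (p : ℤ) ∣ P.ord f) :
    ∃ c : ↥(Pic0.torsion ℂ FC p), ∀ γ : ↥(Gamma0 N),
      phiHom (phiModelC N) p c (Additive.ofMul γ) = a γ := by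
  have hp0 : p ≠ 0 := NeZero.ne p
  obtain ⟨g, h, hh, hfq, -⟩ := plc_exists_fraction_q N f
  have hκh : plcκA N h ≠ 0 := by
    have := (plcκA_injective N).ne hh
    rwa [map_zero] at this
  have hfq' : (f : LaurentSeries ℂ) * plcκA N h = plcκA N g := by
    rw [hfq, div_mul_cancel₀ _ hκh]
  have hgW : IsWH (g : ℍ → ℂ) := plc_anaRingC_le N g.2
  have hhW : IsWH (h : ℍ → ℂ) := plc_anaRingC_le N h.2
  have hrel : ∀ τ, (g : ℍ → ℂ) τ * eisxChi N 4 (1 : ↥(Gamma0 N) →* ℂˣ) τ ^ p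
      = (h : ℍ → ℂ) τ * eisxChi N 4 χ τ ^ p := fun τ =>
    mfa_wh_bridge (eisxPow N psg_three_le_four χ h1 hT p hp) (psgB N p) hgW hhW
      (f : LaurentSeries ℂ) hf hfq' τ
  have hE : MDiff (eisxChi N 4 χ) := eisxChi_mdiff psg_three_le_four h1
  have hE₁ : MDiff (eisxChi N 4 (1 : ↥(Gamma0 N) →* ℂˣ)) :=
    eisxChi_mdiff psg_three_le_four (fun _ => by simp)
  have hE0 : eisxChi N 4 χ ≠ 0 := eisxChi_ne_zero psg_three_le_four (by decide) h1 hT
  have hsl : ∀ (γ : ↥(Gamma0 N)) (τ : ℍ),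
      eisxChi N 4 χ ((γ : SL(2, ℤ)) • τ) * eisxChi N 4 (1 : ↥(Gamma0 N) →* ℂˣ) τ
        = kumExp p (a γ) * eisxChi N 4 χ τ
          * eisxChi N 4 (1 : ↥(Gamma0 N) →* ℂˣ) ((γ : SL(2, ℤ)) • τ) := by
    intro γ τ
    have e1 := congrFun (eisxChi_slash (N := N) 4 hT γ) τ
    have e2 := congrFun (eisxChi_slash (N := N) 4 (χ := (1 : ↥(Gamma0 N) →* ℂˣ))
      (fun _ _ => rfl) γ) τ
    rw [SL_slash_apply, Pi.smul_apply, smul_eq_mul, ha γ] at e1
    rw [SL_slash_apply, Pi.smul_apply, smul_eq_mul, MonoidHom.one_apply, Units.val_one, one_mul]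
      at e2
    linear_combination
      eisxChi N 4 (1 : ↥(Gamma0 N) →* ℂˣ) ((γ : SL(2, ℤ)) • τ) * e1
        - eisxChi N 4 χ ((γ : SL(2, ℤ)) • τ) * e2
  obtain ⟨D, G, hf0, hg0, hD, hG, hGp, hOK, hchar, -⟩ :=
    psg_core N p (eisxChi N 4 χ) (eisxChi N 4 (1 : ↥(Gamma0 N) →* ℂˣ)) hE hE₁ hE0
      (psg_eis_one_ne_zero N) a hsl f g h hh hfq hrel hloc
  have hmem : Pic0.mk D ∈ Pic0.torsion ℂ FC p := by
    rw [Pic0.mem_torsion]
    have h1 : (p : ℤ) • Pic0.mk D = Pic0.mk ((p : ℤ) • D) := rfl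
    rw [h1]
    refine (phi_mk_eq_zero_iff _).mpr ⟨f, hf0, fun v => ?_⟩
    rw [AddSubgroup.coe_zsmul, Finsupp.smul_apply, smul_eq_mul, hD v]
  refine ⟨⟨Pic0.mk D, hmem⟩, fun γ => ?_⟩
  have hab : f * (phiModelC N).ι h = (phiModelC N).ι g := by
    apply Subtype.ext
    exact hfq'
  have key := (phiHom_eq_kumChar (phiModelC N) p ⟨Pic0.mk D, hmem⟩ D rfl f hf0 hD g h hh hab).2
  rw [key]
  exact hchar γ

/-- **PSI-C, global part**: a homomorphism `ψ : Γ₀(N) → ℤ/p` killing the elements with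
`|trace| ≤ 2` is in the range of the comparison homomorphism, provided the function
`(E_χ / E₁) ^ p` (`χ = ζ_p ^ ψ`) has all its orders divisible by `p`. -/
theorem psg_main_of_loc (p : ℕ) [NeZero p] (ψ : Additive ↥(Gamma0 N) →+ ZMod p)
    (hψ : ∀ γ : ↥(Gamma0 N),
      |((γ : SL(2, ℤ)) : Matrix (Fin 2) (Fin 2) ℤ).trace| ≤ 2 → ψ (Additive.ofMul γ) = 0)
    (hloc : ∀ (hT : ∀ γ : ↥(Gamma0 N), (γ : SL(2, ℤ)) 1 0 = 0 → psgChi N p ψ γ = 1) (f : FC),
      (f : LaurentSeries ℂ) * HahnSeries.ofPowerSeries ℤ ℂ (qExpansion 1 (psgB N p))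
        = HahnSeries.ofPowerSeries ℤ ℂ (qExpansion 1
            (eisxPow N psg_three_le_four (psgChi N p ψ) (psgChi_norm N p ψ) hT p
              (psgChi_pow N p ψ))) →
      ∀ P : Place ℂ FC, (p : ℤ) ∣ P.ord f) :
    ∃ c : ↥(Pic0.torsion ℂ FC p), phiHom (phiModelC N) p c = ψ := by
  have hT : ∀ γ : ↥(Gamma0 N), (γ : SL(2, ℤ)) 1 0 = 0 → psgChi N p ψ γ = 1 := fun γ hγ =>
    psgChi_eq_one N p ψ γ (hψ γ (psg_trace_of_lower _ hγ))
  have hB := psgB_ne_zero N p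
  have hmem := mfa_M1 N _ (eisxPow N psg_three_le_four (psgChi N p ψ) (psgChi_norm N p ψ) hT p
    (psgChi_pow N p ψ)) (psgB N p) hB
  obtain ⟨f, hfdef⟩ : ∃ f : FC, (f : LaurentSeries ℂ) =
      HahnSeries.ofPowerSeries ℤ ℂ (qExpansion 1
        (eisxPow N psg_three_le_four (psgChi N p ψ) (psgChi_norm N p ψ) hT p (psgChi_pow N p ψ)))
        / HahnSeries.ofPowerSeries ℤ ℂ (qExpansion 1 (psgB N p)) := ⟨⟨_, hmem⟩, rfl⟩
  have hf : (f : LaurentSeries ℂ) * HahnSeries.ofPowerSeries ℤ ℂ (qExpansion 1 (psgB N p))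
      = HahnSeries.ofPowerSeries ℤ ℂ (qExpansion 1
          (eisxPow N psg_three_le_four (psgChi N p ψ) (psgChi_norm N p ψ) hT p
            (psgChi_pow N p ψ))) := by
    rw [hfdef, div_mul_cancel₀ _ (mfr_qExpansion_ne_zero hB)]
  obtain ⟨c, hc⟩ := psg_chi N p (psgChi N p ψ) (psgChi_norm N p ψ) hT (psgChi_pow N p ψ)
    (fun γ => ψ (Additive.ofMul γ)) (fun γ => psgChi_coe N p ψ γ) f hf (hloc hT f hf)
  exact ⟨c, AddMonoidHom.ext fun x => hc (Additive.toMul x)⟩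

end PsgEis

end Fermat.Agent.S29
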