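import Fermat.Agent.S29.PlCApi
import Fermat.Agent.S29.Kum

/-!
# Stage 3 (S29), package PSI-C, global part (abstract core)

`psg_core`: let `f ∈ F_ℂ` be represented by `g / h` (`g, h ∈ anaRingC N`) and suppose
`g * E₁ ^ p = h * E ^ p` for two holomorphic functions `E, E₁ ≠ 0` on the upper half plane such
that `E / E₁` transforms under `Γ₀(N)` by the character `ζ_p ^ a`. If `p` divides the order of `f`
at every place, then `D := (1/p) div f` is a divisor of degree `0` with `p D = div f`, and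
`g * h ^ (p - 1)` has a holomorphic `p`-th root `G` with `G (γ τ) = ζ_p ^ (a γ) * G τ`.
-/

set_option autoImplicit false
set_option linter.style.haveILetI false

open AlgebraicCurve IntermediateField UpperHalfPlane
open scoped MatrixGroups Manifold
open Fermat.Agent.S24

namespace Fermat.Agent.S29

/-- A `Γ`-invariant holomorphic function `H ≠ 0` with a "meromorphic `p`-th root" `U / V` has
all its vanishing orders divisible by `p`. -/
theorem psg_kumOK_of_ratio {Γ : Subgroup SL(2, ℤ)} {p : ℕ} [NeZero p] {H U V : ℍ → ℂ}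
    (hH : MDiff H) (hH0 : H ≠ 0) (hinv : ∀ γ ∈ Γ, ∀ τ : ℍ, H (γ • τ) = H τ)
    (hU : MDiff U) (hV : MDiff V) (hV0 : V ≠ 0)
    (hUV : ∀ τ, U τ ^ p = H τ * V τ ^ p) : KumOK Γ p H := by
  refine ⟨hH, hH0, hinv, fun τ => ?_⟩
  have hp0 : p ≠ 0 := NeZero.ne p
  have hU0 : U ≠ 0 := by
    rintro rfl
    have h1 : ∀ τ, H τ * V τ ^ p = 0 := fun τ => by
      rw [← hUV τ, Pi.zero_apply, zero_pow hp0]
    rcases kum_mul_eq_zero hH (kum_mdiff_pow hV p) h1 with h2 | h2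
    · exact hH0 h2
    · apply hV0
      funext σ
      have := congrFun h2 σ
      exact pow_eq_zero_iff hp0 |>.mp this
  have aH := kum_analyticAt hH τ
  have aU := kum_analyticAt hU τ
  have aV := kum_analyticAt hV τ
  obtain ⟨nH, hnH⟩ := ENat.ne_top_iff_exists.mp (kum_order_ne_top hH hH0 τ)
  obtain ⟨nU, hnU⟩ := ENat.ne_top_iff_exists.mp (kum_order_ne_top hU hU0 τ)
  obtain ⟨nV, hnV⟩ := ENat.ne_top_iff_exists.mp (kum_order_ne_top hV hV0 τ)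
  have hfun : (fun z => (U ∘ ofComplex) z ^ p) = fun z => (H ∘ ofComplex) z * (V ∘ ofComplex) z ^ p := by
    funext z
    exact hUV (ofComplex z)
  have h1 : analyticOrderAt (fun z => (U ∘ ofComplex) z ^ p) (τ : ℂ) = ((p * nU : ℕ) : ℕ∞) := by
    have := analyticOrderAt_pow (f := U ∘ ofComplex) (z₀ := (τ : ℂ)) aU p
    rw [show (fun z => (U ∘ ofComplex) z ^ p) = (U ∘ ofComplex) ^ p from rfl, this, ← hnU]
    push_cast
    rfl
  have h2 : analyticOrderAt (fun z => (H ∘ ofComplex) z * (V ∘ ofComplex) z ^ p) (τ : ℂ)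
      = ((nH + p * nV : ℕ) : ℕ∞) := by
    have hVp := analyticOrderAt_pow (f := V ∘ ofComplex) (z₀ := (τ : ℂ)) aV p
    have := analyticOrderAt_mul (f := H ∘ ofComplex) (g := (V ∘ ofComplex) ^ p) (z₀ := (τ : ℂ))
      aH (aV.pow p)
    rw [show (fun z => (H ∘ ofComplex) z * (V ∘ ofComplex) z ^ p)
      = (H ∘ ofComplex) * (V ∘ ofComplex) ^ p from rfl, this, hVp, ← hnH, ← hnV]
    push_cast
    rfl
  rw [hfun, h2] at h1
  have h3 : nH + p * nV = p * nU := by exact_mod_cast h1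
  refine ⟨nU - nV, ?_⟩
  rw [← hnH]
  have h4 : nV ≤ nU := by
    by_contra hlt
    push Not at hlt
    have : p * nU < p * nV := Nat.mul_lt_mul_of_pos_left hlt (Nat.pos_of_ne_zero hp0)
    omega
  have h5 : nH = p * (nU - nV) := by
    rw [Nat.mul_sub]
    omega
  rw [h5]

section PsgCore

variable (N : ℕ) [NeZero N]

set_option quotPrecheck false in
local notation "FC" => ↥(ModularCurve.laurentBaseChange ℂ (ModularCurve.modularFunctionFieldFull N))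

/-- `(1/p) div f` for a function whose orders are all divisible by `p`. -/
theorem psg_exists_divisor (p : ℕ) (hp : p ≠ 0) (f : FC) (hf : f ≠ 0)
    (hloc : ∀ P : Place ℂ FC, (p : ℤ) ∣ P.ord f) :
    ∃ D : Divisor.degZero (K := ℂ) (F := FC),
      ∀ v : Place ℂ FC, (p : ℤ) * (D : Divisor ℂ FC) v = v.ord f := by
  obtain ⟨D', hD', hdeg⟩ := (plc_hasPrincipalDivisors N).exists_divisor f hf
  have hp0 : (p : ℤ) ≠ 0 := by exact_mod_cast hp
  obtain ⟨D, hD⟩ : ∃ D : Divisor ℂ FC, ∀ v, D v = D' v / (p : ℤ) :=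
    ⟨Finsupp.mapRange (fun n : ℤ => n / (p : ℤ)) (by simp) D', fun v => by simp⟩
  have hmul : ∀ v, (p : ℤ) * D v = v.ord f := by
    intro v
    rw [hD v, hD' v]
    exact Int.mul_ediv_cancel' (hloc v)
  have hsm : (p : ℤ) • D = D' := by
    ext v
    rw [Finsupp.smul_apply, smul_eq_mul, hmul v, hD' v]
  have hdegD : Divisor.degree D = 0 := by
    have h1 : Divisor.degree ((p : ℤ) • D) = 0 := by rw [hsm]; exact hdeg
    rw [map_zsmul, smul_eq_mul] at h1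
    rcases mul_eq_zero.mp h1 with h2 | h2
    · exact absurd h2 hp0
    · exact h2
  exact ⟨⟨D, Divisor.mem_degZero.mpr hdegD⟩, hmul⟩

/-- **PSI-C, abstract global core.** -/
theorem psg_core (p : ℕ) [NeZero p] (E E₁ : ℍ → ℂ) (hE : MDiff E) (hE₁ : MDiff E₁)
    (hE0 : E ≠ 0) (hE₁0 : E₁ ≠ 0) (a : ↥(CongruenceSubgroup.Gamma0 N) → ZMod p)
    (hsl : ∀ (γ : ↥(CongruenceSubgroup.Gamma0 N)) (τ : ℍ),
      E ((γ : SL(2, ℤ)) • τ) * E₁ τ = kumExp p (a γ) * E τ * E₁ ((γ : SL(2, ℤ)) • τ))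
    (f : FC) (g h : anaRingC N) (hh : h ≠ 0)
    (hf : (f : LaurentSeries ℂ) = plcκA N g / plcκA N h)
    (hrel : ∀ τ, (g : ℍ → ℂ) τ * E₁ τ ^ p = (h : ℍ → ℂ) τ * E τ ^ p)
    (hloc : ∀ P : Place ℂ FC, (p : ℤ) ∣ P.ord f) :
    ∃ (D : Divisor.degZero (K := ℂ) (F := FC)) (G : ℍ → ℂ),
      f ≠ 0 ∧ g ≠ 0 ∧ (∀ v : Place ℂ FC, (p : ℤ) * (D : Divisor ℂ FC) v = v.ord f) ∧
      MDiff G ∧ (∀ τ, G τ ^ p = (g : ℍ → ℂ) τ * (h : ℍ → ℂ) τ ^ (p - 1)) ∧
      KumOK (CongruenceSubgroup.Gamma0 N) p (fun τ => (g : ℍ → ℂ) τ * (h : ℍ → ℂ) τ ^ (p - 1)) ∧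
      (∀ γ : ↥(CongruenceSubgroup.Gamma0 N),
        kumChar (CongruenceSubgroup.Gamma0 N) p
          (fun τ => (g : ℍ → ℂ) τ * (h : ℍ → ℂ) τ ^ (p - 1)) (Additive.ofMul γ) = a γ) ∧
      ∀ (γ : ↥(CongruenceSubgroup.Gamma0 N)) (τ : ℍ),
        G ((γ : SL(2, ℤ)) • τ) = kumExp p (a γ) * G τ := by
  have hp0 : p ≠ 0 := NeZero.ne p
  have hgm : MDiff (g : ℍ → ℂ) := plc_mdiff_of_mem N g.2
  have hhm : MDiff (h : ℍ → ℂ) := plc_mdiff_of_mem N h.2
  have hh0 : (h : ℍ → ℂ) ≠ 0 := fun h0 => hh (Subtype.ext h0)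
  have hEp0 : (fun τ => E τ ^ p) ≠ 0 := by
    intro h0
    apply hE0
    funext σ
    exact pow_eq_zero_iff hp0 |>.mp (congrFun h0 σ)
  have hg : g ≠ 0 := by
    rintro rfl
    have h1 : ∀ τ, (h : ℍ → ℂ) τ * E τ ^ p = 0 := fun τ => by
      rw [← hrel τ]
      simp
    rcases kum_mul_eq_zero hhm (kum_mdiff_pow hE p) h1 with h2 | h2
    · exact hh0 h2
    · exact hEp0 h2
  have hg0 : (g : ℍ → ℂ) ≠ 0 := fun h0 => hg (Subtype.ext h0)
  have hf0 : f ≠ 0 := by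
    intro h0
    rw [h0] at hf
    have hg1 := (plcκA_injective N).ne hg
    have hh1 := (plcκA_injective N).ne hh
    rw [map_zero] at hg1 hh1
    exact (div_ne_zero hg1 hh1) hf.symm
  obtain ⟨D, hD⟩ := psg_exists_divisor N p hp0 f hf0 hloc
  -- the function `H = g h^(p-1)` and its meromorphic root `h E / E₁`
  have hHm : MDiff (fun τ => (g : ℍ → ℂ) τ * (h : ℍ → ℂ) τ ^ (p - 1)) :=
    kum_mdiff_mul hgm (kum_mdiff_pow hhm (p - 1))
  have hH0 : (fun τ => (g : ℍ → ℂ) τ * (h : ℍ → ℂ) τ ^ (p - 1)) ≠ 0 := by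
    intro h0
    rcases kum_mul_eq_zero hgm (kum_mdiff_pow hhm (p - 1)) (fun τ => congrFun h0 τ) with h2 | h2
    · exact hg0 h2
    · apply hh0
      funext σ
      have := congrFun h2 σ
      by_cases hp1 : p - 1 = 0
      · rw [hp1, pow_zero] at this
        exact absurd this one_ne_zero
      · exact pow_eq_zero_iff hp1 |>.mp this
  have hHinv : ∀ γ ∈ CongruenceSubgroup.Gamma0 N, ∀ τ : ℍ,
      (fun τ => (g : ℍ → ℂ) τ * (h : ℍ → ℂ) τ ^ (p - 1)) (γ • τ)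
        = (fun τ => (g : ℍ → ℂ) τ * (h : ℍ → ℂ) τ ^ (p - 1)) τ := by
    intro γ hγ τ
    show (g : ℍ → ℂ) (γ • τ) * (h : ℍ → ℂ) (γ • τ) ^ (p - 1) = _
    rw [plc_invariant N g.2 γ hγ, plc_invariant N h.2 γ hγ]
  have hUm : MDiff (fun τ => (h : ℍ → ℂ) τ * E τ) := kum_mdiff_mul hhm hE
  have hUV : ∀ τ, (fun τ => (h : ℍ → ℂ) τ * E τ) τ ^ p
      = (fun τ => (g : ℍ → ℂ) τ * (h : ℍ → ℂ) τ ^ (p - 1)) τ * E₁ τ ^ p := by
    intro τ
    show ((h : ℍ → ℂ) τ * E τ) ^ p = (g : ℍ → ℂ) τ * (h : ℍ → ℂ) τ ^ (p - 1) * E₁ τ ^ p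
    have hpp : (h : ℍ → ℂ) τ ^ p = (h : ℍ → ℂ) τ ^ (p - 1) * (h : ℍ → ℂ) τ :=
      (pow_sub_one_mul hp0 _).symm
    rw [mul_pow, hpp]
    linear_combination (-(h : ℍ → ℂ) τ ^ (p - 1)) * hrel τ
  have hOK : KumOK (CongruenceSubgroup.Gamma0 N) p
      (fun τ => (g : ℍ → ℂ) τ * (h : ℍ → ℂ) τ ^ (p - 1)) :=
    psg_kumOK_of_ratio hHm hH0 hHinv hUm hE₁ hE₁0 hUV
  have hchar : ∀ γ : ↥(CongruenceSubgroup.Gamma0 N),
      kumChar (CongruenceSubgroup.Gamma0 N) p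
        (fun τ => (g : ℍ → ℂ) τ * (h : ℍ → ℂ) τ ^ (p - 1)) (Additive.ofMul γ) = a γ := by
    refine kumChar_of_ratio hOK hUm hE₁ hE₁0 hUV a ?_
    intro γ τ
    show (h : ℍ → ℂ) ((γ : SL(2, ℤ)) • τ) * E ((γ : SL(2, ℤ)) • τ) * E₁ τ
      = kumExp p (a γ) * ((h : ℍ → ℂ) τ * E τ) * E₁ ((γ : SL(2, ℤ)) • τ)
    rw [plc_invariant N h.2 _ γ.2]
    linear_combination (h : ℍ → ℂ) τ * hsl γ τ
  obtain ⟨G, hG, hGp⟩ := hOK.exists_root
  refine ⟨D, G, hf0, hg, hD, hG, hGp, hOK, hchar, fun γ τ => ?_⟩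
  rw [kumChar_spec hOK hG hGp γ τ, hchar γ]

end PsgCore

end Fermat.Agent.S29
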