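import Mathlib
import Fermat.Agent.S24.SysBase
import Fermat.Agent.S24.QLaurent

/-!
# S29, package [PSI-C], local part: divisibility of the orders of `(E_χ / E_1) ^ p`

Function-level statements (no function field, no places).  `g / h` is a weight-`0` fraction of
holomorphic functions on `ℍ` representing a function `f`, and `E`, `E1` are holomorphic functions
with `g * E1 ^ p = E ^ p * h`, i.e. `f = (E / E1) ^ p`.

* `psl_interior` : at every point `τ₀` and for every `σ ∈ SL(2, ℤ)`, the order of the Taylor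
  expansion of `(g / h) ∘ σ` at `τ₀` is divisible by `p`;
* `psl_interior_ell` : if moreover `E`, `E1` are invariant of weight `4` under `σ δ σ⁻¹`, where
  `δ` fixes `τ₀` and forces the orders at `τ₀` of `δ`-invariant functions to be divisible by `e`,
  then that order is divisible by `e * p`;
* `psl_cusp` : if `E ∣[4] σ` and `E1 ∣[4] σ` are `w`-periodic and bounded at `i∞`, `w ∣ N`, then
  `w` times the order of the `q`-expansion of `τ ↦ (g / h) (σ • (N τ))` is divisible by `N * p`.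
-/

set_option autoImplicit false

noncomputable section

open UpperHalfPlane Filter Topology
open scoped ModularForm Manifold MatrixGroups

namespace Fermat.Agent.S29

open Fermat.Agent.S24

/-- The Taylor expansion at `τ₀`, as a ring homomorphism into Laurent series. -/
def pslT (τ₀ : ℍ) : holSubring →+* LaurentSeries ℂ :=
  (HahnSeries.ofPowerSeries ℤ ℂ).comp (taylorHom τ₀)

theorem pslT_apply (τ₀ : ℍ) {G : ℍ → ℂ} (hG : MDiff G) :
    pslT τ₀ ⟨G, hG⟩ = HahnSeries.ofPowerSeries ℤ ℂ (taylorAt τ₀ G) := rfl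

theorem pslT_injective (τ₀ : ℍ) : Function.Injective (pslT τ₀) :=
  (HahnSeries.ofPowerSeries_injective (Γ := ℤ) (R := ℂ)).comp (taylorHom_injective τ₀)

theorem pslT_ne_zero (τ₀ : ℍ) {G : ℍ → ℂ} (hG : MDiff G) (hG0 : G ≠ 0) :
    HahnSeries.ofPowerSeries ℤ ℂ (taylorAt τ₀ G) ≠ 0 := by
  rw [← pslT_apply τ₀ hG]
  intro h
  apply hG0
  have h1 := pslT_injective τ₀ (a₁ := ⟨G, hG⟩) (a₂ := 0) (by rw [h, map_zero])
  exact congrArg Subtype.val h1

theorem psl_comp_ne_zero {G : ℍ → ℂ} (hG0 : G ≠ 0) (σ : SL(2, ℤ)) :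
    (fun τ => G (σ • τ)) ≠ 0 := by
  intro h
  apply hG0
  funext τ
  have h1 := congrFun h (σ⁻¹ • τ)
  simpa using h1

/-- The order of the Laurent series of a nonzero holomorphic function is its Taylor order. -/
theorem psl_order_nat (τ₀ : ℍ) {G : ℍ → ℂ} (hG : MDiff G) (hG0 : G ≠ 0) :
    ∃ n : ℕ, (taylorAt τ₀ G).order = (n : ℕ∞) ∧
      (HahnSeries.ofPowerSeries ℤ ℂ (taylorAt τ₀ G)).order = (n : ℤ) := by
  obtain ⟨n, hn⟩ := ENat.ne_top_iff_exists.mp (ty_order_ne_top τ₀ hG hG0)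
  exact ⟨n, hn.symm, sysfin_order_ofPowerSeries _ n hn.symm⟩

/-- The key identity: the Laurent series of `(g / h) ∘ σ` is the `p`-th power of that of
`(E / E1) ∘ σ`. -/
theorem psl_interior_eq {p : ℕ} {g h E E1 : ℍ → ℂ} (hg : MDiff g) (hh : MDiff h) (hE : MDiff E)
    (hE1 : MDiff E1) (hh0 : h ≠ 0) (hE10 : E1 ≠ 0)
    (hrel : ∀ τ, g τ * E1 τ ^ p = E τ ^ p * h τ) (σ : SL(2, ℤ)) (τ₀ : ℍ) :
    HahnSeries.ofPowerSeries ℤ ℂ (taylorAt τ₀ (fun τ => g (σ • τ))) /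
        HahnSeries.ofPowerSeries ℤ ℂ (taylorAt τ₀ (fun τ => h (σ • τ))) =
      (HahnSeries.ofPowerSeries ℤ ℂ (taylorAt τ₀ (fun τ => E (σ • τ))) /
        HahnSeries.ofPowerSeries ℤ ℂ (taylorAt τ₀ (fun τ => E1 (σ • τ)))) ^ p := by
  have hg' := sysfin_mdiff_smul σ hg
  have hh' := sysfin_mdiff_smul σ hh
  have hE' := sysfin_mdiff_smul σ hE
  have hE1' := sysfin_mdiff_smul σ hE1
  have hh0' := pslT_ne_zero τ₀ hh' (psl_comp_ne_zero hh0 σ)
  have hE10' := pslT_ne_zero τ₀ hE1' (psl_comp_ne_zero hE10 σ)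
  have key : (⟨_, hg'⟩ : holSubring) * ⟨_, hE1'⟩ ^ p = ⟨_, hE'⟩ ^ p * ⟨_, hh'⟩ := by
    apply Subtype.ext
    funext τ
    exact hrel (σ • τ)
  have h1 := congrArg (pslT τ₀) key
  rw [map_mul, map_mul, map_pow, map_pow, pslT_apply, pslT_apply, pslT_apply, pslT_apply] at h1
  rw [div_pow, div_eq_div_iff hh0' (pow_ne_zero p hE10')]
  exact h1

/-- **Interior points.** The order of the Taylor expansion of `(g / h) ∘ σ` is divisible by
`p`. -/
theorem psl_interior {p : ℕ} {g h E E1 : ℍ → ℂ} (hg : MDiff g) (hh : MDiff h) (hE : MDiff E)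
    (hE1 : MDiff E1) (hh0 : h ≠ 0) (hE10 : E1 ≠ 0)
    (hrel : ∀ τ, g τ * E1 τ ^ p = E τ ^ p * h τ) (σ : SL(2, ℤ)) (τ₀ : ℍ) :
    ∃ k : ℤ, (HahnSeries.ofPowerSeries ℤ ℂ (taylorAt τ₀ (fun τ => g (σ • τ))) /
        HahnSeries.ofPowerSeries ℤ ℂ (taylorAt τ₀ (fun τ => h (σ • τ)))).order = (p : ℤ) * k := by
  rw [psl_interior_eq hg hh hE hE1 hh0 hE10 hrel σ τ₀, HahnSeries.order_pow]
  exact ⟨_, by rw [nsmul_eq_mul]⟩

/-! ### Elliptic points -/

/-- pointwise form of weight-`k` invariance -/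
theorem psl_slash_pointwise {k : ℤ} {E : ℍ → ℂ} {γ : SL(2, ℤ)} (h : E ∣[k] γ = E) (τ : ℍ) :
    E (γ • τ) = denom γ τ ^ k * E τ := by
  have h1 := congrFun h τ
  rw [ModularForm.SL_slash_apply] at h1
  have hd : denom γ τ ≠ 0 := denom_ne_zero _ τ
  rw [← h1, mul_comm, mul_assoc, ← zpow_add₀ hd]
  simp

theorem psl_delta_mdiff : MDiff (fun τ : ℍ => ModularForm.discriminant τ) := by
  have h := ModularFormClass.holo CuspForm.discriminant
  rwa [CuspForm.coe_discriminant] at h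

theorem psl_delta_smul (γ : SL(2, ℤ)) (τ : ℍ) :
    ModularForm.discriminant (γ • τ) = denom γ τ ^ (12 : ℤ) * ModularForm.discriminant τ := by
  have h12 := jc_levelOne_smul CuspForm.discriminant γ τ
  rwa [CuspForm.coe_discriminant] at h12

/-- A weight-`0` function built from three functions of weights `4`, `4·2` and `12`. -/
theorem psl_weight_zero {A B : ℍ → ℂ} {γ : SL(2, ℤ)}
    (hA : ∀ τ, A (γ • τ) = denom γ τ ^ (4 : ℤ) * A τ)
    (hB : ∀ τ, B (γ • τ) = denom γ τ ^ (4 : ℤ) * B τ) (τ : ℍ) :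
    A (γ • τ) * B (γ • τ) ^ 2 / ModularForm.discriminant (γ • τ) =
      A τ * B τ ^ 2 / ModularForm.discriminant τ := by
  have hd : denom γ τ ≠ 0 := denom_ne_zero _ τ
  have hΔ := ModularForm.discriminant_ne_zero τ
  rw [hA, hB, psl_delta_smul]
  generalize denom γ τ = D at hd
  rw [show (4 : ℤ) = ((4 : ℕ) : ℤ) from rfl, show (12 : ℤ) = ((12 : ℕ) : ℤ) from rfl, zpow_natCast,
    zpow_natCast]
  field_simp

/-- **Elliptic points.** If `E` and `E1` are invariant of weight `4` under `σ δ σ⁻¹` and the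
orders at `τ₀` of `δ`-invariant holomorphic functions are divisible by `e`, then the order of the
Taylor expansion of `(g / h) ∘ σ` at `τ₀` is divisible by `e * p`. -/
theorem psl_interior_ell {p e : ℕ} {g h E E1 : ℍ → ℂ} (hg : MDiff g) (hh : MDiff h)
    (hE : MDiff E) (hE1 : MDiff E1) (hh0 : h ≠ 0) (hE0 : E ≠ 0) (hE10 : E1 ≠ 0)
    (hrel : ∀ τ, g τ * E1 τ ^ p = E τ ^ p * h τ) (σ δ : SL(2, ℤ)) (τ₀ : ℍ)
    (hinv : ∀ G : ℍ → ℂ, MDiff G → G ≠ 0 → (∀ τ, G (δ • τ) = G τ) →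
      ∃ k : ℕ, (taylorAt τ₀ G).order = ((e * k : ℕ) : ℕ∞))
    (hEs : E ∣[(4 : ℤ)] (σ * δ * σ⁻¹) = E) (hE1s : E1 ∣[(4 : ℤ)] (σ * δ * σ⁻¹) = E1) :
    ∃ k : ℤ, (HahnSeries.ofPowerSeries ℤ ℂ (taylorAt τ₀ (fun τ => g (σ • τ))) /
        HahnSeries.ofPowerSeries ℤ ℂ (taylorAt τ₀ (fun τ => h (σ • τ)))).order =
          (e : ℤ) * ((p : ℤ) * k) := by
  have hEp := psl_slash_pointwise hEs
  have hE1p := psl_slash_pointwise hE1s
  have hΔ := psl_delta_mdiff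
  -- the two auxiliary weight-zero functions
  have hG1 : MDiff (fun τ : ℍ => E τ * E1 τ ^ 2 / ModularForm.discriminant τ) :=
    (hE.mul (hE1.pow 2)).div hΔ ModularForm.discriminant_ne_zero
  have hG2 : MDiff (fun τ : ℍ => E1 τ * E1 τ ^ 2 / ModularForm.discriminant τ) :=
    (hE1.mul (hE1.pow 2)).div hΔ ModularForm.discriminant_ne_zero
  have hG1' := sysfin_mdiff_smul σ hG1
  have hG2' := sysfin_mdiff_smul σ hG2
  have hE' := sysfin_mdiff_smul σ hE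
  have hE1' := sysfin_mdiff_smul σ hE1
  have hΔ' := sysfin_mdiff_smul σ hΔ
  have hTE := pslT_ne_zero τ₀ hE' (psl_comp_ne_zero hE0 σ)
  have hTE1 := pslT_ne_zero τ₀ hE1' (psl_comp_ne_zero hE10 σ)
  have hTΔ : HahnSeries.ofPowerSeries ℤ ℂ
      (taylorAt τ₀ (fun τ => ModularForm.discriminant (σ • τ))) ≠ 0 := by
    refine pslT_ne_zero τ₀ hΔ' ?_
    intro h0
    exact ModularForm.discriminant_ne_zero (σ • τ₀) (congrFun h0 τ₀)
  -- the relations in the ring of holomorphic functions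
  have key1 : (⟨_, hG1'⟩ : holSubring) * ⟨_, hΔ'⟩ = ⟨_, hE'⟩ * ⟨_, hE1'⟩ ^ 2 := by
    apply Subtype.ext
    funext τ
    show E (σ • τ) * E1 (σ • τ) ^ 2 / ModularForm.discriminant (σ • τ)
      * ModularForm.discriminant (σ • τ) = E (σ • τ) * E1 (σ • τ) ^ 2
    exact div_mul_cancel₀ _ (ModularForm.discriminant_ne_zero _)
  have key2 : (⟨_, hG2'⟩ : holSubring) * ⟨_, hΔ'⟩ = ⟨_, hE1'⟩ * ⟨_, hE1'⟩ ^ 2 := by
    apply Subtype.ext
    funext τ
    show E1 (σ • τ) * E1 (σ • τ) ^ 2 / ModularForm.discriminant (σ • τ)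
      * ModularForm.discriminant (σ • τ) = E1 (σ • τ) * E1 (σ • τ) ^ 2
    exact div_mul_cancel₀ _ (ModularForm.discriminant_ne_zero _)
  have h1 := congrArg (pslT τ₀) key1
  have h2 := congrArg (pslT τ₀) key2
  simp only [map_mul, map_pow, pslT_apply] at h1 h2
  have hTG1 : HahnSeries.ofPowerSeries ℤ ℂ (taylorAt τ₀
      (fun τ => E (σ • τ) * E1 (σ • τ) ^ 2 / ModularForm.discriminant (σ • τ))) ≠ 0 := by
    intro h0
    rw [h0, zero_mul] at h1
    exact mul_ne_zero hTE (pow_ne_zero 2 hTE1) h1.symm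
  have hTG2 : HahnSeries.ofPowerSeries ℤ ℂ (taylorAt τ₀
      (fun τ => E1 (σ • τ) * E1 (σ • τ) ^ 2 / ModularForm.discriminant (σ • τ))) ≠ 0 := by
    intro h0
    rw [h0, zero_mul] at h2
    exact mul_ne_zero hTE1 (pow_ne_zero 2 hTE1) h2.symm
  have hG1ne : (fun τ => E (σ • τ) * E1 (σ • τ) ^ 2 / ModularForm.discriminant (σ • τ)) ≠ 0 := by
    intro h0
    apply hTG1
    rw [h0]
    have h00 : taylorAt τ₀ (0 : ℍ → ℂ) = 0 :=
      (ty_taylorAt_eq_zero_iff τ₀ mdifferentiable_const).mpr rfl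
    rw [h00, map_zero]
  have hG2ne : (fun τ => E1 (σ • τ) * E1 (σ • τ) ^ 2 / ModularForm.discriminant (σ • τ)) ≠ 0 := by
    intro h0
    apply hTG2
    rw [h0]
    have h00 : taylorAt τ₀ (0 : ℍ → ℂ) = 0 :=
      (ty_taylorAt_eq_zero_iff τ₀ mdifferentiable_const).mpr rfl
    rw [h00, map_zero]
  -- invariance under `δ`
  have hconj : ∀ τ : ℍ, σ • (δ • τ) = (σ * δ * σ⁻¹) • (σ • τ) := by
    intro τ
    rw [← mul_smul, ← mul_smul]
    congr 1
    group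
  have hinv1 : ∀ τ, (fun τ => E (σ • τ) * E1 (σ • τ) ^ 2 / ModularForm.discriminant (σ • τ))
      (δ • τ) = (fun τ => E (σ • τ) * E1 (σ • τ) ^ 2 / ModularForm.discriminant (σ • τ)) τ := by
    intro τ
    show E (σ • (δ • τ)) * E1 (σ • (δ • τ)) ^ 2 / ModularForm.discriminant (σ • (δ • τ)) = _
    rw [hconj]
    exact psl_weight_zero hEp hE1p (σ • τ)
  have hinv2 : ∀ τ, (fun τ => E1 (σ • τ) * E1 (σ • τ) ^ 2 / ModularForm.discriminant (σ • τ))
      (δ • τ) = (fun τ => E1 (σ • τ) * E1 (σ • τ) ^ 2 / ModularForm.discriminant (σ • τ)) τ := by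
    intro τ
    show E1 (σ • (δ • τ)) * E1 (σ • (δ • τ)) ^ 2 / ModularForm.discriminant (σ • (δ • τ)) = _
    rw [hconj]
    exact psl_weight_zero hE1p hE1p (σ • τ)
  obtain ⟨k1, hk1⟩ := hinv _ hG1' hG1ne hinv1
  obtain ⟨k2, hk2⟩ := hinv _ hG2' hG2ne hinv2
  have ho1 := sysfin_order_ofPowerSeries _ _ hk1
  have ho2 := sysfin_order_ofPowerSeries _ _ hk2
  have hm1 := congrArg HahnSeries.order h1
  have hm2 := congrArg HahnSeries.order h2
  rw [HahnSeries.order_mul hTG1 hTΔ, HahnSeries.order_mul hTE (pow_ne_zero 2 hTE1),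
    HahnSeries.order_pow, ho1] at hm1
  rw [HahnSeries.order_mul hTG2 hTΔ, HahnSeries.order_mul hTE1 (pow_ne_zero 2 hTE1),
    HahnSeries.order_pow, ho2] at hm2
  rw [psl_interior_eq hg hh hE hE1 hh0 hE10 hrel σ τ₀, HahnSeries.order_pow,
    sysfin_order_div _ _ hTE hTE1]
  refine ⟨(k1 : ℤ) - k2, ?_⟩
  rw [nsmul_eq_mul]
  have e1 : (HahnSeries.ofPowerSeries ℤ ℂ (taylorAt τ₀ (fun τ => E (σ • τ)))).order -
      (HahnSeries.ofPowerSeries ℤ ℂ (taylorAt τ₀ (fun τ => E1 (σ • τ)))).order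
        = (e : ℤ) * ((k1 : ℤ) - k2) := by
    push_cast at hm1 hm2
    linarith
  rw [e1]
  ring

/-! ### Cusps -/

/-- The order of `f(q^d)` is `d` times the order of `f(q)`. -/
theorem psl_order_qExpand (d : ℕ) [NeZero d] (y : LaurentSeries ℂ) :
    (ModularCurve.qExpand ℂ d y).order = (d : ℤ) * y.order := by
  rcases eq_or_ne y 0 with rfl | hy
  · simp
  have hd : (0 : ℤ) < d := by exact_mod_cast NeZero.pos d
  have hy' : ModularCurve.qExpand ℂ d y ≠ 0 :=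
    (map_ne_zero_iff _ (ModularCurve.qExpand_injective d)).mpr hy
  apply le_antisymm
  · apply HahnSeries.order_le_of_coeff_ne_zero
    rw [ModularCurve.qExpand_coeff_mul]
    exact fun h => hy (HahnSeries.coeff_order_eq_zero.mp h)
  · have hc : (ModularCurve.qExpand ℂ d y).coeff (ModularCurve.qExpand ℂ d y).order ≠ 0 :=
      fun h => hy' (HahnSeries.coeff_order_eq_zero.mp h)
    by_cases hdvd : (d : ℤ) ∣ (ModularCurve.qExpand ℂ d y).order
    · obtain ⟨k, hk⟩ := hdvd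
      rw [hk, ModularCurve.qExpand_coeff_mul] at hc
      rw [hk]
      exact mul_le_mul_of_nonneg_left (HahnSeries.order_le_of_coeff_ne_zero hc) hd.le
    · exact absurd (ModularCurve.qExpand_coeff_of_not_dvd d y hdvd) hc

theorem psl_scale_surjective {N : ℕ} (hN : 0 < N) (z : ℍ) :
    ∃ τ : ℍ, ofComplex ((N : ℂ) * τ) = z := by
  have hN' : (0 : ℝ) < N := by exact_mod_cast hN
  have hNC : (N : ℂ) ≠ 0 := by exact_mod_cast hN.ne'
  have him : 0 < ((z : ℂ) / (N : ℂ)).im := by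
    rw [Complex.div_natCast_im]
    exact div_pos z.im_pos hN'
  refine ⟨⟨_, him⟩, ?_⟩
  apply UpperHalfPlane.ext
  rw [ql_coe_scale hN]
  show (N : ℂ) * ((z : ℂ) / (N : ℂ)) = z
  field_simp

/-- A `w`-periodic holomorphic function bounded at `i∞` becomes weakly holomorphic (for the
period `1`) after the substitution `τ ↦ w τ`. -/
theorem psl_isWH_scale {F : ℍ → ℂ} (hF : MDiff F) {w : ℕ} (hw : 0 < w)
    (hper : ∀ τ : ℍ, F ((w : ℝ) +ᵥ τ) = F τ) (hb : IsBoundedAtImInfty F) :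
    IsWH (fun τ : ℍ => F (ofComplex ((w : ℂ) * τ))) := by
  refine ⟨ql_mdiff_scale hF hw, ?_, 0, ?_⟩
  · intro τ
    have e : ofComplex ((w : ℂ) * (((1 : ℝ) +ᵥ τ : ℍ) : ℂ)) = (w : ℝ) +ᵥ ofComplex ((w : ℂ) * τ) := by
      apply UpperHalfPlane.ext
      rw [ql_coe_scale hw, coe_vadd, coe_vadd, ql_coe_scale hw]
      push_cast
      ring
    show F (ofComplex ((w : ℂ) * (((1 : ℝ) +ᵥ τ : ℍ) : ℂ))) = F (ofComplex ((w : ℂ) * τ))
    rw [e, hper]
  · have h1 : IsBoundedAtImInfty (fun τ : ℍ => F (ofComplex ((w : ℂ) * τ))) :=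
      Asymptotics.IsBigO.comp_tendsto hb (ql_tendsto_scale hw)
    simpa using h1

/-- **Cusps.** If `E ∣[4] σ` and `E1 ∣[4] σ` are `w`-periodic and bounded at `i∞`, with `w ∣ N`,
then `w` times the order of the `q`-expansion of `τ ↦ (g / h) (σ • (N τ))` is divisible by
`N * p`. -/
theorem psl_cusp {p N w : ℕ} (hN : 0 < N) (hw : 0 < w) (hwN : w ∣ N) {g h E E1 : ℍ → ℂ}
    (σ : SL(2, ℤ))
    (hg : IsWH (fun τ : ℍ => g (σ • ofComplex ((N : ℂ) * τ))))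
    (hh : IsWH (fun τ : ℍ => h (σ • ofComplex ((N : ℂ) * τ))))
    (hh0 : h ≠ 0) (hE : MDiff E) (hE1 : MDiff E1) (hE10 : E1 ≠ 0)
    (hrel : ∀ τ, g τ * E1 τ ^ p = E τ ^ p * h τ)
    (hEper : ∀ τ : ℍ, (E ∣[(4 : ℤ)] σ) ((w : ℝ) +ᵥ τ) = (E ∣[(4 : ℤ)] σ) τ)
    (hEbdd : IsBoundedAtImInfty (E ∣[(4 : ℤ)] σ))
    (hE1per : ∀ τ : ℍ, (E1 ∣[(4 : ℤ)] σ) ((w : ℝ) +ᵥ τ) = (E1 ∣[(4 : ℤ)] σ) τ)
    (hE1bdd : IsBoundedAtImInfty (E1 ∣[(4 : ℤ)] σ)) :
    ∃ k : ℤ, (w : ℤ) * (qLaurent ⟨_, hg⟩ / qLaurent ⟨_, hh⟩).order = (N : ℤ) * ((p : ℤ) * k) := by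
  obtain ⟨d, hd⟩ := hwN
  have hd0 : 0 < d := by
    rcases Nat.eq_zero_or_pos d with h0 | h0
    · rw [h0, mul_zero] at hd
      omega
    · exact h0
  have : NeZero d := ⟨hd0.ne'⟩
  have hEσ : MDiff (E ∣[(4 : ℤ)] σ) := hE.slash 4 σ
  have hE1σ : MDiff (E1 ∣[(4 : ℤ)] σ) := hE1.slash 4 σ
  have hB := psl_isWH_scale hEσ hw hEper hEbdd
  have hB1 := psl_isWH_scale hE1σ hw hE1per hE1bdd
  have hA := isWH_scale d hd0 hB
  have hA1 := isWH_scale d hd0 hB1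
  -- the point `N τ`
  have hpt : ∀ τ : ℍ, ofComplex ((w : ℂ) * ((ofComplex ((d : ℂ) * τ) : ℍ) : ℂ))
      = ofComplex ((N : ℂ) * τ) := by
    intro τ
    rw [ql_coe_scale hd0, hd]
    push_cast
    rw [mul_assoc]
  have hslash : ∀ (F : ℍ → ℂ) (z : ℍ), (F ∣[(4 : ℤ)] σ) z = F (σ • z) * denom σ z ^ (-(4 : ℤ)) :=
    fun F z => ModularForm.SL_slash_apply F σ z
  -- the relation in the ring of weakly holomorphic functions
  have key : (⟨_, hg⟩ : whSubring) * ⟨_, hA1⟩ ^ p = ⟨_, hA⟩ ^ p * ⟨_, hh⟩ := by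
    apply Subtype.ext
    funext τ
    show g (σ • ofComplex ((N : ℂ) * τ)) *
        (E1 ∣[(4 : ℤ)] σ) (ofComplex ((w : ℂ) * ((ofComplex ((d : ℂ) * τ) : ℍ) : ℂ))) ^ p
      = (E ∣[(4 : ℤ)] σ) (ofComplex ((w : ℂ) * ((ofComplex ((d : ℂ) * τ) : ℍ) : ℂ))) ^ p *
        h (σ • ofComplex ((N : ℂ) * τ))
    rw [hpt, hslash, hslash, mul_pow, mul_pow]
    linear_combination (denom σ (ofComplex ((N : ℂ) * τ)) ^ (-(4 : ℤ))) ^ p *
      hrel (σ • ofComplex ((N : ℂ) * τ))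
  have h1 := congrArg qLaurent key
  rw [map_mul, map_mul, map_pow, map_pow] at h1
  -- non-vanishing
  have hhne : qLaurent ⟨_, hh⟩ ≠ 0 := by
    intro h0
    apply hh0
    have h2 := qLaurent_injective (a₁ := ⟨_, hh⟩) (a₂ := 0) (by rw [h0, map_zero])
    funext z
    obtain ⟨τ, hτ⟩ := psl_scale_surjective hN (σ⁻¹ • z)
    have h3 := congrFun (congrArg Subtype.val h2) τ
    simp only [hτ, smul_inv_smul] at h3
    exact h3
  have hA1ne : qLaurent ⟨_, hA1⟩ ≠ 0 := by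
    intro h0
    apply hE10
    have h2 := qLaurent_injective (a₁ := ⟨_, hA1⟩) (a₂ := 0) (by rw [h0, map_zero])
    funext z
    obtain ⟨τ, hτ⟩ := psl_scale_surjective hN (σ⁻¹ • z)
    have h3 : (E1 ∣[(4 : ℤ)] σ) (ofComplex ((w : ℂ) * ((ofComplex ((d : ℂ) * τ) : ℍ) : ℂ))) = 0 :=
      congrFun (congrArg Subtype.val h2) τ
    rw [hpt, hτ, hslash, smul_inv_smul] at h3
    rcases mul_eq_zero.mp h3 with h4 | h4
    · exact h4
    · exact absurd h4 (zpow_ne_zero _ (denom_ne_zero _ _))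
  have h2 : qLaurent ⟨_, hg⟩ / qLaurent ⟨_, hh⟩ = (qLaurent ⟨_, hA⟩ / qLaurent ⟨_, hA1⟩) ^ p := by
    rw [div_pow, div_eq_div_iff hhne (pow_ne_zero p hA1ne)]
    exact h1
  have h3 : qLaurent ⟨_, hA⟩ / qLaurent ⟨_, hA1⟩
      = ModularCurve.qExpand ℂ d (qLaurent ⟨_, hB⟩ / qLaurent ⟨_, hB1⟩) := by
    rw [map_div₀, ← qLaurent_scale d _ hB, ← qLaurent_scale d _ hB1]
  refine ⟨(qLaurent ⟨_, hB⟩ / qLaurent ⟨_, hB1⟩).order, ?_⟩
  rw [h2, HahnSeries.order_pow, h3, psl_order_qExpand, nsmul_eq_mul, hd]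
  push_cast
  ring

end Fermat.Agent.S29
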