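import Mathlib

/-!
# S29, package REDUCE (abstract core)

Pure linear algebra over `ZMod p`.  Given an injective additive map
`Φ : J → Hom(X, ZMod p)` (`J` a `ZMod p`-vector space) whose range contains every homomorphism
killing a set `S ⊆ X` and which intertwines operators `T i` on `J` with operators `Hp i` on
`Hom(X, ZMod p)`, and a nonzero homomorphism `vbar : X → k0` killing `S` which is an eigenvector
of the corresponding operators `Hk i` on `Hom(X, k0)`, we produce a nonzero eigenvector with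
the same eigenvalues in `k0 ⊗[ZMod p] J`.
-/

set_option autoImplicit false

open TensorProduct

namespace Fermat.Agent.S29

section

variable {p : ℕ} [Fact p.Prime] {k0 : Type*} [Field k0] [Algebra (ZMod p) k0]
  {J : Type*} [AddCommGroup J] [Module (ZMod p) J] {X : Type*} [AddGroup X]

/-- the `ZMod p`-linear map `J → (X → k0)`, `x ↦ (ξ ↦ Φ x ξ)` -/
noncomputable def redFun (k0 : Type*) [Field k0] [Algebra (ZMod p) k0]
    (Φ : J →+ (X →+ ZMod p)) : J →ₗ[ZMod p] (X → k0) where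
  toFun x ξ := algebraMap (ZMod p) k0 (Φ x ξ)
  map_add' x y := by
    ext ξ
    simp
  map_smul' r x := by
    ext ξ
    have h : Φ (r • x) ξ = r * Φ x ξ :=
      ZMod.map_smul ((AddMonoidHom.eval ξ).comp Φ) r x
    simp [h, Algebra.smul_def]

theorem redFun_apply (Φ : J →+ (X →+ ZMod p)) (x : J) (ξ : X) :
    redFun k0 Φ x ξ = algebraMap (ZMod p) k0 (Φ x ξ) := rfl

/-- the `k0`-linear map `k0 ⊗ J → (X → k0)`, `c ⊗ x ↦ (ξ ↦ c * Φ x ξ)` -/
noncomputable def redXi (k0 : Type*) [Field k0] [Algebra (ZMod p) k0]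
    (Φ : J →+ (X →+ ZMod p)) : k0 ⊗[ZMod p] J →ₗ[k0] (X → k0) :=
  (redFun k0 Φ).liftBaseChange k0

theorem redXi_tmul (Φ : J →+ (X →+ ZMod p)) (c : k0) (x : J) (ξ : X) :
    redXi k0 Φ (c ⊗ₜ[ZMod p] x) ξ = c * algebraMap (ZMod p) k0 (Φ x ξ) := by
  rw [redXi, LinearMap.liftBaseChange_tmul, Pi.smul_apply, redFun_apply, smul_eq_mul]

theorem redXi_injective (Φ : J →+ (X →+ ZMod p)) (hΦ : Function.Injective Φ) :
    Function.Injective (redXi k0 Φ) := by
  classical
  rw [injective_iff_map_eq_zero]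
  intro w hw
  let ℬ := Module.Free.chooseBasis (ZMod p) k0
  obtain ⟨c, rfl⟩ := TensorProduct.eq_repr_basis_left ℬ w
  have hc : c = 0 := by
    ext i
    rw [Finsupp.zero_apply]
    apply hΦ
    rw [map_zero]
    ext ξ
    have h1 := congrFun hw ξ
    rw [Finsupp.sum, map_sum, Finset.sum_apply] at h1
    simp only [redXi_tmul, Pi.zero_apply] at h1
    have hli := ℬ.linearIndependent
    rw [linearIndependent_iff'] at hli
    have h2 := hli c.support (fun i => Φ (c i) ξ) (by
      rw [← h1]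
      refine Finset.sum_congr rfl fun i _ => ?_
      rw [Algebra.smul_def, mul_comm])
    by_cases hi : i ∈ c.support
    · simpa using h2 i hi
    · rw [Finsupp.notMem_support_iff.mp hi, map_zero]
  rw [hc]
  simp

/-- **REDUCE, abstract core.** -/
theorem red_abs {I : Type*} (Φ : J →+ (X →+ ZMod p)) (hΦ : Function.Injective Φ)
    (T : I → Module.End (ZMod p) J)
    (Hp : I → (X →+ ZMod p) →+ (X →+ ZMod p)) (Hk : I → (X →+ k0) →+ (X →+ k0))
    (hcast : ∀ (i : I) (ψ : X →+ ZMod p),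
      Hk i ((algebraMap (ZMod p) k0).toAddMonoidHom.comp ψ) =
        (algebraMap (ZMod p) k0).toAddMonoidHom.comp (Hp i ψ))
    (hsmul : ∀ (i : I) (c : k0) (ψ : X →+ k0), Hk i (c • ψ) = c • Hk i ψ)
    (hΦT : ∀ (i : I) (x : J), Φ (T i x) = Hp i (Φ x))
    (S : Set X) (hS : ∀ ψ : X →+ ZMod p, (∀ s ∈ S, ψ s = 0) → ψ ∈ Set.range Φ)
    (vbar : X →+ k0) (hv0 : vbar ≠ 0) (hvS : ∀ s ∈ S, vbar s = 0)
    (hfin : ∃ t : Finset X, ∀ x, vbar x ∈ Submodule.span (ZMod p) (vbar '' (t : Set X)))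
    (a : I → k0) (ha : ∀ i, Hk i vbar = a i • vbar) :
    ∃ v : k0 ⊗[ZMod p] J, v ≠ 0 ∧ ∀ i, (T i).baseChange k0 v = a i • v := by
  classical
  obtain ⟨t, ht⟩ := hfin
  set U : Submodule (ZMod p) k0 := Submodule.span (ZMod p) (vbar '' (t : Set X)) with hU
  have : Module.Finite (ZMod p) U :=
    Module.Finite.span_of_finite _ (t.finite_toSet.image _)
  let b := Module.finBasis (ZMod p) U
  let vU : X →+ U := vbar.codRestrict U ht
  let ψ : Fin (Module.finrank (ZMod p) U) → (X →+ ZMod p) := fun j =>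
    (b.coord j).toAddMonoidHom.comp vU
  have hψ : ∀ j x, ψ j x = b.repr (vU x) j := fun j x => rfl
  -- the key identity
  have key : ∀ x, vbar x = ∑ j, (b j : k0) * algebraMap (ZMod p) k0 (ψ j x) := by
    intro x
    have h1 := congrArg (Subtype.val) (b.sum_repr (vU x))
    rw [Submodule.coe_sum] at h1
    have h2 : ((vU x : U) : k0) = vbar x := rfl
    rw [h2] at h1
    rw [← h1]
    refine Finset.sum_congr rfl fun j _ => ?_
    rw [Submodule.coe_smul, Algebra.smul_def, hψ, mul_comm]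
  have hψS : ∀ j, ∀ s ∈ S, ψ j s = 0 := by
    intro j s hs
    have h0 : vU s = 0 := Subtype.ext (hvS s hs)
    rw [hψ, h0, map_zero, Finsupp.zero_apply]
  choose y hy using fun j => hS (ψ j) (hψS j)
  let v : k0 ⊗[ZMod p] J := ∑ j, (b j : k0) ⊗ₜ[ZMod p] y j
  have hXi : redXi k0 Φ v = fun ξ => vbar ξ := by
    funext ξ
    show redXi k0 Φ (∑ j, (b j : k0) ⊗ₜ[ZMod p] y j) ξ = vbar ξ
    rw [map_sum, Finset.sum_apply, key]
    refine Finset.sum_congr rfl fun j _ => ?_
    rw [redXi_tmul, hy]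
  have hvbar : vbar = ∑ j, (b j : k0) • (algebraMap (ZMod p) k0).toAddMonoidHom.comp (ψ j) := by
    ext x
    rw [key, AddMonoidHom.finsetSum_apply]
    refine Finset.sum_congr rfl fun j _ => ?_
    rw [AddMonoidHom.smul_apply, smul_eq_mul]
    rfl
  refine ⟨v, ?_, fun i => ?_⟩
  · intro hv
    apply hv0
    ext ξ
    have := congrFun hXi ξ
    rw [hv, map_zero] at this
    simpa using this.symm
  · apply redXi_injective Φ hΦ
    rw [map_smul, hXi]
    funext ξ
    show redXi k0 Φ ((T i).baseChange k0 (∑ j, (b j : k0) ⊗ₜ[ZMod p] y j)) ξ = (a i • fun ξ => vbar ξ) ξ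
    rw [map_sum, map_sum, Finset.sum_apply, Pi.smul_apply, smul_eq_mul]
    have h3 : a i * vbar ξ = (Hk i vbar) ξ := by
      rw [ha, AddMonoidHom.smul_apply, smul_eq_mul]
    rw [h3]
    conv_rhs => rw [hvbar]
    rw [map_sum, AddMonoidHom.finsetSum_apply]
    refine Finset.sum_congr rfl fun j _ => ?_
    rw [LinearMap.baseChange_tmul, redXi_tmul, hΦT, hy, hsmul, hcast, AddMonoidHom.smul_apply,
      smul_eq_mul]
    rfl

end

end Fermat.Agent.S29
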