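import Mathlib
import Fermat.Prelude.Def_FreyPackage_EigenformResidualAttachment
import Fermat.Prelude.Def_GaloisRep_Residual
import Fermat.Agent.S13.DivPoly
import Fermat.Agent.S29.LinAlg

/-!
# S42-specific leaf: the number field `F`

`FreyPackage.EigenformResidualAttachmentAt` asks for a number field `F`, Galois over `ℚ`, such
that every automorphism of `AlgebraicClosure ℚ` restricting to the identity on `F` acts trivially
on the `p`-torsion of the Frey curve and on the residual representation.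

* `s42f_point`, `s42f_torsion_finiteLevel`: the torsion representation of a Weierstrass curve
  over `ℚ` factors through a finite level as soon as the torsion group is finite.
* `s42f_frey_finiteLevel`: the case of the Frey curve.
* `s42f_field`: a finite-dimensional intermediate field is contained in a number field `F`
  (as a type with all the instances asked for), Galois over `ℚ`.
* `s42f_main`: the `F`-clause of `EigenformResidualAttachmentAt`.
-/

set_option autoImplicit false

namespace Fermat.Agent.S29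

open scoped WeierstrassCurve.Affine
open WeierstrassCurve WeierstrassCurve.Affine.Point

/-- Every point of a Weierstrass curve over `ℚ` with coordinates in `AlgebraicClosure ℚ` is
fixed by the automorphisms fixing a suitable finite extension. -/
theorem s42f_point (W : WeierstrassCurve ℚ) (P : (W⁄(AlgebraicClosure ℚ)).Point) :
    ∃ L : IntermediateField ℚ (AlgebraicClosure ℚ), FiniteDimensional ℚ L ∧
      ∀ σ : AlgebraicClosure ℚ ≃ₐ[ℚ] AlgebraicClosure ℚ, (∀ x ∈ L, σ x = x) → σ • P = P := by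
  rcases P with _ | ⟨x, y, h⟩
  · exact ⟨⊥, inferInstance, fun σ _ => rfl⟩
  · refine ⟨IntermediateField.adjoin ℚ {x, y}, ?_, ?_⟩
    · have : Finite ({x, y} : Set (AlgebraicClosure ℚ)) :=
        ((Set.finite_singleton y).insert x).to_subtype
      exact IntermediateField.finiteDimensional_adjoin
        (fun z _ => (AlgebraicClosure.isAlgebraic ℚ).isIntegral.isIntegral z)
    · intro σ hσ
      have hx : σ x = x := hσ x (IntermediateField.subset_adjoin ℚ _ (by simp))
      have hy : σ y = y := hσ y (IntermediateField.subset_adjoin ℚ _ (by simp))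
      rw [algEquiv_smul_def, map_some]
      simp only [some.injEq]
      exact ⟨hx, hy⟩

/-- The torsion representation of a Weierstrass curve over `ℚ` factors through a finite level
when the torsion group is finite. -/
theorem s42f_torsion_finiteLevel (W : WeierstrassCurve ℚ) (n : ℕ)
    [Finite (Submodule.torsionBy ℤ (W⁄(AlgebraicClosure ℚ)).Point n)] :
    GaloisFactorsThroughFiniteLevel
      (WeierstrassCurve.Affine.Point.galoisRepModuleEnd (K := AlgebraicClosure ℚ) ℚ W n) := by
  choose L hL hfix using fun P : Submodule.torsionBy ℤ (W⁄(AlgebraicClosure ℚ)).Point n =>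
    s42f_point W (P : (W⁄(AlgebraicClosure ℚ)).Point)
  have : ∀ P, FiniteDimensional ℚ (L P) := hL
  refine ⟨⨆ P, L P, inferInstance, ?_⟩
  intro σ hσ
  apply LinearMap.ext
  intro P
  rw [galoisRepModuleEnd_apply, Module.End.one_apply]
  apply Subtype.ext
  exact hfix P σ (fun x hx => hσ x (le_iSup L P hx))

/-- The `p`-torsion representation of the Frey curve factors through a finite level. -/
theorem s42f_frey_finiteLevel (P : FreyPackage) :
    GaloisFactorsThroughFiniteLevel
      (WeierstrassCurve.Affine.Point.galoisRepModuleEnd (K := AlgebraicClosure ℚ) ℚ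
        P.freyCurve P.p) := by
  have hp2 : P.p ≠ 2 := by
    have := P.hp5
    omega
  have hpF : ((P.p : ℕ) : AlgebraicClosure ℚ) ≠ 0 := Nat.cast_ne_zero.mpr P.hp0
  have : Finite (Submodule.torsionBy ℤ (P.freyCurve⁄(AlgebraicClosure ℚ)).Point P.p) :=
    Fermat.Agent.S13.dp_finite_torsion _ P.pp hp2 hpF
  exact s42f_torsion_finiteLevel P.freyCurve P.p

/-- A finite-dimensional intermediate field of `AlgebraicClosure ℚ / ℚ` is contained in a number
field `F`, Galois over `ℚ`, presented as a type with the instances that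
`FreyPackage.EigenformResidualAttachmentAt` asks for. -/
theorem s42f_field (L : IntermediateField ℚ (AlgebraicClosure ℚ)) (hL : FiniteDimensional ℚ L) :
    ∃ (F : Type) (_ : Field F) (_ : NumberField F) (_ : IsGalois ℚ F)
      (_ : Algebra F (AlgebraicClosure ℚ)) (_ : IsScalarTower ℚ F (AlgebraicClosure ℚ)),
      ∀ σ ∈ (AlgEquiv.restrictNormalHom (F := ℚ) (K₁ := AlgebraicClosure ℚ) F).ker,
        ∀ x ∈ L, σ x = x := by
  have : Algebra.IsAlgebraic ℚ (AlgebraicClosure ℚ) := AlgebraicClosure.isAlgebraic ℚ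
  have : IsAlgClosure ℚ (AlgebraicClosure ℚ) := ⟨inferInstance, inferInstance⟩
  have hnorm : Normal ℚ (AlgebraicClosure ℚ) := IsAlgClosure.normal ℚ (AlgebraicClosure ℚ)
  have hfd : FiniteDimensional ℚ
      ↥(IntermediateField.normalClosure ℚ (↥L) (AlgebraicClosure ℚ)) :=
    normalClosure.is_finiteDimensional ℚ (↥L) (AlgebraicClosure ℚ)
  have hn : Normal ℚ ↥(IntermediateField.normalClosure ℚ (↥L) (AlgebraicClosure ℚ)) :=
    normalClosure.normal ℚ (↥L) (AlgebraicClosure ℚ)
  have hgal : IsGalois ℚ ↥(IntermediateField.normalClosure ℚ (↥L) (AlgebraicClosure ℚ)) := { }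
  refine ⟨↥(IntermediateField.normalClosure ℚ (↥L) (AlgebraicClosure ℚ)), inferInstance, ?_, ?_,
    inferInstance, ?_, ?_⟩
  · exact { to_charZero := inferInstance, to_finiteDimensional := hfd }
  · exact hgal
  · infer_instance
  · intro σ hσ x hx
    have hxF : x ∈ IntermediateField.normalClosure ℚ (↥L) (AlgebraicClosure ℚ) :=
      IntermediateField.le_normalClosure L hx
    rw [MonoidHom.mem_ker] at hσ
    have h1 := AlgEquiv.restrictNormal_commutes σ
      (↥(IntermediateField.normalClosure ℚ (↥L) (AlgebraicClosure ℚ))) ⟨x, hxF⟩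
    have h2 : σ.restrictNormal (↥(IntermediateField.normalClosure ℚ (↥L) (AlgebraicClosure ℚ)))
        = 1 := hσ
    rw [h2] at h1
    exact h1.symm

/-- The `F`-clause of `FreyPackage.EigenformResidualAttachmentAt`: a number field `F`, Galois over
`ℚ`, such that the automorphisms trivial on `F` act trivially on the `p`-torsion of the Frey
curve and through a given representation factoring through a finite level. -/
theorem s42f_main (P : FreyPackage) {K V : Type} [Field K] [AddCommGroup V] [Module K V]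
    (ρ : Representation K (AlgebraicClosure ℚ ≃ₐ[ℚ] AlgebraicClosure ℚ) V)
    (hρ : ∃ L : IntermediateField ℚ (AlgebraicClosure ℚ), FiniteDimensional ℚ L ∧
      ∀ σ : AlgebraicClosure ℚ ≃ₐ[ℚ] AlgebraicClosure ℚ, (∀ x ∈ L, σ x = x) → ρ σ = 1) :
    ∃ (F : Type) (_ : Field F) (_ : NumberField F) (_ : IsGalois ℚ F)
      (_ : Algebra F (AlgebraicClosure ℚ)) (_ : IsScalarTower ℚ F (AlgebraicClosure ℚ)),
      (AlgEquiv.restrictNormalHom (F := ℚ) (K₁ := AlgebraicClosure ℚ) F).ker ≤
        (galoisRepModuleEnd (S := ℚ) (K := AlgebraicClosure ℚ) P.freyCurve P.p).ker ⊓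
          ρ.ker := by
  obtain ⟨L₁, hL₁, h₁⟩ := s42f_frey_finiteLevel P
  obtain ⟨L₂, hL₂, h₂⟩ := hρ
  have hfd : FiniteDimensional ℚ ↥(L₁ ⊔ L₂) := IntermediateField.finiteDimensional_sup L₁ L₂
  obtain ⟨F, i1, i2, i3, i4, i5, hF⟩ := s42f_field (L₁ ⊔ L₂) hfd
  refine ⟨F, i1, i2, i3, i4, i5, ?_⟩
  intro σ hσ
  have hfix := hF σ hσ
  refine ⟨?_, ?_⟩
  · exact h₁ σ (fun x hx => hfix x ((le_sup_left : L₁ ≤ L₁ ⊔ L₂) hx))
  · exact h₂ σ (fun x hx => hfix x ((le_sup_right : L₂ ≤ L₁ ⊔ L₂) hx))

/-- **S42 from the S29 statement.** If every normalised eigenform of level `M` has an attached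
residual representation for the prime `P.p` (the statement S29 at `N := M`, `p := P.p`), then
`P.EigenformResidualAttachmentAt M` holds. -/
theorem s42f_of_s29 (P : FreyPackage) (M : ℕ)
    (h29 : ∀ {g : CuspForm (CongruenceSubgroup.Gamma0 M) 2}, g.IsNormalizedEigenform →
      ∀ {k : Type} [Field k] [CharP k P.p] (φ : integralClosure ℤ ℂ →+* k),
        ∃ ρ : ResidualGaloisRep k, ρ.IsAttachedTo g φ) :
    P.EigenformResidualAttachmentAt M := by
  intro g hg 𝔪 h𝔪 hp
  let _ : Field (integralClosure ℤ ℂ ⧸ 𝔪) := Ideal.Quotient.field 𝔪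
  have hp0 : ((P.p : ℕ) : integralClosure ℤ ℂ ⧸ 𝔪) = 0 := by
    have h1 : Ideal.Quotient.mk 𝔪 (P.p : integralClosure ℤ ℂ) = 0 :=
      Ideal.Quotient.eq_zero_iff_mem.mpr hp
    rwa [map_natCast] at h1
  have hchar : CharP (integralClosure ℤ ℂ ⧸ 𝔪) P.p :=
    (CharP.charP_iff_prime_eq_zero P.pp).mpr hp0
  let _ : Algebra (ZMod P.p) (integralClosure ℤ ℂ ⧸ 𝔪) := ZMod.algebra _ P.p
  obtain ⟨r, hr⟩ := h29 hg (Ideal.Quotient.mk 𝔪)
  obtain ⟨F, i1, i2, i3, i4, i5, hF⟩ := s42f_main P (K := integralClosure ℤ ℂ ⧸ 𝔪) (V := r.V)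
    r.ρ r.factorsThroughFiniteLevel
  have hℓ0 : ∀ ℓ : ℕ, ℓ.Prime → ℓ ≠ P.p → ((ℓ : ℕ) : integralClosure ℤ ℂ ⧸ 𝔪) ≠ 0 := by
    intro ℓ hℓ hℓp h0
    have hdvd : P.p ∣ ℓ := (CharP.cast_eq_zero_iff (integralClosure ℤ ℂ ⧸ 𝔪) P.p ℓ).mp h0
    exact hℓp ((Nat.prime_dvd_prime_iff_eq P.pp hℓ).mp hdvd).symm
  refine ⟨integralClosure ℤ ℂ ⧸ 𝔪, inferInstance, inferInstance, r.V, inferInstance, inferInstance,
    r.ρ, Ideal.Quotient.mk 𝔪, F, i1, i2, i3, i4, i5, ?_, r.finrank_eq, hF, ?_, ?_⟩
  · rw [Ideal.mk_ker]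
  · intro ℓ hℓ hℓM hℓp A hA τ hτ
    obtain ⟨a, ha, hcp⟩ := hr ℓ hℓ hℓM (hℓ0 ℓ hℓ hℓp) A hA τ hτ
    exact ⟨a, ha, (s29la_trace_det r.finrank_eq (r.ρ τ) _ _ hcp).1⟩
  · intro ℓ hℓ hℓM hℓp A hA τ hτ
    obtain ⟨a, ha, hcp⟩ := hr ℓ hℓ hℓM (hℓ0 ℓ hℓ hℓp) A hA τ hτ
    exact (s29la_trace_det r.finrank_eq (r.ρ τ) _ _ hcp).2

end Fermat.Agent.S29
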